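import Fermat.Agent.RT.Assembly.Bound
import Fermat.Agent.CFT.Tangent.OrdinaryBound
import Fermat.Agent.CFT.Flat.Tangent

/-!
# The tangent bound at residually unramified places

The count of first order deformations with classes vanishing at a set of places at which the
residual representation is unramified, and its consequence for the derivations killing coordinates
at those places, with the flat and the strictly ordinary condition at `p`.
-/

set_option autoImplicit false
set_option maxHeartbeats 1000000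
set_option synthInstance.maxHeartbeats 200000
set_option linter.style.haveILetI false
set_option linter.unusedSectionVars false

noncomputable section

namespace Fermat.Agent.RT.Lift

open IsLocalRing Module Fermat.Agent.Deform Fermat.Agent.CFT.Tangent Fermat.Agent.Arith
open Fermat.Agent.RT.Assembly

/-- The dimension of the traceless matrices fixed by a decomposition group at `v`. -/
def localH0 {k : Type} [Field k] (r : Gal →* M2 k) (v : ℕ) : ℕ :=
  if hv : v.Prime then
    haveI := Fact.mk hv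
    finrank k (fixedOn r ((padicPlace v).decompositionSubgroup ℚ))
  else 0

theorem localH0_of_prime {k : Type} [Field k] (r : Gal →* M2 k) (v : ℕ) [hv : Fact v.Prime] :
    localH0 r v = finrank k (fixedOn r ((padicPlace v).decompositionSubgroup ℚ)) := by
  rw [localH0, dif_pos hv.out]

/-- The bound on classes which are unramified away from `Smin`, `T` and `qv`, locally trivial at
`T`, with vanishing trace condition on `Smin` away from `p` and the local bound at `p`. -/
def LiftCoreAt {k : Type} [Field k] (p : ℕ) [Fact p.Prime] (r : Gal →* M2 k)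
    (Smin T : Finset ℕ) {r' : ℕ} (qv : Fin r' → ℕ) : Prop :=
  ∀ V : Submodule k (Gal → M2 k), Module.Finite k V →
    (∀ b ∈ V, IsAdCocycle r b ∧ IsFiniteLevel b ∧ ∀ σ, (b σ).trace = 0) →
    (∀ q : ℕ, q.Prime → q ∉ Smin → q ∉ T → (∀ i, qv i ≠ q) →
      ∀ A : ValuationSubring QBar, A.LiesOverPrime q →
        ∀ σ ∈ A.inertiaSubgroupIn ℚ, ∀ b ∈ V, b σ = 0) →
    (∀ q ∈ Smin, q ≠ p → ∀ A : ValuationSubring QBar, A.LiesOverPrime q →
      ∀ σ ∈ A.inertiaSubgroupIn ℚ, ∀ b ∈ V, (b σ * r σ).trace = 0) →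
    (∀ v ∈ T, ∀ [Fact v.Prime], ∀ b ∈ V,
      b ∈ cobdOn r ((padicPlace v).decompositionSubgroup ℚ)) →
    finrank k V ≤ finrank k (V ⊓ cobdOn r ((padicPlace p).decompositionSubgroup ℚ) :
        Submodule k (Gal → M2 k)) +
      finrank k (fixedOn r ((padicPlace p).decompositionSubgroup ℚ)) + 1 →
    (∀ b ∈ V, ∀ X, b = cobdLin r X → b = 0) →
    finrank k V + ∑ v ∈ T, localH0 r v ≤ r'

/-- Taylor–Wiles primes relative to places at which the residual representation is unramified. -/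
def LiftCoreInput : Prop :=
  ∀ (k : Type) [Field k] [Finite k] (p : ℕ) [Fact p.Prime] [CharP k p], p ≠ 2 →
  ∀ r : Gal →* M2 k, GaloisFactorsThroughFiniteLevel r → CFT.TWPrimes.TWHyp r →
    (∀ (σ : Gal) (n : ℕ), (∀ μ : QBar, μ ^ p = 1 → σ μ = μ ^ n) → (r σ).det = (n : k)) →
  ∀ Smin T S : Finset ℕ, p ∈ Smin → Smin ⊆ S → T ⊆ S → Disjoint Smin T → (∀ q ∈ S, q.Prime) →
    (∀ q : ℕ, q.Prime → q ∉ Smin → ∀ A : ValuationSubring QBar, A.LiesOverPrime q →
      ∀ σ ∈ A.inertiaSubgroupIn ℚ, r σ = 1) →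
    (∀ q ∈ Smin, q ≠ p → ∀ [Fact q.Prime],
      (∀ τ ∈ (padicPlace q).inertiaSubgroupIn ℚ, (r τ).trace = 2 ∧ (r τ).det = 1) ∧
        ∃ τ ∈ (padicPlace q).inertiaSubgroupIn ℚ, r τ ≠ 1) →
    ∃ r' : ℕ, ∀ n : ℕ, ∃ qv : Fin r' → ℕ, Function.Injective qv ∧
      (∀ i, (qv i).Prime ∧ qv i ∉ S ∧ p ^ (n + 1) ∣ qv i - 1) ∧
      (∀ i, ∀ A : ValuationSubring QBar, A.LiesOverPrime (qv i) →
        ∀ φ : Gal, A.IsFrobeniusAt φ (qv i) →
          ∃ α β : k, α ≠ β ∧ (r φ).trace = α + β ∧ (r φ).det = α * β) ∧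
      LiftCoreAt p r Smin T qv

section Local

variable {k : Type} [Field k] {r : Gal →* M2 k}

theorem finrank_traceless (k : Type) [Field k] :
    finrank k (LinearMap.ker (Matrix.traceLinearMap (Fin 2) k k)) = 3 := by
  have h1 := (Matrix.traceLinearMap (Fin 2) k k).finrank_range_add_finrank_ker
  have h2 : LinearMap.range (Matrix.traceLinearMap (Fin 2) k k) = ⊤ := by
    refine LinearMap.range_eq_top.mpr fun c => ⟨Matrix.single 0 0 c, ?_⟩
    rw [Matrix.traceLinearMap_apply, Matrix.trace_single_eq_same]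
  rw [h2, finrank_top, Module.finrank_self, Module.finrank_matrix, Fintype.card_fin,
    Module.finrank_self] at h1
  omega

theorem localH0_eq_three {v : ℕ} [Fact v.Prime]
    (h : ∀ g ∈ (padicPlace v).decompositionSubgroup ℚ, ∃ c : k, r g = c • (1 : M2 k)) :
    localH0 r v = 3 := by
  rw [localH0_of_prime]
  have e : fixedOn r ((padicPlace v).decompositionSubgroup ℚ) =
      LinearMap.ker (Matrix.traceLinearMap (Fin 2) k k) := by
    ext X
    rw [mem_fixedOn, LinearMap.mem_ker, Matrix.traceLinearMap_apply]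
    refine ⟨fun hX => hX.1, fun hX => ⟨hX, fun s hs => ?_⟩⟩
    obtain ⟨c, hc⟩ := h s hs
    obtain ⟨d, hd⟩ := h s⁻¹ (inv_mem hs)
    have hcd : c * d = 1 := by
      have := CFT.Tangent.map_mul_inv r s
      rw [hc, hd, smul_mul_smul_comm, one_mul] at this
      have := congrFun (congrFun this 0) 0
      simpa using this
    rw [hc, hd, smul_mul_assoc, one_mul, smul_mul_assoc, mul_smul_comm, mul_one, smul_smul, hcd,
      one_smul]
  rw [e, finrank_traceless]

theorem eq_comm_of_entries {r₀ Y : M2 k} (h11 : Y 1 1 = -Y 0 0) (x y z : k)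
    (e00 : Y 0 0 = r₀ 0 1 * z - y * r₀ 1 0) (e01 : Y 0 1 = (r₀ 0 0 - r₀ 1 1) * y - x * r₀ 0 1)
    (e10 : Y 1 0 = r₀ 1 0 * x - (r₀ 0 0 - r₀ 1 1) * z) :
    Y = r₀ * !![x, y; z, 0] - !![x, y; z, 0] * r₀ := by
  have e11 : Y 1 1 = r₀ 1 0 * y - z * r₀ 0 1 := by rw [h11, e00]; ring
  conv_rhs => rw [Matrix.eta_fin_two r₀]
  rw [Matrix.eta_fin_two Y, e00, e01, e10, e11, Matrix.mul_fin_two, Matrix.mul_fin_two]
  ext i j
  fin_cases i <;> fin_cases j <;> simp <;> ring

/-- A matrix commutator from the two trace conditions, at a nonscalar matrix. -/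
theorem exists_comm_of_trace {r₀ Y : M2 k} (hr : ∀ c : k, r₀ ≠ c • 1) (h1 : Y.trace = 0)
    (h2 : (r₀ * Y).trace = 0) : ∃ X : M2 k, Y = r₀ * X - X * r₀ := by
  rw [Matrix.trace_fin_two] at h1
  have h11 : Y 1 1 = -Y 0 0 := by linear_combination h1
  simp only [Matrix.trace_fin_two, Matrix.mul_apply, Fin.sum_univ_two, h11] at h2
  by_cases he : r₀ 0 0 - r₀ 1 1 = 0
  · have h' : r₀ 0 1 * Y 1 0 + r₀ 1 0 * Y 0 1 = 0 := by linear_combination h2 - Y 0 0 * he
    by_cases hb : r₀ 0 1 = 0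
    · have hc : r₀ 1 0 ≠ 0 := fun hc => hr (r₀ 0 0) (by
        ext i j
        fin_cases i <;> fin_cases j <;> simp [hb, hc, sub_eq_zero.mp he])
      have hy : Y 0 1 = 0 :=
        (mul_eq_zero.mp (show r₀ 1 0 * Y 0 1 = 0 by rw [hb] at h'; linear_combination h')).resolve_left
          hc
      refine ⟨_, eq_comm_of_entries h11 (Y 1 0 / r₀ 1 0) (-Y 0 0 / r₀ 1 0) 0 ?_ ?_ ?_⟩
      · field_simp
        ring
      · rw [hy, he, hb]; ring
      · rw [he]; field_simp; ring
    · refine ⟨_, eq_comm_of_entries h11 (-Y 0 1 / r₀ 0 1) 0 (Y 0 0 / r₀ 0 1) ?_ ?_ ?_⟩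
      · field_simp; ring
      · rw [he]; field_simp; ring
      · rw [he]; field_simp; linear_combination h'
  · refine ⟨_, eq_comm_of_entries h11 0 (Y 0 1 / (r₀ 0 0 - r₀ 1 1))
      (-Y 1 0 / (r₀ 0 0 - r₀ 1 1)) ?_ ?_ ?_⟩
    · field_simp; linear_combination h2
    · field_simp; ring
    · field_simp; ring

/-- The traceless centraliser of a nonscalar matrix is a line. -/
theorem localH0_eq_one (h2 : (2 : k) ≠ 0) (hfin : GaloisFactorsThroughFiniteLevel r) {v : ℕ}
    [Fact v.Prime] (hinert : ∀ g ∈ (padicPlace v).inertiaSubgroupIn ℚ, r g = 1) {F : Gal}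
    (hF : (padicPlace v).IsFrobeniusAt F v) (hns : ∀ c : k, r F ≠ c • 1) : localH0 r v = 1 := by
  rw [localH0_of_prime]
  set D := (padicPlace v).decompositionSubgroup ℚ
  set Z : M2 k := r F - ((r F).trace / 2) • 1 with hZ
  have hZtr : Z.trace = 0 := by
    rw [hZ, Matrix.trace_sub, Matrix.trace_smul, Matrix.trace_one, Fintype.card_fin, smul_eq_mul]
    push_cast
    field_simp
    ring
  have hZ0 : Z ≠ 0 := fun h => hns _ (sub_eq_zero.mp h)
  obtain ⟨L, hL, hLn, hL'⟩ := exists_common_level hfin (⊥ : Submodule k (Gal → M2 k))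
    (fun b hb => by
      rw [(Submodule.mem_bot k).1 hb]
      exact ⟨⊥, inferInstance, fun _ _ => rfl⟩)
  have hpow : ∀ s ∈ D, ∃ i : ℕ, r s = r F ^ i := fun s hs => by
    obtain ⟨i, τ, hτ, he⟩ := exists_frobenius_mul_inertia L hF hs
    refine ⟨i, ?_⟩
    rw [map_eq_of_agree (fun τ h => (hL' τ h).1) he, map_mul, hinert τ hτ, mul_one, map_pow]
  have e : fixedOn r D = Submodule.span k {Z} := by
    refine le_antisymm (fun X hX => ?_) ((Submodule.span_singleton_le_iff_mem _ _).mpr ?_)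
    · obtain ⟨htr, hfix⟩ := mem_fixedOn r |>.mp hX
      have hFD : F ∈ D := hF.1
      have hc : r F * X = X * r F := by
        have h := congrArg (· * r F) (hfix F hFD)
        simpa [mul_assoc, CFT.Tangent.map_inv_mul] using h
      rw [Matrix.trace_fin_two] at htr
      have h11 : X 1 1 = -X 0 0 := by linear_combination htr
      have e00 := congrFun (congrFun hc 0) 0
      have e01 := congrFun (congrFun hc 0) 1
      have e10 := congrFun (congrFun hc 1) 0
      simp only [Matrix.mul_apply, Fin.sum_univ_two, h11] at e00 e01 e10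
      have hZ00 : Z 0 0 = (r F 0 0 - r F 1 1) / 2 := by
        simp [hZ, Matrix.trace_fin_two]; field_simp; ring
      have hZ11 : Z 1 1 = -Z 0 0 := by
        rw [Matrix.trace_fin_two] at hZtr
        linear_combination hZtr
      have hZ01 : Z 0 1 = r F 0 1 := by simp [hZ]
      have hZ10 : Z 1 0 = r F 1 0 := by simp [hZ]
      have c1 : X 0 0 * Z 0 1 = Z 0 0 * X 0 1 := by
        rw [hZ01, hZ00]; field_simp; linear_combination -e01
      have c2 : X 0 0 * Z 1 0 = Z 0 0 * X 1 0 := by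
        rw [hZ10, hZ00]; field_simp; linear_combination e10
      have c3 : X 0 1 * Z 1 0 = Z 0 1 * X 1 0 := by
        rw [hZ10, hZ01]; linear_combination -e00
      rw [Submodule.mem_span_singleton]
      by_cases h00 : Z 0 0 = 0
      · by_cases h01 : Z 0 1 = 0
        · have h10 : Z 1 0 ≠ 0 := fun h10 => hZ0 (by
            ext i j; fin_cases i <;> fin_cases j <;> simp [h00, h01, h10, hZ11])
          refine ⟨X 1 0 / Z 1 0, ?_⟩
          have x00 : X 0 0 = 0 := (mul_eq_zero.mp (by rw [c2, h00, zero_mul])).resolve_right h10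
          have x01 : X 0 1 = 0 := (mul_eq_zero.mp (by rw [c3, h01, zero_mul])).resolve_right h10
          ext i j; fin_cases i <;> fin_cases j <;> simp [h00, h01, x00, x01, h11, hZ11, h10]
        · refine ⟨X 0 1 / Z 0 1, ?_⟩
          have x00 : X 0 0 = 0 := (mul_eq_zero.mp (by rw [c1, h00, zero_mul])).resolve_right h01
          ext i j; fin_cases i <;> fin_cases j <;> simp [h00, h01, x00, h11, hZ11]
          field_simp
          linear_combination c3
      · refine ⟨X 0 0 / Z 0 0, ?_⟩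
        ext i j; fin_cases i <;> fin_cases j <;> simp [h11, hZ11, h00] <;> field_simp
        · linear_combination c1
        · linear_combination c2
    · refine ⟨hZtr, fun s hs => ?_⟩
      obtain ⟨i, hi⟩ := hpow s hs
      have hcomm : r s * Z = Z * r s := by
        rw [hi, hZ, mul_sub, sub_mul, mul_smul_comm, smul_mul_assoc, mul_one, one_mul, ← pow_succ,
          ← pow_succ']
      rw [hcomm, mul_assoc, CFT.Tangent.map_mul_inv, mul_one]
  rw [e, finrank_span_singleton hZ0]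

/-- A scalar Frobenius and trivial inertia give a scalar decomposition group. -/
theorem localH0_eq_three_of_frobenius (hfin : GaloisFactorsThroughFiniteLevel r) {v : ℕ}
    [Fact v.Prime] (hinert : ∀ g ∈ (padicPlace v).inertiaSubgroupIn ℚ, r g = 1) {F : Gal}
    (hF : (padicPlace v).IsFrobeniusAt F v) {e : k} (he : r F = e • 1) : localH0 r v = 3 := by
  obtain ⟨L, hL, hLn, hL'⟩ := exists_common_level hfin (⊥ : Submodule k (Gal → M2 k))
    (fun b hb => by
      rw [(Submodule.mem_bot k).1 hb]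
      exact ⟨⊥, inferInstance, fun _ _ => rfl⟩)
  refine localH0_eq_three fun g hg => ?_
  obtain ⟨i, τ, hτ, hag⟩ := exists_frobenius_mul_inertia L hF hg
  refine ⟨e ^ i, ?_⟩
  rw [map_eq_of_agree (fun τ h => (hL' τ h).1) hag, map_mul, hinert τ hτ, mul_one, map_pow, he,
    _root_.smul_pow, one_pow]

end Local

/-- The bound relative to scalar places is a special case. -/
theorem tangentCoreInput_of_lift (h : LiftCoreInput) : TangentCoreInput := by
  intro k _ _ p _ _ hp2 r hr htw hdet Smin T S hpS hSmin hT hdisj hS hunr hmin hscal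
  obtain ⟨r', hr'⟩ := h k p hp2 r hr htw hdet Smin T S hpS hSmin hT hdisj hS hunr hmin
  refine ⟨r', fun n => ?_⟩
  obtain ⟨qv, h1, h2, h3, h4⟩ := hr' n
  refine ⟨qv, h1, h2, h3, fun V hV a b c d e f => ?_⟩
  have key := h4 V hV a b c d e f
  have e : ∑ v ∈ T, localH0 r v = T.card * 3 := by
    rw [Finset.sum_congr rfl (g := fun _ => 3) fun v hv => ?_, Finset.sum_const, smul_eq_mul]
    haveI := Fact.mk (hS v (hT hv))
    exact localH0_eq_three (hscal v hv)
  omega

section Deriv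

variable {O : Type} [CommRing O] [IsLocalRing O]
variable {R : Type} [CommRing R] [IsLocalRing R] [Algebra O R]
variable {W : Rigid O} {h : IsResAlg O R} {ru : Gal →* M2 R}

/-- The derivative of the values of a representation. -/
def derivMat (δ : tangentDer h) (X : M2 R) : M2 (ResidueField O) := Matrix.of fun i j => δ.1 (X i j)

theorem trace_derivMat (δ : tangentDer h) (X : M2 R) : (derivMat δ X).trace = δ.1 X.trace := by
  rw [Matrix.trace_fin_two, Matrix.trace_fin_two, δ.2.1]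
  rfl

theorem derivation_det (δ : tangentDer h) (X : M2 R) {r₀ : M2 (ResidueField O)}
    (hX : ∀ i j, augment h (X i j) = r₀ i j) :
    δ.1 X.det = r₀.trace * (derivMat δ X).trace - (r₀ * derivMat δ X).trace := by
  have hsub : ∀ a b, δ.1 (a - b) = δ.1 a - δ.1 b := fun a b => by
    have := δ.2.1 (a - b) b
    rw [sub_add_cancel] at this
    rw [this, add_sub_cancel_right]
  rw [Matrix.det_fin_two, hsub, δ.2.2.1, δ.2.2.1]
  simp only [hX, derivMat, Matrix.trace_fin_two, Matrix.mul_apply, Matrix.of_apply,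
    Fin.sum_univ_two]
  ring

/-- At a nonscalar value, killing trace and determinant makes the derivative a commutator. -/
theorem exists_derivMat_comm (δ : tangentDer h) (X : M2 R) {r₀ : M2 (ResidueField O)}
    (hX : ∀ i j, augment h (X i j) = r₀ i j) (hns : ∀ c : ResidueField O, r₀ ≠ c • 1)
    (htr : δ.1 X.trace = 0) (hdet : δ.1 X.det = 0) :
    ∃ Y : M2 (ResidueField O), derivMat δ X = r₀ * Y - Y * r₀ := by
  have h1 : (derivMat δ X).trace = 0 := by rw [trace_derivMat, htr]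
  rw [derivation_det δ X hX, h1, mul_zero, zero_sub, neg_eq_zero] at hdet
  exact exists_comm_of_trace hns h1 hdet

/-- The strictly ordinary deformation to dual numbers with a given class. -/
theorem exists_strict_dual [Finite (ResidueField O)] (p : ℕ) (hl : Lifts W h ru) (hc : IsCont ru)
    (hord : (toRep ru hc).IsStrictOrdinaryAt p) (hdet : (toRep ru hc).DetIsCyclotomic p)
    (δ : tangentDer h) :
    letI := dualAlgebra O
    ∃ (ρ : GaloisRepAdic (DualNumber (ResidueField O)))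
      (B : Basis (Fin 2) (DualNumber (ResidueField O)) ρ.V), ρ.IsStrictOrdinaryAt p ∧
      ρ.DetIsCyclotomic p ∧ ∀ σ, matOf ρ B σ = (1 + epsM (tangentCls W h ru δ σ)) * inlM (W.rb σ) := by
  letI := dualAlgebra O
  refine ⟨_, letI := (tangentHom h δ : R →+* DualNumber (ResidueField O)).toAlgebra
      (Pi.basisFun R (Fin 2)).baseChange (DualNumber (ResidueField O)),
    CFT.Tangent.IsStrictOrdinaryAt.baseChange (tangentHom h δ : R →+* DualNumber (ResidueField O))
      (isLocalHom_tangentHom δ) hord,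
    CFT.Tangent.DetIsCyclotomic.baseChange (tangentHom h δ : R →+* DualNumber (ResidueField O))
      (isLocalHom_tangentHom δ) hdet, fun σ => ?_⟩
  refine (DFunLike.congr_fun (matOf_baseChangeAlong _ (isLocalHom_tangentHom δ) (toRep ru hc)
    (Pi.basisFun R (Fin 2))) σ).trans ?_
  rw [matOf_toRep]
  exact mapM_tangentHom hl δ σ

end Deriv

section Killed

variable {O : Type} [CommRing O] [IsLocalRing O] [Finite (ResidueField O)]
variable {R : Type} [CommRing R] [IsLocalRing R] [IsNoetherianRing R]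
  [IsAdicComplete (maximalIdeal R) R] [Algebra O R]

/-- The condition on classes of the deformation at `p`. -/
def BoundAtP (p : ℕ) [Fact p.Prime] {k : Type} [Field k] (r : Gal →* M2 k)
    (V : Submodule k (Gal → M2 k)) : Prop :=
  finrank k V ≤ finrank k (V ⊓ cobdOn r ((padicPlace p).decompositionSubgroup ℚ) :
      Submodule k (Gal → M2 k)) +
    finrank k (fixedOn r ((padicPlace p).decompositionSubgroup ℚ)) + 1

/-- A bound on the classes satisfying the conditions away from `p`, relative to the condition `P`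
at `p`. -/
def CoreBound {k : Type} [Field k] (p : ℕ) (r : Gal →* M2 k) (Smin T : Finset ℕ) {r' : ℕ}
    (qv : Fin r' → ℕ) (P : Submodule k (Gal → M2 k) → Prop) (B : ℕ → Prop) : Prop :=
  ∀ V : Submodule k (Gal → M2 k), Module.Finite k V →
    (∀ b ∈ V, IsAdCocycle r b ∧ IsFiniteLevel b ∧ ∀ σ, (b σ).trace = 0) →
    (∀ q : ℕ, q.Prime → q ∉ Smin → q ∉ T → (∀ i, qv i ≠ q) →
      ∀ A : ValuationSubring QBar, A.LiesOverPrime q →
        ∀ σ ∈ A.inertiaSubgroupIn ℚ, ∀ b ∈ V, b σ = 0) →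
    (∀ q ∈ Smin, q ≠ p → ∀ A : ValuationSubring QBar, A.LiesOverPrime q →
      ∀ σ ∈ A.inertiaSubgroupIn ℚ, ∀ b ∈ V, (b σ * r σ).trace = 0) →
    (∀ v ∈ T, ∀ [Fact v.Prime], ∀ b ∈ V,
      b ∈ cobdOn r ((padicPlace v).decompositionSubgroup ℚ)) →
    P V →
    (∀ b ∈ V, ∀ X, b = cobdLin r X → b = 0) →
    B (finrank k V + ∑ v ∈ T, localH0 r v)

/-- **The bound on the derivations killing coordinates which trivialise the classes at the
places.** -/
theorem finrank_killedDer_add_le_of (p : ℕ) [Fact p.Prime]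
    [CharP (ResidueField O) p] (hp2 : p ≠ 2) {W : Rigid O} {h : IsResAlg O R} {ru : Gal →* M2 R}
    (hl : Lifts W h ru) (hn : IsNormal W ru) (hgen : Algebra.adjoin O (entries ru) = ⊤)
    (hc : IsCont ru) (hdet : (toRep ru hc).DetIsCyclotomic p)
    (hrb : GaloisFactorsThroughFiniteLevel W.rb)
    {Smin T : Finset ℕ} {r' : ℕ} {qv : Fin r' → ℕ}
    (P : Submodule (ResidueField O) (Gal → M2 (ResidueField O)) → Prop) (B : ℕ → Prop)
    (hcore : CoreBound p W.rb Smin T qv P B)
    (hunr : ∀ q : ℕ, q.Prime → q ∉ Smin → q ∉ T → (∀ i, qv i ≠ q) →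
      ∀ A : ValuationSubring QBar, A.LiesOverPrime q → ∀ σ ∈ A.inertiaSubgroupIn ℚ, ru σ = 1)
    (hmin : ∀ q ∈ Smin, q ≠ p → ∀ A : ValuationSubring QBar, A.LiesOverPrime q →
      ∀ σ ∈ A.inertiaSubgroupIn ℚ, (ru σ).trace = 2)
    {V : Type} [Fintype V] (vT : V → ℕ) [∀ v, Fact (vT v).Prime] (hvinj : Function.Injective vT)
    (hT : T = Finset.univ.image vT) (hvp : ∀ v, vT v ≠ p) (σT φT : V → Gal)
    (hσT : ∀ v, σT v ∈ (padicPlace (vT v)).inertiaSubgroupIn ℚ)
    (hφT : ∀ v, (padicPlace (vT v)).IsFrobeniusAt (φT v) (vT v))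
    (hinert : ∀ v, ∀ g ∈ (padicPlace (vT v)).inertiaSubgroupIn ℚ, W.rb g = 1)
    (hkum : ∀ v, ∃ π : QBar, π ≠ 0 ∧ (∃ m : ℤ,
      Mazur.Eisenstein.ordAt (padicPlace (vT v)) (vT v) π = m / p) ∧
      EC.Reduction.res (padicPlace (vT v)) (σT v π / π) ≠ 1 ∧
      EC.Reduction.res (padicPlace (vT v)) (σT v π / π) ^ p = 1)
    {C : Type} (x : C → R)
    (hkill : ∀ δ ∈ killedDer h x, ∀ v, ∃ Y : M2 (ResidueField O),
      derivMat δ (ru (σT v)) = 0 ∧
        derivMat δ (ru (φT v)) = W.rb (φT v) * Y - Y * W.rb (φT v))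
    (hploc : P (LinearMap.range ((tangentCls W h ru).comp (killedDer h x).subtype))) :
    B (finrank (ResidueField O) (killedDer h x) + ∑ v, localH0 W.rb (vT v)) := by
  classical
  have h2 : (2 : ResidueField O) ≠ 0 := fun h0 => by
    have := (CharP.cast_eq_zero_iff (ResidueField O) p 2).mp (by exact_mod_cast h0)
    exact hp2 ((Nat.prime_dvd_prime_iff_eq Fact.out Nat.prime_two).mp this)
  set cls : killedDer h x →ₗ[ResidueField O] (Gal → M2 (ResidueField O)) :=
    (tangentCls W h ru).comp (killedDer h x).subtype with hcls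
  have hinj : ∀ (δ : killedDer h x) X, cls δ = cobdLin W.rb X → δ = 0 := fun δ X hX =>
    Subtype.ext (eq_zero_of_tangentCls_eq_cobdLin hl hn hgen δ.1 hX)
  have hker : Function.Injective cls :=
    fun a b hab => Subtype.ext (sub_eq_zero.mp
      (eq_zero_of_tangentCls_eq_cobdLin hl hn hgen (a.1 - b.1) (X := 0)
        (by rw [map_sub, map_zero]; exact sub_eq_zero.mpr hab)))
  have hcoc : ∀ b ∈ LinearMap.range cls,
      IsAdCocycle W.rb b ∧ IsFiniteLevel b ∧ ∀ σ, (b σ).trace = 0 := by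
    rintro _ ⟨δ, rfl⟩
    exact ⟨tangentCls_mul hl δ.1, tangentCls_finiteLevel hc δ.1,
      trace_tangentCls p hl hc hdet δ.1⟩
  have hTloc : ∀ v ∈ T, ∀ [Fact v.Prime], ∀ b ∈ LinearMap.range cls,
      b ∈ cobdOn W.rb ((padicPlace v).decompositionSubgroup ℚ) := by
    rintro v hv _ b ⟨δ, rfl⟩
    rw [hT, Finset.mem_image] at hv
    obtain ⟨w, -, rfl⟩ := hv
    obtain ⟨π, hπ, ⟨m, hm⟩, hπσ, hπσp⟩ := hkum w
    obtain ⟨Y, hYσ, hYφ⟩ := hkill δ.1 δ.2 w
    obtain ⟨hb, ⟨L, hLf, hL⟩, -⟩ := hcoc _ ⟨δ, rfl⟩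
    -- remove the coboundary of `Y`
    set b' := cls δ - cobdLin W.rb Y with hb'
    have hσ0 : b' (σT w) = 0 := by
      show derivMat δ.1 (ru (σT w)) * W.rb (σT w)⁻¹ - (W.rb (σT w) * Y * W.rb (σT w)⁻¹ - Y) = 0
      rw [hYσ, zero_mul, hinert w _ (hσT w), hinert w _ (inv_mem (hσT w)), one_mul, mul_one,
        sub_self, sub_zero]
    have hφ0 : b' (φT w) = 0 := by
      show derivMat δ.1 (ru (φT w)) * W.rb (φT w)⁻¹ - (W.rb (φT w) * Y * W.rb (φT w)⁻¹ - Y) = 0
      rw [hYφ, sub_mul, mul_assoc Y, CFT.Tangent.map_mul_inv, mul_one, sub_self]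
    obtain ⟨L', hL'f, hL'⟩ := hrb
    have hfin' : IsFiniteLevel b' := ⟨L ⊔ L', inferInstance, fun σ hσ => by
      have hr1 : W.rb σ = 1 := hL' σ fun z hz => hσ z ((le_sup_right : L' ≤ L ⊔ L') hz)
      have hr1' : W.rb σ⁻¹ = 1 := by
        have := CFT.Tangent.map_mul_inv W.rb σ
        rwa [hr1, one_mul] at this
      rw [hb', Pi.sub_apply, hL σ (fun z hz => hσ z ((le_sup_left : L ≤ L ⊔ L') hz)), cobdLin_apply,
        hr1, hr1', one_mul, mul_one, sub_self, sub_zero]⟩
    have hD : ∀ s ∈ (padicPlace (vT w)).decompositionSubgroup ℚ, b' s = 0 := fun s hs =>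
      eq_zero_on_decomposition ⟨L', hL'f, hL'⟩ (hb.sub (isAdCocycle_cobdLin W.rb Y)) hfin' (hvp w)
        (hinert w) (hσT w) hπ hm hπσ hπσp hσ0 (hφT w) hφ0 hs
    obtain ⟨X, hX, hX'⟩ :=
      cobdLin_mem_cobdOn (r := W.rb) h2 ((padicPlace (vT w)).decompositionSubgroup ℚ) Y
    exact ⟨X, hX, fun s hs => (sub_eq_zero.mp (hD s hs)).trans (hX' s hs)⟩
  have hnat : ∀ (δ : tangentDer h) (a : ℕ), δ.1 (a : R) = 0 := fun δ a => by
    induction a with
    | zero => rw [Nat.cast_zero]; exact tangentDer_zero h δ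
    | succ a ih => rw [Nat.cast_succ, δ.2.1, ih, tangentDer_one, add_zero]
  have key := hcore (LinearMap.range cls) inferInstance hcoc
    (by
      rintro q hq hqS hqT hqv A hA σ hσ _ ⟨δ, rfl⟩
      exact tangentCls_eq_zero_of_eq_one δ.1 (hunr q hq hqS hqT hqv A hA σ hσ))
    (by
      rintro q hq hqp A hA σ hσ _ ⟨δ, rfl⟩
      show (tangentCls W h ru δ.1 σ * W.rb σ).trace = 0
      rw [trace_tangentCls_mul_rb, hmin q hq hqp A hA σ hσ]
      exact_mod_cast hnat δ.1 2)
    hTloc hploc (by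
      rintro _ ⟨δ, rfl⟩ X hX
      rw [hinj δ X hX, map_zero])
  rw [LinearMap.finrank_range_of_inj hker, hT,
    Finset.sum_image fun a _ b _ hab => hvinj hab] at key
  exact key

open Classical in
/-- The same, with the count at each place: `3` where Frobenius is scalar, else `1`; the derivations
kill the entries at inertia, and at Frobenius the entries resp. the trace. -/
theorem finrank_killedDer_le_general_of (p : ℕ) [Fact p.Prime]
    [CharP (ResidueField O) p] (hp2 : p ≠ 2) {W : Rigid O} {h : IsResAlg O R} {ru : Gal →* M2 R}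
    (hl : Lifts W h ru) (hn : IsNormal W ru) (hgen : Algebra.adjoin O (entries ru) = ⊤)
    (hc : IsCont ru) (hdet : (toRep ru hc).DetIsCyclotomic p)
    (hrb : GaloisFactorsThroughFiniteLevel W.rb)
    {Smin T : Finset ℕ} {r' : ℕ} {qv : Fin r' → ℕ}
    (P : Submodule (ResidueField O) (Gal → M2 (ResidueField O)) → Prop) (B : ℕ → Prop)
    (hcore : CoreBound p W.rb Smin T qv P B)
    (hunr : ∀ q : ℕ, q.Prime → q ∉ Smin → q ∉ T → (∀ i, qv i ≠ q) →
      ∀ A : ValuationSubring QBar, A.LiesOverPrime q → ∀ σ ∈ A.inertiaSubgroupIn ℚ, ru σ = 1)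
    (hmin : ∀ q ∈ Smin, q ≠ p → ∀ A : ValuationSubring QBar, A.LiesOverPrime q →
      ∀ σ ∈ A.inertiaSubgroupIn ℚ, (ru σ).trace = 2)
    {V : Type} [Fintype V] (vT : V → ℕ) [∀ v, Fact (vT v).Prime] (hvinj : Function.Injective vT)
    (hT : T = Finset.univ.image vT) (hvp : ∀ v, vT v ≠ p) (σT φT : V → Gal)
    (hσT : ∀ v, σT v ∈ (padicPlace (vT v)).inertiaSubgroupIn ℚ)
    (hφT : ∀ v, (padicPlace (vT v)).IsFrobeniusAt (φT v) (vT v))
    (hinert : ∀ v, ∀ g ∈ (padicPlace (vT v)).inertiaSubgroupIn ℚ, W.rb g = 1)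
    (hdetφ : ∀ v, (ru (φT v)).det = (vT v : R))
    (hkum : ∀ v, ∃ π : QBar, π ≠ 0 ∧ (∃ m : ℤ,
      Mazur.Eisenstein.ordAt (padicPlace (vT v)) (vT v) π = m / p) ∧
      EC.Reduction.res (padicPlace (vT v)) (σT v π / π) ≠ 1 ∧
      EC.Reduction.res (padicPlace (vT v)) (σT v π / π) ^ p = 1)
    {C : Type} (x : C → R)
    (hσ0 : ∀ δ ∈ killedDer h x, ∀ v i j, δ.1 (ru (σT v) i j) = 0)
    (hφs : ∀ δ ∈ killedDer h x, ∀ v, (∃ e : ResidueField O, W.rb (φT v) = e • 1) →
      ∀ i j, δ.1 (ru (φT v) i j) = 0)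
    (hφn : ∀ δ ∈ killedDer h x, ∀ v, (¬∃ e : ResidueField O, W.rb (φT v) = e • 1) →
      δ.1 (ru (φT v)).trace = 0)
    (hploc : P (LinearMap.range ((tangentCls W h ru).comp (killedDer h x).subtype))) :
    B (finrank (ResidueField O) (killedDer h x) +
      ∑ v, (if ∃ e : ResidueField O, W.rb (φT v) = e • 1 then 3 else 1)) := by
  have h2 : (2 : ResidueField O) ≠ 0 := fun h0 => by
    have := (CharP.cast_eq_zero_iff (ResidueField O) p 2).mp (by exact_mod_cast h0)
    exact hp2 ((Nat.prime_dvd_prime_iff_eq Fact.out Nat.prime_two).mp this)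
  have hnat : ∀ (δ : tangentDer h) (a : ℕ), δ.1 (a : R) = 0 := fun δ a => by
    induction a with
    | zero => rw [Nat.cast_zero]; exact tangentDer_zero h δ
    | succ a ih => rw [Nat.cast_succ, δ.2.1, ih, tangentDer_one, add_zero]
  rw [Finset.sum_congr rfl (g := fun v => localH0 W.rb (vT v)) fun v _ => ?_]
  · refine finrank_killedDer_add_le_of p hp2 hl hn hgen hc hdet hrb P B hcore hunr hmin vT hvinj hT hvp σT
      φT hσT hφT hinert hkum x (fun δ hδ v => ?_) hploc
    by_cases hs : ∃ e : ResidueField O, W.rb (φT v) = e • 1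
    · refine ⟨0, Matrix.ext fun i j => hσ0 δ hδ v i j, ?_⟩
      rw [mul_zero, zero_mul, sub_zero]
      exact Matrix.ext fun i j => hφs δ hδ v hs i j
    · obtain ⟨Y, hY⟩ := exists_derivMat_comm δ (ru (φT v)) (hl (φT v))
        (fun c hc => hs ⟨c, hc⟩) (hφn δ hδ v hs) (by rw [hdetφ]; exact hnat δ _)
      exact ⟨Y, Matrix.ext fun i j => hσ0 δ hδ v i j, hY⟩
  · split_ifs with hs
    · obtain ⟨e, he⟩ := hs
      exact (localH0_eq_three_of_frobenius hrb (hinert v) (hφT v) he).symm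
    · exact (localH0_eq_one h2 hrb (hinert v) (hφT v) fun c hc => hs ⟨c, hc⟩).symm

open Classical in
/-- The same from the plain core bound. -/
theorem finrank_killedDer_le_general (p : ℕ) [Fact p.Prime]
    [CharP (ResidueField O) p] (hp2 : p ≠ 2) {W : Rigid O} {h : IsResAlg O R} {ru : Gal →* M2 R}
    (hl : Lifts W h ru) (hn : IsNormal W ru) (hgen : Algebra.adjoin O (entries ru) = ⊤)
    (hc : IsCont ru) (hdet : (toRep ru hc).DetIsCyclotomic p)
    (hrb : GaloisFactorsThroughFiniteLevel W.rb)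
    {Smin T : Finset ℕ} {r' : ℕ} {qv : Fin r' → ℕ} (hcore : LiftCoreAt p W.rb Smin T qv)
    (hunr : ∀ q : ℕ, q.Prime → q ∉ Smin → q ∉ T → (∀ i, qv i ≠ q) →
      ∀ A : ValuationSubring QBar, A.LiesOverPrime q → ∀ σ ∈ A.inertiaSubgroupIn ℚ, ru σ = 1)
    (hmin : ∀ q ∈ Smin, q ≠ p → ∀ A : ValuationSubring QBar, A.LiesOverPrime q →
      ∀ σ ∈ A.inertiaSubgroupIn ℚ, (ru σ).trace = 2)
    {V : Type} [Fintype V] (vT : V → ℕ) [∀ v, Fact (vT v).Prime] (hvinj : Function.Injective vT)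
    (hT : T = Finset.univ.image vT) (hvp : ∀ v, vT v ≠ p) (σT φT : V → Gal)
    (hσT : ∀ v, σT v ∈ (padicPlace (vT v)).inertiaSubgroupIn ℚ)
    (hφT : ∀ v, (padicPlace (vT v)).IsFrobeniusAt (φT v) (vT v))
    (hinert : ∀ v, ∀ g ∈ (padicPlace (vT v)).inertiaSubgroupIn ℚ, W.rb g = 1)
    (hdetφ : ∀ v, (ru (φT v)).det = (vT v : R))
    (hkum : ∀ v, ∃ π : QBar, π ≠ 0 ∧ (∃ m : ℤ,
      Mazur.Eisenstein.ordAt (padicPlace (vT v)) (vT v) π = m / p) ∧
      EC.Reduction.res (padicPlace (vT v)) (σT v π / π) ≠ 1 ∧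
      EC.Reduction.res (padicPlace (vT v)) (σT v π / π) ^ p = 1)
    {C : Type} (x : C → R)
    (hσ0 : ∀ δ ∈ killedDer h x, ∀ v i j, δ.1 (ru (σT v) i j) = 0)
    (hφs : ∀ δ ∈ killedDer h x, ∀ v, (∃ e : ResidueField O, W.rb (φT v) = e • 1) →
      ∀ i j, δ.1 (ru (φT v) i j) = 0)
    (hφn : ∀ δ ∈ killedDer h x, ∀ v, (¬∃ e : ResidueField O, W.rb (φT v) = e • 1) →
      δ.1 (ru (φT v)).trace = 0)
    (hploc : BoundAtP p W.rb (LinearMap.range ((tangentCls W h ru).comp (killedDer h x).subtype))) :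
    finrank (ResidueField O) (killedDer h x) +
      ∑ v, (if ∃ e : ResidueField O, W.rb (φT v) = e • 1 then 3 else 1) ≤ r' :=
  finrank_killedDer_le_general_of p hp2 hl hn hgen hc hdet hrb (BoundAtP p W.rb) (· ≤ r')
    (fun V hV => hcore V hV) hunr hmin vT hvinj hT hvp σT φT hσT hφT hinert hdetφ hkum x hσ0 hφs hφn
    hploc

variable (p : ℕ) [Fact p.Prime] [CharP (ResidueField O) p] {W : Rigid O} {h : IsResAlg O R}
  {ru : Gal →* M2 R}

/-- The bound at `p` for flat deformations. -/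
theorem boundAtP_flat (hp2 : p ≠ 2) (hl : Lifts W h ru) (hc : IsCont ru)
    (hdet : (toRep ru hc).DetIsCyclotomic p) (hflat : (toRep ru hc).IsFlatAt p)
    (hrb : GaloisFactorsThroughFiniteLevel W.rb)
    (hdetrb : ∀ (σ : Gal) (n : ℕ), (∀ μ : QBar, μ ^ p = 1 → σ μ = μ ^ n) →
      (W.rb σ).det = (n : ResidueField O))
    (hsplit : ∀ g, ∃ α β : ResidueField O, (W.rb g).trace = α + β ∧ (W.rb g).det = α * β)
    (K : Submodule (ResidueField O) (tangentDer h)) :
    BoundAtP p W.rb (LinearMap.range ((tangentCls W h ru).comp K.subtype)) := by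
  refine CFT.Flat.finrank_le_flat hp2 hrb hdetrb hsplit _ ?_ ?_ ?_ ?_
  · rintro _ ⟨δ, rfl⟩
    exact tangentCls_mul hl δ.1
  · rintro _ ⟨δ, rfl⟩
    exact tangentCls_finiteLevel hc δ.1
  · rintro _ ⟨δ, rfl⟩
    exact trace_tangentCls p hl hc hdet δ.1
  · rintro _ ⟨δ, rfl⟩ hne
    obtain ⟨ρ, B, h1, -, h3⟩ := exists_flat_dual p hl hc hflat hdet (δ := δ.1) fun e => hne (by
      show tangentCls W h ru δ.1 = 0
      rw [e, map_zero])
    exact ⟨ρ, B, h1, h3⟩

/-- The bound at `p` for strictly ordinary deformations. -/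
theorem boundAtP_strict (hp2 : p ≠ 2) (hl : Lifts W h ru) (hc : IsCont ru)
    (hdet : (toRep ru hc).DetIsCyclotomic p) (hord : (toRep ru hc).IsStrictOrdinaryAt p)
    (hrb : GaloisFactorsThroughFiniteLevel W.rb)
    (hdetrb : ∀ (σ : Gal) (n : ℕ), (∀ μ : QBar, μ ^ p = 1 → σ μ = μ ^ n) →
      (W.rb σ).det = (n : ResidueField O))
    (K : Submodule (ResidueField O) (tangentDer h)) :
    BoundAtP p W.rb (LinearMap.range ((tangentCls W h ru).comp K.subtype)) := by
  have h2 : (2 : ResidueField O) ≠ 0 := fun h0 => by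
    have := (CharP.cast_eq_zero_iff (ResidueField O) p 2).mp (by exact_mod_cast h0)
    exact hp2 ((Nat.prime_dvd_prime_iff_eq Fact.out Nat.prime_two).mp this)
  refine finrank_le_ordinary hp2 h2 hrb hdetrb _ ?_ ?_ ?_
  · rintro _ ⟨δ, rfl⟩
    exact tangentCls_mul hl δ.1
  · rintro _ ⟨δ, rfl⟩
    exact tangentCls_finiteLevel hc δ.1
  · rintro _ ⟨δ, rfl⟩ -
    exact exists_strict_dual p hl hc hord hdet δ.1

end Killed

end Fermat.Agent.RT.Lift
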