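import Fermat.Agent.RT.GammaH.Eigen
import Fermat.Agent.RT.Lift.Degeneracy

/-!
# Eigen homomorphisms killed by both degeneracy maps are new at `v`

A form on `Γ_H(M v)`, `v ∤ M`, killed by both traces satisfies `f|W = -U f` and `U² f = χ(v) f`.
So the kernel contains an eigenform which is an eigenvector of `W`, and the level of its twisted
newform is divisible by `v`.
-/

set_option autoImplicit false
set_option linter.style.haveILetI false

noncomputable section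

open CongruenceSubgroup UpperHalfPlane ModularFormClass Matrix.SpecialLinearGroup
open ModularCurve.Period
open scoped MatrixGroups ModularForm ComplexConjugate

namespace Fermat.Agent.RT.Lift.Levels

open Fermat.Agent.Newforms (ALData realMat mem_gamma0_iff_dvd IsCuspFn)
open Fermat.Agent.Periods.Congruence (per perLin per_opOf per_injective per_add_conj_injective)
open Fermat.Agent.LevelRaising (RaiseData bezQ bezN)
open Fermat.Agent.RT.GammaH

variable {M v : ℕ}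

/-! ### Complex conjugation of coset representatives -/

theorem isReps_conjJ {Γ' : Subgroup SL(2, ℤ)} {ι : Type*} {rep : ι → GLR} {D : Set GLR}
    (hrep : IsReps Γ' D rep) (hΓ : ∀ g ∈ Γ', jConjSL g ∈ Γ') (hD : ∀ g ∈ D, J * g * J ∈ D) :
    IsReps Γ' D fun i => J * rep i * J := by
  have hJ : (J : GLR) * J = 1 := by rw [← sq, J_sq]
  have hJi : (J : GLR)⁻¹ = J := inv_eq_of_mul_eq_one_right hJ
  have hJJ : ∀ x : GLR, J * (J * x) = x := fun x => by rw [← mul_assoc, hJ, one_mul]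
  have hconj : ∀ g ∈ img Γ', J * g * J ∈ img Γ' := fun g hg => by
    obtain ⟨γ, rfl⟩ := exists_of_mem_img hg
    rw [Periods.J_mul_mapGL, mul_assoc, hJ, mul_one]
    exact mapGL_mem_img.2 (hΓ _ γ.2)
  refine ⟨fun i => hD _ (hrep.mem i), fun i j hij => hrep.inj i j ?_, fun g hg => ?_⟩
  · have := hconj _ hij
    simpa only [mul_inv_rev, hJi, mul_assoc, hJJ, hJ, mul_one] using this
  · obtain ⟨i, hi⟩ := hrep.surj _ (hD g hg)
    refine ⟨i, ?_⟩
    have := hconj _ hi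
    simpa only [mul_inv_rev, hJi, mul_assoc, hJJ, hJ, mul_one] using this

theorem slashSum_slash_J {Γ' : Subgroup SL(2, ℤ)} {ι : Type*} [Fintype ι] {rep : ι → GLR}
    {D : Set GLR} (hrep : IsReps Γ' D rep) (hΓ : ∀ g ∈ Γ', jConjSL g ∈ Γ')
    (hD : ∀ g ∈ D, J * g * J ∈ D) {f : ℍ → ℂ} (hf : ∀ γ ∈ Γ', f ∣[(2 : ℤ)] γ = f) :
    slashSum rep (f ∣[(2 : ℤ)] J) = slashSum rep f ∣[(2 : ℤ)] J := by
  rw [slashSum_eq_of_isReps hrep (isReps_conjJ hrep hΓ hD) hf, slashSum, slashSum,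
    SlashAction.sum_slash]
  refine Finset.sum_congr rfl fun i _ => ?_
  rw [← SlashAction.slash_mul, ← SlashAction.slash_mul, mul_assoc _ J J, ← sq, J_sq, mul_one]

variable {K : Subgroup (ZMod M)ˣ} (h : RaiseData v M)

theorem conjJ_mem_starSet {g : GLR} (hg : g ∈ starSet M v K 1) :
    J * g * J ∈ starSet M v K 1 := by
  obtain ⟨⟨A, hA, hd, hc, u, hu, ha⟩, hdvd⟩ := hg
  have hint : IsIntMat (J * g * J) !![A 0 0, -A 0 1; -A 1 0, A 1 1] := by
    unfold IsIntMat at hA ⊢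
    rw [Units.val_mul, Units.val_mul, hA]
    ext a b
    fin_cases a <;> fin_cases b <;>
      simp [Matrix.mul_apply, Matrix.vecMul, dotProduct, Fin.sum_univ_two]
  refine ⟨⟨_, hint, ?_, by simp [hc], u, hu, by simpa using ha⟩, fun B hB => ?_⟩
  · rw [Matrix.det_fin_two] at hd
    rw [Matrix.det_fin_two_of]
    linear_combination hd
  · obtain ⟨h0, h1⟩ := hdvd A hA
    rw [hB.unique hint]
    simp [h0, h1]

theorem jConjSL_mem_img [NeZero M] {g : GLR} (hg : g ∈ (img (gammaH M K) : Set GLR)) :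
    J * g * J ∈ (img (gammaH M K) : Set GLR) := by
  obtain ⟨γ, rfl⟩ := exists_of_mem_img hg
  rw [Periods.J_mul_mapGL, mul_assoc, ← sq, J_sq, mul_one]
  exact mapGL_mem_img.2 (jConjSL_mem_gammaH γ.2)

variable [NeZero (M * v)]

/-! ### The kernel on forms -/

theorem opOf_per_eq_zero_iff [NeZero M] {ι : Type} [Fintype ι] {rep : ι → GLR}
    (hadm : Admissible (gammaH (M * v) (liftSub v K)) (gammaH M K) rep)
    (hint : ∀ i, ∃ A, IsIntMat (rep i) A ∧ 0 < A.det) (f : FormH (M * v) (liftSub v K)) :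
    opOf hadm ℂ (per f) = 0 ↔ slashSum rep ⇑f = 0 := by
  let g : FormH M K := mkFormH (slashSum rep ⇑f)
    (fun _ hγ => slashSum_inv hadm (fun _ hh => cuspForm_slash_eq_self f hh) hγ)
    (Finset.sum_induction _ (IsCuspFn 2) (fun _ _ => IsCuspFn.add) IsCuspFn.zero fun i _ => by
      obtain ⟨A, hA, hd⟩ := hint i
      exact isCuspFn_slash (isCuspFn_formH f) hA hd.ne')
  have hper : per g = opOf hadm ℂ (per f) := per_opOf hadm (fun i => by
      obtain ⟨A, hA, hd⟩ := hint i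
      exact det_pos_of_isIntMat hA hd) Gamma_le_gammaH f g rfl
  rw [← hper]
  constructor
  · intro h0
    exact congrArg DFunLike.coe (per_injective Gamma_le_gammaH h0)
  · intro h0
    rw [show g = 0 from DFunLike.coe_injective h0, Periods.Congruence.per_zero Gamma_le_gammaH]

/-- The forms killed by both traces. -/
def kernelForms : Submodule ℂ (FormH (M * v) (liftSub v K)) :=
  LinearMap.ker ((corDeg h ℂ K).comp (perLin Gamma_le_gammaH)) ⊓
    LinearMap.ker ((starDeg h ℂ K).comp (perLin Gamma_le_gammaH))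

theorem mem_kernelForms [NeZero M] {f : FormH (M * v) (liftSub v K)} :
    f ∈ kernelForms h ↔ slashSum (cRep h) ⇑f = 0 ∧ slashSum (sRep h) ⇑f = 0 := by
  rw [← opOf_per_eq_zero_iff (admissible_cRep h)
      (fun i => ⟨_, isIntMat_mapGL (cSL h i), by simp⟩) f,
    ← opOf_per_eq_zero_iff (admissible_sRep h) (fun i => by
      obtain ⟨A, hA, hd, -⟩ := (sRep_mem h (K := K) i).1
      exact ⟨A, hA, by rw [hd, mul_one]; exact_mod_cast h.prime.pos⟩) f]
  rfl

theorem mem_kernelForms_of_per [NeZero M] {φ : Additive (gammaH (M * v) (liftSub v K)) →+ ℂ}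
    (hcor : corDeg h ℂ K φ = 0) (hstar : starDeg h ℂ K φ = 0)
    {f g : FormH (M * v) (liftSub v K)} (hφ : φ = per f + conjHom (per g)) :
    f ∈ kernelForms h ∧ formConjH g ∈ kernelForms h := by
  subst hφ
  have key : ∀ {ι : Type} [Fintype ι] {rep : ι → GLR}
      (hadm : Admissible (gammaH (M * v) (liftSub v K)) (gammaH M K) rep),
      (∀ i, ∃ A, IsIntMat (rep i) A ∧ 0 < A.det) → opOf hadm ℂ (per f + conjHom (per g)) = 0 →
      slashSum rep ⇑f = 0 ∧ slashSum rep ⇑g = 0 := by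
    intro ι _ rep hadm hint h0
    have hmk : ∀ f : FormH (M * v) (liftSub v K), ∃ F : FormH M K, ⇑F = slashSum rep ⇑f ∧
        per F = opOf hadm ℂ (per f) := fun f =>
      ⟨mkFormH (slashSum rep ⇑f)
        (fun _ hγ => slashSum_inv hadm (fun _ hh => cuspForm_slash_eq_self f hh) hγ)
        (Finset.sum_induction _ (IsCuspFn 2) (fun _ _ => IsCuspFn.add) IsCuspFn.zero fun i _ => by
          obtain ⟨A, hA, hd⟩ := hint i
          exact isCuspFn_slash (isCuspFn_formH f) hA hd.ne'), rfl,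
        per_opOf hadm (fun i => by
          obtain ⟨A, hA, hd⟩ := hint i
          exact det_pos_of_isIntMat hA hd) Gamma_le_gammaH f _ rfl⟩
    obtain ⟨F, hF, hF'⟩ := hmk f
    obtain ⟨G, hG, hG'⟩ := hmk g
    rw [map_add, show opOf hadm ℂ (conjHom (per g)) = conjHom (opOf hadm ℂ (per g)) from
      opOf_comp_coeff _ _ _, ← hF', ← hG'] at h0
    obtain ⟨h1, h2⟩ := per_add_conj_injective Gamma_le_gammaH
      (fun γ => DFunLike.congr_fun h0 (Additive.ofMul γ))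
    exact ⟨by rw [← hF, h1]; rfl, by rw [← hG, h2]; rfl⟩
  obtain ⟨hcf, hcg⟩ := key (admissible_cRep h)
    (fun i => ⟨_, isIntMat_mapGL (cSL h i), by simp⟩) hcor
  obtain ⟨hsf, hsg⟩ := key (admissible_sRep h) (fun i => by
      obtain ⟨A, hA, hd, -⟩ := (sRep_mem h (K := K) i).1
      exact ⟨A, hA, by rw [hd, mul_one]; exact_mod_cast h.prime.pos⟩) hstar
  have hinv : ∀ γ ∈ gammaH (M * v) (liftSub v K), ⇑g ∣[(2 : ℤ)] γ = ⇑g :=
    fun γ hγ => cuspForm_slash_eq_self g hγ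
  refine ⟨(mem_kernelForms h).2 ⟨hcf, hsf⟩, (mem_kernelForms h).2 ⟨?_, ?_⟩⟩
  · rw [coe_formConjH, slashSum_slash_J (isReps_cRep h) (fun _ => jConjSL_mem_gammaH)
      (fun _ => jConjSL_mem_img) hinv, hcg, SlashAction.zero_slash]
  · rw [coe_formConjH, slashSum_slash_J (isReps_sRep h) (fun _ => jConjSL_mem_gammaH)
      (fun _ => conjJ_mem_starSet) hinv, hsg, SlashAction.zero_slash]

/-! ### The traces by Atkin–Lehner matrices -/

/-- The matrix `(v, 1; -bMv, av)`. -/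
def alOne : ALData v M where
  hq := h.prime.ne_zero
  x := 1
  y := 1
  z := -bezN v M
  v := bezQ v M
  eq_one := by linear_combination h.bez

/-- The matrix of the transposed degeneracy map. -/
def alBez : ALData v M where
  hq := h.prime.ne_zero
  x := bezQ v M
  y := -bezN v M
  z := 1
  v := 1
  eq_one := by linear_combination h.bez

omit [NeZero (M * v)] in
theorem sRep_none_eq : sRep h none = (alBez h).gl := by
  refine Units.ext ?_
  rw [isIntMat_sRep_none h, ALData.val_gl]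
  ext a b
  fin_cases a <;> fin_cases b <;> simp [ALData.intMat, alBez, realMat] <;> ring

omit [NeZero (M * v)] in
theorem slashSum_sRep (F : ℍ → ℂ) :
    slashSum (sRep h) F = F ∣[(2 : ℤ)] (alBez h).gl + ModularForm.heckeU 2 v F := by
  rw [slashSum, Fintype.sum_option, sRep_none_eq, ModularForm.heckeU_def,
    ← Fin.sum_univ_eq_sum_range (fun j => F ∣[(2 : ℤ)] ModularForm.heckeMatrix v j)]
  rfl

omit [NeZero (M * v)] in
theorem isReps_traceRep :
    IsReps (gammaH (M * v) (liftSub v K)) (img (gammaH M K) : Set GLR)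
      fun i => mapGL ℝ (traceRep (alOne h) i) where
  mem i := mapGL_mem_img.2 (traceRep_mem_gammaH (alOne h) rfl K i)
  inj i j hij := by
    have hmem := traceRep_mem_gammaH (alOne h) rfl K
    simp only [← map_inv, ← map_mul, mapGL_mem_img] at hij
    refine (traceRep_unique (alOne h) h.prime h.not_dvd (gammaH_le_Gamma0 (hmem i))).unique ?_ ?_
    · simp
    · rw [mul_comm v M]; exact gammaH_le_Gamma0 hij
  surj g hg := by
    obtain ⟨γ, rfl⟩ := exists_of_mem_img hg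
    obtain ⟨i, hi, -⟩ := traceRep_unique (alOne h) h.prime h.not_dvd (gammaH_le_Gamma0 γ.2)
    refine ⟨i, ?_⟩
    simp only [← map_inv, ← map_mul, mapGL_mem_img]
    exact mem_lift h ((gammaH M K).mul_mem γ.2
      ((gammaH M K).inv_mem (traceRep_mem_gammaH (alOne h) rfl K i)))
      ((Int.natCast_dvd_natCast.2 (dvd_mul_right v M)).trans (mem_gamma0_iff_dvd.1 hi))

omit [NeZero (M * v)] in
theorem slashSum_cRep {F : ℍ → ℂ}
    (hF : ∀ γ ∈ gammaH (M * v) (liftSub v K), F ∣[(2 : ℤ)] γ = F) :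
    slashSum (cRep h) F = F + ModularForm.heckeU 2 v (F ∣[(2 : ℤ)] (alOne h).gl) := by
  haveI : NeZero v := ⟨h.prime.ne_zero⟩
  rw [slashSum_eq_of_isReps (isReps_cRep h (K := K)) (isReps_traceRep h) hF, slashSum,
    add_heckeU_eq_sum]
  rfl

/-! ### The nebentypus -/

variable {χ : (ZMod (M * v))ˣ →* ℂˣ}

omit [NeZero (M * v)] in
theorem chi_eq (hχ : ∀ u ∈ liftSub v K, χ u = 1) {u u' : (ZMod (M * v))ˣ}
    (he : ZMod.unitsMap (dvd_mul_right M v) u = ZMod.unitsMap (dvd_mul_right M v) u') :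
    χ u = χ u' := by
  have := hχ (u * u'⁻¹) (by
    show ZMod.unitsMap _ (u * u'⁻¹) ∈ K
    rw [map_mul, map_inv, he, mul_inv_cancel]
    exact one_mem K)
  rwa [map_mul, map_inv, mul_inv_eq_one] at this

theorem slash_of_congr (hχ : ∀ u ∈ liftSub v K, χ u = 1) {f : FormH (M * v) (liftSub v K)}
    (hf : IsChiForm χ f) {γ : SL(2, ℤ)} (hγ : γ ∈ Gamma0 (M * v)) {u : (ZMod (M * v))ˣ}
    (hu : ((γ 1 1 : ℤ) : ZMod M) = (ZMod.unitsMap (dvd_mul_right M v) u : ZMod M)) :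
    ⇑f ∣[(2 : ℤ)] γ = (χ u : ℂ) • ⇑f := by
  have hd : IsUnit ((γ 1 1 : ℤ) : ZMod (M * v)) := DeligneSerre.isUnit_lowerRight hγ
  rw [slash_eq_of_mem_gamma0 hf hγ hd.unit_spec.symm, chi_eq hχ (u' := u) (Units.ext ?_)]
  rw [← hu, ZMod.unitsMap_val, hd.unit_spec, ZMod.cast_intCast (dvd_mul_right M v)]

/-- The relations satisfied by the kernel. -/
theorem kernel_relations [NeZero M] (hχ : ∀ u ∈ liftSub v K, χ u = 1) :
    ∃ c d : ℂ, c * d = 1 ∧ ∀ f : FormH (M * v) (liftSub v K), IsChiForm χ f →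
      ⇑f ∣[(2 : ℤ)] (alOne h).gl = c • (⇑f ∣[(2 : ℤ)] (alBez h).gl) ∧
      (⇑f ∣[(2 : ℤ)] (alBez h).gl) ∣[(2 : ℤ)] (alBez h).gl = d • ⇑f := by
  have hav : ((bezQ v M : ℤ) : ZMod M) * (v : ZMod M) = 1 := by
    simpa using congrArg (Int.cast : ℤ → ZMod M) h.bez
  obtain ⟨ua, hua⟩ := ZMod.unitsMap_surjective (dvd_mul_right M v)
    (Units.mkOfMulEqOne _ _ hav)
  obtain ⟨uv, huv⟩ := ZMod.unitsMap_surjective (dvd_mul_right M v)
    (Units.mkOfMulEqOne _ _ hav)⁻¹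
  refine ⟨χ ua, χ uv, ?_, fun f hf => ⟨?_, ?_⟩⟩
  · rw [← Units.val_mul, ← map_mul, chi_eq hχ (u' := 1), map_one, Units.val_one]
    rw [map_mul, hua, huv, mul_inv_cancel, map_one]
  · -- `(v, 1; -bMv, av) = γ W`
    have he : (alOne h).gl = mapGL ℝ (cSL h none * (wSL h)⁻¹) * (alBez h).gl := by
      rw [← sRep_none_eq, sRep, map_mul, map_inv, mul_assoc, inv_mul_cancel_left]
      refine Units.ext ?_
      rw [Units.val_mul, ALData.val_gl, Newforms.mapGL_eq_realMat,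
        ModularForm.val_heckeDiagMatrix h.prime.ne_zero]
      ext a b
      fin_cases a <;> fin_cases b <;>
        simp [ALData.intMat, alOne, cSL, realMat, Matrix.mul_apply, Fin.sum_univ_two] <;> ring
    have hγ : cSL h none * (wSL h)⁻¹ ∈ Gamma0 (M * v) := by
      rw [mem_gamma0_iff_dvd, lowerLeft_mul_inv]
      refine ⟨-(bezN v M + bezQ v M), ?_⟩
      simp [cSL, wSL]
      ring
    have h11 : ((((cSL h none * (wSL h)⁻¹ : SL(2, ℤ)) 1 1 : ℤ)) : ZMod M) =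
        (ZMod.unitsMap (dvd_mul_right M v) ua : ZMod M) := by
      rw [hua]
      show _ = ((bezQ v M : ℤ) : ZMod M)
      simp [Matrix.SpecialLinearGroup.coe_inv, Matrix.adjugate_fin_two, Matrix.mul_apply,
        Fin.sum_univ_two, cSL, wSL]
      linear_combination ((bezQ v M : ℤ) : ZMod M) * hav
    have hn : ⇑f ∣[(2 : ℤ)] (mapGL ℝ (cSL h none * (wSL h)⁻¹) : GLR) = (χ ua : ℂ) • ⇑f :=
      slash_of_congr hχ hf hγ h11
    rw [he, SlashAction.slash_mul, hn, slash_al_smul]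
  · -- `W² = v δ`
    set a := bezQ v M
    set b := bezN v M
    let δ : SL(2, ℤ) := ⟨!![(v : ℤ) * a * a - b * M, -b * (a + 1);
        (v : ℤ) * M * (a + 1), (v : ℤ) - b * M], by
      rw [Matrix.det_fin_two_of]; linear_combination (a * v + b * M + 1) * h.bez⟩
    have hδ : δ ∈ Gamma0 (M * v) := mem_gamma0_iff_dvd.2 ⟨a + 1, by
      show (v : ℤ) * M * (a + 1) = _
      push_cast; ring⟩
    have h11 : ((δ 1 1 : ℤ) : ZMod M) = (ZMod.unitsMap (dvd_mul_right M v) uv : ZMod M) := by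
      rw [huv]
      show _ = (v : ZMod M)
      simp [δ]
    have hn : ⇑f ∣[(2 : ℤ)] (mapGL ℝ δ : GLR) = (χ uv : ℂ) • ⇑f := slash_of_congr hχ hf hδ h11
    rw [← SlashAction.slash_mul, ← hn]
    refine ALData.slash_two_of_smul (g' := (mapGL ℝ δ : GLR)) (Nat.cast_pos.2 h.prime.pos)
      (by simp) ?_ ⇑f
    rw [Units.val_mul, ALData.val_gl, Newforms.mapGL_eq_realMat]
    ext i j
    fin_cases i <;> fin_cases j <;>
      simp [ALData.intMat, alBez, δ, a, b, realMat, Matrix.mul_apply, Fin.sum_univ_two] <;> ring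

theorem coe_heckeForm_self [Fact v.Prime] (f : FormH (M * v) (liftSub v K)) :
    ⇑(heckeForm v f) = ModularForm.heckeU 2 v ⇑f := by
  rw [coe_heckeForm, slashSum_hRep_of_dvd (dvd_mul_left v M)]

theorem heckeForm_mem_kernelForms [NeZero M] (hχ : ∀ u ∈ liftSub v K, χ u = 1)
    (p : ℕ) [Fact p.Prime] (f : FormH (M * v) (liftSub v K)) (hf : f ∈ kernelForms h)
    (hχf : IsChiForm χ f) : heckeForm p f ∈ kernelForms h := by
  by_cases hpv : p = v
  · subst hpv
    obtain ⟨c, d, hcd, hrel⟩ := kernel_relations h hχ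
    obtain ⟨hc, hs⟩ := (mem_kernelForms h).1 hf
    rw [slashSum_cRep h (fun γ hγ => cuspForm_slash_eq_self f hγ)] at hc
    rw [slashSum_sRep] at hs
    obtain ⟨h1, h2⟩ := hrel f hχf
    obtain ⟨h1', -⟩ := hrel (heckeForm p f) (heckeForm_isChiForm hχf)
    rw [coe_heckeForm_self] at h1'
    set W := (alBez h).gl
    set U := ModularForm.heckeU (2 : ℤ) p with hU
    have hUsmul : ∀ (x : ℂ) (F : ℍ → ℂ), U (x • F) = x • U F := fun x F =>
      ModularForm.heckeU_smul ..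
    have hW : ⇑f ∣[(2 : ℤ)] W = -U ⇑f := eq_neg_of_add_eq_zero_left hs
    rw [h1, hUsmul, hW] at hc
    rw [hW, SlashAction.neg_slash] at h2
    have hUneg : ∀ F, U (-F) = -U F := fun F => by
      rw [← neg_one_smul ℂ F, hUsmul, neg_one_smul]
    rw [hUneg] at hc
    -- `U² f = d f`
    have hUU : U (U ⇑f) = d • ⇑f := by
      have h3 : c • U (U ⇑f) = ⇑f := by
        rw [smul_neg, add_neg_eq_zero] at hc
        exact hc.symm
      rw [← one_smul ℂ (U (U ⇑f)), ← hcd, mul_comm, mul_smul, h3]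
    have hUW : (U ⇑f) ∣[(2 : ℤ)] W = -(d • ⇑f) := by rw [← h2, neg_neg]
    refine (mem_kernelForms h).2 ⟨?_, ?_⟩
    · rw [slashSum_cRep h (fun γ hγ => cuspForm_slash_eq_self (heckeForm p f) hγ),
        coe_heckeForm_self, h1', hUW]
      change U ⇑f + U (c • -(d • ⇑f)) = 0
      rw [hUsmul, hUneg, hUsmul, smul_neg, smul_smul, hcd, one_smul, add_neg_cancel]
    · rw [slashSum_sRep, coe_heckeForm_self, hUW]
      change -(d • ⇑f) + U (U ⇑f) = 0
      rw [hUU, neg_add_cancel]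
  · obtain ⟨hc, hs⟩ := hf
    refine ⟨?_, ?_⟩
    · show corDeg h ℂ K (per (heckeForm p f)) = 0
      rw [per_heckeForm, corDeg_hecke h ℂ hpv, show corDeg h ℂ K (per f) = 0 from hc, map_zero]
    · show starDeg h ℂ K (per (heckeForm p f)) = 0
      rw [per_heckeForm, starDeg_hecke h ℂ hpv, show starDeg h ℂ K (per f) = 0 from hs, map_zero]

/-- An eigenform of `U_v` in the kernel is an eigenvector of every Atkin–Lehner matrix at `v`. -/
theorem exists_slash_al_eq_smul [NeZero M] (hχ : ∀ u ∈ liftSub v K, χ u = 1) [Fact v.Prime]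
    {f : FormH (M * v) (liftSub v K)} (hf : f ∈ kernelForms h) (hχf : IsChiForm χ f) {μ : ℂ}
    (hμ : heckeForm v f = μ • f) {R : ℕ} (hR : R = M) (D : ALData v R) :
    ∃ κ : ℂ, ⇑f ∣[(2 : ℤ)] D.gl = κ • ⇑f := by
  subst hR
  have hs := ((mem_kernelForms h).1 hf).2
  rw [slashSum_sRep, ← coe_heckeForm_self, hμ, FunLike.coe_smul] at hs
  have hW : ⇑f ∣[(2 : ℤ)] (alBez h).gl = (-μ) • ⇑f := by
    rw [_root_.neg_smul]; exact eq_neg_of_add_eq_zero_left hs
  obtain ⟨γ, hγ, -, he⟩ := al_exists_mul D (alBez h)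
  have hγ0 : γ ∈ Gamma0 (R * v) := mem_gamma0_iff_dvd.2 (by rw [mul_comm]; exact hγ)
  have hu := DeligneSerre.isUnit_lowerRight hγ0
  have hn : ⇑f ∣[(2 : ℤ)] (mapGL ℝ γ : GLR) = (χ hu.unit : ℂ) • ⇑f :=
    slash_eq_of_mem_gamma0 hχf hγ0 hu.unit_spec.symm
  exact ⟨(χ hu.unit : ℂ) * -μ, by rw [he, SlashAction.slash_mul, hn, slash_al_smul, hW, smul_smul]⟩

/-- **The kernel of both degeneracy maps is new at `v`.** -/
theorem exists_newform_of_kernel (hL : Squarefree (M * v)) (hneg : -1 ∈ K)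
    (hodd : Odd (Nat.card ((ZMod (M * v))ˣ ⧸ liftSub v K))) (S : Finset ℕ)
    (hS : ∀ w : ℕ, w.Prime → w ∣ M * v → w ∈ S)
    (χ : (ZMod (M * v))ˣ →* ℂˣ) (hχ : ∀ u ∈ liftSub v K, χ u = 1) (a : ℕ → ℂ)
    {φ : Additive (gammaH (M * v) (liftSub v K)) →+ ℂ}
    (hφ : φ ∈ parabolicHoms ℂ (gammaH (M * v) (liftSub v K)) ℂ) (hne : φ ≠ 0)
    (hdia : ∀ u, diamond (M * v) (liftSub v K) ℂ u φ = (χ u : ℂ) • φ)
    (hT : ∀ (ℓ : ℕ) [Fact ℓ.Prime], ℓ ∉ S → hecke (M * v) (liftSub v K) ℓ ℂ φ = a ℓ • φ)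
    (hcor : corDeg h ℂ K φ = 0) (hstar : starDeg h ℂ K φ = 0) :
    ∃ (L' : ℕ) (g : CuspForm (Gamma0 L') 2), g.IsNewform ∧ v ∣ L' ∧ L' ∣ (M * v) ^ 2 ∧
      (∀ ℓ : ℕ, ℓ.Prime → ℓ ∉ S → ∀ u : (ZMod (M * v))ˣ,
        (u : ZMod (M * v)) = (ℓ : ZMod (M * v)) → ModularFormClass.qCoeff g ℓ =
          (χ u : ℂ) ^ ((Nat.card ((ZMod (M * v))ˣ ⧸ liftSub v K) - 1) / 2) * a ℓ) ∧
      (∀ w : ℕ, w.Prime → w ∣ M * v → (w ^ 2 ∣ L' ↔ ∃ u : (ZMod (M * v))ˣ,
        ((u : ZMod (M * v)).cast : ZMod (M * v / w)) = 1 ∧ χ u ≠ 1)) ∧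
      (∀ (w : ℕ), w.Prime → ∀ hw : w ∣ M * v, ¬ w ∣ L' →
        ∃ φ' : Additive (gammaH (M * v / w)
            ((liftSub v K).map (ZMod.unitsMap (Nat.div_dvd_of_dvd hw)))) →+ ℂ,
          φ' ≠ 0 ∧ (∀ u, diamond (M * v / w) _ ℂ (ZMod.unitsMap (Nat.div_dvd_of_dvd hw) u) φ' =
            (χ u : ℂ) • φ') ∧
          ∀ (ℓ : ℕ) [Fact ℓ.Prime], ℓ ∉ S → hecke (M * v / w) _ ℓ ℂ φ' = a ℓ • φ') ∧
      ∃ f : CuspForm (Gamma1 (M * v)) 2, ModularFormClass.qCoeff f 1 = 1 ∧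
        (∀ (γ : Gamma0 (M * v)) (u : (ZMod (M * v))ˣ),
          Gamma0Map (M * v) γ = (u : ZMod (M * v)) →
          (⇑f) ∣[(2 : ℤ)] (γ : Matrix.SpecialLinearGroup (Fin 2) ℤ) = (χ u : ℂ) • ⇑f) ∧
        (∀ ℓ : ℕ, ℓ.Prime → ℓ ∉ S → ModularFormClass.qCoeff f ℓ = a ℓ) ∧
        ∀ ℓ : ℕ, ℓ.Prime → ℓ ∉ S → ∀ u : (ZMod (M * v))ˣ,
          (u : ZMod (M * v)) = (ℓ : ZMod (M * v)) → ∀ n : ℕ,
          ModularFormClass.qCoeff f (n * ℓ) +
              (if ℓ ∣ n then (χ u : ℂ) * ℓ * ModularFormClass.qCoeff f (n / ℓ) else 0) =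
            ModularFormClass.qCoeff f ℓ * ModularFormClass.qCoeff f n := by
  have : NeZero M := ⟨(Nat.mul_ne_zero_iff.1 (NeZero.ne (M * v))).1⟩
  have hv := h.prime
  have : Fact v.Prime := ⟨hv⟩
  have hneg' : -1 ∈ liftSub v K := by
    show ZMod.unitsMap _ (-1) ∈ K
    rwa [show ZMod.unitsMap (dvd_mul_right M v) (-1) = -1 from Units.ext (by simp [ZMod.unitsMap])]
  set e := (Nat.card ((ZMod (M * v))ˣ ⧸ liftSub v K) - 1) / 2 with he_def
  have he : toDir χ ^ (2 * e + 1) = 1 := toDir_pow_eq_one hχ hodd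
  obtain ⟨f, lam, hf, hfX, hf1, hseq, hlam, hla⟩ := exists_eigenForm_mem hneg' (kernelForms h)
    (fun p _ f hf hχf => heckeForm_mem_kernelForms h hχ p f hf hχf) hφ hne hdia hT
    (fun f g hfg => mem_kernelForms_of_per h hcor hstar hfg)
  obtain ⟨G, hG, hGf⟩ := exists_twist_eigenForm hL he hf hf1 hseq
  have := neZero_twistLevel (χ := toDir χ)
  obtain ⟨L', g, hMN, hg, heq⟩ := Newforms.exists_newform hG
  refine ⟨L', g, hg, ?_, newform_data hL he he_def hS hχ hf hf1 hseq hlam hla hG hGf hMN hg heq⟩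
  by_contra hvM
  have hvL : v ∣ M * v := dvd_mul_left v M
  have hdiv : M * v / v = M := Nat.mul_div_cancel M hv.pos
  have hvb : v ∉ badPrimes (toDir χ) := fun hb => hvM <| (dvd_pow_self v two_ne_zero).trans
    (sq_dvd_newform_level hL he hb hf hG hGf hMN hg.1 heq)
  set R₁ := M * v / v * (∏ w ∈ badPrimes (toDir χ), w) * (M * v / v) with hR₁
  have hvR₁ : ¬ v ∣ R₁ := by
    rw [hR₁, hdiv]
    refine hv.prime.not_dvd_mul (hv.prime.not_dvd_mul h.not_dvd ?_) h.not_dvd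
    rw [hv.prime.dvd_finsetProd_iff]
    rintro ⟨w, hw, hvw⟩
    exact hvb ((Nat.prime_dvd_prime_iff_eq hv (mem_badPrimes.1 hw).1).1 hvw ▸ hw)
  obtain ⟨x, y, hxy⟩ := Nat.isCoprime_iff_coprime.2
    ((hv.coprime_iff_not_dvd.2 hvR₁).pow_left 2)
  let D : ALData v R₁ :=
    ⟨hv.ne_zero, 1, -y, 1, (v : ℤ) * x, by push_cast at hxy ⊢; linear_combination hxy⟩
  have hdR : M * v / v ∣ R₁ := dvd_mul_left _ _
  obtain ⟨κ, hκ⟩ := exists_slash_al_eq_smul h hχ hfX hf (hlam v) hdiv (alLower hdR D)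
  rw [alLower_gl] at hκ
  exact al_ne_smul hL he hv hvL hvb hf hG hGf hMN hg.1 heq hvM D rfl (dvd_mul_right _ _) κ hκ

end Fermat.Agent.RT.Lift.Levels
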