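import Fermat.Agent.RT.Lift.Levels.Modules
import Fermat.Agent.RT.Assembly.Diamond

/-!
# The degeneracy maps between the modules of two consecutive levels

For `LevelModule`s of levels `M` and `M q` whose characters are compatible, the symmetric
degeneracy maps between them, their equivariance, their composite, and the homomorphism of Hecke
algebras that they induce.
-/

set_option autoImplicit false

noncomputable section

namespace Fermat.Agent.RT.Lift

open IsLocalRing MvPolynomial
open Fermat.Agent.RT.GammaH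
open Fermat.Agent.LevelRaising (RaiseData)

variable {O : Type} [CommRing O] [IsDomain O] [IsDiscreteValuationRing O] {Δ : Type} [CommGroup Δ]
  {S : Finset ℕ} {abar : ℕ → ResidueField O} {M q : ℕ}

/-- The character of level `M q` given by one of level `M`. -/
abbrev upPsi (q : ℕ) (ψ : (ZMod M)ˣ →* Δ) : (ZMod (M * q))ˣ →* Δ :=
  ψ.comp (ZMod.unitsMap (dvd_mul_right M q))

theorem upPsi_surjective [NeZero (M * q)] {ψ : (ZMod M)ˣ →* Δ} (hψ : Function.Surjective ψ) :
    Function.Surjective (upPsi q ψ) :=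
  hψ.comp (ZMod.unitsMap_surjective (dvd_mul_right M q))

/-- `⟨q⟩ ^ (2 e + 1)` is in the kernel for `e` half the inverse exponent. -/
theorem qUnit_pow_mem (h : RaiseData q M) (ψ : (ZMod M)ˣ →* Δ) [Finite Δ]
    (hodd : Odd (Nat.card Δ)) : qUnit h ^ (2 * halfInvExp Δ + 1) ∈ ψ.ker := by
  rw [MonoidHom.mem_ker, map_pow, pow_succ, mul_comm 2, pow_mul]
  exact pow_halfInvExp_sq_mul hodd _

variable [IsAdicComplete (maximalIdeal O) O] [NeZero M] [NeZero (M * q)]
  {ψ : (ZMod M)ˣ →* Δ} (N : LevelModule O S abar ψ) (N' : LevelModule O S abar (upPsi q ψ))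
  (h : RaiseData q M) (hq : q ∈ S)

/-- The two localisations are cut out by one element. -/
theorem exists_common_localizer :
    ∃ e : OpRing O (M * q) S,
      localPart O N'.e (HomMod O S (liftSub q ψ.ker) O) =
          localPart O e (HomMod O S (liftSub q ψ.ker) O) ∧
        localPart O N.e (HomMod O S ψ.ker O) =
          localPart O (lowerOp O M q S e) (HomMod O S ψ.ker O) := by
  obtain ⟨e, he, he₀⟩ := exists_isLocalizer_pair (q := q) S ψ.ker (abar := abar)
  exact ⟨e, localPart_eq N'.isLocalizer he (resIdeal_ne_top S abar),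
    localPart_eq N.isLocalizer he₀ (resIdeal_ne_top S abar)⟩

include hq in
theorem degH_mem (φ : HomMod O S ψ.ker O × HomMod O S ψ.ker O)
    (h1 : φ.1 ∈ localPart O N.e (HomMod O S ψ.ker O))
    (h2 : φ.2 ∈ localPart O N.e (HomMod O S ψ.ker O)) :
    degH O S h ψ.ker (halfInvExp Δ) φ ∈ localPart O N'.e (HomMod O S (upPsi q ψ).ker O) := by
  obtain ⟨e, e', e₀⟩ := exists_common_localizer N N'
  rw [e₀] at h1 h2
  show degH O S h ψ.ker (halfInvExp Δ) φ ∈ localPart O N'.e (HomMod O S (liftSub q ψ.ker) O)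
  rw [e']
  exact degH_mem_localPart h hq _ h1 h2

include hq in
theorem degStarH_mem {x : HomMod O S (upPsi q ψ).ker O}
    (hx : x ∈ localPart O N'.e (HomMod O S (upPsi q ψ).ker O)) :
    (degStarH O S h ψ.ker (halfInvExp Δ) x).1 ∈ localPart O N.e (HomMod O S ψ.ker O) ∧
      (degStarH O S h ψ.ker (halfInvExp Δ) x).2 ∈ localPart O N.e (HomMod O S ψ.ker O) := by
  obtain ⟨e, e', e₀⟩ := exists_common_localizer N N'
  have hx' : (x : HomMod O S (liftSub q ψ.ker) O) ∈
      localPart O e (HomMod O S (liftSub q ψ.ker) O) := by rw [← e']; exact hx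
  rw [e₀]
  exact degStarH_mem_localPart h hq _ hx'

/-- The symmetric degeneracy map of the two modules. -/
def delta : N.H.M × N.H.M →ₗ[O] N'.H.M :=
  N'.lift (degH O S h ψ.ker (halfInvExp Δ) ∘ₗ N.incl.prodMap N.incl) fun u =>
    degH_mem N N' h hq _ (N.incl_mem u.1) (N.incl_mem u.2)

/-- Its transpose. -/
def deltaStar : N'.H.M →ₗ[O] N.H.M × N.H.M :=
  (N.lift (LinearMap.fst O _ _ ∘ₗ degStarH O S h ψ.ker (halfInvExp Δ) ∘ₗ N'.incl) fun x =>
      (degStarH_mem N N' h hq (N'.incl_mem x)).1).prod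
    (N.lift (LinearMap.snd O _ _ ∘ₗ degStarH O S h ψ.ker (halfInvExp Δ) ∘ₗ N'.incl) fun x =>
      (degStarH_mem N N' h hq (N'.incl_mem x)).2)

theorem incl_delta (u : N.H.M × N.H.M) :
    N'.incl (delta N N' h hq u) = degH O S h ψ.ker (halfInvExp Δ) (N.incl u.1, N.incl u.2) :=
  N'.incl_lift _ _ u

theorem incl_deltaStar (x : N'.H.M) :
    (N.incl (deltaStar N N' h hq x).1, N.incl (deltaStar N N' h hq x).2) =
      degStarH O S h ψ.ker (halfInvExp Δ) (N'.incl x) :=
  Prod.ext (N.incl_lift _ _ x) (N.incl_lift _ _ x)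

theorem delta_opAlg (a : OpRing O (M * q) S) (u : N.H.M × N.H.M) :
    delta N N' h hq ((opAlg N.H (lowerOp O M q S a) : Module.End O N.H.M) u.1,
        (opAlg N.H (lowerOp O M q S a) : Module.End O N.H.M) u.2) =
      (opAlg N'.H a : Module.End O N'.H.M) (delta N N' h hq u) := by
  refine N'.incl_injective ?_
  rw [incl_delta, N'.incl_opAlg, incl_delta, N.incl_opAlg, N.incl_opAlg]
  exact degH_smul h hq _ a (N.incl u.1, N.incl u.2)

theorem delta_inl_injective [CharZero O] : Function.Injective fun x => delta N N' h hq (x, 0) := by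
  refine (injective_iff_map_eq_zero ((delta N N' h hq).comp (LinearMap.inl O _ _))).2 fun x hx => ?_
  have h1 := congrArg N'.incl hx
  rw [LinearMap.comp_apply, LinearMap.inl_apply, incl_delta, map_zero, map_zero] at h1
  let y : Additive (gammaH M ψ.ker) →+ O := toHomMod.symm (N.incl x)
  have h2 : corDeg h O ψ.ker (resDeg O q ψ.ker y) = 0 := by
    have h3 : resDeg O q ψ.ker y = 0 := by
      have h4 : degMap h O ψ.ker (halfInvExp Δ) (y, 0) = 0 := h1
      rwa [degMap_apply, map_zero, map_zero, add_zero] at h4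
    rw [h3, map_zero]
  rw [corDeg_resDeg, ← Nat.cast_smul_eq_nsmul O] at h2
  refine N.incl_injective ?_
  rw [map_zero]
  refine toHomMod.symm.map_eq_zero_iff.1 (AddMonoidHom.ext fun γ => ?_)
  have h3 : ((q + 1 : ℕ) : O) * y γ = 0 := DFunLike.congr_fun h2 γ
  exact (mul_eq_zero.1 h3).resolve_left (Nat.cast_ne_zero.2 (by omega))

include h hq in
/-- The Hecke algebra of level `M q` maps to that of level `M`. -/
theorem exists_compatHom [CharZero O] (hψ : Function.Surjective ψ) :
    ∃ π : N'.H.algebra →ₐ[O] N.H.algebra, IsCompatHom N'.H N.H π ∧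
      ∀ a, π (opAlg N'.H a) = opAlg N.H (lowerOp O M q S a) := by
  let f : OpRing O (M * q) S →ₐ[O] N.H.algebra := (opAlg N.H).comp (lowerOp O M q S)
  have hs := opAlg_surjective N'.H (upPsi_surjective hψ)
  have hker : RingHom.ker (opAlg N'.H).toRingHom ≤ RingHom.ker f.toRingHom := fun a ha => by
    refine Subtype.ext (LinearMap.ext fun x => delta_inl_injective N N' h hq ?_)
    have h1 := delta_opAlg N N' h hq a (x, 0)
    rw [map_zero] at h1
    refine (h1.trans ?_)
    rw [show opAlg N'.H a = 0 from ha, Subalgebra.coe_zero, LinearMap.zero_apply]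
    exact (map_zero (delta N N' h hq)).symm
  obtain ⟨π, hπ⟩ : ∃ π : N'.H.algebra →ₐ[O] N.H.algebra, ∀ a, π (opAlg N'.H a) = f a := by
    let e := Ideal.quotientKerAlgEquivOfSurjective hs
    refine ⟨(Ideal.Quotient.liftₐ _ f fun a ha => hker ha).comp e.symm.toAlgHom, fun a => ?_⟩
    rw [AlgHom.comp_apply]
    have : e.symm (opAlg N'.H a) = Ideal.Quotient.mk _ a := by
      rw [AlgEquiv.symm_apply_eq]
      rfl
    show (Ideal.Quotient.liftₐ _ f fun a ha => hker ha) (e.symm (opAlg N'.H a)) = f a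
    rw [this]
    rfl
  refine ⟨π, ⟨fun δ => ?_, fun ℓ hℓ hℓS => ?_⟩, hπ⟩
  · obtain ⟨u, rfl⟩ := upPsi_surjective (q := q) hψ δ
    simpa [f, opAlg, lowerOp] using hπ (X (Sum.inl u))
  · simpa [f, opAlg, lowerOp] using hπ (X (Sum.inr ⟨ℓ, hℓ, hℓS⟩))

theorem deltaStar_opAlg (a : OpRing O (M * q) S) (x : N'.H.M) :
    deltaStar N N' h hq ((opAlg N'.H a : Module.End O N'.H.M) x) =
      ((opAlg N.H (lowerOp O M q S a) : Module.End O N.H.M) (deltaStar N N' h hq x).1,
        (opAlg N.H (lowerOp O M q S a) : Module.End O N.H.M) (deltaStar N N' h hq x).2) := by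
  have h1 := incl_deltaStar N N' h hq ((opAlg N'.H a : Module.End O N'.H.M) x)
  have h2 : (N.incl ((opAlg N.H (lowerOp O M q S a) : Module.End O N.H.M)
        (deltaStar N N' h hq x).1),
      N.incl ((opAlg N.H (lowerOp O M q S a) : Module.End O N.H.M) (deltaStar N N' h hq x).2)) =
      degStarH O S h ψ.ker (halfInvExp Δ) (a • N'.incl x) := by
    refine Eq.trans ?_ (degStarH_smul (K := ψ.ker) h hq (halfInvExp Δ) a (N'.incl x : HomMod O S (liftSub q ψ.ker) O)).symm
    rw [← incl_deltaStar N N' h hq x, N.incl_opAlg, N.incl_opAlg]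
    rfl
  rw [N'.incl_opAlg] at h1
  have h3 := h1.trans h2.symm
  exact Prod.ext (N.incl_injective (congrArg Prod.fst h3))
    (N.incl_injective (congrArg Prod.snd h3))

/-- The composite in the modules. -/
theorem deltaStar_delta [Finite Δ] [Fact q.Prime] (hodd : Odd (Nat.card Δ))
    {T : N.H.algebra} (hT : ∀ x, N.incl ((T : Module.End O N.H.M) x) =
      symT h O ψ.ker (halfInvExp Δ) (N.incl x)) (u : N.H.M × N.H.M) :
    deltaStar N N' h hq (delta N N' h hq u) =
      ((q + 1) • u.1 + (T : Module.End O N.H.M) u.2,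
        (T : Module.End O N.H.M) u.1 + (q + 1) • u.2) := by
  have h1 := incl_deltaStar N N' h hq (delta N N' h hq u)
  rw [incl_delta] at h1
  have h2 := h1.trans (degStar_degMap h O (qUnit_pow_mem h ψ hodd) (N.incl u.1, N.incl u.2))
  refine Prod.ext (N.incl_injective ?_) (N.incl_injective ?_)
  · rw [map_add, map_nsmul, hT]; exact congrArg Prod.fst h2
  · rw [map_add, map_nsmul, hT]; exact congrArg Prod.snd h2

end Fermat.Agent.RT.Lift
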