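import Fermat.Agent.RT.Lift.Levels.Identify
import Fermat.Agent.RT.Lift.Levels.Pair
import Fermat.Agent.RT.Lift.Levels.NewAtKernel
import Fermat.Agent.RT.Glue.Inertia

/-!
# The kernel of the transposed degeneracy map is new at `q`

An eigen homomorphism killed by both traces has a newform of level divisible by `q`, so the
square of the trace of a Frobenius element at `q` is `(q + 1) ^ 2` there; by semisimplicity this
holds as operators on the kernel.
-/

set_option autoImplicit false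

noncomputable section

namespace Fermat.Agent.RT.Lift

open IsLocalRing MvPolynomial
open Fermat.Agent.RT.GammaH
open Fermat.Agent.LevelRaising (RaiseData)
open Fermat.Agent.RT.Glue (KBar Point Glued)
open Fermat.Agent.NewformLocal.Toric (QuarticAt)
open GaloisReps (AbsGal HeckeGaloisModel)

theorem widen_refl {O : Type} [CommRing O] {L : ℕ} {S : Finset ℕ} (b : OpRing O L S) :
    widen O L (le_refl S) b = b := by
  rw [widen, show (Sum.map id fun ℓ : {ℓ : ℕ // ℓ.Prime ∧ ℓ ∉ S} =>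
    (⟨ℓ.1, ℓ.2.1, fun h => ℓ.2.2 (le_refl S h)⟩ : {ℓ : ℕ // ℓ.Prime ∧ ℓ ∉ S})) =
      (id : OpIdx L S → OpIdx L S) from funext fun i => by cases i <;> rfl, rename_id_apply]

section Coeff

variable {O : Type} [CommRing O] [Algebra O ℂ] {M q : ℕ} [NeZero M] [NeZero (M * q)] {S : Finset ℕ}
  {K : Subgroup (ZMod M)ˣ} (h : RaiseData q M) (hq : q ∈ S) (k : ℕ)

/-- The complex homomorphisms killed by the transposed degeneracy map. -/
def starKer : Submodule ℂ (HomC (liftSub q K)) := LinearMap.ker (degStar h ℂ K k)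

include hq in
omit [NeZero M] [NeZero (M * q)] in
theorem opC_mem_starKer (b : OpRing O (M * q) S) {φ : HomC (liftSub q K)}
    (hφ : φ ∈ starKer h k) : opC O S (liftSub q K) b φ ∈ starKer h k := by
  have h1 := degStarH_smul (O := O) (A := ℂ) (K := K) h hq k b
    (toHomMod φ : HomMod O S (liftSub q K) ℂ)
  have h0 : degStarH O S h K k (toHomMod φ : HomMod O S (liftSub q K) ℂ) = 0 := hφ
  rw [h0, smul_zero] at h1
  exact h1

omit [NeZero M] [NeZero (M * q)] in
theorem starDeg_eq_zero_of_mem {φ : HomC (liftSub q K)} (hφ : φ ∈ starKer h k) :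
    corDeg h ℂ K φ = 0 ∧ starDeg h ℂ K φ = 0 := by
  have h1 : degStar h ℂ K k φ = 0 := hφ
  rw [degStar_apply] at h1
  have h2 : diamond M K ℂ (qUnit h ^ k) (starDeg h ℂ K φ) = 0 := congrArg Prod.snd h1
  refine ⟨congrArg Prod.fst h1, ?_⟩
  have h3 := congrArg (diamond M K ℂ (qUnit h ^ k)⁻¹) h2
  rwa [← diamond_mul, inv_mul_cancel, map_zero, diamond_of_mem ℂ (one_mem K)] at h3

omit [NeZero M] [NeZero (M * q)] in
theorem opC_toHomC_mem_starKer (hq : q ∈ S) (P : OpRing O (M * q) S)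
    {x : HomMod O S (liftSub q K) O} (hx : degStarH O S h K k x = 0) :
    opC O S (liftSub q K) P (toHomC x) ∈ starKer h k := by
  rw [← toHomC_smul]
  set y := P • x
  have hy : degStar h O K k (toHomMod.symm y) = 0 := by
    have h1 := degStarH_smul (K := K) h hq k P x
    rw [hx, smul_zero] at h1
    exact h1
  show degStar h ℂ K k (toHomC y) = 0
  rw [degStar_apply] at hy ⊢
  have c1 : corDeg h ℂ K (toHomC y) =
      (algebraMap O ℂ).toAddMonoidHom.comp (corDeg h O K (toHomMod.symm y)) :=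
    opOf_comp_coeff (R := O) (S := ℂ) (admissible_cRep h (K := K))
      (algebraMap O ℂ).toAddMonoidHom (toHomMod.symm y)
  have c2 : starDeg h ℂ K (toHomC y) =
      (algebraMap O ℂ).toAddMonoidHom.comp (starDeg h O K (toHomMod.symm y)) :=
    opOf_comp_coeff (R := O) (S := ℂ) (admissible_sRep h (K := K))
      (algebraMap O ℂ).toAddMonoidHom (toHomMod.symm y)
  have h2 : diamond M K O (qUnit h ^ k) (starDeg h O K (toHomMod.symm y)) = 0 := congrArg Prod.snd hy
  have h3 := congrArg (diamond M K O (qUnit h ^ k)⁻¹) h2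
  rw [← diamond_mul, inv_mul_cancel, map_zero, diamond_of_mem O (one_mem K)] at h3
  have h4 : corDeg h O K (toHomMod.symm y) = 0 := congrArg Prod.fst hy
  rw [c1, c2, h4, h3]
  simp

end Coeff

variable {O : Type} [CommRing O] [IsDomain O] [IsDiscreteValuationRing O]
  [IsAdicComplete (maximalIdeal O) O] [Finite (ResidueField O)] [CharZero O]
  {p : ℕ} [Fact p.Prime] [CharP (ResidueField O) p] {Δ : Type} [CommGroup Δ] [Finite Δ]
  {S : Finset ℕ} {abar : ℕ → ResidueField O} {M q : ℕ} [NeZero M] [NeZero (M * q)]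
  {ψ : (ZMod M)ˣ →* Δ} (N : LevelModule O S abar ψ) (N' : LevelModule O S abar (upPsi q ψ))
  (h : RaiseData q M) (hq : q ∈ S) (D : ∀ (L : ℕ) [NeZero L], HeckeGaloisModel L p)
  {hS : ∀ w : ℕ, w.Prime → w ∣ M * q → w ∈ S} [IsLocalRing N'.H.algebra]
  {pt : ∀ θ : N'.H.algebra →ₐ[O] KBar O, Point (p := p) N'.H hS θ.toRingHom} (G : Glued D pt)

/-- **The squared trace at `q` on the kernel of the transposed degeneracy map.** -/
theorem trace_sq_apply_eq_zero (hp : p ≠ 2) (hw : HasSTWeights O (M * q)) (hΔ : IsPGroup p Δ)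
    (hψ : Function.Surjective ψ) (hL : Squarefree (M * q))
    (hEis : ∃ ℓ : ℕ, ℓ.Prime ∧ ℓ ∉ S ∧ abar ℓ ≠ 1 + (ℓ : ResidueField O))
    (hpS : p ∈ S) (hqp : q ≠ p)
    (hQu : ∀ (L : ℕ) [NeZero L], L ∣ (M * q) ^ 2 → q ∣ L → ¬ q ^ 2 ∣ L → QuarticAt (D L) q)
    {A : ValuationSubring (AlgebraicClosure ℚ)} (hA : A.LiesOverPrime q)
    {σ : AbsGal} (hσ : A.IsFrobeniusAt σ q) {x : N'.H.M} (hx : deltaStar N N' h hq x = 0) :
    (((G.R σ).trace ^ 2 - (((q + 1) ^ 2 : ℕ) : N'.H.algebra) : N'.H.algebra) :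
      Module.End O N'.H.M) x = 0 := by
  classical
  have hpm : (p : O) ∈ maximalIdeal O := by
    rw [← residue_eq_zero_iff, map_natCast, CharP.cast_eq_zero]
  obtain ⟨ι⟩ := GaloisReps.exists_padicHom O hpm
  obtain ⟨e⟩ := Glue.nonempty_ringEquiv_complex O ι
  let : Algebra O ℂ := (e.toRingHom.comp (algebraMap O (KBar O))).toAlgebra
  have hinj : Function.Injective (algebraMap O ℂ) := e.injective.comp (by
    rw [IsScalarTower.algebraMap_eq O (FractionRing O) (KBar O)]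
    exact (algebraMap (FractionRing O) _).injective.comp (IsFractionRing.injective O _))
  have hψ' : Function.Surjective (upPsi q ψ) := upPsi_surjective hψ
  have hneg : (-1 : (ZMod (M * q))ˣ) ∈ (upPsi q ψ).ker := neg_one_mem_ker (p := p) _ hp hΔ
  obtain ⟨hhalf, hodd⟩ := halfInvExp_eq_card (p := p) hp hΔ hψ'
  obtain ⟨l, hl, hlS, hlE⟩ := id hEis
  obtain ⟨P, hP, hpar⟩ := exists_parabolicOp (O := O) (K := (upPsi q ψ).ker) S abar hL hneg hl hlS
    (fun hd => hlS (hS l hl hd)) hlE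
  obtain ⟨b, hb⟩ := opAlg_surjective N'.H hψ'
    ((G.R σ).trace ^ 2 - (((q + 1) ^ 2 : ℕ) : N'.H.algebra))
  let W : Submodule ℂ (HomC (upPsi q ψ).ker) :=
    ModularCurve.Period.parabolicHoms ℂ (gammaH (M * q) (upPsi q ψ).ker) ℂ ⊓
      starKer (K := ψ.ker) h (halfInvExp Δ)
  have hx0 : degStarH O S h ψ.ker (halfInvExp Δ) (N'.incl x) = 0 := by
    rw [← incl_deltaStar N N' h hq x, hx]
    simp
  have hW := N'.smul_incl_eq_zero (x := x) hneg hL hodd (le_refl S) hS hinj hP (W := W)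
    inf_le_left
    (fun c φ hφ => ⟨opC_mem_parabolicHoms hneg c φ hφ.1,
      opC_mem_starKer (K := ψ.ker) h hq (halfInvExp Δ) c hφ.2⟩) (a := b)
    ⟨hpar ℂ (toHomMod (toHomC (N'.incl x))),
      opC_toHomC_mem_starKer (K := ψ.ker) h (halfInvExp Δ) hq P hx0⟩ fun θ φ hφW hφ0 heig he => ?_
  · rw [← hb]
    refine N'.incl_injective ?_
    rw [N'.incl_opAlg, map_zero]
    rw [LinearEquiv.apply_symm_apply] at hW
    exact hW
  · obtain ⟨θH, hθH'⟩ := N'.exists_point_of_eigen hψ' (le_refl S) hφ0 heig he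
    have hθH : ∀ c, θH (opAlg N'.H c) = θ c := fun c => by rw [hθH', widen_refl]
    have hC : ∀ c : O, θ (C c) = algebraMap O ℂ c := fun c => by
      have h1 := heig (C c)
      rw [opC_C, Module.algebraMap_end_apply] at h1
      exact (smul_left_injective ℂ hφ0 h1).symm
    let θK : N'.H.algebra →ₐ[O] KBar O :=
      { e.symm.toRingHom.comp θH with
        commutes' := fun c => by
          show e.symm (θH (algebraMap O N'.H.algebra c)) = _
          rw [← (opAlg N'.H).commutes c, hθH, MvPolynomial.algebraMap_eq, hC]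
          exact e.symm_apply_apply _ }
    have heθ : ∀ z, e (θK z) = θH z := fun z => e.apply_symm_apply _
    have hθeq : e.toRingHom.comp θK.toRingHom = θH := RingHom.ext heθ
    let a : ℕ → ℂ := fun ℓ =>
      if hℓ : ℓ.Prime ∧ ℓ ∉ S then θ (X (Sum.inr ⟨ℓ, hℓ⟩)) else 0
    have hφd : ∀ u, diamond (M * q) (upPsi q ψ).ker ℂ u φ =
        (pointChar N' θH u : ℂ) • φ := fun u => by
      have h1 := heig (X (Sum.inl u))
      rw [opC_inl, ← hθH, opAlg, aeval_X] at h1
      exact h1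
    have hφT : ∀ (ℓ : ℕ) [Fact ℓ.Prime], ℓ ∉ S →
        hecke (M * q) (upPsi q ψ).ker ℓ ℂ φ = a ℓ • φ := by
      intro ℓ hℓ hℓS
      have : Fact (⟨ℓ, hℓ.out, hℓS⟩ : {ℓ : ℕ // ℓ.Prime ∧ ℓ ∉ S}).1.Prime := hℓ
      have h1 := heig (X (Sum.inr ⟨ℓ, hℓ.out, hℓS⟩))
      rw [opC_inr] at h1
      simp only [a, dif_pos (show ℓ.Prime ∧ ℓ ∉ S from ⟨hℓ.out, hℓS⟩)]
      exact h1
    have ha : ∀ (ℓ : ℕ) (hℓ : ℓ.Prime) (hℓS : ℓ ∉ S), a ℓ = e (θK (Glue.TA N'.H hℓ hℓS)) := by
      intro ℓ hℓ hℓS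
      simp only [a, dif_pos (show ℓ.Prime ∧ ℓ ∉ S from ⟨hℓ, hℓS⟩)]
      rw [heθ, ← hθH (X (Sum.inr ⟨ℓ, hℓ, hℓS⟩)), opAlg, aeval_X]
      rfl
    have hnegK : (-1 : (ZMod M)ˣ) ∈ ψ.ker := neg_one_mem_ker (p := p) ψ hp hΔ
    obtain ⟨hcor, hstar⟩ := starDeg_eq_zero_of_mem (K := ψ.ker) h (halfInvExp Δ) hφW.2
    obtain ⟨L', g, hg, hqL, hdvd, hcoef, hsq, hdesc, -⟩ :=
      Levels.exists_newform_of_kernel (K := ψ.ker) h hL hnegK hodd S hS (pointChar N' θH)
        (pointChar_ker N' θH) a hφW.1 hφ0 hφd hφT hcor hstar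
    have : NeZero L' := ⟨fun h0 => pow_ne_zero 2 (NeZero.ne (M * q))
      (Nat.eq_zero_of_zero_dvd (h0 ▸ hdvd))⟩
    obtain ⟨Q, hQM, -⟩ := exists_point_of_data N' hp hw hΔ hψ' hL hS hEis e θK (le_refl S) a ha
      hg hdvd (hθeq ▸ hcoef) (hθeq ▸ hsq) (hθeq ▸ hdesc)
    have hq2 : ¬ q ^ 2 ∣ Q.M := Q.sq_not_dvd h.prime (dvd_mul_left q M) fun u hu => by
      have hu1 : ZMod.unitsMap (dvd_mul_right M q) u = 1 := by
        refine Units.ext ?_
        have hdiv : M * q / q = M := Nat.mul_div_cancel M h.prime.pos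
        rw [hdiv] at hu
        exact hu
      show θK (Glue.diaA N'.H (ψ (ZMod.unitsMap (dvd_mul_right M q) u))) = 1
      rw [hu1, map_one, map_one, map_one]
    have key := Q.trace_sq_frobenius D h.prime hqp (hQM ▸ hqL)
      (hQu Q.M Q.dvd (hQM ▸ hqL) hq2) hA hσ
    rw [← trace_unique hpm hpS D (pt θK) Q σ, ← G.trace_eq θK σ] at key
    rw [← hθH, hb, ← heθ, map_sub, map_pow, map_natCast, key]
    simp

end Fermat.Agent.RT.Lift
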