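import Fermat.Agent.RT.Lift.Levels.LevelRep
import Fermat.Agent.RT.Lift.Levels.Pair
import Fermat.Agent.ConductorLevel.Raise

/-!
# The modules of the levels over a base level, with compatible matrices

The levels `L` are squarefree multiples of a base level `L₀`, with the character of `L₀`. Along
`L ∣ L q` there is a compatible homomorphism of Hecke algebras, and it carries the normalised
matrices of `L q` to those of `L`.
-/

set_option autoImplicit false
set_option linter.style.haveILetI false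
set_option linter.unusedSectionVars false
set_option synthInstance.maxHeartbeats 200000

noncomputable section

namespace Fermat.Agent.RT.Lift

open IsLocalRing Module
open Fermat.Agent.Deform
open Fermat.Agent.LevelRaising (RaiseData)
open Fermat.Agent.RT.Glue (sA diaA TA)

local notation "Q̄" => AlgebraicClosure ℚ

/-- A congruent level divides only congruent levels. -/
theorem isCongruentLevel_of_dvd {k : Type} [Field k] {S S' : Finset ℕ} (hSS : S ⊆ S')
    {abar : ℕ → k} {M L : ℕ} (hL : Squarefree L) (hML : M ∣ L)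
    (hS : ∀ q : ℕ, q.Prime → q ∣ L → q ∈ S') (h : IsCongruentLevel S abar M) :
    IsCongruentLevel S' abar L := by
  obtain ⟨f, hf, φ, hφ⟩ := h
  obtain ⟨h', hh, hhg⟩ := ConductorLevel.exists_raise hL hML hf
  exact ⟨h', hh, φ, fun ℓ hℓ hℓS a ha => hφ ℓ hℓ (fun h => hℓS (hSS h)) a
    (ha.trans (hhg ℓ hℓ fun hd => hℓS (hS ℓ hℓ hd)))⟩

section AlgHom

variable {O : Type} [CommRing O] [IsDomain O] [IsDiscreteValuationRing O]
  {A B : Type} [CommRing A] [IsLocalRing A] [CommRing B] [IsLocalRing B] [Algebra O A] [Algebra O B]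

/-- An algebra homomorphism of local algebras finite over `O` is local. -/
theorem isLocalHom_of_finite [Module.Finite O A] (hB : IsLocalHom (algebraMap O B))
    (φ : A →ₐ[O] B) : IsLocalHom (φ : A →+* B) := by
  refine ⟨fun a ha => ?_⟩
  by_contra hna
  obtain ⟨j, hj⟩ := Assembly.exists_pow_le_map (O := O) (A := A)
  have hmem : φ (a ^ j) ∈ ((maximalIdeal O).map (algebraMap O A)).map (φ : A →+* B) :=
    Ideal.mem_map_of_mem _ (hj (Ideal.pow_mem_pow ((IsLocalRing.mem_maximalIdeal a).2 hna) j))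
  rw [Ideal.map_map, φ.comp_algebraMap] at hmem
  have hle : (maximalIdeal O).map (algebraMap O B) ≤ maximalIdeal B :=
    Ideal.map_le_iff_le_comap.2 fun o ho => map_nonunit (algebraMap O B) o ho
  rw [map_pow] at hmem
  exact (IsLocalRing.mem_maximalIdeal _).1 (hle hmem) (ha.pow j)

end AlgHom

section Psi

variable {Δ : Type} [CommGroup Δ] {L₀ : ℕ}

/-- The character of a multiple of the base level. -/
abbrev psiAt (ψ₀ : (ZMod L₀)ˣ →* Δ) {L : ℕ} (h : L₀ ∣ L) : (ZMod L)ˣ →* Δ :=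
  ψ₀.comp (ZMod.unitsMap h)

theorem psiAt_mul (ψ₀ : (ZMod L₀)ˣ →* Δ) {L q : ℕ} (h : L₀ ∣ L) (h' : L₀ ∣ L * q) :
    psiAt ψ₀ h' = upPsi q (psiAt ψ₀ h) := by
  rw [upPsi, psiAt, psiAt, MonoidHom.comp_assoc, ZMod.unitsMap_comp]

theorem psiAt_surjective {ψ₀ : (ZMod L₀)ˣ →* Δ} (hψ : Function.Surjective ψ₀) {L : ℕ} [NeZero L]
    (h : L₀ ∣ L) : Function.Surjective (psiAt ψ₀ h) :=
  hψ.comp (ZMod.unitsMap_surjective h)

/-- The character of a multiple of the base level is trivial at the primes outside the base level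
and at those where it is trivial there. -/
theorem psiAt_eq_one {ψ₀ : (ZMod L₀)ˣ →* Δ} {L v : ℕ} (hv : v.Prime) (h : L₀ ∣ L) (hvL : v ∣ L)
    (hv₀ : v ∣ L₀ → ∀ u : (ZMod L₀)ˣ, ((u : ZMod L₀).cast : ZMod (L₀ / v)) = 1 → ψ₀ u = 1)
    (u : (ZMod L)ˣ) (hu : ((u : ZMod L).cast : ZMod (L / v)) = 1) : psiAt ψ₀ h u = 1 := by
  have h1 : ZMod.unitsMap (Nat.div_dvd_of_dvd hvL) u = 1 :=
    Units.ext (by rw [ZMod.unitsMap_val, hu, Units.val_one])
  by_cases hv' : v ∣ L₀
  · refine hv₀ hv' _ ?_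
    have hd : L₀ / v ∣ L / v := Nat.div_dvd_div hv' h
    have h2 : ZMod.unitsMap (Nat.div_dvd_of_dvd hv') (ZMod.unitsMap h u) = 1 := by
      rw [← MonoidHom.comp_apply, ZMod.unitsMap_comp, ← ZMod.unitsMap_comp hd
        (Nat.div_dvd_of_dvd hvL), MonoidHom.comp_apply, h1, map_one]
    have h3 := congrArg Units.val h2
    rwa [ZMod.unitsMap_val, Units.val_one] at h3
  · have hd : L₀ ∣ L / v := by
      refine (((Nat.Prime.coprime_iff_not_dvd hv).2 hv').symm.dvd_of_dvd_mul_left ?_)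
      rwa [Nat.mul_div_cancel' hvL]
    rw [MonoidHom.comp_apply, ← ZMod.unitsMap_comp hd (Nat.div_dvd_of_dvd hvL),
      MonoidHom.comp_apply, h1, map_one, map_one]

end Psi

variable {O : Type} [CommRing O] [IsDomain O] [IsDiscreteValuationRing O]
  [IsAdicComplete (maximalIdeal O) O] [Finite (ResidueField O)] [CharZero O]
  {p : ℕ} [Fact p.Prime] [CharP (ResidueField O) p]
  {Δ : Type} [CommGroup Δ] [Finite Δ] {S : Finset ℕ} {abar : ℕ → ResidueField O}
  {ρbar : ResidualGaloisRep (ResidueField O)} {bb : Basis (Fin 2) (ResidueField O) ρbar.V}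
  {W : Rigid O}

/-- A level with its module and its normalised matrices. -/
structure LevelAt (p : ℕ) [Fact p.Prime] (W : Rigid O) (ρbar : ResidualGaloisRep (ResidueField O))
    (S : Finset ℕ) (abar : ℕ → ResidueField O) {L : ℕ} (ψ : (ZMod L)ˣ →* Δ) : Type 1 where
  N : LevelModule O S abar ψ
  hS : ∀ q : ℕ, q.Prime → q ∣ L → q ∈ S
  [isLocalRing : IsLocalRing N.H.algebra]
  [isLocalHom : IsLocalHom (algebraMap O N.H.algebra)]
  rep : LevelRep p W ρbar N.H hS

attribute [instance] LevelAt.isLocalRing LevelAt.isLocalHom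

/-- **Every congruent level carries a module with normalised matrices.** -/
theorem nonempty_levelAt (hp : (p : O) ∈ maximalIdeal O) (hΔ : IsPGroup p Δ) (hp2 : p ≠ 2)
    (hpS : p ∈ S) (habs : ρbar.IsAbsolutelyIrreducible) (hbar : Glue.HasCharpolys S abar ρbar)
    (hW : W.rb = matRes ρbar bb)
    (hEis : ∃ ℓ : ℕ, ℓ.Prime ∧ ℓ ∉ S ∧ abar ℓ ≠ 1 + (ℓ : ResidueField O))
    {L : ℕ} [NeZero L] {ψ : (ZMod L)ˣ →* Δ} (hψ : Function.Surjective ψ)
    (hw : GammaH.HasSTWeights O L) (hL : Squarefree L) (hS : ∀ q : ℕ, q.Prime → q ∣ L → q ∈ S)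
    (hcong : IsCongruentLevel S abar L) : Nonempty (LevelAt p W ρbar S abar ψ) := by
  obtain ⟨N, hN⟩ := nonempty_levelModule hp2 hw hΔ hψ hL hS hEis
  have : IsLocalRing N.H.algebra := Glue.isLocalRing_algebra N.H hp hΔ (hN.2 hcong)
  have : IsLocalHom (algebraMap O N.H.algebra) := Glue.isLocalHom_algebraMap N.H hp hΔ
  obtain ⟨R⟩ := exists_levelRep (H := N.H) (hS := hS) hp hΔ hp2 hpS habs hbar hW
  exact ⟨⟨N, hS, R⟩⟩

variable {L L' : ℕ} [NeZero L] [NeZero L'] {ψ : (ZMod L)ˣ →* Δ}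

/-- A compatible homomorphism respects the twisted eigenvalues. -/
theorem IsCompatHom.map_sA {ψ' : (ZMod L')ˣ →* Δ} (h : L ∣ L')
    (hψ' : ψ' = ψ.comp (ZMod.unitsMap h))
    {H' : HeckeModule L' ψ' S abar} {H : HeckeModule L ψ S abar} {π : H'.algebra →ₐ[O] H.algebra}
    (hπ : IsCompatHom H' H π) (hS : ∀ q : ℕ, q.Prime → q ∣ L → q ∈ S)
    (hS' : ∀ q : ℕ, q.Prime → q ∣ L' → q ∈ S) {ℓ : ℕ} (hℓ : ℓ.Prime) (hℓS : ℓ ∉ S) :
    π (sA H' hS' hℓ hℓS) = sA H hS hℓ hℓS := by
  subst hψ'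
  rw [sA, map_mul, map_pow, hπ.map_dia, hπ.map_T, MonoidHom.comp_apply]
  refine (Glue.sA_eq hS hℓ hℓS ?_).symm
  rw [ZMod.unitsMap_val, ZMod.coe_unitOfCoprime, ZMod.cast_natCast h]

namespace LevelAt

variable (X : LevelAt p W ρbar S abar ψ)

/-- A compatible homomorphism carries the normalised matrices to the normalised matrices. -/
theorem mapM_ru (hp2 : p ≠ 2) (hpS : p ∈ S)
    (habs : ρbar.IsAbsolutelyIrreducible) (hW : W.rb = matRes ρbar bb) (h : L ∣ L')
    (Y : LevelAt p W ρbar S abar (ψ.comp (ZMod.unitsMap h)))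
    {π : Y.N.H.algebra →ₐ[O] X.N.H.algebra} (hπ : IsCompatHom Y.N.H X.N.H π) :
    mapM (π : Y.N.H.algebra →+* X.N.H.algebra) Y.rep.ru = X.rep.ru := by
  have := Glue.isAdicComplete_algebra X.N.H
  have : IsNoetherianRing X.N.H.algebra := IsNoetherianRing.of_finite O _
  have hloc : IsLocalHom (π : Y.N.H.algebra →+* X.N.H.algebra) :=
    isLocalHom_of_finite X.isLocalHom π
  obtain ⟨σ₀, hσ₀⟩ := exists_entry_ne_zero habs hW
  have h2 : IsUnit (2 : X.N.H.algebra) := by
    rw [← map_ofNat (algebraMap O X.N.H.algebra) 2]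
    exact (GammaH.isUnit_two (p := p) hp2).map _
  refine eq_of_trace_eq (Y.rep.lifts.map X.rep.isResAlg π hloc) X.rep.lifts (Y.rep.normal.map π)
    X.rep.normal h2 hσ₀ fun g => ?_
  refine trace_eq_of_frobenius (Y.rep.cont.map _ hloc) X.rep.cont S (fun ℓ hℓ hℓS P hP σ hσ => ?_) g
  rw [X.rep.trace_frobenius hpS hℓ hℓS hP hσ]
  show ((Y.rep.ru σ).map π).trace = _
  rw [← AddMonoidHom.map_trace π, Y.rep.trace_frobenius hpS hℓ hℓS hP hσ]
  exact hπ.map_sA h rfl X.hS Y.hS hℓ hℓS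

/-- The level `L q` maps to the level `L`. -/
theorem exists_compatHom (hψ : Function.Surjective ψ) {q : ℕ} (hq : RaiseData q L) (hqS : q ∈ S)
    [NeZero (L * q)] (Y : LevelAt p W ρbar S abar (upPsi q ψ)) :
    ∃ π : Y.N.H.algebra →ₐ[O] X.N.H.algebra, IsCompatHom Y.N.H X.N.H π :=
  (Lift.exists_compatHom X.N Y.N hq hqS hψ).imp fun _ h => h.1

end LevelAt

end Fermat.Agent.RT.Lift
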