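import Fermat.Agent.RT.Lift.Levels.UnitRoot
import Fermat.Agent.RT.Lift.Levels.Kills
import Fermat.Agent.RT.Lift.Levels.Tower
import Fermat.Agent.RT.Lift.AtP.OrdinaryLevel

/-!
# The kernel of the transposed degeneracy map at `p` is new at `p`

On an eigen homomorphism killed by both traces from level `M p` to level `M` the newform has `p`
in its level, so the unit root of the representation at `p` has square one there; by semisimplicity
this holds as operators on the kernel.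
-/

set_option autoImplicit false
set_option linter.style.haveILetI false
set_option linter.unusedSectionVars false
set_option synthInstance.maxHeartbeats 200000
set_option maxHeartbeats 1000000

noncomputable section

namespace Fermat.Agent.RT.Lift

open IsLocalRing MvPolynomial Module
open Fermat.Agent.Deform (Gal Rigid toRep)
open Fermat.Agent.RT.GammaH
open Fermat.Agent.LevelRaising (RaiseData)
open Fermat.Agent.RT.Glue (KBar Point)
open GaloisReps (HeckeGaloisModel)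

variable {O : Type} [CommRing O] [IsDomain O] [IsDiscreteValuationRing O]
  [IsAdicComplete (maximalIdeal O) O] [Finite (ResidueField O)] [CharZero O]
  {p : ℕ} [Fact p.Prime] [CharP (ResidueField O) p] {Δ : Type} [CommGroup Δ] [Finite Δ]
  {S : Finset ℕ} {abar : ℕ → ResidueField O} {W : Rigid O}
  {ρbar : ResidualGaloisRep (ResidueField O)}

section Ordinary

variable {L : ℕ} [NeZero L] {ψ : (ZMod L)ˣ →* Δ} (X : LevelAt p W ρbar S abar ψ)

/-- The residual representation of a level is ordinary if the given one is. -/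
theorem LevelAt.isOrdinaryAt_residual
    (hord : (GaloisRepAdic.ofResidualGaloisRep ρbar).IsOrdinaryAt p) :
    (GaloisRepAdic.ofResidualGaloisRep X.rep.G.rep.residual).IsOrdinaryAt p := by
  set f := ResidueField.map (algebraMap O X.N.H.algebra)
  obtain ⟨e⟩ := X.rep.residual
  have hf : IsLocalHom f := ⟨fun a ha => isUnit_iff_ne_zero.2 fun h0 => by
    rw [h0, map_zero] at ha; exact not_isUnit_zero ha⟩
  exact Lower.isOrdinaryAt_of_isEquiv
    (ρ₁ := (GaloisRepAdic.ofResidualGaloisRep ρbar).baseChangeAlong f hf)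
    (ρ₂ := GaloisRepAdic.ofResidualGaloisRep X.rep.G.rep.residual)
    ⟨{ toLinearEquiv := e.symm.toLinearEquiv, map_apply := e.symm.map_apply }⟩
    (Lower.isOrdinaryAt_adicBaseChange f hf hord)

/-- **A level without `p ^ 2` in the levels of its points is ordinary at `p`.** -/
theorem LevelAt.isOrdinaryAt (hp3 : 3 ≤ p) (hΔ : IsPGroup p Δ) (hpS : p ∈ S)
    (hord : (GaloisRepAdic.ofResidualGaloisRep ρbar).IsOrdinaryAt p)
    (hsq : ∀ θ, ¬ p ^ 2 ∣ (X.rep.pt θ).M) : (toRep X.rep.ru X.rep.cont).IsOrdinaryAt p := by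
  have hp : (p : O) ∈ maximalIdeal O := by
    rw [← residue_eq_zero_iff, map_natCast, CharP.cast_eq_zero]
  exact Lower.isOrdinaryAt_of_isEquiv X.rep.equiv (AtP.isOrdinaryAt_glued X.rep.G hp hΔ hp3 hpS
    (Glue.isAbsolutelyIrreducible_of_trace_commutator _ X.rep.G.exists_trace_commutator)
    (X.isOrdinaryAt_residual hord) hsq)

/-- The unit root in a basis of the glued representation. -/
theorem LevelAt.exists_rootBasis {z : X.N.H.algebra}
    (hz : HasUnitRoot (toRep X.rep.ru X.rep.cont) p z) {P : ValuationSubring Arith.QBar}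
    (hP : P.LiesOverPrime p) :
    ∃ (b : Basis (Fin 2) X.N.H.algebra X.rep.G.rep.V) (F : Gal), P.IsFrobeniusAt F p ∧
      (∀ τ ∈ P.inertiaSubgroupIn ℚ, ∀ v, X.rep.G.rep.ρ τ v - v ∈ X.N.H.algebra ∙ b 0) ∧
      (∀ σ ∈ P.decompositionSubgroup ℚ, X.rep.G.rep.ρ σ (b 0) ∈ X.N.H.algebra ∙ b 0) ∧
      ∀ v, X.rep.G.rep.ρ F v - z • v ∈ X.N.H.algebra ∙ b 0 := by
  obtain ⟨b, hI, hD, F, hF, hz⟩ := hz P hP
  obtain ⟨e⟩ := X.rep.equiv
  have key : ∀ {w}, w ∈ X.N.H.algebra ∙ b 0 →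
      e.toLinearEquiv.symm w ∈ X.N.H.algebra ∙ b.map e.toLinearEquiv.symm 0 := fun {w} hw => by
    obtain ⟨c, rfl⟩ := Submodule.mem_span_singleton.mp hw
    rw [map_smul]
    exact Submodule.mem_span_singleton.mpr ⟨c, rfl⟩
  have hcomm : ∀ (σ : Gal) v,
      e.toLinearEquiv.symm ((toRep X.rep.ru X.rep.cont).ρ σ (e.toLinearEquiv v)) =
        X.rep.G.rep.ρ σ v := fun σ v => by
    rw [← e.map_apply, LinearEquiv.symm_apply_apply]
  refine ⟨b.map e.toLinearEquiv.symm, F, hF, fun τ hτ v => ?_, fun σ hσ => ?_, fun v => ?_⟩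
  · have h := key (hI τ hτ (e.toLinearEquiv v))
    rwa [map_sub, hcomm, LinearEquiv.symm_apply_apply] at h
  · have h := key (hD σ hσ)
    rwa [show b 0 = e.toLinearEquiv (b.map e.toLinearEquiv.symm 0) by simp, hcomm] at h
  · have h := key (hz (e.toLinearEquiv v))
    rwa [map_sub, map_smul, hcomm, LinearEquiv.symm_apply_apply] at h

end Ordinary

variable {M : ℕ} [NeZero M] [NeZero (M * p)] {ψ : (ZMod M)ˣ →* Δ}
  (N : LevelModule O S abar ψ) (X : LevelAt p W ρbar S abar (upPsi p ψ))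
  (h : RaiseData p M) (hpS : p ∈ S) (d : RootData p)

omit [IsAdicComplete (maximalIdeal O) O] [Finite (ResidueField O)] [CharZero O]
  [CharP (ResidueField O) p] [NeZero M] [NeZero (M * p)] [Finite Δ] in
theorem upPsi_eq_one (hp : p.Prime) {u : (ZMod (M * p))ˣ}
    (hu : ((u : ZMod (M * p)).cast : ZMod (M * p / p)) = 1) : upPsi p ψ u = 1 := by
  have h1 : ZMod.unitsMap (dvd_mul_right M p) u = 1 := by
    refine Units.ext ?_
    rw [Nat.mul_div_cancel M hp.pos] at hu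
    exact hu
  show ψ (ZMod.unitsMap (dvd_mul_right M p) u) = 1
  rw [h1, map_one]

theorem LevelAt.sq_not_dvd_upPsi (θ : X.N.H.algebra →ₐ[O] KBar O) :
    ¬ p ^ 2 ∣ (X.rep.pt θ).M :=
  X.rep.sq_not_dvd Fact.out (dvd_mul_left p M) (fun _ hu => upPsi_eq_one Fact.out hu) θ

/-- **The square of the unit root on the kernel of the transposed degeneracy map at `p`.** -/
theorem unitRoot_sq_apply_eq_zero (hp3 : 3 ≤ p) (hw : HasSTWeights O (M * p))
    (hΔ : IsPGroup p Δ) (hψ : Function.Surjective ψ) (hL : Squarefree (M * p))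
    (hEis : ∃ ℓ : ℕ, ℓ.Prime ∧ ℓ ∉ S ∧ abar ℓ ≠ 1 + (ℓ : ResidueField O))
    (hord : (GaloisRepAdic.ofResidualGaloisRep ρbar).IsOrdinaryAt p)
    {x : X.N.H.M} (hx : deltaStar N X.N h hpS x = 0) :
    ((unitRoot X.rep.ru d.F d.τ ^ 2 - 1 : X.N.H.algebra) : Module.End O X.N.H.M) x = 0 := by
  classical
  set z := unitRoot X.rep.ru d.F d.τ with hzdef
  have hp2 : p ≠ 2 := by omega
  have hS := X.hS
  have hpm : (p : O) ∈ maximalIdeal O := by
    rw [← residue_eq_zero_iff, map_natCast, CharP.cast_eq_zero]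
  have : IsNoetherianRing X.N.H.algebra := isNoetherian_of_tower O inferInstance
  obtain ⟨b₀, F, hF, hI, hD, hFz⟩ := X.exists_rootBasis
    (d.hasUnitRoot (X.rep.detIsCyclotomic hpm hΔ)
      (X.isOrdinaryAt hp3 hΔ hpS hord X.sq_not_dvd_upPsi))
    (CFT.Local.padicPlace_liesOverPrime p)
  obtain ⟨ι⟩ := GaloisReps.exists_padicHom O hpm
  obtain ⟨e⟩ := Glue.nonempty_ringEquiv_complex O ι
  let : Algebra O ℂ := (e.toRingHom.comp (algebraMap O (KBar O))).toAlgebra
  have hinj : Function.Injective (algebraMap O ℂ) := e.injective.comp (by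
    rw [IsScalarTower.algebraMap_eq O (FractionRing O) (KBar O)]
    exact (algebraMap (FractionRing O) _).injective.comp (IsFractionRing.injective O _))
  have hψ' : Function.Surjective (upPsi p ψ) := upPsi_surjective hψ
  have hneg : (-1 : (ZMod (M * p))ˣ) ∈ (upPsi p ψ).ker := neg_one_mem_ker (p := p) _ hp2 hΔ
  obtain ⟨hhalf, hodd⟩ := halfInvExp_eq_card (p := p) hp2 hΔ hψ'
  obtain ⟨l, hl, hlS, hlE⟩ := id hEis
  obtain ⟨P, hP, hpar⟩ := exists_parabolicOp (O := O) (K := (upPsi p ψ).ker) S abar hL hneg hl hlS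
    (fun hd => hlS (hS l hl hd)) hlE
  obtain ⟨b, hb⟩ := opAlg_surjective X.N.H hψ' (z ^ 2 - 1)
  let W' : Submodule ℂ (HomC (upPsi p ψ).ker) :=
    ModularCurve.Period.parabolicHoms ℂ (gammaH (M * p) (upPsi p ψ).ker) ℂ ⊓
      starKer (K := ψ.ker) h (halfInvExp Δ)
  have hx0 : degStarH O S h ψ.ker (halfInvExp Δ) (X.N.incl x) = 0 := by
    rw [← incl_deltaStar N X.N h hpS x, hx]
    simp
  have hW := X.N.smul_incl_eq_zero (x := x) hneg hL hodd (le_refl S) hS hinj hP (W := W')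
    inf_le_left
    (fun c φ hφ => ⟨opC_mem_parabolicHoms hneg c φ hφ.1,
      opC_mem_starKer (K := ψ.ker) h hpS (halfInvExp Δ) c hφ.2⟩) (a := b)
    ⟨hpar ℂ (toHomMod (toHomC (X.N.incl x))),
      opC_toHomC_mem_starKer (K := ψ.ker) h (halfInvExp Δ) hpS P hx0⟩ fun θ φ hφW hφ0 heig he => ?_
  · rw [← hb]
    refine X.N.incl_injective ?_
    rw [X.N.incl_opAlg, map_zero]
    rw [LinearEquiv.apply_symm_apply] at hW
    exact hW
  · obtain ⟨θH, hθH'⟩ := X.N.exists_point_of_eigen hψ' (le_refl S) hφ0 heig he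
    have hθH : ∀ c, θH (opAlg X.N.H c) = θ c := fun c => by rw [hθH', widen_refl]
    have hC : ∀ c : O, θ (C c) = algebraMap O ℂ c := fun c => by
      have h1 := heig (C c)
      rw [opC_C, Module.algebraMap_end_apply] at h1
      exact (smul_left_injective ℂ hφ0 h1).symm
    let θK : X.N.H.algebra →ₐ[O] KBar O :=
      { e.symm.toRingHom.comp θH with
        commutes' := fun c => by
          show e.symm (θH (algebraMap O X.N.H.algebra c)) = _
          rw [← (opAlg X.N.H).commutes c, hθH, MvPolynomial.algebraMap_eq, hC]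
          exact e.symm_apply_apply _ }
    have heθ : ∀ y, e (θK y) = θH y := fun y => e.apply_symm_apply _
    have hθeq : e.toRingHom.comp θK.toRingHom = θH := RingHom.ext heθ
    let a : ℕ → ℂ := fun ℓ =>
      if hℓ : ℓ.Prime ∧ ℓ ∉ S then θ (MvPolynomial.X (Sum.inr ⟨ℓ, hℓ⟩)) else 0
    have hφd : ∀ u, diamond (M * p) (upPsi p ψ).ker ℂ u φ =
        (pointChar X.N θH u : ℂ) • φ := fun u => by
      have h1 := heig (MvPolynomial.X (Sum.inl u))
      rw [opC_inl, ← hθH, opAlg, aeval_X] at h1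
      exact h1
    have hφT : ∀ (ℓ : ℕ) [Fact ℓ.Prime], ℓ ∉ S →
        hecke (M * p) (upPsi p ψ).ker ℓ ℂ φ = a ℓ • φ := by
      intro ℓ hℓ hℓS
      have : Fact (⟨ℓ, hℓ.out, hℓS⟩ : {ℓ : ℕ // ℓ.Prime ∧ ℓ ∉ S}).1.Prime := hℓ
      have h1 := heig (MvPolynomial.X (Sum.inr ⟨ℓ, hℓ.out, hℓS⟩))
      rw [opC_inr] at h1
      simp only [a, dif_pos (show ℓ.Prime ∧ ℓ ∉ S from ⟨hℓ.out, hℓS⟩)]
      exact h1
    have ha : ∀ (ℓ : ℕ) (hℓ : ℓ.Prime) (hℓS : ℓ ∉ S), a ℓ = e (θK (Glue.TA X.N.H hℓ hℓS)) := by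
      intro ℓ hℓ hℓS
      simp only [a, dif_pos (show ℓ.Prime ∧ ℓ ∉ S from ⟨hℓ, hℓS⟩)]
      rw [heθ, ← hθH (MvPolynomial.X (Sum.inr ⟨ℓ, hℓ, hℓS⟩)), opAlg, aeval_X]
      rfl
    have hnegK : (-1 : (ZMod M)ˣ) ∈ ψ.ker := neg_one_mem_ker (p := p) ψ hp2 hΔ
    obtain ⟨hcor, hstar⟩ := starDeg_eq_zero_of_mem (K := ψ.ker) h (halfInvExp Δ) hφW.2
    obtain ⟨L', g, hg, hpL', hdvd, hcoef, hsq, hdesc, -⟩ :=
      Levels.exists_newform_of_kernel (K := ψ.ker) h hL hnegK hodd S hS (pointChar X.N θH)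
        (pointChar_ker X.N θH) a hφW.1 hφ0 hφd hφT hcor hstar
    have : NeZero L' := ⟨fun h0 => pow_ne_zero 2 (NeZero.ne (M * p))
      (Nat.eq_zero_of_zero_dvd (h0 ▸ hdvd))⟩
    obtain ⟨Q, hQM, -⟩ := exists_point_of_data X.N hp2 hw hΔ hψ' hL hS hEis e θK (le_refl S) a ha
      hg hdvd (hθeq ▸ hcoef) (hθeq ▸ hsq) (hθeq ▸ hdesc)
    have hq2 : ¬ p ^ 2 ∣ Q.M := Q.sq_not_dvd h.prime (dvd_mul_left p M) fun u hu => by
      rw [upPsi_eq_one h.prime hu, map_one, map_one]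
    have key := (AtP.point_unitRoot X.rep.G hpm hΔ hp3 hpS (X.isOrdinaryAt_residual hord) Q
      (CFT.Local.padicPlace_liesOverPrime p) hF b₀ hI hD hFz).2 (hQM ▸ hpL') hq2
    rw [← hθH, hb, ← heθ, map_sub, map_pow, map_one, sq, key, sub_self, map_zero]

/-- `T ^ 2 - (p + 1) ^ 2` kills the kernel, for `T = z + p / z` with `z` the unit root. -/
theorem symRoot_sq_apply_eq_zero (hp3 : 3 ≤ p) (hw : HasSTWeights O (M * p))
    (hΔ : IsPGroup p Δ) (hψ : Function.Surjective ψ) (hL : Squarefree (M * p))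
    (hEis : ∃ ℓ : ℕ, ℓ.Prime ∧ ℓ ∉ S ∧ abar ℓ ≠ 1 + (ℓ : ResidueField O))
    (hord : (GaloisRepAdic.ofResidualGaloisRep ρbar).IsOrdinaryAt p)
    {T : X.N.H.algebra} (hz : IsUnit (unitRoot X.rep.ru d.F d.τ))
    (hT : T * unitRoot X.rep.ru d.F d.τ = unitRoot X.rep.ru d.F d.τ ^ 2 + p)
    {x : X.N.H.M} (hx : deltaStar N X.N h hpS x = 0) :
    ((T ^ 2 - (((p + 1) ^ 2 : ℕ) : X.N.H.algebra) : X.N.H.algebra) :
      Module.End O X.N.H.M) x = 0 := by
  set z := unitRoot X.rep.ru d.F d.τ with hzdef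
  obtain ⟨w, hw'⟩ := hz.exists_left_inv
  have e : T ^ 2 - (((p + 1) ^ 2 : ℕ) : X.N.H.algebra) =
      (w ^ 2 * (z ^ 2 - (p : X.N.H.algebra) ^ 2)) * (z ^ 2 - 1) := by
    push_cast
    linear_combination w ^ 2 * (T * z + z ^ 2 + p) * hT
      + ((p + 1 : X.N.H.algebra) ^ 2 - T ^ 2) * (w * z + 1) * hw'
  rw [e, Subalgebra.coe_mul, Module.End.mul_apply,
    unitRoot_sq_apply_eq_zero N X h hpS d hp3 hw hΔ hψ hL hEis hord hx, map_zero]

end Fermat.Agent.RT.Lift

end
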