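import Fermat.Agent.RT.Lift.Levels.FlatStrict
import Fermat.Agent.EC.Rep.Cyclotomic
import Fermat.Agent.Arith.Frobenius
import Fermat.Agent.CFT.Local.Global

/-!
# The unit root of an ordinary representation from traces and determinants

For `τ` in inertia at `p` with `det ρ(τ) - 1` a unit and a Frobenius element `F`, the scalar of `F`
on the unramified quotient is `(det τ ⬝ tr F - tr (F τ)) / (det τ - 1)`, whatever the line.
-/

set_option autoImplicit false
set_option linter.style.haveILetI false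

noncomputable section

namespace Fermat.Agent.RT.Lift

open IsLocalRing Module Fermat.Agent.Deform Fermat.Agent.Arith
open scoped Pointwise

local notation "Q̄" => AlgebraicClosure ℚ

/-- The scalar on the unramified quotient, by traces and determinants. -/
def unitRoot {A : Type} [CommRing A] (r : Gal →* M2 A) (F τ : Gal) : A :=
  Ring.inverse ((r τ).det - 1) * ((r τ).det * (r F).trace - (r (F * τ)).trace)

section Formula

variable {A : Type} [CommRing A] {r r' : Gal →* M2 A} {F τ : Gal}

theorem unitRoot_congr (ht : ∀ σ, (r σ).trace = (r' σ).trace) (hd : (r τ).det = (r' τ).det) :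
    unitRoot r F τ = unitRoot r' F τ := by
  rw [unitRoot, unitRoot, ht, ht, hd]

theorem unitRoot_conj (g : Gal) :
    unitRoot r (g * F * g⁻¹) (g * τ * g⁻¹) = unitRoot r F τ := by
  have ht : ∀ σ, (r (g * σ * g⁻¹)).trace = (r σ).trace := fun σ => by
    rw [map_mul, map_mul, Matrix.trace_mul_comm, ← mul_assoc, ← map_mul, inv_mul_cancel, map_one,
      one_mul]
  have hd : (r (g * τ * g⁻¹)).det = (r τ).det := by
    rw [map_mul, map_mul, Matrix.det_mul, Matrix.det_mul, mul_right_comm, ← Matrix.det_mul,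
      ← map_mul, mul_inv_cancel, map_one, Matrix.det_one, one_mul]
  rw [unitRoot, unitRoot, hd, ht,
    show g * F * g⁻¹ * (g * τ * g⁻¹) = g * (F * τ) * g⁻¹ by group, ht]

/-- In triangular form the formula is the lower diagonal entry of `F`. -/
theorem unitRoot_eq (hu : IsUnit ((r τ).det - 1)) (hF : r F 1 0 = 0) (hτ : r τ 1 0 = 0)
    (hτ1 : r τ 1 1 = 1) : unitRoot r F τ = r F 1 1 := by
  have e : (r τ).det * (r F).trace - (r (F * τ)).trace = ((r τ).det - 1) * r F 1 1 := by
    rw [map_mul, Matrix.det_fin_two, Matrix.trace_fin_two, Matrix.trace_fin_two,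
      Matrix.mul_apply, Matrix.mul_apply, Fin.sum_univ_two, Fin.sum_univ_two, hF, hτ, hτ1]
    ring
  rw [unitRoot, e, ← mul_assoc, Ring.inverse_mul_cancel _ hu, one_mul]

theorem map_unitRoot {B : Type} [CommRing B] (φ : A →+* B) (hu : IsUnit ((r τ).det - 1)) :
    φ (unitRoot r F τ) = unitRoot (mapM φ r) F τ := by
  have hd : (mapM φ r τ).det = φ (r τ).det := (RingHom.map_det φ _).symm
  have ht : ∀ σ, (mapM φ r σ).trace = φ (r σ).trace := fun σ => (AddMonoidHom.map_trace φ _).symm
  rw [unitRoot, unitRoot, hd, ht, ht, map_mul, map_sub, map_mul]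
  congr 1
  have h1 : φ (Ring.inverse ((r τ).det - 1)) * (φ (r τ).det - 1) = 1 := by
    rw [← map_one φ, ← map_sub, ← map_mul, Ring.inverse_mul_cancel _ hu]
  have hu' : IsUnit (φ (r τ).det - 1) := by
    rw [← map_one φ, ← map_sub]
    exact hu.map φ
  exact hu'.mul_right_cancel (h1.trans (Ring.inverse_mul_cancel _ hu').symm)

end Formula

/-- A Frobenius element at the standard place over `p` and an inertia element there with
nontrivial cyclotomic character. -/
structure RootData (p : ℕ) [Fact p.Prime] where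
  F : Gal
  τ : Gal
  frob : (padicPlace p).IsFrobeniusAt F p
  mem : τ ∈ (padicPlace p).inertiaSubgroupIn ℚ
  ne_one : EC.Rep.cyclotomicHom p τ ≠ 1

theorem nonempty_rootData {p : ℕ} [Fact p.Prime] (hp2 : p ≠ 2) : Nonempty (RootData p) := by
  have hP := CFT.Local.padicPlace_liesOverPrime p
  obtain ⟨F, hF⟩ := Arith.exists_isFrobeniusAt hP (Fact.out : p.Prime)
  obtain ⟨τ, hτ, hτa⟩ := EC.Rep.exists_mem_inertia_cyclotomicHom_eq hP (-1 : (ZMod p)ˣ)
  refine ⟨⟨F, τ, hF, hτ, fun h => ?_⟩⟩
  rw [hτa, ← Units.val_inj, Units.val_neg, Units.val_one] at h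
  have h2 : ((2 : ℕ) : ZMod p) = 0 := by
    rw [Nat.cast_ofNat, ← one_add_one_eq_two]
    nth_rw 1 [← h]
    exact neg_add_cancel 1
  exact hp2 ((Nat.prime_dvd_prime_iff_eq Fact.out Nat.prime_two).1
    ((ZMod.natCast_eq_zero_iff _ _).1 h2))

variable {p : ℕ} [Fact p.Prime]

/-- A cyclotomic determinant is not one at `τ`, even residually. -/
theorem RootData.isUnit_det (d : RootData p) {A : Type} [CommRing A] [IsLocalRing A]
    {r : Gal →* M2 A} {hc : IsCont r} (hdet : (toRep r hc).DetIsCyclotomic p) :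
    IsUnit ((r d.τ).det - 1) := by
  haveI : NeZero (p ^ 1) := ⟨pow_ne_zero 1 (Fact.out : p.Prime).ne_zero⟩
  obtain ⟨a, ha⟩ := CFT.Tangent.exists_pow_eq_on_roots (p ^ 1) d.τ
  have h1 := hdet.2 1 d.τ a ha
  rw [show LinearMap.det ((toRep r hc).ρ d.τ) = (r d.τ).det from LinearMap.det_toLin' _, pow_one]
    at h1
  refine of_not_not fun hu => d.ne_one ?_
  have hm := sub_mem ((IsLocalRing.mem_maximalIdeal _).2 hu)
    ((Ideal.span_singleton_le_iff_mem _).2 hdet.1 h1)
  rw [sub_sub_sub_cancel_left] at hm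
  have hchar : CharP (ResidueField A) p := by
    refine (CharP.charP_iff_prime_eq_zero Fact.out).2 ?_
    rw [← map_natCast (residue A), residue_eq_zero_iff]
    exact hdet.1
  have ha1 : (a : ZMod p) = 1 := by
    rw [← residue_eq_zero_iff, map_sub, map_natCast, map_one, sub_eq_zero] at hm
    have h2 : ((a : ℕ) : ResidueField A) = ((1 : ℕ) : ResidueField A) := by rw [hm, Nat.cast_one]
    rw [CharP.natCast_eq_natCast (ResidueField A) p, ← ZMod.natCast_eq_natCast_iff] at h2
    rwa [Nat.cast_one] at h2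
  refine Units.ext ?_
  rw [EC.Rep.cyclotomicHom_apply,
    modularCyclotomicCharacter_eq_natCast _ (c := a) fun t ht => ha t (by rwa [pow_one]), ha1,
    Units.val_one]

/-- **An ordinary representation has the formula as its unit root.** -/
theorem RootData.hasUnitRoot (d : RootData p) {A : Type} [CommRing A] [IsLocalRing A]
    [IsNoetherianRing A] {r : Gal →* M2 A} {hc : IsCont r}
    (hdet : (toRep r hc).DetIsCyclotomic p) (hord : (toRep r hc).IsOrdinaryAt p) :
    HasUnitRoot (toRep r hc) p (unitRoot r d.F d.τ) := by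
  intro P hP
  obtain ⟨g, rfl⟩ := Arith.exists_smul_eq (CFT.Local.padicPlace_liesOverPrime p) hP Fact.out
  obtain ⟨L, ⟨b, rfl⟩, hD, hI⟩ := hord _ hP
  have hF := Arith.isFrobeniusAt_conj (g := g) d.frob
  have hτ := Arith.mem_inertia_smul_iff (g := g).2 d.mem
  have hb0 : ∀ σ ∈ (g • padicPlace p).decompositionSubgroup ℚ,
      (toRep r hc).ρ σ (b 0) ∈ A ∙ b 0 := fun σ hσ =>
    hD σ hσ _ (Submodule.mem_span_singleton_self _)
  refine ⟨b, hI, hb0, g * d.F * g⁻¹, hF, ?_⟩
  have ht : ∀ σ, (matOf (toRep r hc) b σ).trace = (r σ).trace := fun σ => by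
    show (LinearMap.toMatrix b b ((toRep r hc).ρ σ)).trace = _
    rw [← LinearMap.trace_eq_matrix_trace]
    refine (LinearMap.trace_eq_matrix_trace A (Pi.basisFun A (Fin 2)) _).trans ?_
    exact congrArg Matrix.trace (DFunLike.congr_fun (matOf_toRep r hc) σ)
  have hd : ∀ σ, (matOf (toRep r hc) b σ).det = (r σ).det := fun σ => by
    show (LinearMap.toMatrix b b ((toRep r hc).ρ σ)).det = _
    rw [LinearMap.det_toMatrix]
    exact LinearMap.det_toLin' _
  have h10 : ∀ σ, (toRep r hc).ρ σ (b 0) ∈ A ∙ b 0 → matOf (toRep r hc) b σ 1 0 = 0 := fun σ hσ => by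
    rw [matOf_apply]
    exact AtP.repr_one_eq_of_sub_mem b hσ
  have hu : IsUnit ((matOf (toRep r hc) b (g * d.τ * g⁻¹)).det - 1) := by
    rw [hd, map_mul, map_mul, Matrix.det_mul, Matrix.det_mul, mul_right_comm, ← Matrix.det_mul,
      ← map_mul, mul_inv_cancel, map_one, Matrix.det_one, one_mul]
    exact d.isUnit_det hdet
  have hτ10 : matOf (toRep r hc) b (g * d.τ * g⁻¹) 1 0 = 0 := h10 _ (by
    have := add_mem (hI _ hτ (b 0)) (Submodule.mem_span_singleton_self (b 0))
    rwa [sub_add_cancel] at this)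
  have hτ11 : matOf (toRep r hc) b (g * d.τ * g⁻¹) 1 1 = 1 := by
    have := AtP.repr_one_eq_of_sub_mem b (hI _ hτ (b 1))
    rw [map_sub, Finsupp.sub_apply, sub_eq_zero, Basis.repr_self, Finsupp.single_eq_same] at this
    rw [matOf_apply, this]
  have key := unitRoot_eq (r := matOf (toRep r hc) b) hu (h10 _ (hb0 _ hF.mem_decompositionSubgroup)) hτ10 hτ11
  rw [unitRoot_congr ht (hd _), unitRoot_conj] at key
  rw [key, matOf_apply]
  exact AtP.exists_quotient_character b _ (hb0 _ hF.mem_decompositionSubgroup)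

end Fermat.Agent.RT.Lift
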