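import Fermat.Agent.RT.Lift.Levels.Identify
import Fermat.Agent.RT.Lift.Levels.UnitRoot

/-!
# `⟨p⟩ ^ e T_p` on a level prime to `p` as a function of the unit root

If the unit root `z` satisfies the quadratic of `T_p` at every point with level prime to `p`, the
symmetrised operator is `z + p / z`.
-/

set_option autoImplicit false

noncomputable section

namespace Fermat.Agent.RT.Lift

open IsLocalRing Module
open Fermat.Agent.RT.GammaH
open Fermat.Agent.LevelRaising (RaiseData)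
open Fermat.Agent.RT.Glue (KBar Point)
open Fermat.Agent.Deform (M2 toRep)

variable {O : Type} [CommRing O] [IsDomain O] [IsDiscreteValuationRing O]
  [IsAdicComplete (maximalIdeal O) O] [Finite (ResidueField O)] [CharZero O]
  {p : ℕ} [Fact p.Prime] [CharP (ResidueField O) p] {L : ℕ} [NeZero L] {Δ : Type} [CommGroup Δ]
  [Finite Δ] {ψ : (ZMod L)ˣ →* Δ} {S : Finset ℕ} {abar : ℕ → ResidueField O}
  (N : LevelModule O S abar ψ) (hp : p ≠ 2) (hw : HasSTWeights O L) (hΔ : IsPGroup p Δ)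
  (hψ : Function.Surjective ψ) (hL : Squarefree L) (hS : ∀ q : ℕ, q.Prime → q ∣ L → q ∈ S)
  (hEis : ∃ ℓ : ℕ, ℓ.Prime ∧ ℓ ∉ S ∧ abar ℓ ≠ 1 + (ℓ : ResidueField O))

include hp hw hΔ hψ hL hEis in
/-- **`⟨v⟩ ^ e T_v = z + v / z`** for a root `z` of the quadratic of `T_v` at every point. -/
theorem incl_root_eq_symT {v : ℕ} [Fact v.Prime] (h : RaiseData v L) (z : (N.H.algebra)ˣ)
    (hquad : ∀ (θ : N.H.algebra →ₐ[O] KBar O) (Q : Point (p := p) N.H hS θ.toRingHom),
      ¬ v ∣ Q.M → Q.emb (θ z) ^ 2 - ModularFormClass.qCoeff Q.g v * Q.emb (θ z) + (v : ℂ) = 0)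
    (x : N.H.M) :
    N.incl ((((z : N.H.algebra) + (v : N.H.algebra) * (↑z⁻¹ : N.H.algebra) : N.H.algebra) :
        Module.End O N.H.M) x) = symT h O ψ.ker (halfInvExp Δ) (N.incl x) := by
  refine incl_eq_symT_of_points N hp hw hΔ hψ hL hS hEis h _ (fun θ Q hv => ?_) x
  have h0 : Q.emb (θ z) ≠ 0 := ((z.isUnit.map θ).map Q.emb).ne_zero
  have h1 : Q.emb (θ (z : N.H.algebra)) * Q.emb (θ (↑z⁻¹ : N.H.algebra)) = 1 := by
    rw [← map_mul, ← map_mul, Units.mul_inv, map_one, map_one]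
  rw [map_add, map_mul, map_natCast, map_add, map_mul, map_natCast]
  refine mul_right_cancel₀ h0 ?_
  linear_combination hquad θ Q hv + (v : ℂ) * h1

end Fermat.Agent.RT.Lift
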