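import Fermat.Agent.LevelRaising.Residual
import Fermat.Agent.LevelRaising.IharaK
import Fermat.Agent.RT.Glue.Approx
import Fermat.Agent.ConductorLevel.Compare

/-!
# Auxiliary primes for Ihara's lemma

An absolutely irreducible residual representation with cyclotomic determinant has, outside any
finite set, primes `ℓ = 1` modulo any number with `a_ℓ` different from `1 + ℓ`.
-/

set_option autoImplicit false

noncomputable section

namespace Fermat.Agent.RT.Lift

open IsLocalRing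
open Fermat.Agent.LevelRaising (cycloChar AuxPrime)

local notation "Q̄" => AlgebraicClosure ℚ
local notation "GQ₁" => AlgebraicClosure ℚ ≃ₐ[ℚ] AlgebraicClosure ℚ

section Cyclotomic

variable {k : Type} [Field k] {p : ℕ} [Fact p.Prime] [CharP k p] {ρbar : ResidualGaloisRep k}
  (hdetbar : ∀ (σ : GQ₁) (m : ℕ), (∀ μ : Q̄, μ ^ p = 1 → σ μ = μ ^ m) →
    LinearMap.det (ρbar.ρ σ) = (m : k))

include hdetbar

theorem det_eq_cycloChar (σ : GQ₁) :
    LinearMap.det (ρbar.ρ σ) = ZMod.castHom dvd_rfl k (cycloChar p σ : ZMod p) := by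
  have hcard := IsAlgClosed.card_rootsOfUnity_eq Q̄ p
  rw [hdetbar σ (cycloChar p σ : ZMod p).val fun μ hμ => ?_, ← map_natCast (ZMod.castHom dvd_rfl k),
    ZMod.natCast_zmod_val]
  exact modularCyclotomicCharacter.spec Q̄ hcard (σ : Q̄ ≃+* Q̄)
    (t := (rootsOfUnity.mkOfPowEq μ hμ : rootsOfUnity p Q̄)) (rootsOfUnity.mkOfPowEq μ hμ).2

theorem det_involution (hp2 : p ≠ 2) {c : GQ₁} (hc : c * c = 1) (hne : c ≠ 1) :
    LinearMap.det (ρbar.ρ c) = -1 := by
  rw [det_eq_cycloChar hdetbar, show (cycloChar p c : ZMod p) = -1 from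
    EC.Rep.modularCyclotomicCharacter_involution hc hne hp2 _, map_neg, map_one]

end Cyclotomic

section Exists

variable {O : Type} [CommRing O] [IsDomain O] [IsDiscreteValuationRing O] {p : ℕ} [Fact p.Prime]
  [CharP (ResidueField O) p] {ρbar : ResidualGaloisRep (ResidueField O)} {S : Finset ℕ}
  {abar : ℕ → ResidueField O}

/-- **Auxiliary primes exist.** -/
theorem exists_auxPrime (hp2 : p ≠ 2) (habs : ρbar.IsAbsolutelyIrreducible)
    (hdetbar : ∀ (σ : GQ₁) (m : ℕ), (∀ μ : Q̄, μ ^ p = 1 → σ μ = μ ^ m) →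
      LinearMap.det (ρbar.ρ σ) = (m : ResidueField O))
    (hbar : Glue.HasCharpolys S abar ρbar) {q M : ℕ} (hq : q ≠ 0) (hM : M ≠ 0) :
    ∃ ℓ : ℕ, AuxPrime q M ℓ ∧ ℓ ∉ S ∧ abar ℓ ≠ 1 + (ℓ : ResidueField O) := by
  classical
  set k := ResidueField O
  set K := AlgebraicClosure k
  have : CharP K p := charP_of_injective_algebraMap (algebraMap k K).injective p
  set N := LevelRaising.levelM q M * (M * q) * p with hN
  have : NeZero N := ⟨mul_ne_zero (mul_ne_zero (LevelRaising.levelM_ne_zero hM)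
    (mul_ne_zero hM hq)) (Fact.out : p.Prime).ne_zero⟩
  have hpN : p ∣ N := dvd_mul_left p _
  have hdet : ∀ σ, cycloChar N σ = 1 → LinearMap.det (ρbar.ρ σ) = 1 := fun σ hσ => by
    rw [det_eq_cycloChar hdetbar, LevelRaising.cycloChar_castHom hpN hσ, Units.val_one, map_one]
  have h2 : (2 : K) ≠ 0 := by
    have : ((2 : ℕ) : K) ≠ 0 := fun h => hp2
      ((Nat.prime_dvd_prime_iff_eq (Fact.out : p.Prime) Nat.prime_two).1
        ((CharP.cast_eq_zero_iff K p 2).1 h))
    exact_mod_cast this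
  obtain ⟨g, hg1, hg⟩ := LevelRaising.exists_trace_ne_two (ρ := ρbar.baseChange K) h2
    complexConjugation_mul_self
    (by
      show LinearMap.det ((ρbar.ρ complexConjugation).baseChange K) = -1
      rw [LinearMap.det_baseChange, det_involution hdetbar hp2 complexConjugation_mul_self
        EC.Rep.complexConjugation_ne_one, map_neg, map_one])
    habs (cycloChar N) fun σ hσ => by
      show LinearMap.det ((ρbar.ρ σ).baseChange K) = 1
      rw [LinearMap.det_baseChange, hdet σ hσ, map_one]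
  obtain ⟨L, hLfin, hL⟩ := ρbar.factorsThroughFiniteLevel
  obtain ⟨L', hL'fin, hL'⟩ := LevelRaising.cycloChar_factors N
  let Φ := ρbar.ρ.prod (cycloChar N)
  have : FiniteDimensional ℚ (L ⊔ L' : IntermediateField ℚ Q̄) :=
    IntermediateField.finiteDimensional_sup _ _
  obtain ⟨ℓ, hℓ, hℓS, A, hA, σ, hσ, ⟨i, hi⟩, ⟨j, hj⟩⟩ :=
    Arith.Density.exists_frobenius_pow Φ (L ⊔ L') (fun τ hτ => Prod.ext
      (hL τ fun x hx => hτ x ((le_sup_left : L ≤ L ⊔ L') hx))
      (hL' τ fun x hx => hτ x ((le_sup_right : L' ≤ L ⊔ L') hx))) g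
      (S ∪ N.primeFactors)
  simp only [Finset.mem_union, not_or] at hℓS
  have hℓN : ¬ ℓ ∣ N := fun h => hℓS.2 (Nat.mem_primeFactors.mpr ⟨hℓ, h, NeZero.ne N⟩)
  have hχσ : cycloChar N σ = 1 := by
    have := congrArg Prod.snd hj
    simpa [Φ, hg1] using this
  have hmod : ((ℓ : ℕ) : ZMod N) = 1 := by
    rw [← Arith.modularCyclotomicCharacter_frobenius hA hℓ hσ
      (IsAlgClosed.card_rootsOfUnity_eq Q̄ N) hℓN]
    exact congrArg Units.val hχσ
  have hdiv : (N : ℤ) ∣ (ℓ : ℤ) - 1 := by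
    rw [← ZMod.intCast_zmod_eq_zero_iff_dvd]; push_cast; rw [hmod, sub_self]
  refine ⟨ℓ, ⟨hℓ, fun hd => hℓN ((hd.mul_left _).mul_right _),
    (Int.natCast_dvd_natCast.mpr ((dvd_mul_right _ _).mul_right _)).trans hdiv,
    (Int.natCast_dvd_natCast.mpr ((dvd_mul_left _ _).mul_right _)).trans hdiv⟩, hℓS.1,
    fun ha => hg ?_⟩
  have hℓ1 : (ℓ : k) = 1 := by
    have h0 := congrArg (ZMod.castHom hpN (ZMod p)) hmod
    rw [map_natCast, map_one] at h0
    rw [← map_natCast (ZMod.castHom (dvd_refl p) k), h0, map_one]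
  have hch := hbar ℓ hℓ hℓS.1 A hA σ hσ
  obtain ⟨htr, hdσ⟩ := ConductorLevel.trace_det_of_charpoly ρbar.finrank_eq hch
  have hg' : ρbar.ρ g = ρbar.ρ σ ^ i := by simpa [Φ] using congrArg Prod.fst hi
  show LinearMap.trace K _ ((ρbar.ρ g).baseChange K) = 2
  rw [LinearMap.trace_baseChange, hg',
    EC.Rep.trace_det_pow ρbar.finrank_eq _ ?_ i]
  · rw [← hg', hdet g hg1, map_add, map_one]; norm_num
  · rw [hdσ, hℓ1, htr, ha, hℓ1]

end Exists

end Fermat.Agent.RT.Lift
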