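import Fermat.Agent.RT.Lift.Levels.Bound
import Fermat.Agent.CFT.Tangent.CoreCount
import Fermat.Agent.CFT.Tangent.FlatOrdinary

/-!
# The tangent bound without slack at `p`

For deformations which are both flat and strictly ordinary at `p` the count is one less.
-/

set_option autoImplicit false
set_option maxHeartbeats 1000000
set_option synthInstance.maxHeartbeats 200000
set_option linter.style.haveILetI false
set_option linter.unusedSectionVars false

noncomputable section

namespace Fermat.Agent.RT.Lift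

open IsLocalRing Module Fermat.Agent.Deform Fermat.Agent.CFT.Tangent Fermat.Agent.Arith
open Fermat.Agent.RT.Assembly

/-- The condition on classes at `p` with slack `e`. -/
def BoundAtPSlack (p : ℕ) [Fact p.Prime] {k : Type} [Field k] (r : Gal →* M2 k) (e : ℕ)
    (V : Submodule k (Gal → M2 k)) : Prop :=
  finrank k V ≤ finrank k (V ⊓ cobdOn r ((padicPlace p).decompositionSubgroup ℚ) :
      Submodule k (Gal → M2 k)) +
    finrank k (fixedOn r ((padicPlace p).decompositionSubgroup ℚ)) + e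

/-- The count with slack as a core bound. -/
theorem coreBound_of_slack {k : Type} [Field k] (p : ℕ) [Fact p.Prime] {r : Gal →* M2 k}
    {Smin T : Finset ℕ} {r' : ℕ} {qv : Fin r' → ℕ}
    (h : LiftCoreAtSlack p r Smin T qv) (e : ℕ) :
    CoreBound p r Smin T qv (BoundAtPSlack p r e) (fun d => d + 1 ≤ r' + e) :=
  fun V hV => h e V hV

variable {O : Type} [CommRing O] [IsLocalRing O] [Finite (ResidueField O)]
variable {R : Type} [CommRing R] [IsLocalRing R] [IsNoetherianRing R]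
  [IsAdicComplete (maximalIdeal R) R] [Algebra O R]
variable (p : ℕ) [Fact p.Prime] [CharP (ResidueField O) p] {W : Rigid O} {h : IsResAlg O R}
  {ru : Gal →* M2 R}

/-- No slack at `p` for classes whose first order deformations are flat and strictly ordinary. -/
theorem boundAtPSlack_zero (hp2 : p ≠ 2) (hl : Lifts W h ru) (hc : IsCont ru)
    (hdet : (toRep ru hc).DetIsCyclotomic p) (hflat : (toRep ru hc).IsFlatAt p)
    (hrb : GaloisFactorsThroughFiniteLevel W.rb)
    (hdetrb : ∀ (σ : Gal) (n : ℕ), (∀ μ : QBar, μ ^ p = 1 → σ μ = μ ^ n) →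
      (W.rb σ).det = (n : ResidueField O))
    (K : Submodule (ResidueField O) (tangentDer h))
    (hord : ∀ δ ∈ K, letI := dualAlgebra O
      ∃ (ρ : GaloisRepAdic (DualNumber (ResidueField O)))
        (B : Basis (Fin 2) (DualNumber (ResidueField O)) ρ.V), ρ.IsStrictOrdinaryAt p ∧
        ρ.DetIsCyclotomic p ∧
        ∀ σ, matOf ρ B σ = (1 + epsM (tangentCls W h ru δ σ)) * inlM (W.rb σ)) :
    BoundAtPSlack p W.rb 0 (LinearMap.range ((tangentCls W h ru).comp K.subtype)) := by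
  have h2 : (2 : ResidueField O) ≠ 0 := fun h0 => by
    have := (CharP.cast_eq_zero_iff (ResidueField O) p 2).mp (by exact_mod_cast h0)
    exact hp2 ((Nat.prime_dvd_prime_iff_eq Fact.out Nat.prime_two).mp this)
  refine finrank_le_flat_ordinary hp2 h2 hrb hdetrb _ ?_ ?_ ?_ ?_
  · rintro _ ⟨δ, rfl⟩
    exact tangentCls_mul hl δ.1
  · rintro _ ⟨δ, rfl⟩
    exact tangentCls_finiteLevel hc δ.1
  · rintro _ ⟨δ, rfl⟩ -
    exact hord δ.1 δ.2
  · rintro _ ⟨δ, rfl⟩ hne
    obtain ⟨ρ, B, h1, -, h3⟩ := exists_flat_dual p hl hc hflat hdet (δ := δ.1) fun e => hne (by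
      show tangentCls W h ru δ.1 = 0
      rw [e, map_zero])
    exact ⟨ρ, B, h1, h3⟩

open Classical in
/-- **The count with slack `e` at `p`, place by place.** -/
theorem finrank_killedDer_le_slack (hp2 : p ≠ 2) (hl : Lifts W h ru) (hn : IsNormal W ru)
    (hgen : Algebra.adjoin O (entries ru) = ⊤) (hc : IsCont ru)
    (hdet : (toRep ru hc).DetIsCyclotomic p) (hrb : GaloisFactorsThroughFiniteLevel W.rb)
    {Smin T : Finset ℕ} {r' : ℕ} {qv : Fin r' → ℕ}
    (hcore : LiftCoreAtSlack p W.rb Smin T qv) (e : ℕ)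
    (hunr : ∀ q : ℕ, q.Prime → q ∉ Smin → q ∉ T → (∀ i, qv i ≠ q) →
      ∀ A : ValuationSubring QBar, A.LiesOverPrime q → ∀ σ ∈ A.inertiaSubgroupIn ℚ, ru σ = 1)
    (hmin : ∀ q ∈ Smin, q ≠ p → ∀ A : ValuationSubring QBar, A.LiesOverPrime q →
      ∀ σ ∈ A.inertiaSubgroupIn ℚ, (ru σ).trace = 2)
    {V : Type} [Fintype V] (vT : V → ℕ) [∀ v, Fact (vT v).Prime] (hvinj : Function.Injective vT)
    (hT : T = Finset.univ.image vT) (hvp : ∀ v, vT v ≠ p) (σT φT : V → Gal)
    (hσT : ∀ v, σT v ∈ (padicPlace (vT v)).inertiaSubgroupIn ℚ)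
    (hφT : ∀ v, (padicPlace (vT v)).IsFrobeniusAt (φT v) (vT v))
    (hinert : ∀ v, ∀ g ∈ (padicPlace (vT v)).inertiaSubgroupIn ℚ, W.rb g = 1)
    (hdetφ : ∀ v, (ru (φT v)).det = (vT v : R))
    (hkum : ∀ v, ∃ π : QBar, π ≠ 0 ∧ (∃ m : ℤ,
      Mazur.Eisenstein.ordAt (padicPlace (vT v)) (vT v) π = m / p) ∧
      EC.Reduction.res (padicPlace (vT v)) (σT v π / π) ≠ 1 ∧
      EC.Reduction.res (padicPlace (vT v)) (σT v π / π) ^ p = 1)
    {C : Type} (x : C → R)
    (hσ0 : ∀ δ ∈ killedDer h x, ∀ v i j, δ.1 (ru (σT v) i j) = 0)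
    (hφs : ∀ δ ∈ killedDer h x, ∀ v, (∃ e : ResidueField O, W.rb (φT v) = e • 1) →
      ∀ i j, δ.1 (ru (φT v) i j) = 0)
    (hφn : ∀ δ ∈ killedDer h x, ∀ v, (¬∃ e : ResidueField O, W.rb (φT v) = e • 1) →
      δ.1 (ru (φT v)).trace = 0)
    (hploc : BoundAtPSlack p W.rb e
      (LinearMap.range ((tangentCls W h ru).comp (killedDer h x).subtype))) :
    finrank (ResidueField O) (killedDer h x) +
      ∑ v, (if ∃ e : ResidueField O, W.rb (φT v) = e • 1 then 3 else 1) + 1 ≤ r' + e :=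
  finrank_killedDer_le_general_of p hp2 hl hn hgen hc hdet hrb (BoundAtPSlack p W.rb e)
    (fun d => d + 1 ≤ r' + e) (coreBound_of_slack p hcore e) hunr hmin vT hvinj hT hvp σT φT hσT hφT
    hinert hdetφ hkum x hσ0 hφs hφn hploc

end Fermat.Agent.RT.Lift
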