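import Fermat.Agent.RT.Lift.Levels.Cores
import Fermat.Agent.RT.Lift.Germ.Step

/-!
# Degeneracy matrices of two consecutive levels

The degeneracy maps between the modules of levels `M` and `M q` give, along a character trivial
modulo the maximal ideal, matrices satisfying the identities of a flip at one finite level.
-/

set_option autoImplicit false

noncomputable section

namespace Fermat.Agent.RT.Lift

open IsLocalRing MvPolynomial
open Fermat.Agent.RT.GammaH
open Fermat.Agent.RT.Assembly (DiaBasis)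
open Fermat.Agent.LevelRaising (RaiseData AuxPrime)

theorem mulVec_mem {R : Type*} [CommRing R] {I : Ideal R} {D E : ℕ} (A : Matrix (Fin E) (Fin D) R)
    {v : Fin D → R} (hv : ∀ j, v j ∈ I) (i : Fin E) : A.mulVec v i ∈ I := by
  rw [Matrix.mulVec, dotProduct]
  exact sum_mem fun j _ => I.mul_mem_left _ (hv j)

/-- The fields of `DegData` at one level. -/
structure DegStep {O R Λ : Type} [CommRing O] [CommRing R] [Algebra O R] [CommRing Λ] [Algebra O Λ]
    {D E : ℕ} (I : Ideal R) (actN : Λ →ₐ[O] Matrix (Fin D) (Fin D) R)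
    (actM : Λ →ₐ[O] Matrix (Fin E) (Fin E) R) (c T : Λ) (k : ℕ) where
  d₁ : Matrix (Fin E) (Fin D) R
  d₂ : Matrix (Fin E) (Fin D) R
  s₁ : Matrix (Fin D) (Fin E) R
  s₂ : Matrix (Fin D) (Fin E) R
  d₁_comm : ∀ f, actM f * d₁ = d₁ * actN f
  d₂_comm : ∀ f, actM f * d₂ = d₂ * actN f
  s₁_comm : ∀ f, actN f * s₁ = s₁ * actM f
  s₂_comm : ∀ f, actN f * s₂ = s₂ * actM f
  s₁_d₁ : s₁ * d₁ = actN c
  s₁_d₂ : s₁ * d₂ = actN T
  s₂_d₁ : s₂ * d₁ = actN T
  s₂_d₂ : s₂ * d₂ = actN c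
  kills : actM ((T ^ 2 - c ^ 2) ^ k) * (actM (T ^ 2 - c ^ 2) +
    (d₁ * actN c * s₁ - d₁ * actN T * s₂ - d₂ * actN T * s₁ + d₂ * actN c * s₂)) = 0
  inj : ∀ u₁ u₂ : Fin D → R, (∀ i, (d₁.mulVec u₁ + d₂.mulVec u₂) i ∈ I) →
    ∀ i, u₁ i ∈ I ∧ u₂ i ∈ I
  surj : ∀ w₁ w₂ : Fin D → R, ∃ x : Fin E → R,
    (∀ i, (s₁.mulVec x - w₁) i ∈ I) ∧ ∀ i, (s₂.mulVec x - w₂) i ∈ I

/-- Steps at every level give the data. -/
def DegData.ofSteps {O : Type} [CommRing O] [IsLocalRing O] [IsNoetherianRing O]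
    [IsAdicComplete (maximalIdeal O) O] [Finite (ResidueField O)] {r p : ℕ} {σ : Type} [Finite σ]
    {D E : ℕ}
    {actN : ∀ n, MvPowerSeries σ O →ₐ[O] Matrix (Fin D) (Fin D) (LevelQuot O r p n)}
    {actM : ∀ n, MvPowerSeries σ O →ₐ[O] Matrix (Fin E) (Fin E) (LevelQuot O r p n)}
    {c T : MvPowerSeries σ O} {k : ℕ}
    (G : ∀ n, DegStep (levelMax n) (actN n) (actM n) c T k) : DegData actN actM c T k where
  d₁ n := (G n).d₁
  d₂ n := (G n).d₂
  s₁ n := (G n).s₁
  s₂ n := (G n).s₂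
  d₁_comm n := (G n).d₁_comm
  d₂_comm n := (G n).d₂_comm
  s₁_comm n := (G n).s₁_comm
  s₂_comm n := (G n).s₂_comm
  s₁_d₁ n := (G n).s₁_d₁
  s₁_d₂ n := (G n).s₁_d₂
  s₂_d₁ n := (G n).s₂_d₁
  s₂_d₂ n := (G n).s₂_d₂
  kills n := (G n).kills
  inj n := (G n).inj
  surj n := (G n).surj

variable {O : Type} [CommRing O] [IsDomain O] [IsDiscreteValuationRing O]
  [IsAdicComplete (maximalIdeal O) O] [Finite (ResidueField O)] [CharZero O]
  {Δ : Type} [CommGroup Δ] {S : Finset ℕ} {abar : ℕ → ResidueField O} {M q : ℕ} [NeZero M]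
  [NeZero (M * q)] {p : ℕ} [Fact p.Prime] [CharP (ResidueField O) p]
  {ψ : (ZMod M)ˣ →* Δ} (N : LevelModule O S abar ψ) (N' : LevelModule O S abar (upPsi q ψ))
  (h : RaiseData q M) (hq : q ∈ S)

section Cores

omit [IsAdicComplete (maximalIdeal O) O] [Finite (ResidueField O)] [CharZero O]

omit [IsDomain O] [IsDiscreteValuationRing O] [NeZero (M * q)] in
theorem coresLin_degH {K : Subgroup (ZMod M)ˣ} [Fintype ((ZMod M)ˣ ⧸ K)]
    [Fintype ((ZMod (M * q))ˣ ⧸ liftSub q K)] (k : ℕ) (φ : HomMod O S K O × HomMod O S K O) :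
    coresLin S (liftSub q K) O (degH O S h K k φ) =
      degH O S h (⊤ : Subgroup (ZMod M)ˣ) k (coresLin S K O φ.1, coresLin S K O φ.2) :=
  coresTop_degMap h O k φ

omit [IsDomain O] [IsDiscreteValuationRing O] [NeZero (M * q)] in
theorem degStarH_coresLin {K : Subgroup (ZMod M)ˣ} [Fintype ((ZMod M)ˣ ⧸ K)]
    [Fintype ((ZMod (M * q))ˣ ⧸ liftSub q K)] (k : ℕ) (x : HomMod O S (liftSub q K) O) :
    degStarH O S h (⊤ : Subgroup (ZMod M)ˣ) k (coresLin S (liftSub q K) O x) =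
      (coresLin S K O (degStarH O S h K k x).1, coresLin S K O (degStarH O S h K k x).2) :=
  degStar_coresTop h O k x

omit [NeZero M] in
theorem corN'_eq [Fintype ((ZMod (M * q))ˣ ⧸ liftSub q ψ.ker)] (x : N'.H.M) :
    N'.corN x = coresLin S (liftSub q ψ.ker) O (N'.incl x) :=
  @LevelModule.corN_eq O _ _ _ Δ _ S abar (M * q) _ (upPsi q ψ) N'
    (inferInstanceAs (Fintype ((ZMod (M * q))ˣ ⧸ liftSub q ψ.ker))) x

theorem corN_of_incl_degH {x : N'.H.M} {u : N.H.M × N.H.M}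
    (hx : N'.incl x = degH O S h ψ.ker (halfInvExp Δ) (N.incl u.1, N.incl u.2)) :
    N'.corN x = degH O S h (⊤ : Subgroup (ZMod M)ˣ) (halfInvExp Δ) (N.corN u.1, N.corN u.2) := by
  have := Fintype.ofFinite ((ZMod M)ˣ ⧸ ψ.ker)
  have := Fintype.ofFinite ((ZMod (M * q))ˣ ⧸ liftSub q ψ.ker)
  rw [corN'_eq, N.corN_eq, N.corN_eq]
  exact (congrArg _ hx).trans (coresLin_degH h _ _)

end Cores

omit [CharZero O] in
omit [Finite (ResidueField O)] in
theorem deltaStar_corN (x : N'.H.M) :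
    (N.corN (deltaStar N N' h hq x).1, N.corN (deltaStar N N' h hq x).2) =
      degStarH O S h (⊤ : Subgroup (ZMod M)ˣ) (halfInvExp Δ) (N'.corN x) := by
  have := Fintype.ofFinite ((ZMod M)ˣ ⧸ ψ.ker)
  have := Fintype.ofFinite ((ZMod (M * q))ˣ ⧸ liftSub q ψ.ker)
  rw [corN'_eq, N.corN_eq, N.corN_eq]
  refine Eq.trans ?_ (degStarH_coresLin (K := ψ.ker) h (halfInvExp Δ) (N'.incl x)).symm
  have h1 := incl_deltaStar N N' h hq x
  exact Prod.ext (congrArg (coresLin S ψ.ker O) (congrArg Prod.fst h1))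
    (congrArg (coresLin S ψ.ker O) (congrArg Prod.snd h1))

variable {D E : ℕ} (B : DiaBasis N.H.dia D) (B' : DiaBasis N'.H.dia E)
  {R Λ : Type} [CommRing R] [Algebra O R] (χ : Δ →* R) {I : Ideal R}
  [CommRing Λ] [Algebra O Λ] (g : Λ →ₐ[O] N'.H.algebra)
  (π : N'.H.algebra →ₐ[O] N.H.algebra)

omit [IsAdicComplete (maximalIdeal O) O] [Finite (ResidueField O)] [CharZero O] [NeZero M]
  [NeZero (M * q)] in
theorem algebra_comm {L : ℕ} {ψL : (ZMod L)ˣ →* Δ} (H : HeckeModule L ψL S abar)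
    (a : Module.End O H.M) (ha : a ∈ H.algebra) (δ : Δ) : a * H.dia δ = H.dia δ * a :=
  congrArg Subtype.val (mul_comm (⟨a, ha⟩ : H.algebra) (Glue.diaA H δ))

/-- The action of level `M q` along a character. -/
def upAct : Λ →ₐ[O] Matrix (Fin E) (Fin E) R := (B'.rep χ (algebra_comm N'.H)).comp g

/-- The action of level `M` along a character. -/
def downAct : Λ →ₐ[O] Matrix (Fin D) (Fin D) R := (B.rep χ (algebra_comm N.H)).comp (π.comp g)

variable {N N'} (hψ : Function.Surjective ψ) (hπ : IsCompatHom N'.H N.H π)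

include hψ hπ

omit [Finite (ResidueField O)] in
theorem deltaStar_algebra (a : N'.H.algebra) (x : N'.H.M) :
    deltaStar N N' h hq ((a : Module.End O N'.H.M) x) =
      ((π a : Module.End O N.H.M) (deltaStar N N' h hq x).1,
        (π a : Module.End O N.H.M) (deltaStar N N' h hq x).2) := by
  obtain ⟨π₀, hπ₀, h₀⟩ := exists_compatHom N N' h hq hψ
  obtain ⟨b, rfl⟩ := opAlg_surjective N'.H (upPsi_surjective hψ) a
  rw [hπ.unique hπ₀, h₀]
  exact deltaStar_opAlg N N' h hq b x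

omit [Finite (ResidueField O)] in
theorem delta_algebra (a : N'.H.algebra) (u : N.H.M × N.H.M) :
    delta N N' h hq ((π a : Module.End O N.H.M) u.1, (π a : Module.End O N.H.M) u.2) =
      (a : Module.End O N'.H.M) (delta N N' h hq u) := by
  obtain ⟨π₀, hπ₀, h₀⟩ := exists_compatHom N N' h hq hψ
  obtain ⟨b, rfl⟩ := opAlg_surjective N'.H (upPsi_surjective hψ) a
  rw [hπ.unique hπ₀, h₀]
  exact delta_opAlg N N' h hq b u

variable {k : ℕ} {c T : Λ}

theorem deltaStar_delta_algebra [Fact q.Prime] [Finite Δ] (hodd : Odd (Nat.card Δ))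
    (hc : π (g c) = ((q + 1 : ℕ) : N.H.algebra))
    (hT : ∀ x, N.incl ((π (g T) : Module.End O N.H.M) x) =
      symT h O ψ.ker (halfInvExp Δ) (N.incl x)) (u : N.H.M × N.H.M) :
    deltaStar N N' h hq (delta N N' h hq u) =
      ((π (g c) : Module.End O N.H.M) u.1 + (π (g T) : Module.End O N.H.M) u.2,
        (π (g T) : Module.End O N.H.M) u.1 + (π (g c) : Module.End O N.H.M) u.2) := by
  have e : ∀ y, ((((q + 1 : ℕ) : N.H.algebra)) : Module.End O N.H.M) y = (q + 1) • y := fun y => by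
    rw [show (((q + 1 : ℕ) : N.H.algebra) : Module.End O N.H.M) = ((q + 1 : ℕ) : Module.End O N.H.M)
      from map_natCast N.H.algebra.val (q + 1)]
    exact Module.End.natCast_apply _ _
  rw [deltaStar_delta N N' h hq hodd hT, hc, e, e]

/-- **The degeneracy data of one finite level.** -/
theorem nonempty_degStep [Fact q.Prime] [Finite Δ] (hp : p ≠ 2) (hΔ : IsPGroup p Δ)
    (hw : HasSTWeights O M) (hw' : HasSTWeights O (M * q))
    {ℓ : ℕ} (aux : AuxPrime q M ℓ) (hℓS : ℓ ∉ S) (hℓ : abar ℓ ≠ 1 + (ℓ : ResidueField O))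
    (hD : N.H.d = D) (hχ : ∀ δ, χ δ - 1 ∈ I)
    (hI : ∀ r : R, ∃ a : O, r - algebraMap O R a ∈ I)
    (hIO : ∀ a : O, algebraMap O R a ∈ I ↔ a ∈ maximalIdeal O)
    (hc : π (g c) = ((q + 1 : ℕ) : N.H.algebra))
    (hT : ∀ x, N.incl ((π (g T) : Module.End O N.H.M) x) =
      symT h O ψ.ker (halfInvExp Δ) (N.incl x))
    (hkill : ∀ x, deltaStar N N' h hq x = 0 →
      ((g ((T ^ 2 - c ^ 2) ^ k) : N'.H.algebra) : Module.End O N'.H.M) x = 0) :
    Nonempty (DegStep I (downAct N N' B χ g π) (upAct N' B' χ g) c T k) := by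
  have hψ' : Function.Surjective (upPsi q ψ) := upPsi_surjective hψ
  have hodd : Odd (Nat.card Δ) := by
    obtain ⟨j, hj⟩ := IsPGroup.iff_card.1 hΔ
    rw [hj]; exact ((Fact.out : p.Prime).odd_of_ne_two hp).pow
  obtain ⟨ϖ, hϖ⟩ := IsDiscreteValuationRing.exists_irreducible O
  have hm : ∀ a : O, a ∈ maximalIdeal O ↔ ϖ ∣ a := fun a => by
    rw [hϖ.maximalIdeal_eq, Ideal.mem_span_singleton]
  let e₁ : N.H.M →ₗ[O] N'.H.M := delta N N' h hq ∘ₗ LinearMap.inl O _ _
  let e₂ : N.H.M →ₗ[O] N'.H.M := delta N N' h hq ∘ₗ LinearMap.inr O _ _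
  let f₁ : N'.H.M →ₗ[O] N.H.M := LinearMap.fst O _ _ ∘ₗ deltaStar N N' h hq
  let f₂ : N'.H.M →ₗ[O] N.H.M := LinearMap.snd O _ _ ∘ₗ deltaStar N N' h hq
  have ce : ∀ (a : N'.H.algebra) x,
      e₁ ((π a : Module.End O N.H.M) x) = (a : Module.End O N'.H.M) (e₁ x) ∧
      e₂ ((π a : Module.End O N.H.M) x) = (a : Module.End O N'.H.M) (e₂ x) := fun a x => by
    constructor
    · have := delta_algebra h hq π hψ hπ a (x, 0)
      rwa [map_zero] at this
    · have := delta_algebra h hq π hψ hπ a (0, x)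
      rwa [map_zero] at this
  have cf : ∀ (a : N'.H.algebra) x,
      f₁ ((a : Module.End O N'.H.M) x) = (π a : Module.End O N.H.M) (f₁ x) ∧
      f₂ ((a : Module.End O N'.H.M) x) = (π a : Module.End O N.H.M) (f₂ x) := fun a x =>
    ⟨congrArg Prod.fst (deltaStar_algebra h hq π hψ hπ a x),
      congrArg Prod.snd (deltaStar_algebra h hq π hψ hπ a x)⟩
  have he₁ : IsDiaHom N.H.dia N'.H.dia e₁ := fun δ x => by
    have := (ce (Glue.diaA N'.H δ) x).1
    rwa [hπ.map_dia] at this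
  have he₂ : IsDiaHom N.H.dia N'.H.dia e₂ := fun δ x => by
    have := (ce (Glue.diaA N'.H δ) x).2
    rwa [hπ.map_dia] at this
  have hf₁ : IsDiaHom N'.H.dia N.H.dia f₁ := fun δ x => by
    have := (cf (Glue.diaA N'.H δ) x).1
    rwa [hπ.map_dia] at this
  have hf₂ : IsDiaHom N'.H.dia N.H.dia f₂ := fun δ x => by
    have := (cf (Glue.diaA N'.H δ) x).2
    rwa [hπ.map_dia] at this
  have aN : ∀ f, downAct N N' B χ g π f =
      matHom B B χ (π (g f) : Module.End O N.H.M) := fun f => rfl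
  have aM : ∀ f, upAct N' B' χ g f = matHom B' B' χ (g f : Module.End O N'.H.M) := fun f => rfl
  have hdN : ∀ f, IsDiaHom N.H.dia N.H.dia (π (g f) : Module.End O N.H.M) := fun f δ x =>
    LinearMap.congr_fun (algebra_comm N.H _ (π (g f)).2 δ) x
  have hdM : ∀ f, IsDiaHom N'.H.dia N'.H.dia (g f : Module.End O N'.H.M) := fun f δ x =>
    LinearMap.congr_fun (algebra_comm N'.H _ (g f).2 δ) x
  have hsd := deltaStar_delta_algebra h hq g π hψ hπ hodd hc hT
  refine ⟨⟨matHom B B' χ e₁, matHom B B' χ e₂, matHom B' B χ f₁, matHom B' B χ f₂,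
    fun f => ?_, fun f => ?_, fun f => ?_, fun f => ?_, ?_, ?_, ?_, ?_, ?_, ?_, ?_⟩⟩
  · rw [aM, aN, ← matHom_comp B B' B' χ (hdM f), ← matHom_comp B B B' χ he₁]
    exact congrArg (matHom B B' χ) (LinearMap.ext fun x => ((ce (g f) x).1).symm)
  · rw [aM, aN, ← matHom_comp B B' B' χ (hdM f), ← matHom_comp B B B' χ he₂]
    exact congrArg (matHom B B' χ) (LinearMap.ext fun x => ((ce (g f) x).2).symm)
  · rw [aM, aN, ← matHom_comp B' B B χ (hdN f), ← matHom_comp B' B' B χ hf₁]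
    exact congrArg (matHom B' B χ) (LinearMap.ext fun x => ((cf (g f) x).1).symm)
  · rw [aM, aN, ← matHom_comp B' B B χ (hdN f), ← matHom_comp B' B' B χ hf₂]
    exact congrArg (matHom B' B χ) (LinearMap.ext fun x => ((cf (g f) x).2).symm)
  · rw [aN, ← matHom_comp B B' B χ hf₁]
    refine congrArg (matHom B B χ) (LinearMap.ext fun x => ?_)
    have := congrArg Prod.fst (hsd (x, 0))
    simp only [map_zero, add_zero] at this
    exact this
  · rw [aN, ← matHom_comp B B' B χ hf₁]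
    refine congrArg (matHom B B χ) (LinearMap.ext fun x => ?_)
    have := congrArg Prod.fst (hsd (0, x))
    simp only [map_zero, zero_add] at this
    exact this
  · rw [aN, ← matHom_comp B B' B χ hf₂]
    refine congrArg (matHom B B χ) (LinearMap.ext fun x => ?_)
    have := congrArg Prod.snd (hsd (x, 0))
    simp only [map_zero, add_zero] at this
    exact this
  · rw [aN, ← matHom_comp B B' B χ hf₂]
    refine congrArg (matHom B B χ) (LinearMap.ext fun x => ?_)
    have := congrArg Prod.snd (hsd (0, x))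
    simp only [map_zero, zero_add] at this
    exact this
  · let cc : Module.End O N.H.M := (π (g c) : Module.End O N.H.M)
    let tt : Module.End O N.H.M := (π (g T) : Module.End O N.H.M)
    let Z : Module.End O N'.H.M := (g (T ^ 2 - c ^ 2) : Module.End O N'.H.M) +
      (e₁ ∘ₗ cc ∘ₗ f₁ - e₁ ∘ₗ tt ∘ₗ f₂ - e₂ ∘ₗ tt ∘ₗ f₁ + e₂ ∘ₗ cc ∘ₗ f₂)
    have hZ : matHom B' B' χ Z = upAct N' B' χ g (T ^ 2 - c ^ 2) +
        (matHom B B' χ e₁ * downAct N N' B χ g π c * matHom B' B χ f₁ -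
          matHom B B' χ e₁ * downAct N N' B χ g π T * matHom B' B χ f₂ -
          matHom B B' χ e₂ * downAct N N' B χ g π T * matHom B' B χ f₁ +
          matHom B B' χ e₂ * downAct N N' B χ g π c * matHom B' B χ f₂) := by
      rw [matHom_add, matHom_add, matHom_sub, matHom_sub, matHom_comp B' B B' χ he₁,
        matHom_comp B' B B' χ he₁, matHom_comp B' B B' χ he₂, matHom_comp B' B B' χ he₂,
        matHom_comp B' B B χ (hdN c), matHom_comp B' B B χ (hdN c), matHom_comp B' B B χ (hdN T),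
        matHom_comp B' B B χ (hdN T), aM, aN, aN]
      simp only [Matrix.mul_assoc]
    rw [← hZ, aM, ← matHom_comp B' B' B' χ (hdM _), ← matHom_zero B' B' χ]
    refine congrArg (matHom B' B' χ) (LinearMap.ext fun x => ?_)
    refine hkill (Z x) ?_
    obtain ⟨a, b, hab⟩ : ∃ a b, deltaStar N N' h hq x = (a, b) := ⟨_, _, rfl⟩
    have hz : Z x = (g (T ^ 2 - c ^ 2) : Module.End O N'.H.M) x +
        delta N N' h hq (cc a - tt b, -(tt a) + cc b) := by
      have hf : f₁ x = a ∧ f₂ x = b := ⟨congrArg Prod.fst hab, congrArg Prod.snd hab⟩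
      have hsplit : ∀ u v, delta N N' h hq (u, v) = e₁ u + e₂ v := fun u v => by
        rw [LinearMap.comp_apply, LinearMap.comp_apply, ← map_add]
        simp
      rw [hsplit]
      simp only [Z, LinearMap.add_apply, LinearMap.sub_apply, LinearMap.comp_apply, hf.1, hf.2,
        map_sub, map_add, map_neg]
      abel
    rw [hz, map_add, hsd, deltaStar_algebra h hq π hψ hπ, hab]
    have hpi : (π (g (T ^ 2 - c ^ 2)) : Module.End O N.H.M) = tt * tt - cc * cc := by
      simp [sq, cc, tt]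
    rw [hpi]
    have hcomm : ∀ y, cc (tt y) = tt (cc y) := fun y =>
      LinearMap.congr_fun (congrArg Subtype.val (mul_comm (π (g c)) (π (g T)))) y
    refine Prod.ext ?_ ?_ <;>
    · simp only [Prod.mk_add_mk, LinearMap.sub_apply, Module.End.mul_apply, map_sub, map_add,
        map_neg, Prod.fst_zero, Prod.snd_zero, cc, tt] at hcomm ⊢
      rw [hcomm]
      abel
  · intro u₁ u₂ hu
    choose c₁ hc₁ using fun i => hI (u₁ i)
    choose c₂ hc₂ using fun i => hI (u₂ i)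
    let x₁ : N.H.M := ∑ i, c₁ i • B.basis i
    let x₂ : N.H.M := ∑ i, c₂ i • B.basis i
    have hsp : ∀ {u : Fin D → R} {a : Fin D → O}, (∀ i, u i - algebraMap O R (a i) ∈ I) →
        ∀ i, B.spec χ (∑ j, a j • B.basis j) i - u i ∈ I := fun {u a} ha i => by
      have := I.sub_mem (spec_sub_augVec_mem B χ hχ (∑ j, a j • B.basis j) i) (ha i)
      rwa [augVec_surjective, sub_sub_sub_cancel_right] at this
    have hs : ∀ i, B'.spec χ (delta N N' h hq (x₁, x₂)) i ∈ I := fun i => by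
      rw [show delta N N' h hq (x₁, x₂) = e₁ x₁ + e₂ x₂ by
        rw [LinearMap.comp_apply, LinearMap.comp_apply, ← map_add]; simp,
        map_add, spec_matHom B B' χ he₁, spec_matHom B B' χ he₂]
      have h1 := I.add_mem (hu i) (show ((matHom B B' χ e₁).mulVec (B.spec χ x₁ - u₁) +
          (matHom B B' χ e₂).mulVec (B.spec χ x₂ - u₂)) i ∈ I from
        I.add_mem (mulVec_mem _ (fun j => hsp hc₁ j) i) (mulVec_mem _ (fun j => hsp hc₂ j) i))
      convert h1 using 1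
      simp [Matrix.mulVec_sub]
      ring
    obtain ⟨y, hy⟩ := N'.exists_corN_eq_smul B' hψ' (ϖ := ϖ)
      (x := delta N N' h hq (x₁, x₂)) fun i => (hm _).1 ((hIO _).1 (by
        have := I.sub_mem (hs i) (spec_sub_augVec_mem B' χ hχ (delta N N' h hq (x₁, x₂)) i)
        rwa [sub_sub_cancel] at this))
    have := Fintype.ofFinite ((ZMod M)ˣ ⧸ ψ.ker)
    rw [corN_of_incl_degH N N' h (incl_delta N N' h hq (x₁, x₂))] at hy
    obtain ⟨e, he', he⟩ :=
      exists_isLocalizer_pair (q := q) S (⊤ : Subgroup (ZMod M)ˣ) (abar := abar)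
    have eN : localPart O N.e (HomMod O S (⊤ : Subgroup (ZMod M)ˣ) O) =
        localPart O (lowerOp O M q S e) (HomMod O S (⊤ : Subgroup (ZMod M)ˣ) O) :=
      localPart_eq N.isLocalizer_top he (resIdeal_ne_top S abar)
    obtain ⟨⟨χ₁, χ₂⟩, m₁, m₂, e12⟩ := exists_eq_smul_of_degH h aux Fact.out hp hℓS hℓ hϖ he
      (halfInvExp Δ) (φ := (N.corN x₁, N.corN x₂)) (eN ▸ N.corN_mem x₁) (eN ▸ N.corN_mem x₂) hy
    intro i
    have d1 := N.dvd_augVec_of_corN B hD hψ hp hw hΔ (eN.symm ▸ m₁) (congrArg Prod.fst e12) i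
    have d2 := N.dvd_augVec_of_corN B hD hψ hp hw hΔ (eN.symm ▸ m₂) (congrArg Prod.snd e12) i
    rw [augVec_surjective] at d1 d2
    have h1 := I.add_mem (hc₁ i) ((hIO _).2 ((hm _).2 d1))
    have h2 := I.add_mem (hc₂ i) ((hIO _).2 ((hm _).2 d2))
    rw [sub_add_cancel] at h1 h2
    exact ⟨h1, h2⟩
  · intro w₁ w₂
    choose c₁ hc₁ using fun i => hI (w₁ i)
    choose c₂ hc₂ using fun i => hI (w₂ i)
    let y₁ : N.H.M := ∑ i, c₁ i • B.basis i
    let y₂ : N.H.M := ∑ i, c₂ i • B.basis i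
    obtain ⟨e, he', he⟩ :=
      exists_isLocalizer_pair (q := q) S (⊤ : Subgroup (ZMod M)ˣ) (abar := abar)
    have eN : localPart O N.e (HomMod O S (⊤ : Subgroup (ZMod M)ˣ) O) =
        localPart O (lowerOp O M q S e) (HomMod O S (⊤ : Subgroup (ZMod M)ˣ) O) :=
      localPart_eq N.isLocalizer_top he (resIdeal_ne_top S abar)
    obtain ⟨z, hz, ⟨χ₁, χ₂⟩, m₁, m₂, e12⟩ :=
      exists_degStarH_sub_eq_smul h aux Fact.out hp hℓS hℓ hϖ hq he' he (halfInvExp Δ)
        (w := (N.corN y₁, N.corN y₂)) (eN ▸ N.corN_mem y₁) (eN ▸ N.corN_mem y₂)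
    have eN' : localPart O N'.e (HomMod O S (⊤ : Subgroup (ZMod (M * q))ˣ) O) =
        localPart O e (HomMod O S (⊤ : Subgroup (ZMod (M * q))ˣ) O) :=
      localPart_eq N'.isLocalizer_top he' (resIdeal_ne_top S abar)
    obtain ⟨x, hx⟩ := N'.exists_corN_eq hp hw' hΔ (y := z) (eN'.symm ▸ hz)
    rw [← hx, ← deltaStar_corN N N' h hq x] at e12
    refine ⟨B'.spec χ x, fun i => ?_, fun i => ?_⟩
    · rw [← spec_matHom B' B χ hf₁]
      have h1 := N.dvd_augVec_of_corN B hD hψ hp hw hΔ (eN.symm ▸ m₁)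
        (x := f₁ x - y₁) ((map_sub _ _ _).trans (congrArg Prod.fst e12)) i
      rw [map_sub, Pi.sub_apply, augVec_surjective] at h1
      have h2 := I.sub_mem (I.add_mem (spec_sub_augVec_mem B χ hχ (f₁ x) i) ((hIO _).2 ((hm _).2 h1)))
        (hc₁ i)
      rw [map_sub] at h2
      convert h2 using 1
      simp only [Pi.sub_apply]
      ring
    · rw [← spec_matHom B' B χ hf₂]
      have h1 := N.dvd_augVec_of_corN B hD hψ hp hw hΔ (eN.symm ▸ m₂)
        (x := f₂ x - y₂) ((map_sub _ _ _).trans (congrArg Prod.snd e12)) i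
      rw [map_sub, Pi.sub_apply, augVec_surjective] at h1
      have h2 := I.sub_mem (I.add_mem (spec_sub_augVec_mem B χ hχ (f₂ x) i) ((hIO _).2 ((hm _).2 h1)))
        (hc₂ i)
      rw [map_sub] at h2
      convert h2 using 1
      simp only [Pi.sub_apply]
      ring

end Fermat.Agent.RT.Lift
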