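import Fermat.Agent.RT.Lift.Levels.Tower
import Fermat.Agent.RT.Lift.Levels.Kills

/-!
# Frobenius traces as operators on the levels of the tower

The hypotheses `hT` and `hkill` of the degeneracy data, for levels with their normalised matrices.
-/

set_option autoImplicit false
set_option linter.style.haveILetI false
set_option linter.unusedSectionVars false
set_option synthInstance.maxHeartbeats 200000

noncomputable section

namespace Fermat.Agent.RT.Lift

open IsLocalRing Module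
open Fermat.Agent.Deform
open Fermat.Agent.LevelRaising (RaiseData)

local notation "Q̄" => AlgebraicClosure ℚ

variable {O : Type} [CommRing O] [IsDomain O] [IsDiscreteValuationRing O]
  [IsAdicComplete (maximalIdeal O) O] [Finite (ResidueField O)] [CharZero O]
  {p : ℕ} [Fact p.Prime] [CharP (ResidueField O) p]
  {Δ : Type} [CommGroup Δ] [Finite Δ] {S : Finset ℕ} {abar : ℕ → ResidueField O}
  {ρbar : ResidualGaloisRep (ResidueField O)} {W : Rigid O}

namespace LevelAt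

/-- `⟨v⟩ ^ e T_v` acts on the level as the trace of a Frobenius element at `v`. -/
theorem incl_trace_eq_symT {L : ℕ} [NeZero L] {ψ : (ZMod L)ˣ →* Δ}
    (X : LevelAt p W ρbar S abar ψ) (hp : p ≠ 2) (hw : GammaH.HasSTWeights O L) (hΔ : IsPGroup p Δ)
    (hψ : Function.Surjective ψ) (hL : Squarefree L)
    (hEis : ∃ ℓ : ℕ, ℓ.Prime ∧ ℓ ∉ S ∧ abar ℓ ≠ 1 + (ℓ : ResidueField O)) (hpS : p ∈ S)
    {v : ℕ} [Fact v.Prime] (h : RaiseData v L) (hvp : v ≠ p)
    {A : ValuationSubring Q̄} (hA : A.LiesOverPrime v) {φ : Gal} (hφ : A.IsFrobeniusAt φ v)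
    (x : X.N.H.M) :
    X.N.incl (((X.rep.ru φ).trace : Module.End O X.N.H.M) x) =
      symT h O ψ.ker (halfInvExp Δ) (X.N.incl x) := by
  rw [X.rep.trace_eq]
  exact Lift.incl_trace_eq_symT (hS := X.hS) X.N hp hw hΔ hψ hL hEis _ X.rep.G hpS h hvp hA hφ x

/-- `tr ^ 2 - (q + 1) ^ 2` kills the kernel of the transposed degeneracy map. -/
theorem trace_sq_apply_eq_zero {M q : ℕ} [NeZero M] [NeZero (M * q)] {ψ : (ZMod M)ˣ →* Δ}
    (X : LevelAt p W ρbar S abar ψ) (Y : LevelAt p W ρbar S abar (upPsi q ψ)) (hp : p ≠ 2)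
    (hw : GammaH.HasSTWeights O (M * q)) (hΔ : IsPGroup p Δ) (hψ : Function.Surjective ψ)
    (hL : Squarefree (M * q))
    (hEis : ∃ ℓ : ℕ, ℓ.Prime ∧ ℓ ∉ S ∧ abar ℓ ≠ 1 + (ℓ : ResidueField O)) (hpS : p ∈ S)
    (h : RaiseData q M) (hq : q ∈ S) (hqp : q ≠ p) {A : ValuationSubring Q̄}
    (hA : A.LiesOverPrime q) {φ : Gal} (hφ : A.IsFrobeniusAt φ q) {x : Y.N.H.M}
    (hx : deltaStar X.N Y.N h hq x = 0) :
    (((Y.rep.ru φ).trace ^ 2 - (((q + 1) ^ 2 : ℕ) : Y.N.H.algebra) : Y.N.H.algebra) :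
      Module.End O Y.N.H.M) x = 0 := by
  rw [Y.rep.trace_eq]
  exact Lift.trace_sq_apply_eq_zero (hS := Y.hS) X.N Y.N h hq _ Y.rep.G hp hw hΔ hψ hL hEis hpS hqp
    (fun L _ _ h1 h2 => (Assembly.localModelInput L p q h.prime hqp h1 h2).2) hA hφ hx

end LevelAt

end Fermat.Agent.RT.Lift
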