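import Fermat.Agent.RT.Lift.Levels.Family
import Fermat.Agent.RT.Lift.Levels.LevelOps
import Fermat.Agent.RT.Lift.Levels.AuxExists
import Fermat.Agent.RT.Lift.Levels.DegMatrices

/-!
# The finite level hypotheses of the chain for a frame

Coordinates with values at the places make the levels of a frame satisfy the hypotheses of the
chain of flips.
-/

set_option autoImplicit false
set_option linter.style.haveILetI false
set_option linter.unusedSectionVars false

noncomputable section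

namespace Fermat.Agent.RT.Lift

open IsLocalRing Module WeierstrassCurve MvPowerSeries
open Fermat.Agent.Deform Fermat.Agent.Arith Fermat.Agent.RT.Germ
open Fermat.Agent.RT.Assembly (DiaBasis levelIdeal)
open Fermat.Agent.LevelRaising (RaiseData)
open Fermat.Agent.RT.GammaH (HasSTWeights)

local notation "Q̄" => AlgebraicClosure ℚ

theorem trace_mapM {A B : Type} [CommRing A] [CommRing B] (g : A →+* B) (r : Gal →* M2 A)
    (σ : Gal) : (mapM g r σ).trace = g (r σ).trace :=
  (AddMonoidHom.map_trace g.toAddMonoidHom (r σ)).symm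

/-! Identities over abstract rings: rewriting with `map_*` on the Hecke algebras is slow. -/

private theorem map_sub_one_apply {A B : Type} [CommRing A] [CommRing B] (g : A →+* B)
    {r : Gal →* M2 A} {r' : Gal →* M2 B} (hr : mapM g r = r') (σ : Gal) (i j : Fin 2) :
    g ((r σ - 1) i j) = (r' σ - 1) i j := by
  subst hr
  rw [Matrix.sub_apply, Matrix.sub_apply, map_sub, mapM_apply, Matrix.one_apply, Matrix.one_apply,
    apply_ite g, map_one, map_zero]

private theorem map_special_mul {A B : Type} [CommRing A] [CommRing B] (g : A →+* B)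
    {r : Gal →* M2 A} {r' : Gal →* M2 B} (hr : mapM g r = r') (v : ℕ) (φ σ : Gal) (i j : Fin 2)
    (h : ((r' φ).trace ^ 2 - ((v : B) + 1) ^ 2) * (r' σ - 1) i j = 0) :
    g (((r φ).trace ^ 2 - ((v : A) + 1) ^ 2) * (r σ - 1) i j) = 0 := by
  rw [map_mul, map_sub, map_pow, map_pow, map_add, map_natCast, map_one,
    map_sub_one_apply g hr, ← trace_mapM, hr]
  exact h

private theorem quad_of_map {A R : Type} [Semiring A] [CommRing R] {D : ℕ}
    (f : A →+* Matrix (Fin D) (Fin D) R) {x y : A} {t s : R} (hx : f x = t • 1) (hy : f y = s • 1)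
    (hts : t * s = 1) :
    Matrix.scalar (Fin D) (t ^ 2 + 1) = Matrix.scalar (Fin D) t * f (x + y) := by
  rw [map_add f, hx, hy, Matrix.smul_one_eq_diagonal, Matrix.smul_one_eq_diagonal,
    ← Matrix.scalar_apply, ← Matrix.scalar_apply, ← map_add, ← map_mul, mul_add, hts, sq]

variable {O : Type} [CommRing O] [IsDomain O] [IsDiscreteValuationRing O]
  [IsAdicComplete (maximalIdeal O) O] [Finite (ResidueField O)] [CharZero O]
  {p : ℕ} [Fact p.Prime] [CharP (ResidueField O) p]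

section Step

variable {Δ : Type} [CommGroup Δ] [Finite Δ] {S : Finset ℕ} {abar : ℕ → ResidueField O}
  {ρbar : ResidualGaloisRep (ResidueField O)} {bb : Basis (Fin 2) (ResidueField O) ρbar.V}
  {Wr : Rigid O} {L L' : ℕ} [NeZero L] [NeZero L'] {ψ : (ZMod L)ˣ →* Δ} {ψ' : (ZMod L')ˣ →* Δ}
  {R Λ : Type} [CommRing R] [Algebra O R] [CommRing Λ] [Algebra O Λ] {D E : ℕ}

/-- The degeneracy data between two levels with normalised matrices. -/
theorem nonempty_degStep_levelAt (hp2 : p ≠ 2) (hΔ : IsPGroup p Δ) (hpS : p ∈ S)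
    (habs : ρbar.IsAbsolutelyIrreducible) (hWr : Wr.rb = matRes ρbar bb)
    (X : LevelAt p Wr ρbar S abar ψ) (Y : LevelAt p Wr ρbar S abar ψ') {q : ℕ} [Fact q.Prime]
    (e : L' = L * q) (h : L ∣ L') (hψ' : ψ' = ψ.comp (ZMod.unitsMap h))
    (hψ : Function.Surjective ψ) (hq : RaiseData q L) (hqS : q ∈ S) (hqp : q ≠ p)
    (hw : HasSTWeights O L) (hw' : HasSTWeights O L') (hL : Squarefree L) (hL' : Squarefree L')
    (hEis : ∃ ℓ : ℕ, ℓ.Prime ∧ ℓ ∉ S ∧ abar ℓ ≠ 1 + (ℓ : ResidueField O))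
    {ℓ : ℕ} (aux : LevelRaising.AuxPrime q L ℓ) (hℓS : ℓ ∉ S)
    (hℓ : abar ℓ ≠ 1 + (ℓ : ResidueField O))
    (BX : DiaBasis X.N.H.dia D) (BY : DiaBasis Y.N.H.dia E) (hD : X.N.H.d = D)
    (χ : Δ →* R) {I : Ideal R} (hχ : ∀ δ, χ δ - 1 ∈ I)
    (hI : ∀ r : R, ∃ a : O, r - algebraMap O R a ∈ I)
    (hIO : ∀ a : O, algebraMap O R a ∈ I ↔ a ∈ maximalIdeal O)
    (g : Λ →ₐ[O] Y.N.H.algebra) (π : Y.N.H.algebra →ₐ[O] X.N.H.algebra)
    (hπ : IsCompatHom Y.N.H X.N.H π) {A : ValuationSubring Q̄} (hA : A.LiesOverPrime q) {F : Gal}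
    (hF : A.IsFrobeniusAt F q) {c T : Λ} (hc : g c = ((q + 1 : ℕ) : Y.N.H.algebra))
    (hT : g T = (Y.rep.ru F).trace) :
    Nonempty (DegStep I ((BX.rep χ (algebra_comm X.N.H)).comp (π.comp g))
      ((BY.rep χ (algebra_comm Y.N.H)).comp g) c T 1) := by
  subst e
  subst hψ'
  have hmap := X.mapM_ru hp2 hpS habs hWr h Y hπ
  refine nonempty_degStep (N := X.N) (N' := Y.N) hq hqS BX BY χ g π hψ hπ hp2 hΔ hw hw' aux hℓS hℓ
    hD hχ hI hIO ?_ (fun x => ?_) fun x hx => ?_
  · rw [hc, map_natCast]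
  · rw [hT, show π (Y.rep.ru F).trace = (X.rep.ru F).trace from
      (trace_mapM (π : Y.N.H.algebra →+* X.N.H.algebra) Y.rep.ru F).symm.trans (by rw [hmap])]
    exact X.incl_trace_eq_symT hp2 hw hΔ hψ hL hEis hpS hq hqp hA hF x
  · rw [pow_one, map_sub, map_pow, map_pow, hc, hT, ← Nat.cast_pow]
    exact X.trace_sq_apply_eq_zero Y hp2 hw' hΔ hψ hL' hEis hpS hq hqS hqp hA hF hx

end Step

variable {K : Type*} [NontriviallyNormedField K] [IsUltrametricDist K] [CompleteSpace K]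
  {φ : O →+* ball1 K} {W : WeierstrassCurve ℤ} {M R : ℕ} {F : Frame p W M R φ}

/-- The series of one place, evaluated at the values of its coordinates. -/
abbrev Coords.at {n : ℕ} {Φ : LevelFamily F n} {ρ : Type} [Finite ρ] (C : Coords Φ ρ)
    (v : Places W p M) : MvPowerSeries (placeκ F v) O →ₐ[O] C.A :=
  C.γ.comp (placeSubst v)

namespace Coords

variable {n : ℕ} {Φ : LevelFamily F n} {ρ : Type} [Finite ρ] (C : Coords Φ ρ)

theorem at_X (v : Places W p M) (i : placeκ F v) : C.at v (MvPowerSeries.X i) = C.c v i := by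
  show C.γ (placeSubst v (MvPowerSeries.X i)) = _
  rw [placeSubst, substAlgHom_X, C.γ_X]

/-- The map of the algebra of values to the level of a set of places. -/
abbrev toLevelAlg (B : Finset (Places W p M)) : C.A →ₐ[O] (Φ.lvl B).N.H.algebra :=
  (Φ.down B).comp C.toTop

theorem mapM_toLevelAlg (hp2 : p ≠ 2) (B : Finset (Places W p M)) :
    mapM (C.toLevelAlg B : C.A →+* (Φ.lvl B).N.H.algebra) C.r = (Φ.lvl B).rep.ru :=
  (mapM_mapM (C.toTop : C.A →+* Φ.Top) (Φ.down B : Φ.Top →+* (Φ.lvl B).N.H.algebra) C.r).symm.trans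
    ((congrArg _ C.map_r).trans (Φ.mapM_down hp2 B))

theorem act_placeSubst (B : Finset (Places W p M)) (v : Places W p M)
    (a : MvPowerSeries (placeκ F v) O) :
    C.act B (placeSubst v a) = (Φ.basis B).rep (twChar O p F.r' n)
      (algebra_comm (Φ.lvl B).N.H) (C.toLevelAlg B (C.at v a)) :=
  rfl

theorem act_rel (B : Finset (Places W p M)) {f : MvPowerSeries (LCoord (placeκ F) ρ) O}
    (hf : f ∈ placesRel ρ fun v => (F.place v).D) : C.act B f = 0 := by
  obtain ⟨v, a, ha, rfl⟩ := Set.mem_iUnion.1 hf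
  rw [C.act_placeSubst, (C.values v).rel _ (C.at_X v) a ha, map_zero, map_zero]

theorem toLevelAlg_sub_one (hp2 : p ≠ 2) (B : Finset (Places W p M)) (σ : Gal) (i j : Fin 2) :
    C.toLevelAlg B ((C.r σ - 1) i j) = ((Φ.lvl B).rep.ru σ - 1) i j :=
  map_sub_one_apply _ (C.mapM_toLevelAlg hp2 B) σ i j

theorem toLevelAlg_trace (hp2 : p ≠ 2) (B : Finset (Places W p M)) (σ : Gal) :
    C.toLevelAlg B (C.r σ).trace = ((Φ.lvl B).rep.ru σ).trace :=
  (trace_mapM (C.toLevelAlg B : C.A →+* (Φ.lvl B).N.H.algebra) C.r σ).symm.trans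
    (congrArg (fun r => (r σ).trace) (C.mapM_toLevelAlg hp2 B))

theorem act_nSet (hp2 : p ≠ 2) {B : Finset (Places W p M)} {v : Places W p M} (hv : v ∉ B)
    {a : MvPowerSeries (placeκ F v) O} (ha : a ∈ (F.place v).D.nSet) :
    C.act B (placeSubst v a) = 0 := by
  rw [C.act_placeSubst]
  have h := (C.values v).nSet_eq_zero (C.at_X v)
    (C.toLevelAlg B : C.A →+* (Φ.lvl B).N.H.algebra) (fun i j => ?_) ha
  · rw [show C.toLevelAlg B (C.at v a) = 0 from h, map_zero]
  · show C.toLevelAlg B _ = 0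
    rw [C.toLevelAlg_sub_one hp2, (Φ.lvl B).rep.inertia_eq_one_of_not_dvd v.prime v.ne
      (F.X.not_dvd_levelOf (F.tw n).prime (F.tw n).notMem hv)
      (CFT.Local.padicPlace_liesOverPrime _) (F.place v).mem, sub_self, Matrix.zero_apply]

theorem act_y_mul_nSet (hp2 : p ≠ 2) {B : Finset (Places W p M)} {v : Places W p M} (hv : v ∈ B)
    {a : MvPowerSeries (placeκ F v) O} (ha : a ∈ (F.place v).D.nSet) :
    C.act B (placeSubst v (F.place v).D.y *
      (placeSubst v (F.place v).D.y' * placeSubst v a)) = 0 := by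
  rw [← map_mul (placeSubst v), ← map_mul (placeSubst v), C.act_placeSubst]
  have h := (C.values v).y_mul_nSet (C.at_X v)
    (C.toLevelAlg B : C.A →+* (Φ.lvl B).N.H.algebra) (fun i j => ?_) ha
  · rw [show C.toLevelAlg B _ = 0 from h, map_zero]
  · exact map_special_mul _ (C.mapM_toLevelAlg hp2 B) _ _ _ i j
      ((Φ.lvl B).rep.special_mul v.prime
        (dvd_mul_of_dvd_right (Finset.dvd_prod_of_mem _ hv) _) v.ne (Φ.psi_eq_one hv)
        (CFT.Local.padicPlace_liesOverPrime _) (F.place v).mem (F.place v).frob i j)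

/-- The diamond operators at the Taylor–Wiles primes are in the image. -/
theorem exists_quad (hp2 : p ≠ 2) (B : Finset (Places W p M)) (i : Fin F.r') :
    ∃ a, Matrix.scalar (Fin (F.D B))
        ((1 + toLevel (O := O) (r := F.r') (p := p) n (MvPowerSeries.X i)) ^ 2 + 1) =
      Matrix.scalar (Fin (F.D B)) (1 + toLevel (O := O) (r := F.r') (p := p) n (MvPowerSeries.X i)) *
        C.act B a := by
  obtain ⟨a, ha⟩ := C.quad i
  refine ⟨a, ?_⟩
  have htr : C.toLevelAlg B (C.γ a) = Glue.diaA (Φ.lvl B).N.H (twGen p n i) +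
      Glue.diaA (Φ.lvl B).N.H (twGen p n i)⁻¹ := by
    rw [← Φ.tw.trace_σ (F.base_dvd n B) (Φ.lvl B) F.p_mem hp2 (F.p_mem_ops n)
      (F.squarefree_lev n B) i ((F.tw n).prime i) (F.qv_dvd_base n i) (F.qv_ne n i)
      (fun A hA σ hσ => F.X.inertia_trace _ ((F.tw n).prime i) (F.qv_ne n i) A hA σ hσ),
      AlgHom.comp_apply, ha, ← Φ.mapM_down hp2 B]
    exact (trace_mapM (Φ.down B : Φ.Top →+* (Φ.lvl B).N.H.algebra) _ _).symm
  show _ = _ * (Φ.basis B).rep (twChar O p F.r' n) (algebra_comm (Φ.lvl B).N.H)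
    (C.toLevelAlg B (C.γ a))
  rw [htr]
  have hdia : ∀ δ, (Φ.basis B).rep (twChar O p F.r' n) (algebra_comm (Φ.lvl B).N.H)
      (Glue.diaA (Φ.lvl B).N.H δ) = twChar O p F.r' n δ • 1 := fun δ =>
    (DiaBasis.rep_apply _ _ _ _).trans (DiaBasis.mat_dia _ _ δ)
  exact quad_of_map (RingHomClass.toRingHom ((Φ.basis B).rep (twChar O p F.r' n)
      (algebra_comm (Φ.lvl B).N.H))) ((hdia _).trans (congrArg (· • 1) (twChar_gen n i))) (hdia _)
    (by rw [← twChar_gen, ← map_mul, mul_inv_cancel, map_one])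

theorem at_const (v : Places W p M) : C.at v (F.place v).D.c = (((v : ℕ) + 1 : ℕ) : C.A) := by
  rw [(C.values v).const _ (C.at_X v), Nat.cast_add, Nat.cast_one]

/-- The degeneracy data of one flip. -/
theorem nonempty_degStep_cons (hp2 : p ≠ 2) {B : Finset (Places W p M)} {v : Places W p M}
    (hv : v ∉ B) :
    Nonempty (DegStep (levelMax n) (C.act B) (C.act (Finset.cons v B hv))
      (placeSubst v (F.place v).D.c) (placeSubst v (F.place v).D.T) 1) := by
  have hbar : Glue.HasCharpolys (F.ops n) (curveAbar W) F.X.ρbar :=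
    hasCharpolys_mono Finset.subset_union_left F.X.charpolys
  obtain ⟨ℓ, aux, hℓS, hℓ⟩ := exists_auxPrime hp2 F.X.abs F.X.det_cyclotomic hbar
    (q := (v : ℕ)) (M := F.lev n B) v.prime.ne_zero (F.squarefree_lev n B).ne_zero
  obtain ⟨π, hπ⟩ := Φ.exists_cons hv
  have hcomp := Φ.comp_down hv hπ
  have h := nonempty_degStep_levelAt (Λ := MvPowerSeries (LCoord (placeκ F) ρ) O) hp2
    (isPGroup_twGroup n) (F.p_mem_ops n) F.X.abs F.X.rigid_rb (Φ.lvl B)
    (Φ.lvl (Finset.cons v B hv)) (q := (v : ℕ)) (levelOf_cons _ hv)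
    (F.lev_dvd n (Finset.subset_cons hv)) (Φ.psi_of_subset (Finset.subset_cons hv))
    (Φ.psi_surjective B) (F.raise n hv) (F.place_mem_ops n v) v.ne
    (F.X.weights_levelOf (F.tw n).prime B) (F.X.weights_levelOf (F.tw n).prime _)
    (F.squarefree_lev n B) (F.squarefree_lev n _) (F.X.eis _) aux hℓS hℓ
    (Φ.basis B) (Φ.basis (Finset.cons v B hv)) (Φ.d_eq B) (twChar O p F.r' n)
    (I := levelMax n) (twChar_sub_one_mem n) (exists_sub_algebraMap_mem_levelMax n)
    (algebraMap_mem_levelMax n F.p_mem) ((C.toLevelAlg (Finset.cons v B hv)).comp C.γ) π hπ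
    (CFT.Local.padicPlace_liesOverPrime _) (F.place v).frob
    (c := placeSubst v (F.place v).D.c) (T := placeSubst v (F.place v).D.T) ?_ ?_
  · have e : π.comp ((C.toLevelAlg (Finset.cons v B hv)).comp C.γ) =
        (Φ.down B).comp C.toAlg :=
      AlgHom.ext fun x => AlgHom.congr_fun hcomp (C.toAlg x)
    rw [e] at h
    exact h
  · show C.toLevelAlg _ (C.at v (F.place v).D.c) = _
    rw [C.at_const, map_natCast]
  · show C.toLevelAlg _ (C.at v (F.place v).D.T) = _
    rw [(C.values v).trace _ (C.at_X v), C.toLevelAlg_trace hp2]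

end Coords

variable (F)

theorem Frame.pos (hp2 : p ≠ 2) : 0 < F.D ∅ := by
  obtain ⟨Φ⟩ := F.nonempty_family hp2 0
  obtain ⟨N, hN⟩ := nonempty_levelModule (O := O) (L := F.lev 0 ∅) (S := F.ops 0)
    (abar := curveAbar W) hp2 (F.X.weights_levelOf (F.tw 0).prime ∅) (isPGroup_twGroup 0)
    (Φ.psi_surjective ∅) (F.squarefree_lev 0 ∅) (fun _ hq h => F.ops_prime 0 hq h) (F.X.eis _)
  rw [← F.rank 0 ∅ N.e N.isLocalizer_top, ← N.d_eq]
  exact hN.2 (F.X.congruent_levelOf (F.tw 0).injective (F.tw 0).prime (F.tw 0).notMem ∅)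

/-- **The hypotheses of the chain hold for coordinates of a frame.** -/
theorem Frame.chainLevels [IsAlgClosed K] (hp2 : p ≠ 2) (hφinj : Function.Injective φ)
    (hφ : ∀ c ∈ maximalIdeal O, ‖(φ c : K)‖ < 1) {ρ : Type} [Finite ρ]
    (hdim : ringKrullDim (MvPowerSeries ((Σ v, Fin (F.place v).D.ur.dim) ⊕ ρ) O) ≤
      ringKrullDim (DiaSeries O F.r'))
    (Φ : ∀ n, LevelFamily F n) (C : ∀ n, Coords (Φ n) ρ) :
    ChainLevels (placesChainData (fun v => (F.place v).D) hφinj hφ hdim) F.D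
      (fun B n => (C n).act B) where
  pos := F.pos hp2
  quad B n i := (C n).exists_quad hp2 B i
  rel B n f hf := (C n).act_rel B hf
  nSet B v hv f hf n := by
    obtain ⟨a, ha, rfl⟩ := hf
    exact (C n).act_nSet hp2 hv ha
  y_mul_nSet B v hv a ha n := by
    obtain ⟨a, ha, rfl⟩ := ha
    exact (C n).act_y_mul_nSet hp2 hv ha
  deg B v hv := ⟨1, ⟨DegData.ofSteps fun n => ((C n).nonempty_degStep_cons hp2 hv).some⟩⟩

end Fermat.Agent.RT.Lift
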