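import Fermat.Agent.Deform.Residual
import Fermat.Agent.Arith.Chebotarev.Main

/-!
# Normalised matrices are determined by their traces

Two normalised lifts with the same traces are equal, so normalised matrices are compatible along
every local homomorphism respecting the traces of Frobenius elements.
-/

set_option autoImplicit false
set_option linter.style.haveILetI false

noncomputable section

namespace Fermat.Agent.RT.Lift

open IsLocalRing Fermat.Agent.Deform

local notation "Q̄" => AlgebraicClosure ℚ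

variable {O : Type} [CommRing O] [IsLocalRing O] {A : Type} [CommRing A] [IsLocalRing A]
  [Algebra O A]

section Linear

omit [IsLocalRing O] [IsLocalRing A]

theorem trace_evalC_mul (c : Gal →₀ O) (r : Gal →* M2 A) (σ : Gal) :
    (evalC c r * r σ).trace = c.sum fun τ o => o • (r (τ * σ)).trace := by
  simp only [evalC, Finsupp.sum, Finset.sum_mul, Matrix.trace_sum, smul_mul_assoc,
    Matrix.trace_smul, map_mul]

theorem trace_evalC (c : Gal →₀ O) (r : Gal →* M2 A) :
    (evalC c r).trace = c.sum fun τ o => o • (r τ).trace := by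
  have h := trace_evalC_mul c r 1
  rw [map_one, mul_one] at h
  simpa using h

theorem trace_evalC_mul_evalC_mul (c c' : Gal →₀ O) (r : Gal →* M2 A) (σ : Gal) :
    (evalC c r * (evalC c' r * r σ)).trace =
      c'.sum fun τ o => o • c.sum fun τ' o' => o' • (r (τ' * (τ * σ))).trace := by
  simp only [evalC, Finsupp.sum, Finset.sum_mul, Finset.mul_sum, Matrix.trace_sum, smul_mul_assoc,
    mul_smul_comm, Matrix.trace_smul, Finset.smul_sum, map_mul]

end Linear

/-- Normalised lifts with the same traces are equal. -/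
theorem eq_of_trace_eq {W : Rigid O} {h : IsResAlg O A} {r r' : Gal →* M2 A}
    (hr : Lifts W h r) (hr' : Lifts W h r') (hn : IsNormal W r) (hn' : IsNormal W r')
    (h2 : IsUnit (2 : A)) {σ₀ : Gal} (hσ₀ : W.rb σ₀ 0 1 ≠ 0)
    (htr : ∀ σ, (r σ).trace = (r' σ).trace) : r = r' := by
  obtain ⟨hX01, hX10, hY10⟩ := hn
  obtain ⟨hX01', hX10', hY10'⟩ := hn'
  have ax : augment h (evalC W.cX r 0 0) = 1 := by
    simpa [Matrix.single_apply] using augment_X hr 0 0
  have aw : augment h (evalC W.cX r 1 1) = 0 := by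
    simpa [Matrix.single_apply] using augment_X hr 1 1
  have ax' : augment h (evalC W.cX r' 0 0) = 1 := by
    simpa [Matrix.single_apply] using augment_X hr' 0 0
  have aw' : augment h (evalC W.cX r' 1 1) = 0 := by
    simpa [Matrix.single_apply] using augment_X hr' 1 1
  have t1 : (evalC W.cX r).trace = (evalC W.cX r').trace := by simp only [trace_evalC, htr]
  have t2 : (evalC W.cX r * evalC W.cX r).trace = (evalC W.cX r' * evalC W.cX r').trace := by
    have h1 := trace_evalC_mul_evalC_mul W.cX W.cX r 1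
    have h1' := trace_evalC_mul_evalC_mul W.cX W.cX r' 1
    rw [map_one, mul_one] at h1 h1'
    simp only [h1, h1', htr]
  rw [Matrix.trace_fin_two, Matrix.trace_fin_two] at t1
  simp only [Matrix.trace_fin_two, Matrix.mul_apply, Fin.sum_univ_two, hX01, hX01', hX10, hX10',
    mul_zero, add_zero, zero_add] at t2
  set x := evalC W.cX r 0 0
  set w := evalC W.cX r 1 1
  set x' := evalC W.cX r' 0 0
  set w' := evalC W.cX r' 1 1
  have hsum : IsUnit ((x - w) + (x' - w')) := Deform.isUnit_of_augment_ne_zero h (by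
    rw [map_add, map_sub, map_sub, ax, aw, ax', aw', sub_zero, one_add_one_eq_two]
    exact fun h0 => (h2.map (augment h)).ne_zero (by rw [map_ofNat, h0]))
  have hdiff : x - w = x' - w' := sub_eq_zero.1 (hsum.mul_left_eq_zero.1
    (by linear_combination 2 * t2 - (x + w + (x' + w')) * t1))
  have ex : x = x' := h2.mul_left_cancel (by linear_combination t1 + hdiff)
  have ew : w = w' := by linear_combination t1 - ex
  have hxw : IsUnit (x - w) := Deform.isUnit_of_augment_ne_zero h (by
    rw [map_sub, ax, aw, sub_zero]; exact one_ne_zero)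
  -- the diagonal entries
  have hdiag : ∀ σ, r σ 0 0 = r' σ 0 0 ∧ r σ 1 1 = r' σ 1 1 := fun σ => by
    have e1 : (evalC W.cX r * r σ).trace = (evalC W.cX r' * r' σ).trace := by
      simp only [trace_evalC_mul, htr]
    simp only [Matrix.trace_fin_two, Matrix.mul_apply, Fin.sum_univ_two, hX01, hX01', hX10,
      hX10', zero_mul, add_zero, zero_add] at e1
    have e2 := htr σ
    rw [Matrix.trace_fin_two, Matrix.trace_fin_two] at e2
    have h0 : r σ 0 0 = r' σ 0 0 := hxw.mul_left_cancel (by
      change x * _ + w * _ = x' * _ + w' * _ at e1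
      rw [← ex, ← ew] at e1
      linear_combination e1 - w * e2)
    exact ⟨h0, by linear_combination e2 - h0⟩
  -- the entries right of the diagonal
  have hb : ∀ σ, r σ 0 1 = r' σ 0 1 := fun σ => by
    have e : ∀ τ, (evalC W.cY r * r τ) 1 1 = (evalC W.cY r' * r' τ) 1 1 := fun τ => by
      simp only [evalC, Finsupp.sum, Finset.sum_mul, Matrix.sum_apply, smul_mul_assoc,
        Matrix.smul_apply, ← map_mul, (hdiag _).2]
    have e0 := e 1
    rw [map_one, map_one, mul_one, mul_one] at e0
    have e1 := e σ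
    simp only [Matrix.mul_apply, Fin.sum_univ_two, hY10, hY10', one_mul, e0, (hdiag σ).2] at e1
    linear_combination e1
  have hu : IsUnit (r σ₀ 0 1) := Deform.isUnit_of_augment_ne_zero h (by rw [hr]; exact hσ₀)
  refine MonoidHom.ext fun σ => Matrix.ext fun i j => ?_
  fin_cases i <;> fin_cases j
  · exact (hdiag σ).1
  · exact hb σ
  · refine hu.mul_left_cancel ?_
    have e := (hdiag (σ₀ * σ)).1
    simp only [map_mul, Matrix.mul_apply, Fin.sum_univ_two, (hdiag σ).1, (hdiag σ₀).1, hb σ₀] at e
    simp only [Fin.mk_one, Fin.zero_eta, hb σ₀]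
    linear_combination e
  · exact (hdiag σ).2

/-- An absolutely irreducible residual representation has a nonzero entry right of the diagonal. -/
theorem exists_entry_ne_zero {ρbar : ResidualGaloisRep (ResidueField O)}
    (habs : ρbar.IsAbsolutelyIrreducible) {bb : Module.Basis (Fin 2) (ResidueField O) ρbar.V}
    {W : Rigid O} (hW : W.rb = matRes ρbar bb) : ∃ σ, W.rb σ 0 1 ≠ 0 := by
  by_contra hc
  push Not at hc
  have hle : Submodule.span (ResidueField O) (Set.range (matRes ρbar bb)) ≤
      LinearMap.ker (Matrix.entryLinearMap (ResidueField O) (ResidueField O) (0 : Fin 2) (1 : Fin 2)) := by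
    rw [Submodule.span_le]
    rintro _ ⟨σ, rfl⟩
    rw [SetLike.mem_coe, LinearMap.mem_ker, Matrix.entryLinearMap_apply, ← hW]
    exact hc σ
  have htop := span_matrix_eq_top ρbar habs bb
  have := hle ((SetLike.ext_iff.mp htop (Matrix.single 0 1 1 : M2 (ResidueField O))).mpr
    Submodule.mem_top)
  simp at this

/-- Traces of continuous matrices agreeing at almost all Frobenius elements agree. -/
theorem trace_eq_of_frobenius [IsNoetherianRing A] {r r' : Gal →* M2 A} (hr : IsCont r)
    (hr' : IsCont r') (T : Finset ℕ)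
    (heq : ∀ ℓ : ℕ, ℓ.Prime → ℓ ∉ T → ∀ P : ValuationSubring Q̄, P.LiesOverPrime ℓ →
      ∀ σ : Gal, P.IsFrobeniusAt σ ℓ → (r σ).trace = (r' σ).trace) (g : Gal) :
    (r g).trace = (r' g).trace := by
  refine sub_eq_zero.1 (IsHausdorff.haus' (I := maximalIdeal A) _ fun n => ?_)
  rw [SModEq.zero, smul_eq_mul, Ideal.mul_top]
  let π := Ideal.Quotient.mk (maximalIdeal A ^ n)
  let R : Gal →* M2 (A ⧸ maximalIdeal A ^ n) × M2 (A ⧸ maximalIdeal A ^ n) :=
    (mapM π r).prod (mapM π r')
  obtain ⟨L₁, hL₁, h₁⟩ := hr n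
  obtain ⟨L₂, hL₂, h₂⟩ := hr' n
  have key : ∀ {s : Gal →* M2 A} (σ : Gal), (∀ i j, s σ i j - (1 : M2 A) i j ∈ maximalIdeal A ^ n) →
      mapM π s σ = 1 := fun {s} σ hs => Matrix.ext fun i j => by
    rw [mapM_apply, Ideal.Quotient.eq.2 (hs i j), Matrix.one_apply, Matrix.one_apply,
      apply_ite π, map_one, map_zero]
  obtain ⟨ℓ, hℓ, hℓT, P, hP, σ, hσ, he⟩ := Arith.Chebotarev.exists_frobenius_eq R (L₁ ⊔ L₂)
    (fun τ hτ => Prod.ext (key τ (h₁ τ fun x hx => hτ x ((le_sup_left : L₁ ≤ L₁ ⊔ L₂) hx)))
      (key τ (h₂ τ fun x hx => hτ x ((le_sup_right : L₂ ≤ L₁ ⊔ L₂) hx)))) g T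
  have tr : ∀ (s : Gal →* M2 A) τ, (mapM π s τ).trace = π (s τ).trace := fun s τ => by
    simp [Matrix.trace_fin_two, mapM_apply]
  rw [← Ideal.Quotient.eq, ← tr, ← tr, ← show mapM π r σ = mapM π r g from congrArg Prod.fst he,
    ← show mapM π r' σ = mapM π r' g from congrArg Prod.snd he, tr, tr,
    heq ℓ hℓ hℓT P hP σ hσ]

end Fermat.Agent.RT.Lift
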