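import Fermat.Agent.RT.Assembly.Coords
import Fermat.Agent.CFT.Tangent.Derivation

/-!
# Coordinates detecting a quotient and the whole algebra

Given elements and a quotient, `k + 1` further elements, of which the first `k` already detect the
derivations of the quotient.
-/

set_option autoImplicit false
set_option linter.style.haveILetI false
set_option linter.unusedSectionVars false

noncomputable section

namespace Fermat.Agent.RT.Lift

open IsLocalRing Module Fermat.Agent.Deform Fermat.Agent.CFT.Tangent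
open Fermat.Agent.RT.Assembly (killedDer)

variable {O : Type} [CommRing O] [IsLocalRing O] [IsAdicComplete (maximalIdeal O) O]
  {A B : Type} [CommRing A] [IsLocalRing A] [IsNoetherianRing A] [Algebra O A]
  [CommRing B] [IsLocalRing B] [IsNoetherianRing B] [Algebra O B]
  (hA : IsResAlg O A) (hB : IsResAlg O B)

/-- A derivation of the target of a local map restricted along it. -/
def pullDer (φ : A →ₐ[O] B) (hφ : IsLocalHom (φ : A →+* B)) :
    tangentDer hB →ₗ[ResidueField O] tangentDer hA where
  toFun δ := ⟨fun a => δ.1 (φ a), by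
    have haug : ∀ a, augment hB (φ a) = augment hA a := fun a => by
      refine DFunLike.congr_fun (eq_augment hA ((augment hB).comp φ) fun x hx => ?_) a
      exact (augment_eq_zero_iff hB _).2 fun hu =>
        (IsLocalRing.mem_maximalIdeal _).1 hx (isUnit_of_map_unit (φ : A →+* B) x hu)
    refine ⟨fun a b => ?_, fun a b => ?_, fun o => ?_⟩
    · simp only [map_add, δ.2.1]
    · simp only [map_mul, δ.2.2.1, haug]
    · simp only [AlgHom.commutes, δ.2.2.2]⟩
  map_add' _ _ := rfl
  map_smul' _ _ := rfl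

theorem pullDer_apply (φ : A →ₐ[O] B) (hφ : IsLocalHom (φ : A →+* B)) (δ : tangentDer hB) (a : A) :
    (pullDer hA hB φ hφ δ).1 a = δ.1 (φ a) := rfl

/-- **Nested coordinates.** -/
theorem exists_nested_coords [Finite (ResidueField O)] (φ : A →ₐ[O] B)
    (hφ : IsLocalHom (φ : A →+* B)) (hsurj : Function.Surjective φ) {C : Type} [Finite C]
    (x : C → A) {k : ℕ} [Module.Finite (ResidueField O) (killedDer hA x)]
    (h0 : finrank (ResidueField O) (killedDer hB fun c => φ (x c)) ≤ k)
    (h1 : finrank (ResidueField O) (killedDer hA x) ≤ k + 1) :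
    ∃ y : Option (Fin k) → A, (∀ s, y s ∈ maximalIdeal A) ∧
      (∀ δ ∈ killedDer hA x, (∀ s, δ.1 (y s) = 0) → δ = 0) ∧
      ∀ δ ∈ killedDer hB (fun c => φ (x c)), (∀ i, δ.1 (φ (y (some i))) = 0) → δ = 0 := by
  classical
  let K₁ := killedDer hA x
  let K₀ := killedDer hB fun c => φ (x c)
  let ι : K₀ →ₗ[ResidueField O] K₁ :=
    ((pullDer hA hB φ hφ).comp K₀.subtype).codRestrict K₁ fun δ c => δ.2 c
  have hι : Function.Injective ι := fun a b h => Subtype.ext (Subtype.ext (funext fun z => by
    obtain ⟨a', rfl⟩ := hsurj z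
    exact congrArg (fun d : K₁ => d.1.1 a') h))
  have : Module.Finite (ResidueField O) K₀ := Module.Finite.of_injective ι hι
  let evl : A → Module.Dual (ResidueField O) K₁ := fun a =>
    { toFun := fun δ => δ.1.1 a
      map_add' := fun _ _ => rfl
      map_smul' := fun _ _ => rfl }
  let res : Module.Dual (ResidueField O) K₁ →ₗ[ResidueField O] Module.Dual (ResidueField O) K₀ :=
    ι.dualMap
  obtain ⟨t₀, ht₀sub, ht₀span, ht₀li⟩ :=
    exists_linearIndependent (ResidueField O) ((res ∘ evl) '' (maximalIdeal A : Set A))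
  haveI := ht₀li.set_finite_of_isNoetherian.fintype
  choose pre₀ hpre₀ hpre₀' using fun v : t₀ => ht₀sub v.2
  have hm0 : Fintype.card t₀ ≤ k := by
    refine le_trans ?_ h0
    rw [← Subspace.dual_finrank_eq (K := ResidueField O) (V := K₀)]
    exact ht₀li.fintype_card_le_finrank
  have hli : LinearIndependent (ResidueField O) fun v => evl (pre₀ v) := by
    refine LinearIndependent.of_comp res ?_
    rw [show res ∘ (fun v => evl (pre₀ v)) = fun v : t₀ => (v : Module.Dual (ResidueField O) K₀) from
      funext hpre₀']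
    exact ht₀li
  set S := Submodule.span (ResidueField O) (Set.range fun v => evl (pre₀ v)) with hS
  obtain ⟨t₁, ht₁sub, ht₁span, ht₁li⟩ :=
    exists_linearIndependent (ResidueField O) ((S.mkQ ∘ evl) '' (maximalIdeal A : Set A))
  haveI := ht₁li.set_finite_of_isNoetherian.fintype
  choose pre₁ hpre₁ hpre₁' using fun v : t₁ => ht₁sub v.2
  have hm1 : Fintype.card t₀ + Fintype.card t₁ ≤ k + 1 := by
    have e1 : finrank (ResidueField O) (Module.Dual (ResidueField O) K₁ ⧸ S) + Fintype.card t₀ =
        finrank (ResidueField O) (Module.Dual (ResidueField O) K₁) := by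
      rw [← finrank_span_eq_card hli]; exact Submodule.finrank_quotient_add_finrank S
    have e4 : finrank (ResidueField O) (Module.Dual (ResidueField O) K₁) =
        finrank (ResidueField O) K₁ := Subspace.dual_finrank_eq (K := ResidueField O) (V := K₁)
    rw [e4] at e1
    have e2 : Fintype.card t₁ ≤ finrank (ResidueField O) (Module.Dual (ResidueField O) K₁ ⧸ S) := by
      simpa only [← Nat.card_eq_fintype_card] using ht₁li.fintype_card_le_finrank
    have e3 : finrank (ResidueField O) K₁ ≤ k + 1 := h1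
    omega
  let e₀ := Fintype.equivFin t₀
  let e₁ := Fintype.equivFin t₁
  let l : ℕ → A := fun i =>
    if h : i < Fintype.card t₀ then pre₀ (e₀.symm ⟨i, h⟩)
    else if h' : i - Fintype.card t₀ < Fintype.card t₁ then pre₁ (e₁.symm ⟨_, h'⟩) else 0
  have hl : ∀ i, l i ∈ maximalIdeal A := fun i => by
    simp only [l]
    split_ifs
    exacts [hpre₀ _, hpre₁ _, zero_mem _]
  have hl0 : ∀ v : t₀, l (e₀ v).1 = pre₀ v := fun v => by
    simp only [l, dif_pos (e₀ v).2, Fin.eta, Equiv.symm_apply_apply]
  refine ⟨fun s => s.elim (l k) fun i => l i, fun s => ?_, fun δ hδ hy => ?_, fun δ hδ hy => ?_⟩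
  · cases s <;> exact hl _
  · have hv : ∀ i, i < k + 1 → δ.1 (l i) = 0 := fun i hi => by
      rcases Nat.lt_succ_iff_lt_or_eq.1 hi with h | rfl
      exacts [hy (some ⟨i, h⟩), hy none]
    refine tangentDer_eq_zero_of_generators hA (Ideal.span_eq (maximalIdeal A)) δ fun a ha => ?_
    have hS0 : ∀ w ∈ S, w ⟨δ, hδ⟩ = 0 := fun w hw => by
      refine Submodule.span_induction (p := fun w _ => w ⟨δ, hδ⟩ = 0) ?_ rfl ?_ ?_ hw
      · rintro _ ⟨v, rfl⟩
        show δ.1 (pre₀ v) = 0
        rw [← hl0]
        exact hv _ (lt_of_lt_of_le (e₀ v).2 (by omega))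
      · intro u w _ _ hu hw; simp [hu, hw]
      · intro c u _ hu; simp [hu]
    let f : (Module.Dual (ResidueField O) K₁ ⧸ S) →ₗ[ResidueField O] ResidueField O :=
      S.liftQ (LinearMap.applyₗ (⟨δ, hδ⟩ : K₁)) fun w hw => hS0 w hw
    have hmem : S.mkQ (evl a) ∈ Submodule.span (ResidueField O) t₁ :=
      ht₁span ▸ Submodule.subset_span ⟨a, ha, rfl⟩
    have hf : ∀ w ∈ Submodule.span (ResidueField O) t₁, f w = 0 := fun w hw => by
      refine Submodule.span_induction (p := fun w _ => f w = 0) ?_ (map_zero f) ?_ ?_ hw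
      · intro w hw
        have h2 := hpre₁' ⟨w, hw⟩
        rw [← show S.mkQ (evl (pre₁ ⟨w, hw⟩)) = w from h2]
        show δ.1 (pre₁ ⟨w, hw⟩) = 0
        have hlt := (e₁ ⟨w, hw⟩).2
        have e : l (Fintype.card t₀ + (e₁ ⟨w, hw⟩).1) = pre₁ ⟨w, hw⟩ := by
          simp only [l, dif_neg (Nat.not_lt.2 (Nat.le_add_right _ _)), Nat.add_sub_cancel_left,
            dif_pos hlt, Fin.eta, Equiv.symm_apply_apply]
        rw [← e]
        exact hv _ (by omega)
      · intro u w _ _ hu hw; rw [map_add, hu, hw, add_zero]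
      · intro c u _ hu; rw [map_smul, hu, smul_zero]
    exact hf _ hmem
  · refine tangentDer_eq_zero_of_generators hB (Ideal.span_eq (maximalIdeal B)) δ fun b hb => ?_
    obtain ⟨a, rfl⟩ := hsurj b
    have ha : a ∈ maximalIdeal A := fun hu =>
      (IsLocalRing.mem_maximalIdeal _).1 hb (hu.map φ)
    have hmem : (res ∘ evl) a ∈ Submodule.span (ResidueField O) t₀ :=
      ht₀span ▸ Submodule.subset_span ⟨a, ha, rfl⟩
    have hf : ∀ w ∈ Submodule.span (ResidueField O) t₀, w ⟨δ, hδ⟩ = 0 := fun w hw => by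
      refine Submodule.span_induction (p := fun w _ => w ⟨δ, hδ⟩ = 0) ?_ rfl ?_ ?_ hw
      · intro w hw
        have h2 := hpre₀' ⟨w, hw⟩
        rw [← show res (evl (pre₀ ⟨w, hw⟩)) = w from h2]
        show δ.1 (φ (pre₀ ⟨w, hw⟩)) = 0
        rw [← hl0]
        exact hy ⟨_, lt_of_lt_of_le (e₀ ⟨w, hw⟩).2 hm0⟩
      · intro u w _ _ hu hw; simp [hu, hw]
      · intro c u _ hu; simp [hu]
    exact hf _ hmem

end Fermat.Agent.RT.Lift
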