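import Fermat.Agent.RT.Assembly.Diamond
import Fermat.Agent.RT.Lift.Germ.Limit

/-!
# Matrices of equivariant maps between modules over a group ring

For two modules with bases over `O[Δ]`, an equivariant map has a matrix along a character; modulo
an ideal at which the character is trivial the coordinates are those along the trivial character.
-/

set_option autoImplicit false

noncomputable section

namespace Fermat.Agent.RT.Lift

open Fermat.Agent.RT.Assembly IsLocalRing

variable {O Δ M₁ M₂ M₃ : Type*} [CommRing O] [CommGroup Δ]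
  [AddCommGroup M₁] [Module O M₁] [AddCommGroup M₂] [Module O M₂] [AddCommGroup M₃] [Module O M₃]
  {dia₁ : Δ →* Module.End O M₁} {dia₂ : Δ →* Module.End O M₂} {dia₃ : Δ →* Module.End O M₃}
  {d₁ d₂ d₃ : ℕ} (B₁ : DiaBasis dia₁ d₁) (B₂ : DiaBasis dia₂ d₂) (B₃ : DiaBasis dia₃ d₃)
  {R : Type*} [CommRing R] [Algebra O R] (χ : Δ →* R)

/-- The matrix of a map between two modules along a character. -/
def matHom (f : M₁ →ₗ[O] M₂) : Matrix (Fin d₂) (Fin d₁) R :=
  Matrix.of fun i j => B₂.spec χ (f (B₁.basis j)) i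

/-- A map commutes with the diamonds. -/
def IsDiaHom (dia₁ : Δ →* Module.End O M₁) (dia₂ : Δ →* Module.End O M₂) (f : M₁ →ₗ[O] M₂) : Prop :=
  ∀ δ x, f (dia₁ δ x) = dia₂ δ (f x)

theorem spec_matHom {f : M₁ →ₗ[O] M₂} (hf : IsDiaHom dia₁ dia₂ f) (x : M₁) :
    B₂.spec χ (f x) = (matHom B₁ B₂ χ f).mulVec (B₁.spec χ x) := by
  suffices B₂.spec χ ∘ₗ f = ((matHom B₁ B₂ χ f).mulVecLin.restrictScalars O) ∘ₗ B₁.spec χ from
    LinearMap.congr_fun this x
  refine B₁.linearMap_ext fun j δ => ?_
  rw [LinearMap.comp_apply, hf, DiaBasis.spec_dia, LinearMap.comp_apply, DiaBasis.spec_dia_basis,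
    LinearMap.restrictScalars_apply, Matrix.mulVecLin_apply]
  funext i
  simp [matHom, mul_comm]

theorem matHom_comp {g : M₂ →ₗ[O] M₃} (hg : IsDiaHom dia₂ dia₃ g) (f : M₁ →ₗ[O] M₂) :
    matHom B₁ B₃ χ (g ∘ₗ f) = matHom B₂ B₃ χ g * matHom B₁ B₂ χ f := by
  ext i j
  exact congrFun (spec_matHom B₂ B₃ χ hg (f (B₁.basis j))) i

theorem matHom_add (f g : M₁ →ₗ[O] M₂) :
    matHom B₁ B₂ χ (f + g) = matHom B₁ B₂ χ f + matHom B₁ B₂ χ g := by
  ext i j; simp [matHom]

theorem matHom_sub (f g : M₁ →ₗ[O] M₂) :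
    matHom B₁ B₂ χ (f - g) = matHom B₁ B₂ χ f - matHom B₁ B₂ χ g := by
  ext i j; simp [matHom]

theorem matHom_zero : matHom B₁ B₂ χ (0 : M₁ →ₗ[O] M₂) = 0 := by
  ext i j; simp [matHom]

/-- The coordinates along the trivial character. -/
def augVec : M₁ →ₗ[O] (Fin d₁ → O) := B₁.spec (1 : Δ →* O)

theorem augVec_basis (i : Fin d₁) : augVec B₁ (B₁.basis i) = Pi.single i 1 := B₁.spec_basis 1 i

theorem augVec_dia (δ : Δ) (x : M₁) : augVec B₁ (dia₁ δ x) = augVec B₁ x := by
  rw [augVec, DiaBasis.spec_dia, MonoidHom.one_apply, one_smul]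

theorem augVec_surjective (c : Fin d₁ → O) : augVec B₁ (∑ i, c i • B₁.basis i) = c := by
  rw [map_sum]
  simp only [map_smul, augVec_basis]
  funext j
  simp [Finset.sum_apply, Pi.single_apply]

/-- The invariant maps are those factoring through the coordinates along the trivial character. -/
theorem apply_eq_sum_augVec {P : Type*} [AddCommGroup P] [Module O P] {f : M₁ →ₗ[O] P}
    (hf : ∀ δ x, f (dia₁ δ x) = f x) (x : M₁) :
    f x = ∑ i, augVec B₁ x i • f (B₁.basis i) := by
  suffices f = (Fintype.linearCombination O fun i => f (B₁.basis i)) ∘ₗ augVec B₁ by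
    exact (LinearMap.congr_fun this x).trans (by rw [LinearMap.comp_apply, Fintype.linearCombination_apply])
  refine B₁.linearMap_ext fun i δ => ?_
  rw [LinearMap.comp_apply, augVec_dia, augVec_basis, hf,
    Fintype.linearCombination_apply_single, one_smul]

variable {I : Ideal R}

theorem spec_sub_augVec_mem (hχ : ∀ δ, χ δ - 1 ∈ I) (x : M₁) (i : Fin d₁) :
    B₁.spec χ x i - algebraMap O R (augVec B₁ x i) ∈ I := by
  obtain ⟨f, rfl⟩ := B₁.coord.symm.surjective x
  induction f using Finsupp.induction_linear with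
  | zero => simp
  | add f g hf hg =>
    simp only [map_add, Pi.add_apply]
    rw [add_sub_add_comm]
    exact I.add_mem hf hg
  | single iδ c =>
    rw [DiaBasis.coord_symm_single]
    simp only [map_smul, augVec, DiaBasis.spec_dia_basis, MonoidHom.one_apply, Pi.smul_apply,
      Algebra.smul_def (A := R), map_mul, smul_eq_mul, Pi.single_apply]
    split_ifs with h
    · rw [map_one, mul_one, ← mul_sub_one]
      exact I.mul_mem_left _ (hχ _)
    · simp

end Fermat.Agent.RT.Lift

namespace Fermat.Agent.RT.Lift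

open IsLocalRing MvPowerSeries

section Level

variable {O : Type} [CommRing O] [IsLocalRing O] {t p : ℕ} (n : ℕ)

theorem exists_sub_algebraMap_mem_levelMax (r : LevelQuot O t p n) :
    ∃ c : O, r - algebraMap O (LevelQuot O t p n) c ∈
      (maximalIdeal (DiaSeries O t)).map (toLevel (p := p) n) := by
  obtain ⟨f, rfl⟩ := Ideal.Quotient.mk_surjective r
  refine ⟨MvPowerSeries.constantCoeff f, ?_⟩
  rw [show algebraMap O (LevelQuot O t p n) (MvPowerSeries.constantCoeff f) =
    Ideal.Quotient.mk _ (C (MvPowerSeries.constantCoeff f) : DiaSeries O t) from rfl, ← map_sub]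
  refine Ideal.mem_map_of_mem _ ((IsLocalRing.mem_maximalIdeal _).mpr fun h => ?_)
  have := MvPowerSeries.isUnit_iff_constantCoeff.mp h
  simp at this

theorem algebraMap_mem_levelMax (hp : (p : O) ∈ maximalIdeal O) (c : O) :
    algebraMap O (LevelQuot O t p n) c ∈
      (maximalIdeal (DiaSeries O t)).map (toLevel (p := p) n) ↔ c ∈ maximalIdeal O := by
  let a : DiaSeries O t →+* ResidueField O := (residue O).comp MvPowerSeries.constantCoeff
  have hm : ∀ f ∈ maximalIdeal (DiaSeries O t), a f = 0 := fun f hf =>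
    (residue_eq_zero_iff _).2 <| (IsLocalRing.mem_maximalIdeal _).mpr fun h =>
      (IsLocalRing.mem_maximalIdeal f).mp hf (MvPowerSeries.isUnit_iff_constantCoeff.mpr h)
  let b : LevelQuot O t p n →+* ResidueField O := Ideal.Quotient.lift _ a fun f hf =>
    hm f (Ideal.pow_le_self n.succ_ne_zero (Assembly.levelIdeal_le hp n hf))
  refine ⟨fun h => ?_, fun h => Ideal.mem_map_of_mem _ (x := (C c : DiaSeries O t))
    ((IsLocalRing.mem_maximalIdeal _).mpr fun hu =>
      (IsLocalRing.mem_maximalIdeal c).mp h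
        (by simpa using MvPowerSeries.isUnit_iff_constantCoeff.mp hu))⟩
  have h0 : b (algebraMap O (LevelQuot O t p n) c) = 0 :=
    RingHom.mem_ker.1 ((Ideal.map_le_iff_le_comap (f := toLevel n) (K := RingHom.ker b)).2
      (fun f hf => RingHom.mem_ker.2 (hm f hf)) h)
  rw [show b (algebraMap O (LevelQuot O t p n) c) = residue O (constantCoeff (C c : DiaSeries O t))
    from rfl, constantCoeff_C, residue_eq_zero_iff] at h0
  exact h0

end Level

end Fermat.Agent.RT.Lift
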