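import Fermat.Agent.RT.Lift.Levels.Pair
import Fermat.Agent.RT.Lift.Levels.DiaMat

/-!
# Corestriction of a level module to `Γ₀`

The corestriction kills the diamond operators, maps onto the localised part of `Hom(Γ₀, O)`, and
the images of the basis form a basis there.
-/

set_option autoImplicit false

noncomputable section

namespace Fermat.Agent.RT.Lift

open IsLocalRing MvPolynomial
open Fermat.Agent.RT.GammaH
open Fermat.Agent.RT.Assembly (DiaBasis)

variable {O : Type} [CommRing O] [IsDomain O] [IsDiscreteValuationRing O] {Δ : Type} [CommGroup Δ]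
  {S : Finset ℕ} {abar : ℕ → ResidueField O} {L : ℕ} [NeZero L] {ψ : (ZMod L)ˣ →* Δ}
  (N : LevelModule O S abar ψ)

/-- Corestriction of the module to `Γ₀`. -/
def LevelModule.corN : N.H.M →ₗ[O] HomMod O S (⊤ : Subgroup (ZMod L)ˣ) O :=
  haveI := Fintype.ofFinite ((ZMod L)ˣ ⧸ ψ.ker)
  (coresLin S ψ.ker O).restrictScalars O ∘ₗ N.incl

theorem LevelModule.corN_eq [Fintype ((ZMod L)ˣ ⧸ ψ.ker)] (x : N.H.M) :
    N.corN x = coresLin S ψ.ker O (N.incl x) := by
  simp only [LevelModule.corN, LinearMap.comp_apply, LinearMap.restrictScalars_apply]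
  congr
  exact Subsingleton.elim _ _

theorem LevelModule.corN_mem (x : N.H.M) :
    N.corN x ∈ localPart O N.e (HomMod O S (⊤ : Subgroup (ZMod L)ˣ) O) := by
  have := Fintype.ofFinite ((ZMod L)ˣ ⧸ ψ.ker)
  rw [N.corN_eq, mem_localPart, ← map_smul]
  exact congrArg _ (N.incl_mem x)

theorem LevelModule.corN_dia (hψ : Function.Surjective ψ) (δ : Δ) (x : N.H.M) :
    N.corN (N.H.dia δ x) = N.corN x := by
  have := Fintype.ofFinite ((ZMod L)ˣ ⧸ ψ.ker)
  obtain ⟨u, rfl⟩ := hψ δ
  rw [N.corN_eq, N.corN_eq, show N.incl (N.H.dia (ψ u) x) =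
    (X (Sum.inl u) : OpRing O L S) • N.incl x from N.map_dia u x, map_smul, X_inl_smul]
  exact diamond_top O u _

section Surjective

variable [IsAdicComplete (maximalIdeal O) O] [Finite (ResidueField O)] [CharZero O] {p : ℕ}
  [Fact p.Prime] [CharP (ResidueField O) p]

omit [IsAdicComplete (maximalIdeal O) O] [Finite (ResidueField O)] [CharZero O] in
theorem LevelModule.exists_corN_eq (hp : p ≠ 2) (hw : HasSTWeights O L) (hΔ : IsPGroup p Δ)
    {y : HomMod O S (⊤ : Subgroup (ZMod L)ˣ) O}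
    (hy : y ∈ localPart O N.e (HomMod O S (⊤ : Subgroup (ZMod L)ˣ) O)) : ∃ x, N.corN x = y := by
  have := Fintype.ofFinite ((ZMod L)ˣ ⧸ ψ.ker)
  have hC : Function.Surjective (coresLin (O := O) S ψ.ker O) :=
    hw.1.coresTop_surjective (isUnit_two (p := p) hp) (neg_one_mem_ker (p := p) ψ hp hΔ)
  obtain ⟨z, rfl⟩ := hC y
  obtain ⟨x, hx⟩ := N.exists_incl_eq (N.isLocalizer.smul_self_mem z)
  exact ⟨x, by rw [N.corN_eq, hx, map_smul]; exact hy⟩

variable {D : ℕ} (B : DiaBasis N.H.dia D) (hD : N.H.d = D) (hψ : Function.Surjective ψ)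
  (hp : p ≠ 2) (hw : HasSTWeights O L) (hΔ : IsPGroup p Δ)

include hψ in
omit [IsAdicComplete (maximalIdeal O) O] [Finite (ResidueField O)] [CharZero O] in
theorem LevelModule.corN_eq_sum (x : N.H.M) :
    N.corN x = ∑ i, augVec B x i • N.corN (B.basis i) :=
  apply_eq_sum_augVec B (N.corN_dia hψ) x

include hD hψ hp hw hΔ in
omit [IsAdicComplete (maximalIdeal O) O] [Finite (ResidueField O)] [CharZero O] in
theorem LevelModule.linearIndependent_corN :
    LinearIndependent O fun i => N.corN (B.basis i) := by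
  let P := localPart O N.e (HomMod O S (⊤ : Subgroup (ZMod L)ˣ) O)
  let f : (Fin D → O) →ₗ[O] P := Fintype.linearCombination O fun i =>
    (⟨N.corN (B.basis i), N.corN_mem _⟩ : P)
  have hf : ∀ c, (f c : HomMod O S (⊤ : Subgroup (ZMod L)ˣ) O) = ∑ i, c i • N.corN (B.basis i) :=
    fun c => by simp [f, Fintype.linearCombination_apply]
  have hs : Function.Surjective f := fun y => by
    obtain ⟨x, hx⟩ := N.exists_corN_eq hp hw hΔ y.2
    exact ⟨augVec B x, Subtype.ext (by rw [hf, ← N.corN_eq_sum B hψ, hx])⟩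
  have : Module.Finite O P := Module.Finite.of_surjective f hs
  have : Module.IsTorsionFree O P :=
    Function.Injective.moduleIsTorsionFree
      (fun (y : P) (γ : Additive (gammaH L (⊤ : Subgroup (ZMod L)ˣ))) => y.1 γ)
      (fun y z h => Subtype.ext (DFunLike.ext _ _ fun γ => congrFun h γ)) fun _ _ => rfl
  have : Module.Free O P := Module.free_of_finite_type_torsion_free'
  let E : P ≃ₗ[O] (Fin D → O) := LinearEquiv.ofFinrankEq _ _ (by
    rw [Module.finrank_fin_fun, ← hD]; exact N.d_eq.symm)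
  have hinj : Function.Injective f := by
    have h1 := OrzechProperty.injective_of_surjective_endomorphism (E.toLinearMap ∘ₗ f)
      (E.surjective.comp hs)
    exact fun a b h => h1 (congrArg E h)
  rw [Fintype.linearIndependent_iffₛ]
  intro a b h i
  exact congrFun (hinj (Subtype.ext ((hf a).trans (h.trans (hf b).symm)))) i

variable {ϖ : O}

include hψ in
omit [IsAdicComplete (maximalIdeal O) O] [Finite (ResidueField O)] [CharZero O] in
theorem LevelModule.exists_corN_eq_smul {x : N.H.M} (hx : ∀ i, ϖ ∣ augVec B x i) :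
    ∃ y : HomMod O S (⊤ : Subgroup (ZMod L)ˣ) O, N.corN x = ϖ • y := by
  choose c hc using hx
  exact ⟨∑ i, c i • N.corN (B.basis i), by
    rw [N.corN_eq_sum B hψ, Finset.smul_sum]
    exact Finset.sum_congr rfl fun i _ => by rw [hc, mul_smul]⟩

include hD hψ hp hw hΔ in
theorem LevelModule.dvd_augVec_of_corN {x : N.H.M} {y : HomMod O S (⊤ : Subgroup (ZMod L)ˣ) O}
    (hy : y ∈ localPart O N.e (HomMod O S (⊤ : Subgroup (ZMod L)ˣ) O)) (h : N.corN x = ϖ • y)
    (i : Fin D) : ϖ ∣ augVec B x i := by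
  obtain ⟨z, rfl⟩ := N.exists_corN_eq hp hw hΔ hy
  rw [N.corN_eq_sum B hψ, N.corN_eq_sum B hψ z, Finset.smul_sum] at h
  simp only [smul_smul] at h
  exact ⟨augVec B z i,
    Fintype.linearIndependent_iffₛ.1 (N.linearIndependent_corN B hD hψ hp hw hΔ) _ _ h i⟩

end Surjective

end Fermat.Agent.RT.Lift
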