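import Fermat.Agent.RT.Assembly.Local
import Fermat.Agent.RT.Glue.FlatDescent
import Fermat.Agent.EC.Rep.Local.Flat
import Fermat.Agent.CFT.Tangent.BaseChange
import Fermat.Prelude.Def_GaloisRep_StrictOrdinary

/-!
# Local conditions under change of coefficients and of coordinates

Flatness passes along any local homomorphism to a ring with finite residue field; strict
ordinarity is invariant under equivalence; Frobenius conjugates tame inertia to its `v`-th power
as soon as the residual inertia has exponent `p`.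
-/

set_option autoImplicit false
set_option linter.style.haveILetI false

noncomputable section

namespace Fermat.Agent.RT.Lift

open IsLocalRing Module Fermat.Agent.Deform
open scoped TensorProduct
open Fermat.Agent.FiniteFlat (GalOrder Zl)
open Fermat.Agent.Arith (GQ QBar)

variable {A B : Type} [CommRing A] [IsLocalRing A] [CommRing B] [IsLocalRing B] {p : ℕ}

/-- Flatness passes along a local homomorphism to a ring with finite residue field. -/
theorem isFlatAt_baseChangeAlong (φ : A →+* B) (hφ : IsLocalHom φ) {ρ : GaloisRepAdic A}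
    (hB : Finite (ResidueField B)) (h : ρ.IsFlatAt p) :
    (ρ.baseChangeAlong φ hφ).IsFlatAt p := by
  classical
  let : Algebra A B := φ.toAlgebra
  refine EC.Rep.isFlatAt_of_galOrder _ p hB fun J hJ => ?_
  have hfin : Finite (A ⧸ J.comap φ) := Finite.of_injective _
    (Ideal.quotientMap_injective (I := J) (f := φ))
  obtain ⟨H, _, _, _, _, _, e, he, heσ⟩ := h.2 _ hfin
  let : DistribMulAction GQ (ρ.V ⧸ (J.comap φ • (⊤ : Submodule A ρ.V))) :=
    EC.Rep.levelDistribMulAction ρ (J.comap φ)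
  obtain ⟨O₀⟩ := Glue.nonempty_galOrder_of_hopf e he heσ
  have : Finite (ρ.V ⧸ (J.comap φ • (⊤ : Submodule A ρ.V))) :=
    Module.finite_of_finite (A ⧸ J.comap φ)
  let N : Submodule B (B ⊗[A] ρ.V) := J • ⊤
  let f : B → (ρ.V →+ (B ⊗[A] ρ.V) ⧸ N) := fun t =>
    N.mkQ.toAddMonoidHom.comp ((TensorProduct.mk A B ρ.V t).toAddMonoidHom)
  have hker : ∀ t, (J.comap φ • (⊤ : Submodule A ρ.V)).toAddSubgroup ≤ (f t).ker := by
    intro t v hv
    refine (Submodule.Quotient.mk_eq_zero N).mpr (Submodule.smul_induction_on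
      (p := fun v => t ⊗ₜ[A] v ∈ N) hv (fun a ha w _ => ?_) fun x y hx hy => ?_)
    · rw [TensorProduct.tmul_smul, TensorProduct.smul_tmul', Algebra.smul_def,
        show algebraMap A B a * t = (φ a * t) • (1 : B) by rw [smul_eq_mul, mul_one]; rfl,
        ← TensorProduct.smul_tmul']
      exact Submodule.smul_mem_smul (J.mul_mem_right _ ha) Submodule.mem_top
    · rw [TensorProduct.tmul_add]; exact add_mem hx hy
  let g : B → (ρ.V ⧸ (J.comap φ • (⊤ : Submodule A ρ.V)) →+ (B ⊗[A] ρ.V) ⧸ N) := fun t =>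
    QuotientAddGroup.lift _ (f t) (hker t)
  have hg : ∀ t v, g t (Submodule.Quotient.mk v) = Submodule.Quotient.mk (t ⊗ₜ[A] v) :=
    fun t v => rfl
  let : DistribMulAction GQ ((B ⊗[A] ρ.V) ⧸ N) :=
    EC.Rep.levelDistribMulAction (ρ.baseChangeAlong φ hφ) J
  have hgσ : ∀ t (σ : GQ) m, g t (σ • m) = σ • g t m := fun t σ m => by
    obtain ⟨v, rfl⟩ := Submodule.Quotient.mk_surjective _ m
    show Submodule.Quotient.mk (t ⊗ₜ[A] ρ.ρ σ v) =
      Submodule.Quotient.mk ((ρ.ρ σ).baseChange B (t ⊗ₜ[A] v))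
    rw [LinearMap.baseChange_tmul]
  have key : ∀ s : Finset (B ⧸ J), ∃ (M : Type) (_ : AddCommGroup M) (_ : DistribMulAction GQ M)
      (_ : Finite M) (_ : GalOrder p M) (π : M →+ (B ⊗[A] ρ.V) ⧸ N),
      (∀ (σ : GQ) m, π (σ • m) = σ • π m) ∧ ∀ y ∈ s, ∀ m, g (Quotient.out y) m ∈ π.range := by
    intro s
    induction s using Finset.induction_on with
    | empty => exact ⟨_, inferInstance, inferInstance, inferInstance, O₀, 0,
        fun σ m => (smul_zero σ).symm, fun y hy => absurd hy (Finset.notMem_empty y)⟩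
    | insert y s _ ih =>
      obtain ⟨M, _, _, _, OM, π, hπ, hs⟩ := ih
      refine ⟨_, inferInstance, inferInstance, inferInstance, OM.prod O₀,
        π.coprod (g (Quotient.out y)), fun σ m => ?_, fun z hz m => ?_⟩
      · rw [AddMonoidHom.coprod_apply, AddMonoidHom.coprod_apply, Prod.smul_fst, Prod.smul_snd,
          hπ, hgσ, smul_add]
      · rcases Finset.mem_insert.mp hz with rfl | hz
        · exact ⟨(0, m), by simp⟩
        · obtain ⟨n, hn⟩ := hs z hz m
          exact ⟨(n, 0), by simpa using hn⟩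
  let := Fintype.ofFinite (B ⧸ J)
  obtain ⟨M, _, _, _, OM, π, hπ, hs⟩ := key Finset.univ
  refine ⟨M, inferInstance, inferInstance, inferInstance, OM, π, fun x => ?_, hπ⟩
  suffices H : x ∈ π.range from H
  obtain ⟨w, rfl⟩ := Submodule.Quotient.mk_surjective _ x
  revert w
  show ∀ w : B ⊗[A] ρ.V, (Submodule.Quotient.mk w : (B ⊗[A] ρ.V) ⧸ N) ∈ π.range
  intro w
  induction w using TensorProduct.induction_on with
  | zero => exact zero_mem _
  | tmul c v =>
    have hmem : c ⊗ₜ[A] v - (Quotient.out (Ideal.Quotient.mk J c)) ⊗ₜ[A] v ∈ N := by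
      rw [← TensorProduct.sub_tmul,
        show c - Quotient.out (Ideal.Quotient.mk J c) =
          (c - Quotient.out (Ideal.Quotient.mk J c)) • (1 : B) by rw [smul_eq_mul, mul_one],
        ← TensorProduct.smul_tmul']
      refine Submodule.smul_mem_smul ?_ Submodule.mem_top
      rw [← Ideal.Quotient.eq_zero_iff_mem, map_sub, sub_eq_zero]
      exact (Quotient.out_eq _).symm
    rw [(Submodule.Quotient.eq N).mpr hmem, ← hg]
    exact hs _ (Finset.mem_univ _) _
  | add a b ha hb =>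
    rw [Submodule.Quotient.mk_add]
    exact add_mem ha hb

/-- Strict ordinarity is invariant under equivalence. -/
theorem isStrictOrdinaryAt_of_isEquiv {ρ ρ' : GaloisRepAdic A} (e : ρ.IsEquiv ρ')
    (h : ρ.IsStrictOrdinaryAt p) : ρ'.IsStrictOrdinaryAt p := by
  obtain ⟨e⟩ := e
  refine ⟨h.1, fun P hP => ?_⟩
  obtain ⟨L, ⟨b, hb⟩, hD, hI, hxz⟩ := h.2 P hP
  let f : ρ.V ≃ₗ[A] ρ'.V := e.toLinearEquiv
  have hf : ∀ σ w, ρ'.ρ σ (f w) = f (ρ.ρ σ w) := fun σ w => (e.map_apply σ w).symm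
  refine ⟨L.map (f : ρ.V →ₗ[A] ρ'.V), ⟨b.map f, ?_⟩, fun σ hσ v hv => ?_, fun σ hσ v => ?_,
    fun σ hσ => ?_⟩
  · rw [hb, Submodule.map_span, Set.image_singleton, Basis.map_apply]
    rfl
  · obtain ⟨w, hw, rfl⟩ := hv
    exact ⟨_, hD σ hσ w hw, (hf σ w).symm⟩
  · obtain ⟨w, rfl⟩ := f.surjective v
    exact ⟨_, hI σ hσ w, by rw [LinearEquiv.coe_coe, map_sub, hf]⟩
  · obtain ⟨x, z, hx, hz, hc⟩ := hxz σ hσ
    refine ⟨x, z, fun w hw => ?_, fun v => ?_, hc⟩
    · obtain ⟨u, hu, rfl⟩ := hw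
      rw [LinearEquiv.coe_coe, hf, hx u hu, map_smul]
    · obtain ⟨w, rfl⟩ := f.surjective v
      exact ⟨_, hz w, by rw [LinearEquiv.coe_coe, map_sub, map_smul, hf]⟩

/-- The relation between a Frobenius and tame inertia, residual inertia having exponent `p`. -/
theorem conj_eq_pow_of_residual_pow [IsAdicComplete (maximalIdeal A) A] {v : ℕ} (hp : p.Prime)
    (hpA : (p : A) ∈ maximalIdeal A) {ru : Gal →* M2 A} (hc : IsCont ru)
    {P : ValuationSubring QBar} (hP : P.LiesOverPrime v) (hv : v.Prime) (hvp : v ≠ p)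
    (hinert : ∀ g ∈ P.inertiaSubgroupIn ℚ, (ru g ^ p).map (residue A) = 1) {σ φ : Gal}
    (hσ : σ ∈ P.inertiaSubgroupIn ℚ) (hφ : P.IsFrobeniusAt φ v) :
    ru φ * ru σ = ru σ ^ v * ru φ := by
  obtain ⟨hν, htriv⟩ := Assembly.tameTrivial_frobenius_conj hφ hσ
  set ν := φ * σ * φ⁻¹ * (σ ^ v)⁻¹ with hνdef
  have h1 : ru ν = 1 := by
    ext a b
    refine sub_eq_zero.mp (IsHausdorff.haus' (I := maximalIdeal A) _ fun N => ?_)
    rw [SModEq.zero, smul_eq_mul, Ideal.mul_top]
    let π := (Ideal.Quotient.mk (maximalIdeal A ^ (N + 1))).mapMatrix (m := Fin 2)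
    let ρN : Gal →* M2 (A ⧸ maximalIdeal A ^ (N + 1)) := π.toMonoidHom.comp ru
    have hfin : ∃ L : IntermediateField ℚ QBar, FiniteDimensional ℚ L ∧
        ∀ g : Gal, (∀ x ∈ L, g x = x) → ρN g = 1 := by
      obtain ⟨L, hL, hL'⟩ := hc (N + 1)
      refine ⟨L, hL, fun g hg => ?_⟩
      refine sub_eq_zero.1 (Matrix.ext fun a b => ?_)
      show (π (ru g) - 1) a b = 0
      rw [← map_one π, ← map_sub]
      exact Ideal.Quotient.eq_zero_iff_mem.2 (hL' g hg a b)
    have hνN : ρN ν = 1 := Assembly.eq_one_of_tameTrivial ρN hfin hP hv hν htriv (n := p * p ^ N)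
      (fun h => hvp ((Nat.prime_dvd_prime_iff_eq hv hp).mp
        ((hv.dvd_mul.1 h).elim id hv.dvd_of_dvd_pow)))
      (by
        show π (ru ν) ^ (p * p ^ N) = 1
        rw [← map_pow, pow_mul]
        exact Assembly.map_pow_prime_pow_eq_one hpA (hinert ν hν) N)
    refine Ideal.pow_le_pow_right N.le_succ ?_
    rw [← Ideal.Quotient.eq_zero_iff_mem]
    have h2 : π (ru ν - 1) = 0 := by
      rw [map_sub, map_one, sub_eq_zero]; exact hνN
    exact congrFun (congrFun h2 a) b
  have h2 : φ * σ = ν * (σ ^ v * φ) := by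
    rw [hνdef]; group
  rw [← map_mul, h2, map_mul, h1, one_mul, map_mul, map_pow]

end Fermat.Agent.RT.Lift
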