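import Fermat.Agent.RT.Lift.Levels.CurveLocal
import Fermat.Agent.RT.Assembly.Normal
import Fermat.Agent.RT.Assembly.Matrices
import Fermat.Agent.EC.Rep.Local.Unipotent
import Fermat.Agent.EC.Rep.Local.StrictOrdinary
import Fermat.Agent.EC.Multiplicative.Frobenius
import Fermat.Agent.Deform.Residual
import Fermat.Agent.GaloisReps.Unramified

/-!
# The marked point of a semistable curve

The Tate module of `W` over the coefficient ring, in coordinates normalised for a rigidification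
of the residual representation: unipotent inertia away from `p`, the traces `a_ℓ`, the traces
`± (q + 1)` at the bad primes, flat or strictly ordinary at `p`.
-/

set_option autoImplicit false
set_option linter.style.haveILetI false

noncomputable section

open WeierstrassCurve IsLocalRing Module Fermat.Agent.Deform
open scoped WeierstrassCurve.Affine TensorProduct
open Fermat.Agent.EC.Rep (residualRep tateRep tateRed)

namespace Fermat.Agent.RT.Lift

local notation "Q̄" => AlgebraicClosure ℚ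

/-- The properties of the marked point of `W`. -/
structure IsCurvePoint {O : Type} [CommRing O] [IsLocalRing O] (W : WeierstrassCurve ℤ) (p : ℕ)
    (ru : Gal →* M2 O) (hc : IsCont ru) : Prop where
  detCyclotomic : (toRep ru hc).DetIsCyclotomic p
  inertia_good : ∀ q : ℕ, q.Prime → W.IsGoodPrimeFor q → q ≠ p → ∀ P : ValuationSubring Q̄,
    P.LiesOverPrime q → ∀ σ ∈ P.inertiaSubgroupIn ℚ, ru σ = 1
  inertia_trace : ∀ q : ℕ, q.Prime → q ≠ p → ∀ P : ValuationSubring Q̄, P.LiesOverPrime q →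
    ∀ σ ∈ P.inertiaSubgroupIn ℚ, (ru σ).trace = 2
  inertia_det : ∀ q : ℕ, q.Prime → q ≠ p → ∀ P : ValuationSubring Q̄, P.LiesOverPrime q →
    ∀ σ ∈ P.inertiaSubgroupIn ℚ, (ru σ).det = 1
  inertia_sq : ∀ q : ℕ, q.Prime → q ≠ p → ∀ P : ValuationSubring Q̄, P.LiesOverPrime q →
    ∀ σ ∈ P.inertiaSubgroupIn ℚ, (ru σ - 1) * (ru σ - 1) = 0
  conj : ∀ q : ℕ, q.Prime → q ≠ p → ∀ P : ValuationSubring Q̄, P.LiesOverPrime q →
    ∀ σ ∈ P.inertiaSubgroupIn ℚ, ∀ φ : Gal, P.IsFrobeniusAt φ q →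
      ru φ * ru σ = ru σ ^ q * ru φ
  frobenius_det : ∀ q : ℕ, q.Prime → q ≠ p → ∀ P : ValuationSubring Q̄, P.LiesOverPrime q →
    ∀ φ : Gal, P.IsFrobeniusAt φ q → (ru φ).det = (q : O)
  frobenius_trace : ∀ ℓ : ℕ, ℓ.Prime → W.IsGoodPrimeFor ℓ → ℓ ≠ p → ∀ P : ValuationSubring Q̄,
    P.LiesOverPrime ℓ → ∀ φ : Gal, P.IsFrobeniusAt φ ℓ → (ru φ).trace = (W.apOfModel ℓ : O)
  frobenius_bad : ∀ q : ℕ, q.Prime → q ≠ p → (q : ℤ) ∣ W.Δ → ∀ P : ValuationSubring Q̄,
    P.LiesOverPrime q → ∀ φ : Gal, P.IsFrobeniusAt φ q →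
      ∃ ε : O, (ε = 1 ∨ ε = -1) ∧ (ru φ).trace = ε * ((q : O) + 1)
  flat : W.IsGoodPrimeFor p → (toRep ru hc).IsFlatAt p
  strictOrdinary : (p : ℤ) ∣ W.Δ → (toRep ru hc).IsStrictOrdinaryAt p

variable {W : WeierstrassCurve ℤ} {p : ℕ} [Fact p.Prime]

/-- At a multiplicative prime `q ≠ p` a Frobenius has trace `± (q + 1)` on the Tate module. -/
theorem exists_trace_tateRep_frobenius_bad (hΔ : W.Δ ≠ 0) {q : ℕ} (hq : q.Prime) (hqp : q ≠ p)
    (hdvd : (q : ℤ) ∣ W.Δ) (hc₄ : ¬ (q : ℤ) ∣ W.c₄) {A : ValuationSubring Q̄}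
    (hA : A.LiesOverPrime q) {σ : Gal} (hσ : A.IsFrobeniusAt σ q) :
    ∃ ε : ℤ, (ε = 1 ∨ ε = -1) ∧ (tateRep W p hΔ).trace σ = (ε : ℤ_[p]) * ((q : ℤ_[p]) + 1) := by
  classical
  have hp : p.Prime := Fact.out
  obtain ⟨ε, hε, hquad⟩ :=
    EC.Multiplicative.exists_sign_frobenius_quadratic hA hq hΔ hdvd hc₄ hσ
  set T := (tateRep W p hΔ).ρ σ with hT
  have hv : ∀ v, T (T v - (ε : ℤ_[p]) • v) -
      ((ε * q : ℤ) : ℤ_[p]) • (T v - (ε : ℤ_[p]) • v) = 0 := fun v => by
    rw [Int.cast_smul_eq_zsmul, Int.cast_smul_eq_zsmul]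
    refine EC.Rep.tateRed_eq_zero_of_forall hΔ fun n => ?_
    have hn : ¬ q ∣ p ^ n := fun h =>
      hqp ((Nat.prime_dvd_prime_iff_eq hq hp).mp (hq.dvd_of_dvd_pow h))
    rw [hT, map_sub, EC.Rep.red_tateRep, map_zsmul, map_sub, EC.Rep.red_tateRep, map_zsmul,
      sub_eq_zero]
    exact hquad _ hn _ (by rw [← natCast_zsmul]; push_cast; exact EC.Rep.pow_smul_tateRed hΔ n v)
  let b : Basis (Fin 2) ℤ_[p] (tateRep W p hΔ).V := Basis.finTwoProd ℤ_[p]
  have hlin : T * T - ((ε : ℤ_[p]) * ((q : ℤ_[p]) + 1)) • T + (q : ℤ_[p]) • 1 = 0 := by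
    refine LinearMap.ext fun v => ?_
    have h := hv v
    simp only [map_sub, map_smul] at h
    simp only [LinearMap.add_apply, LinearMap.sub_apply, Module.End.mul_apply,
      LinearMap.smul_apply, Module.End.one_apply, LinearMap.zero_apply]
    rcases hε with rfl | rfl <;> push_cast at h ⊢ <;> linear_combination (norm := module) h
  have hdet : LinearMap.det T = (q : ℤ_[p]) :=
    Assembly.det_eq_natCast (EC.Rep.detIsCyclotomic_tateRep hΔ) fun n μ hμ =>
      GaloisReps.frobenius_apply_root hA hq hσ hμ fun h =>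
        hqp ((Nat.prime_dvd_prime_iff_eq hq hp).mp (hq.dvd_of_dvd_pow h))
  set M := LinearMap.toMatrix b b T
  have hM : M * M - ((ε : ℤ_[p]) * ((q : ℤ_[p]) + 1)) • M + (q : ℤ_[p]) • 1 = 0 := by
    have h := congrArg (LinearMap.toMatrix b b) hlin
    rwa [map_zero, map_add, map_sub, map_smul, map_smul, LinearMap.toMatrix_mul,
      LinearMap.toMatrix_one] at h
  have hMdet : M.det = (q : ℤ_[p]) := by rw [LinearMap.det_toMatrix]; exact hdet
  refine ⟨ε, hε, ?_⟩
  rw [GaloisRepAdic.trace, LinearMap.trace_eq_matrix_trace _ b]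
  refine (EC.Rep.trace_det_of_quadratic_of_nonscalar M hM fun c hc => ?_).1
  rw [hc, Matrix.det_fin_two] at hMdet
  have h00 := congrFun (congrFun hM 0) 0
  rw [hc] at h00
  simp at h00 hMdet
  have hε2 : (ε : ℤ_[p]) * ε = 1 := by rcases hε with rfl | rfl <;> simp
  have hq0 : (q : ℤ_[p]) ≠ 0 := Nat.cast_ne_zero.mpr hq.ne_zero
  have hq1 : (q : ℤ_[p]) - 1 ≠ 0 := by
    rw [sub_ne_zero, ← Nat.cast_one, Nat.cast_inj.ne]
    exact hq.ne_one
  have hlinc : 2 * (q : ℤ_[p]) = (ε : ℤ_[p]) * ((q : ℤ_[p]) + 1) * c := by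
    linear_combination h00 - hMdet
  have : ((q : ℤ_[p]) - 1) ^ 2 * (q : ℤ_[p]) = 0 := by
    linear_combination (-(2 * (q : ℤ_[p]) + (ε : ℤ_[p]) * ((q : ℤ_[p]) + 1) * c)) * hlinc -
      ((q : ℤ_[p]) + 1) ^ 2 * c ^ 2 * hε2 - ((q : ℤ_[p]) + 1) ^ 2 * hMdet
  exact (mul_eq_zero.mp this).elim (fun h => hq1 (pow_eq_zero_iff two_ne_zero |>.mp h)) hq0

/-- The standard basis of the Tate module. -/
def tateStdBasis (hΔ : W.Δ ≠ 0) : Basis (Fin 2) ℤ_[p] (tateRep W p hΔ).V :=
  Basis.finTwoProd ℤ_[p]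

/-- The Tate module reduces to `E[p]`, basis to basis. -/
theorem exists_basis_residual_tateRep (hΔ : W.Δ ≠ 0) :
    ∃ b : Basis (Fin 2) (ZMod p) (residualRep W p hΔ).V,
      ∀ σ i j, matRes (residualRep W p hΔ) b σ i j =
        PadicInt.toZMod (matOf (tateRep W p hΔ) (tateStdBasis hΔ) σ i j) := by
  obtain ⟨b, hP, hQ⟩ := (EC.Rep.exists_curve_tateBasis W p hΔ).choose_spec
  set B := EC.Rep.tateBasis W p hΔ
  refine ⟨b, fun σ i j => ?_⟩
  let b0 : Basis (Fin 2) ℤ_[p] (tateRep W p hΔ).V := tateStdBasis hΔ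
  have hbj : (Subtype.val (b j) : EC.Rep.PtQ W) = tateRed hΔ 1 (b0 j) := by
    fin_cases j
    · show _ = B.red 1 (b0 0)
      have h1 : B.red 1 (((1 : ℤ) : ℤ_[p]), ((0 : ℤ) : ℤ_[p])) = B.P 1 := by
        rw [B.red_intCast, one_zsmul, zero_zsmul, add_zero]
      rw [show (b0 0 : ℤ_[p] × ℤ_[p]) = (((1 : ℤ) : ℤ_[p]), ((0 : ℤ) : ℤ_[p])) by
        simp [b0, tateStdBasis]; exact Basis.finTwoProd_zero _, h1]
      exact hP.symm
    · show _ = B.red 1 (b0 1)
      have h1 : B.red 1 (((0 : ℤ) : ℤ_[p]), ((1 : ℤ) : ℤ_[p])) = B.Q 1 := by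
        rw [B.red_intCast, one_zsmul, zero_zsmul, zero_add]
      rw [show (b0 1 : ℤ_[p] × ℤ_[p]) = (((0 : ℤ) : ℤ_[p]), ((1 : ℤ) : ℤ_[p])) by
        simp [b0, tateStdBasis]; exact Basis.finTwoProd_one _, h1]
      exact hQ.symm
  obtain ⟨a, c, ha, hc, e⟩ := B.exists_red_eq 1 ((tateRep W p hΔ).ρ σ (b0 j))
  have key : (residualRep W p hΔ).ρ σ (b j) = (a : ZMod p) • b 0 + (c : ZMod p) • b 1 := by
    rw [Int.cast_smul_eq_zsmul, Int.cast_smul_eq_zsmul]
    refine Subtype.ext ?_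
    show σ • (Subtype.val (b j) : EC.Rep.PtQ W) =
      a • (Subtype.val (b 0) : EC.Rep.PtQ W) + c • Subtype.val (b 1)
    rw [hbj, ← EC.Rep.red_tateRep, ← hP, ← hQ]
    exact e
  have hmod : ∀ (x : ℤ_[p]) (z : ℤ), x - z ∈ Ideal.span {(p : ℤ_[p]) ^ 1} →
      PadicInt.toZMod x = (z : ZMod p) := fun x z h => by
    rw [pow_one, ← PadicInt.maximalIdeal_eq_span_p, ← PadicInt.ker_toZMod, RingHom.mem_ker,
      map_sub, map_intCast, sub_eq_zero] at h
    exact h
  rw [matRes_apply, matOf_apply, key]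
  fin_cases i
  · simp only [map_add, map_smul, Basis.repr_self, Finsupp.add_apply, Finsupp.smul_apply]
    simp only [Fin.zero_eta, Finsupp.single_eq_same, smul_eq_mul, mul_one]
    rw [Finsupp.single_eq_of_ne (by decide), mul_zero, add_zero, ← hmod _ a ha]
    rfl
  · simp only [map_add, map_smul, Basis.repr_self, Finsupp.add_apply, Finsupp.smul_apply]
    simp only [Fin.mk_one, Finsupp.single_eq_same, smul_eq_mul, mul_one]
    rw [Finsupp.single_eq_of_ne (by decide), mul_zero, zero_add, ← hmod _ c hc]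
    rfl

theorem isResAlg_self (O : Type) [CommRing O] [IsLocalRing O] : IsResAlg O O :=
  ⟨⟨fun _ ha => ha⟩, residue_surjective⟩

variable {O : Type} [CommRing O] [IsLocalRing O] [IsAdicComplete (maximalIdeal O) O]
  [Finite (ResidueField O)] [Algebra (ZMod p) (ResidueField O)]

/-- **The marked point of a semistable curve.** -/
theorem exists_curvePoint (hΔ : W.Δ ≠ 0) (hW : W.IsSemistableModel) (hp2 : p ≠ 2)
    (hpO : (p : O) ∈ maximalIdeal O) {ρbar : ResidualGaloisRep (ResidueField O)}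
    {bb : Basis (Fin 2) (ResidueField O) ρbar.V} {Wr : Rigid O} (hWr : Wr.rb = matRes ρbar bb)
    (he : ((residualRep W p hΔ).baseChange (ResidueField O)).IsEquiv ρbar) :
    ∃ (ru : Gal →* M2 O) (hc : IsCont ru),
      Lifts Wr (isResAlg_self O) ru ∧ IsNormal Wr ru ∧ IsCurvePoint W p ru hc := by
  classical
  have hp : p.Prime := Fact.out
  obtain ⟨e⟩ := he
  obtain ⟨ι⟩ := GaloisReps.exists_padicHom O hpO
  have hι : IsLocalHom ι := ⟨fun x hx => by
    by_contra h
    have hx' : x ∈ maximalIdeal ℤ_[p] := h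
    rw [PadicInt.maximalIdeal_eq_span_p] at hx'
    obtain ⟨c, rfl⟩ := Ideal.mem_span_singleton'.mp hx'
    rw [map_mul, map_natCast] at hx
    exact hpO (isUnit_of_mul_isUnit_right hx)⟩
  haveI : IsLocalHom (algebraMap O O) := (isResAlg_self O).isLocalHom
  letI := ι.toAlgebra
  set T₀ := tateRep W p hΔ
  set G := T₀.baseChangeAlong ι hι
  -- the reduction
  have hred : ∀ x : ℤ_[p], residue O (ι x) = algebraMap (ZMod p) _ (PadicInt.toZMod x) := fun x => by
    obtain ⟨a, ha⟩ := EC.Rep.TateBasis.exists_int_sub_mem 1 x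
    rw [pow_one, ← PadicInt.maximalIdeal_eq_span_p] at ha
    have h1 : PadicInt.toZMod x = (a : ZMod p) := by
      rw [← PadicInt.ker_toZMod, RingHom.mem_ker, map_sub, map_intCast, sub_eq_zero] at ha
      exact ha
    have h2 : residue O (ι (x - a)) = 0 := by
      rw [residue_eq_zero_iff]
      haveI := hι
      exact map_nonunit ι _ ha
    rw [map_sub, map_sub, map_intCast, map_intCast, sub_eq_zero] at h2
    rw [h1, map_intCast, h2]
  obtain ⟨b, hb⟩ := exists_basis_residual_tateRep (p := p) hΔ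
  let b0 : Basis (Fin 2) ℤ_[p] T₀.V := tateStdBasis hΔ
  let bG : Basis (Fin 2) O G.V := b0.baseChange O
  let bk : Basis (Fin 2) (ResidueField O) ((residualRep W p hΔ).baseChange (ResidueField O)).V :=
    b.baseChange (ResidueField O)
  have hbk : matRes ((residualRep W p hΔ).baseChange (ResidueField O)) bk =
      mapM (algebraMap (ZMod p) (ResidueField O)) (matRes (residualRep W p hΔ) b) := by
    ext σ i j
    show LinearMap.toMatrixAlgEquiv (b.baseChange (ResidueField O))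
      (((residualRep W p hΔ).ρ σ).baseChange (ResidueField O)) i j = _
    rw [LinearMap.toMatrixAlgEquiv_apply, Basis.baseChange_apply, LinearMap.baseChange_tmul,
      Basis.baseChange_repr_tmul, mapM_apply, matRes_apply, Algebra.smul_def, mul_one]
  have hG : matRes G.residual (bG.baseChange (ResidueField O)) =
      matRes ρbar (bk.map e.toLinearEquiv) := by
    rw [matRes_eq_of_equiv e bk, hbk, matRes_residual G bG]
    ext σ i j
    rw [mapM_apply, mapM_apply, hb,
      show matOf G bG = mapM ι (matOf T₀ b0) from matOf_baseChangeAlong ι hι T₀ b0, mapM_apply]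
    exact hred _
  have hGres : G.residual.IsEquiv
      (ρbar.baseChangeAlong (ResidueField.map (algebraMap O O))) := by
    letI := (ResidueField.map (algebraMap O O)).toAlgebra
    refine isEquiv_of_matRes_eq (bG.baseChange (ResidueField O))
      ((bk.map e.toLinearEquiv).baseChange (ResidueField O)) ?_
    rw [hG]
    refine Eq.trans ?_
      (matRes_baseChangeAlong (ResidueField.map (algebraMap O O)) ρbar _).symm
    ext σ i j
    rw [mapM_apply]
    obtain ⟨x, hx⟩ := residue_surjective (matRes ρbar (bk.map e.toLinearEquiv) σ i j)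
    rw [← hx, ResidueField.map_residue]
    rfl
  obtain ⟨ru, hc, hl, hn, heq, htr, hdet, hone⟩ :=
    Assembly.exists_normal_matrices hWr (isResAlg_self O) G hGres
  -- transported properties
  have hss : ∀ q : ℕ, q.Prime → ¬ ((q : ℤ) ∣ W.c₄ ∧ (q : ℤ) ∣ W.Δ) := fun q hq h =>
    hW q hq h.2 h.1
  have hdetG : G.DetIsCyclotomic p :=
    CFT.Tangent.DetIsCyclotomic.baseChange ι hι (EC.Rep.detIsCyclotomic_tateRep hΔ)
  have hdetI : ∀ q : ℕ, q.Prime → q ≠ p → ∀ P : ValuationSubring Q̄, P.LiesOverPrime q →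
      ∀ σ ∈ P.inertiaSubgroupIn ℚ, (ru σ).det = 1 := fun q hq hqp P hP σ hσ => by
    rw [hdet, Assembly.det_eq_natCast (a := 1) hdetG fun n μ hμ => by
      rw [pow_one]
      exact Arith.inertia_root hP hq hσ hμ fun h =>
        hqp ((Nat.prime_dvd_prime_iff_eq hq hp).mp (hq.dvd_of_dvd_pow h)), Nat.cast_one]
  have htrI : ∀ q : ℕ, q.Prime → q ≠ p → ∀ P : ValuationSubring Q̄, P.LiesOverPrime q →
      ∀ σ ∈ P.inertiaSubgroupIn ℚ, (ru σ).trace = 2 := fun q hq hqp P hP σ hσ => by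
    have hu := CFT.Tangent.IsUnipotentOnInertiaAt.baseChange ι hι
      (EC.Rep.isUnipotentOnInertiaAt_tateRep hΔ hq hqp (hss q hq)) P hP σ hσ
    rw [htr, Assembly.trace_eq_add_of_charpoly G (a := 1) (b := 1)
      (hu.trans (by rw [map_one, sq])), one_add_one_eq_two]
  have hsq : ∀ q : ℕ, q.Prime → q ≠ p → ∀ P : ValuationSubring Q̄, P.LiesOverPrime q →
      ∀ σ ∈ P.inertiaSubgroupIn ℚ, (ru σ - 1) * (ru σ - 1) = 0 := fun q hq hqp P hP σ hσ => by
    have h := Assembly.quadratic_of_det_one (htrI q hq hqp P hP σ hσ) (hdetI q hq hqp P hP σ hσ)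
    rw [two_smul] at h
    rw [← h]
    noncomm_ring
  refine ⟨ru, hc, hl, hn, ?_, fun q hq hgood hqp P hP σ hσ => ?_, htrI, hdetI, hsq,
    fun q hq hqp P hP σ hσ φ hφ => ?_, fun q hq hqp P hP φ hφ => ?_,
    fun ℓ hℓ hgood hℓp P hP φ hφ => ?_, fun q hq hqp hbad P hP φ hφ => ?_,
    fun hgood => ?_, fun hbad => ?_⟩
  · exact Assembly.detIsCyclotomic_of_isEquiv heq hdetG
  · exact hone σ (CFT.Tangent.IsUnramifiedAt.baseChange ι hι
      (EC.Rep.isUnramifiedAt_tateRep hΔ hq hgood hqp) P hP σ hσ)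
  · refine conj_eq_pow_of_residual_pow hp hpO hc hP hq hqp (fun g hg => ?_) hσ hφ
    have h := hsq q hq hqp P hP g hg
    have hpow : ∀ n : ℕ, ru g ^ n = 1 + n • (ru g - 1) := fun n => by
      induction n with
      | zero => simp
      | succ n ih =>
        rw [pow_succ, ih, succ_nsmul,
          show (1 + n • (ru g - 1)) * ru g =
            1 + (n • (ru g - 1) + (ru g - 1)) + n • ((ru g - 1) * (ru g - 1)) by
              rw [add_mul, one_mul, smul_mul_assoc,
                show (ru g - 1) * ru g = (ru g - 1) + (ru g - 1) * (ru g - 1) by noncomm_ring,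
                smul_add]
              abel,
          h, smul_zero, add_zero]
    rw [hpow, ← RingHom.mapMatrix_apply, map_add, map_one, map_nsmul, add_eq_left]
    ext a c
    rw [Matrix.smul_apply, nsmul_eq_mul, ← map_natCast (residue O),
      (residue_eq_zero_iff _).mpr hpO, zero_mul, Matrix.zero_apply]
  · rw [hdet]
    exact Assembly.det_eq_natCast hdetG fun n μ hμ =>
      GaloisReps.frobenius_apply_root hP hq hφ hμ fun h =>
        hqp ((Nat.prime_dvd_prime_iff_eq hq hp).mp (hq.dvd_of_dvd_pow h))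
  · rw [htr, show LinearMap.trace O G.V (G.ρ φ) = ι (T₀.trace φ) from
      LinearMap.trace_baseChange (T₀.ρ φ) O,
      (EC.Rep.tateRep_trace_det_frobenius hΔ hℓ hgood hℓp hP hφ).1, map_intCast]
  · obtain ⟨ε, hε, h⟩ := exists_trace_tateRep_frobenius_bad (p := p) hΔ hq hqp hbad
      (fun h => hss q hq ⟨h, hbad⟩) hP hφ
    refine ⟨(ε : O), by rcases hε with rfl | rfl <;> simp, ?_⟩
    rw [htr, show LinearMap.trace O G.V (G.ρ φ) = ι (T₀.trace φ) from
      LinearMap.trace_baseChange (T₀.ρ φ) O, h, map_mul, map_add, map_one, map_natCast,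
      map_intCast]
  · exact Assembly.isFlatAt_of_isEquiv heq (isFlatAt_baseChangeAlong ι hι inferInstance
      (EC.Rep.isFlatAt_tateRep hΔ hgood))
  · exact isStrictOrdinaryAt_of_isEquiv heq (CFT.Tangent.IsStrictOrdinaryAt.baseChange ι hι
      (EC.Rep.isStrictOrdinaryAt_tateRep hΔ hp2 hbad fun h => hss p hp ⟨h, hbad⟩))

end Fermat.Agent.RT.Lift
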