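import Fermat.Agent.RT.GammaH.Module
import Fermat.Agent.RT.Glue.Algebra
import Fermat.Agent.RT.Lift.Local

/-!
# The Hecke modules of the levels of the chain, with their operators

A `LevelModule` is a Hecke module identified with a localised part of `Hom(Γ_H, O)`. Two levels
`M` and `M q` with compatible characters are joined by degeneracy maps, which commute with the
operators, and the Hecke algebra of the higher level maps to that of the lower one.
-/

set_option autoImplicit false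

noncomputable section

namespace Fermat.Agent.RT.Lift

open IsLocalRing MvPolynomial
open Fermat.Agent.RT.GammaH
open Fermat.Agent.LevelRaising (RaiseData)

variable (O : Type) [CommRing O] [IsDomain O] [IsDiscreteValuationRing O] {Δ : Type} [CommGroup Δ]
  (S : Finset ℕ) (abar : ℕ → ResidueField O)

/-- A Hecke module identified with the localised part of `Hom(Γ_H, O)` for `H = ker ψ`. -/
structure LevelModule {L : ℕ} (ψ : (ZMod L)ˣ →* Δ) where
  H : HeckeModule L ψ S abar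
  e : OpRing O L S
  Φ : H.M ≃ₗ[O] localPart O e (HomMod O S ψ.ker O)
  isLocalizer : IsLocalizer (resIdeal S abar L) (HomMod O S ψ.ker O) e
  isLocalizer_top : IsLocalizer (resIdeal S abar L) (HomMod O S (⊤ : Subgroup (ZMod L)ˣ) O) e
  d_eq : H.d = Module.finrank O (localPart O e (HomMod O S (⊤ : Subgroup (ZMod L)ˣ) O))
  map_T : ∀ (ℓ : {ℓ : ℕ // ℓ.Prime ∧ ℓ ∉ S}) (x : H.M),
    (Φ (H.T ℓ.1 x) : HomMod O S ψ.ker O) =
      (X (Sum.inr ℓ) : OpRing O L S) • (Φ x : HomMod O S ψ.ker O)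
  map_dia : ∀ (u : (ZMod L)ˣ) (x : H.M),
    (Φ (H.dia (ψ u) x) : HomMod O S ψ.ker O) =
      (X (Sum.inl u) : OpRing O L S) • (Φ x : HomMod O S ψ.ker O)

variable {O S abar} {L : ℕ} {ψ : (ZMod L)ˣ →* Δ}

theorem nonempty_levelModule [IsAdicComplete (maximalIdeal O) O] [Finite (ResidueField O)] [CharZero O] {p : ℕ}
    [Fact p.Prime] [CharP (ResidueField O) p] [NeZero L] [Finite Δ] (hp : p ≠ 2)
    (hw : HasSTWeights O L) (hΔ : IsPGroup p Δ) (hψ : Function.Surjective ψ) (hL : Squarefree L)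
    (hS : ∀ v : ℕ, v.Prime → v ∣ L → v ∈ S)
    (hEis : ∃ ℓ : ℕ, ℓ.Prime ∧ ℓ ∉ S ∧ abar ℓ ≠ 1 + (ℓ : ResidueField O)) :
    ∃ N : LevelModule O S abar ψ, 0 < N.H.d ↔ IsCongruentLevel S abar L := by
  obtain ⟨H, e, Φ, he₀, he, hd, hiff, hT, hdia⟩ :=
    exists_heckeModule_equiv hp hw hΔ hψ hL hS hEis
  exact ⟨⟨H, e, Φ, he, he₀, hd, fun ℓ x => congrArg Subtype.val (hT ℓ x),
    fun u x => congrArg Subtype.val (hdia u x)⟩, hiff⟩

/-- The module as a submodule of `Hom(Γ_H, O)`. -/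
def LevelModule.incl (N : LevelModule O S abar ψ) : N.H.M →ₗ[O] HomMod O S ψ.ker O :=
  (localPart O N.e (HomMod O S ψ.ker O)).subtype ∘ₗ N.Φ.toLinearMap

theorem LevelModule.incl_injective (N : LevelModule O S abar ψ) : Function.Injective N.incl :=
  Subtype.val_injective.comp N.Φ.injective

theorem LevelModule.incl_mem (N : LevelModule O S abar ψ) (x : N.H.M) :
    N.incl x ∈ localPart O N.e (HomMod O S ψ.ker O) := (N.Φ x).2

theorem LevelModule.exists_incl_eq (N : LevelModule O S abar ψ) {y : HomMod O S ψ.ker O}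
    (hy : y ∈ localPart O N.e (HomMod O S ψ.ker O)) : ∃ x, N.incl x = y :=
  ⟨N.Φ.symm ⟨y, hy⟩, by simp [LevelModule.incl]⟩

/-- A homomorphism into the localised part as a map into the module. -/
def LevelModule.lift (N : LevelModule O S abar ψ) {P : Type*} [AddCommGroup P] [Module O P]
    (f : P →ₗ[O] HomMod O S ψ.ker O)
    (hf : ∀ x, f x ∈ localPart O N.e (HomMod O S ψ.ker O)) : P →ₗ[O] N.H.M :=
  N.Φ.symm.toLinearMap ∘ₗ f.codRestrict _ hf

@[simp] theorem LevelModule.incl_lift (N : LevelModule O S abar ψ) {P : Type*} [AddCommGroup P]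
    [Module O P] (f : P →ₗ[O] HomMod O S ψ.ker O)
    (hf : ∀ x, f x ∈ localPart O N.e (HomMod O S ψ.ker O)) (x : P) :
    N.incl (N.lift f hf x) = f x := by simp [LevelModule.incl, LevelModule.lift]

/-- The operators in the Hecke algebra. -/
def opAlg (H : HeckeModule L ψ S abar) : OpRing O L S →ₐ[O] H.algebra :=
  aeval (Sum.elim (fun u => Glue.diaA H (ψ u)) fun ℓ => Glue.TA H ℓ.2.1 ℓ.2.2)

theorem LevelModule.incl_opAlg (N : LevelModule O S abar ψ) (a : OpRing O L S) (x : N.H.M) :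
    N.incl ((opAlg N.H a : Module.End O N.H.M) x) = a • N.incl x := by
  induction a using MvPolynomial.induction_on generalizing x with
  | C c =>
    rw [← algebraMap_eq, AlgHom.commutes, Subalgebra.coe_algebraMap, Module.algebraMap_end_apply,
      map_smul, algebraMap_smul]
  | add a b ha hb => rw [map_add, Subalgebra.coe_add, LinearMap.add_apply, map_add, ha, hb, add_smul]
  | mul_X a i ih =>
    rw [map_mul, Subalgebra.coe_mul, Module.End.mul_apply, ih, mul_smul]
    congr 1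
    rcases i with u | ℓ
    · rw [opAlg, aeval_X]
      exact N.map_dia u x
    · rw [opAlg, aeval_X]
      exact N.map_T ℓ x

theorem opAlg_surjective (H : HeckeModule L ψ S abar) (hψ : Function.Surjective ψ) :
    Function.Surjective (opAlg H) := by
  have hle : H.algebra ≤ ((H.algebra.val).comp (opAlg H)).range := Algebra.adjoin_le <| by
    rintro _ (⟨δ, rfl⟩ | ⟨ℓ, hℓ, rfl⟩)
    · obtain ⟨u, rfl⟩ := hψ δ
      exact ⟨X (Sum.inl u), by simp [opAlg, Glue.diaA]⟩
    · exact ⟨X (Sum.inr ⟨ℓ, hℓ⟩), by simp [opAlg, Glue.TA]⟩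
  intro a
  obtain ⟨x, hx⟩ := hle a.2
  exact ⟨x, Subtype.ext hx⟩

omit [IsDomain O] [IsDiscreteValuationRing O] in
/-- Two elements cutting out the localisation of a module cut out the same part. -/
theorem localPart_eq {𝔸 : Type} [CommRing 𝔸] [Algebra O 𝔸] {m : Ideal 𝔸} {H : Type*}
    [AddCommGroup H] [Module 𝔸 H] [Module O H] [IsScalarTower O 𝔸 H] {e e' : 𝔸}
    (he : IsLocalizer m H e) (he' : IsLocalizer m H e') (hm : m ≠ ⊤) :
    localPart O e H = localPart O e' H := by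
  suffices key : ∀ {e e' : 𝔸}, IsLocalizer m H e → IsLocalizer m H e' →
      ∀ x ∈ localPart O e H, x ∈ localPart O e' H from
    le_antisymm (key he he') (key he' he)
  intro e e' he he' x hx
  have hu : e' ∉ m := fun h => hm ((Ideal.eq_top_iff_one m).2 (by
    simpa using m.sub_mem h he'.sub_one_mem))
  obtain ⟨t, ht⟩ := he.invert e' hu
  rw [mem_localPart] at hx ⊢
  rw [← hx, ← ht x, mul_assoc, mul_smul, he'.idem]

variable {Δ' : Type} [CommGroup Δ'] {L' : ℕ} {ψ' : (ZMod L')ˣ →* Δ}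

/-- A homomorphism of Hecke algebras respecting the generators. -/
structure IsCompatHom (H' : HeckeModule L' ψ' S abar) (H : HeckeModule L ψ S abar)
    (π : H'.algebra →ₐ[O] H.algebra) : Prop where
  map_dia : ∀ δ, π (Glue.diaA H' δ) = Glue.diaA H δ
  map_T : ∀ (ℓ : ℕ) (hℓ : ℓ.Prime) (hℓS : ℓ ∉ S), π (Glue.TA H' hℓ hℓS) = Glue.TA H hℓ hℓS

theorem IsCompatHom.id (H : HeckeModule L ψ S abar) : IsCompatHom H H (AlgHom.id O _) :=
  ⟨fun _ => rfl, fun _ _ _ => rfl⟩

theorem IsCompatHom.comp {L'' : ℕ} {ψ'' : (ZMod L'')ˣ →* Δ} {H'' : HeckeModule L'' ψ'' S abar}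
    {H' : HeckeModule L' ψ' S abar} {H : HeckeModule L ψ S abar}
    {π : H'.algebra →ₐ[O] H.algebra} {π' : H''.algebra →ₐ[O] H'.algebra}
    (h : IsCompatHom H' H π) (h' : IsCompatHom H'' H' π') : IsCompatHom H'' H (π.comp π') :=
  ⟨fun δ => by rw [AlgHom.comp_apply, h'.map_dia, h.map_dia],
    fun ℓ hℓ hℓS => by rw [AlgHom.comp_apply, h'.map_T, h.map_T]⟩

theorem IsCompatHom.unique {H' : HeckeModule L' ψ' S abar} {H : HeckeModule L ψ S abar}
    {π₁ π₂ : H'.algebra →ₐ[O] H.algebra} (h₁ : IsCompatHom H' H π₁) (h₂ : IsCompatHom H' H π₂) :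
    π₁ = π₂ := by
  refine AlgHom.adjoin_ext ?_
  rintro x (⟨δ, rfl⟩ | ⟨ℓ, ⟨hℓ, hℓS⟩, rfl⟩)
  · exact (h₁.map_dia δ).trans (h₂.map_dia δ).symm
  · exact (h₁.map_T ℓ hℓ hℓS).trans (h₂.map_T ℓ hℓ hℓS).symm

end Fermat.Agent.RT.Lift
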