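import Fermat.Agent.RT.GammaH.Complex
import Fermat.Agent.RT.GammaH.Lattice
import Fermat.Agent.HeckeDuality.Eigenform
import Fermat.Agent.RT.Lift.Levels.Modules

/-!
# Testing operators on a level module by eigen homomorphisms

The operators are semisimple on parabolic homomorphisms, so an operator vanishes on a localised
module as soon as it vanishes on the complex eigen homomorphisms meeting the localisation. The
operators may include Hecke operators at primes of `S` not dividing the level.
-/

set_option autoImplicit false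

noncomputable section

namespace Fermat.Agent.RT.Lift

open IsLocalRing MvPolynomial
open Fermat.Agent.RT.GammaH
open ModularCurve.Period (parabolicHoms)

section Nilpotent

theorem eq_zero_of_forall_eigenvalue {V : Type*} [AddCommGroup V] [Module ℂ V]
    [FiniteDimensional ℂ V] {f : Module.End ℂ V} (h : ∀ c, f.HasEigenvalue c → c = 0) :
    f ^ Module.finrank ℂ V = 0 := by
  have hroots : f.charpoly.roots = Multiset.replicate f.charpoly.natDegree 0 := by
    refine Multiset.eq_replicate.2 ⟨?_, fun c hc => h c ?_⟩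
    · exact ((IsAlgClosed.splits _).natDegree_eq_card_roots).symm
    · exact (Module.End.hasEigenvalue_iff_isRoot_charpoly f c).2 (Polynomial.isRoot_of_mem_roots hc)
  have hpol : f.charpoly = Polynomial.X ^ Module.finrank ℂ V := by
    conv_lhs => rw [(IsAlgClosed.splits f.charpoly).eq_prod_roots_of_monic f.charpoly_monic]
    simp [hroots, LinearMap.charpoly_natDegree]
  have := f.aeval_self_charpoly
  rwa [hpol, map_pow, Polynomial.aeval_X] at this

end Nilpotent

variable {O : Type} [CommRing O] {L : ℕ} {S S' : Finset ℕ}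
  {K : Subgroup (ZMod L)ˣ}

variable (O L) in
/-- The operators for `S` among those for a smaller set of primes. -/
def widen (hSS : S' ⊆ S) : OpRing O L S →ₐ[O] OpRing O L S' :=
  rename (Sum.map id fun ℓ => ⟨ℓ.1, ℓ.2.1, fun h => ℓ.2.2 (hSS h)⟩)

theorem widen_smul (hSS : S' ⊆ S) {A : Type} [AddCommGroup A] [Module O A] (b : OpRing O L S)
    (φ : Additive (gammaH L K) →+ A) :
    toHomMod.symm (widen O L hSS b • (toHomMod φ : HomMod O S' K A)) =
      toHomMod.symm (b • (toHomMod φ : HomMod O S K A)) := by
  induction b using MvPolynomial.induction_on generalizing φ with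
  | C c =>
    rw [show widen O L hSS (C c) = C c from rename_C _ c, ← algebraMap_eq, ← algebraMap_eq,
      algebraMap_smul, algebraMap_smul, map_smul, map_smul]
    simp
  | add a b ha hb => rw [map_add, add_smul, add_smul, map_add, map_add, ha, hb]
  | mul_X a i ih =>
    rw [map_mul, mul_smul, mul_smul]
    rcases i with u | ℓ
    · simp only [widen, rename_X, Sum.map_inl, id_eq]
      rw [X_inl_smul, X_inl_smul]
      exact ih (diamond L K O u φ)
    · have : Fact ℓ.1.Prime := ⟨ℓ.2.1⟩
      simp only [widen, rename_X, Sum.map_inr]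
      rw [X_inr_smul, X_inr_smul]
      exact ih (hecke L K ℓ.1 O φ)

theorem opC_widen [Algebra O ℂ] (hSS : S' ⊆ S) (b : OpRing O L S) :
    opC O S' K (widen O L hSS b) = opC O S K b :=
  LinearMap.ext fun φ => widen_smul hSS b φ

variable [Algebra O ℂ] [NeZero L]

/-- An operator killing the integral homomorphisms kills the complex ones. -/
theorem opC_eq_zero_of_smul_eq_zero {b : OpRing O L S} (h : ∀ φ : HomMod O S K O, b • φ = 0) :
    opC O S K b = 0 := by
  refine LinearMap.ext fun φ => ?_
  obtain ⟨r, w, ψ, hψ⟩ := exists_int_decomp φ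
  have hφ : φ = ∑ i, w i • toHomC (toHomMod ((Int.castAddHom O).comp (ψ i)) : HomMod O S K O) := by
    refine AddMonoidHom.ext fun γ => (hψ γ).trans ?_
    rw [AddMonoidHom.finsetSum_apply]
    refine Finset.sum_congr rfl fun i _ => ?_
    rw [AddMonoidHom.smul_apply, toHomC_apply, smul_eq_mul]
    congr 1
    exact (map_intCast (algebraMap O ℂ) _).symm
  rw [hφ, map_sum, LinearMap.zero_apply]
  refine Finset.sum_eq_zero fun i _ => ?_
  rw [map_smul, ← toHomC_smul, h, map_zero, smul_zero]

variable (hneg : -1 ∈ K) (hL : Squarefree L) (hodd : Odd (Nat.card ((ZMod L)ˣ ⧸ K)))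
  (hS : ∀ v : ℕ, v.Prime → v ∣ L → v ∈ S)

include hneg hL hodd hS in
/-- An operator vanishes on an invariant space of parabolic homomorphisms once its eigenvalues on
the eigen homomorphisms there vanish. -/
theorem opC_apply_eq_zero {W : Submodule ℂ (HomC K)}
    (hW : W ≤ parabolicHoms ℂ (gammaH L K) ℂ) (hinv : ∀ b, ∀ φ ∈ W, opC O S K b φ ∈ W)
    {a : OpRing O L S}
    (h : ∀ θ : OpRing O L S →+* ℂ, ∀ φ ∈ W, φ ≠ 0 → (∀ b, opC O S K b φ = θ b • φ) → θ a = 0)
    {w : HomC K} (hw : w ∈ W) : opC O S K a w = 0 := by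
  have := finiteDimensional_parabolicHoms (M := L) hneg
  have : FiniteDimensional ℂ W := Submodule.finiteDimensional_of_le hW
  let f : Module.End ℂ W := (opC O S K a).restrict (hinv a)
  have hnil : f ^ Module.finrank ℂ W = 0 := eq_zero_of_forall_eigenvalue fun c hc => by
    obtain ⟨v, hv⟩ := hc.exists_hasEigenvector
    let ρ : OpRing O L S →+* Module.End ℂ W :=
      { toFun := fun b => (opC O S K b).restrict (hinv b)
        map_one' := LinearMap.ext fun x => Subtype.ext (by
          rw [LinearMap.coe_restrict_apply, map_one]; rfl)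
        map_mul' := fun b d => LinearMap.ext fun x => Subtype.ext (by
          rw [LinearMap.coe_restrict_apply, map_mul]; rfl)
        map_zero' := LinearMap.ext fun x => Subtype.ext (by
          rw [LinearMap.coe_restrict_apply, map_zero]; rfl)
        map_add' := fun b d => LinearMap.ext fun x => Subtype.ext (by
          rw [LinearMap.coe_restrict_apply, map_add]; rfl) }
    obtain ⟨θ, u, huE, hu0, hu⟩ := HeckeDuality.exists_eigenCharacter ρ (f.eigenspace c)
      (fun hb => hv.2 (by simpa [hb] using hv.1)) fun b x hx => by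
        rw [Module.End.mem_eigenspace_iff] at hx ⊢
        show ρ a (ρ b x) = c • ρ b x
        rw [← Module.End.mul_apply, ← map_mul, mul_comm, map_mul, Module.End.mul_apply,
          show ρ a x = c • x from hx, map_smul]
    have h0 := h θ u u.2 (fun hz => hu0 (Subtype.ext hz)) fun b => congrArg Subtype.val (hu b)
    have h1 : c • u = θ a • u := (Module.End.mem_eigenspace_iff.1 huE).symm.trans (hu a)
    rw [h0] at h1
    exact smul_left_injective ℂ hu0 h1
  have hpow : ∀ (n : ℕ) (z : W),
      ((f ^ n) z : HomC K) = (opPar hneg a ^ n) ⟨z, hW z.2⟩ := fun n z => by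
    induction n with
    | zero => simp
    | succ n ih =>
      rw [pow_succ', pow_succ', Module.End.mul_apply, Module.End.mul_apply, coe_opPar, ← ih]
      rfl
  have := congrArg Subtype.val (eq_zero_of_pow_apply (opPar_isSemisimple hneg hL hodd hS a)
    (n := Module.finrank ℂ W) (v := ⟨w, hW hw⟩)
    (Subtype.ext ((hpow _ ⟨w, hw⟩).symm.trans (by rw [hnil]; rfl))))
  exact this

section Module

variable [IsDomain O] [IsDiscreteValuationRing O] {Δ : Type} [CommGroup Δ]
  {abar : ℕ → ResidueField O} {ψ : (ZMod L)ˣ →* Δ} (N : LevelModule O S abar ψ)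

/-- An eigen homomorphism meeting the localisation is a point of the Hecke algebra. -/
theorem LevelModule.exists_point_of_eigen (hψ : Function.Surjective ψ) (hSS : S' ⊆ S)
    {θ : OpRing O L S' →+* ℂ} {φ : HomC ψ.ker} (hφ : φ ≠ 0)
    (heig : ∀ b, opC O S' ψ.ker b φ = θ b • φ) (he : θ (widen O L hSS N.e) ≠ 0) :
    ∃ θH : N.H.algebra →+* ℂ, ∀ b, θH (opAlg N.H b) = θ (widen O L hSS b) := by
  let f : OpRing O L S →+* ℂ := θ.comp (widen O L hSS).toRingHom
  have hker : RingHom.ker (opAlg N.H).toRingHom ≤ RingHom.ker f := fun b hb => by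
    have hkill : ∀ z : HomMod O S ψ.ker O, (b * N.e) • z = 0 := fun z => by
      obtain ⟨x, hx⟩ := N.exists_incl_eq (N.isLocalizer.smul_self_mem z)
      rw [mul_smul, ← hx, ← N.incl_opAlg]
      have h0 : opAlg N.H b = 0 := hb
      rw [h0]
      exact map_zero N.incl
    have h1 := heig (widen O L hSS (b * N.e))
    rw [opC_widen, opC_eq_zero_of_smul_eq_zero hkill, LinearMap.zero_apply, map_mul, map_mul,
      eq_comm, smul_eq_zero, or_iff_left hφ] at h1
    exact (mul_eq_zero.1 h1).resolve_right he
  have hs : Function.Surjective (opAlg N.H).toRingHom := opAlg_surjective N.H hψ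
  refine ⟨RingHom.liftOfSurjective _ hs ⟨f, hker⟩, fun b => ?_⟩
  exact RingHom.liftOfRightInverse_comp_apply (opAlg N.H).toRingHom _ _ ⟨f, hker⟩ b

/-- An operator kills the module if its eigenvalues vanish on the eigen homomorphisms meeting the
localisation inside an invariant space containing the parabolic images of the module. -/
theorem LevelModule.smul_incl_eq_zero (hneg : -1 ∈ ψ.ker) (hL : Squarefree L)
    (hodd : Odd (Nat.card ((ZMod L)ˣ ⧸ ψ.ker))) (hSS : S' ⊆ S)
    (hS' : ∀ v : ℕ, v.Prime → v ∣ L → v ∈ S') (hinj : Function.Injective (algebraMap O ℂ))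
    {P : OpRing O L S} (hP : P ∉ resIdeal S abar L) {W : Submodule ℂ (HomC ψ.ker)}
    (hW : W ≤ parabolicHoms ℂ (gammaH L ψ.ker) ℂ)
    (hinv : ∀ b, ∀ φ ∈ W, opC O S' ψ.ker b φ ∈ W) {a : OpRing O L S'} {x : N.H.M}
    (hx : opC O S ψ.ker P (toHomC (N.incl x)) ∈ W)
    (h : ∀ θ : OpRing O L S' →+* ℂ, ∀ φ ∈ W, φ ≠ 0 → (∀ b, opC O S' ψ.ker b φ = θ b • φ) →
      θ (widen O L hSS N.e) ≠ 0 → θ a = 0) :
    a • (toHomMod (toHomMod.symm (N.incl x)) : HomMod O S' ψ.ker O) = 0 := by
  set x' : HomMod O S' ψ.ker O := toHomMod (toHomMod.symm (N.incl x))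
  have key := opC_apply_eq_zero hneg hL hodd hS' hW hinv (a := a * widen O L hSS N.e)
    (fun θ φ hφW hφ0 heig => by
      by_cases he : θ (widen O L hSS N.e) = 0
      · rw [map_mul, he, mul_zero]
      · rw [map_mul, h θ φ hφW hφ0 heig he, zero_mul]) hx
  set y : HomMod O S ψ.ker O := toHomMod (toHomMod.symm (a • x'))
  have hy : N.e • y = y := toHomMod.symm.injective <| by
    show toHomMod.symm (N.e • (toHomMod (toHomMod.symm (a • x')) : HomMod O S ψ.ker O)) =
      toHomMod.symm (a • x')
    rw [← widen_smul hSS N.e, LinearEquiv.apply_symm_apply, smul_comm]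
    congr 2
    refine toHomMod.symm.injective ?_
    rw [widen_smul hSS N.e, LinearEquiv.apply_symm_apply]
    exact congrArg toHomMod.symm (N.incl_mem x)
  have h0 : opC O S ψ.ker P (toHomC y) = 0 := by
    rw [← opC_widen hSS P, show toHomC y = toHomC (a • x') from rfl, toHomC_smul]
    rw [← opC_widen hSS P, map_mul, Module.End.mul_apply] at key
    rw [← Module.End.mul_apply, ← map_mul, mul_comm, map_mul, Module.End.mul_apply]
    rw [← Module.End.mul_apply (opC O S' ψ.ker (widen O L hSS N.e)), ← map_mul, mul_comm, map_mul,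
      Module.End.mul_apply, opC_widen hSS N.e, ← Module.End.mul_apply (opC O S' ψ.ker a),
      ← map_mul, mul_comm, map_mul, Module.End.mul_apply] at key
    rw [show toHomC (O := O) (S := S') x' = opC O S ψ.ker N.e (toHomC (N.incl x)) by
      rw [← toHomC_smul, N.incl_mem x]; rfl]
    rw [← Module.End.mul_apply, ← map_mul, mul_comm, map_mul, Module.End.mul_apply]
    exact key
  rw [← toHomC_smul] at h0
  have h1 : y = 0 := N.isLocalizer.eq_zero_of_smul_eq_zero hP hy
    (toHomC_injective hinj (h0.trans (map_zero toHomC).symm))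
  exact toHomMod.symm.injective ((congrArg toHomMod.symm h1).trans (by rw [map_zero, map_zero]))

end Module

end Fermat.Agent.RT.Lift
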