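import Fermat.Agent.RT.Lift.Levels.Tower
import Fermat.Agent.RT.Assembly.LevelChar
import Fermat.Agent.RT.Assembly.Tame

/-!
# The character at the Taylor–Wiles primes and the traces of their inertia generators
-/

set_option autoImplicit false
set_option linter.style.haveILetI false
set_option linter.unusedSectionVars false
set_option synthInstance.maxHeartbeats 200000

noncomputable section

namespace Fermat.Agent.RT.Lift

open IsLocalRing Module
open Fermat.Agent.Deform
open Fermat.Agent.RT.Glue (diaA)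
open Fermat.Agent.RT.Assembly (levelIdeal levelChar levelGen LevelGroup)

local notation "Q̄" => AlgebraicClosure ℚ

/-- The group of the diamonds at the Taylor–Wiles primes at level `n`. -/
abbrev TWGroup (p r n : ℕ) : Type := LevelGroup Empty p r n

/-- The standard generator at a Taylor–Wiles prime. -/
abbrev twGen (p : ℕ) {r : ℕ} (n : ℕ) (i : Fin r) : TWGroup p r n := levelGen p n (Sum.inr i)

variable {O : Type} [CommRing O] {p r : ℕ} [Fact p.Prime]

variable (O p r) in
/-- The character of `TWGroup` with values in the level quotient. -/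
def twChar (n : ℕ) : TWGroup p r n →* MvPowerSeries (Fin r) O ⧸ levelIdeal O p n :=
  levelChar (one_pow p : (1 : O) ^ p = 1) n

theorem isPGroup_twGroup (n : ℕ) : IsPGroup p (TWGroup p r n) :=
  Assembly.isPGroup_levelGroup p n

theorem odd_card_twGroup (hp2 : p ≠ 2) (n : ℕ) : Odd (Nat.card (TWGroup p r n)) := by
  rw [Assembly.card_levelGroup]
  exact ((Fact.out : p.Prime).odd_of_ne_two hp2).pow

theorem twChar_gen (n : ℕ) (i : Fin r) :
    twChar O p r n (twGen p n i) = 1 + Ideal.Quotient.mk (levelIdeal O p n) (MvPowerSeries.X i) := by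
  show levelChar _ n (Multiplicative.ofAdd _) = _
  rw [Assembly.levelChar_apply_right, Assembly.pow_eq_of_mod_eq (Assembly.one_add_mk_pow n i)
    (a := (1 : ZMod (p ^ n)).val) (b := 1) ?_, pow_one]
  rw [ZMod.val_one_eq_one_mod, Nat.mod_mod]

theorem twChar_sub_one_mem [IsLocalRing O] (n : ℕ) (δ : TWGroup p r n) :
    twChar O p r n δ - 1 ∈ (maximalIdeal (MvPowerSeries (Fin r) O)).map
      (Ideal.Quotient.mk (levelIdeal O p n)) := by
  set I := (maximalIdeal (MvPowerSeries (Fin r) O)).map (Ideal.Quotient.mk (levelIdeal O p n))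
  suffices h : ∀ x : MvPowerSeries (Fin r) O ⧸ levelIdeal O p n,
      x = twChar O p r n δ → Ideal.Quotient.mk I x = 1 by
    rw [← Ideal.Quotient.eq_zero_iff_mem, map_sub, h _ rfl, map_one, sub_self]
  rintro x rfl
  simp only [twChar, levelChar, MonoidHom.coe_mk, OneHom.coe_mk, map_prod, map_pow,
    map_one, one_pow, Finset.prod_const_one, one_mul, map_add]
  refine Finset.prod_eq_one fun i _ => ?_
  have h0 : Ideal.Quotient.mk I (Ideal.Quotient.mk (levelIdeal O p n) (MvPowerSeries.X i)) = 0 :=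
    Ideal.Quotient.eq_zero_iff_mem.2 (Ideal.mem_map_of_mem _ (Assembly.X_mem_maximalIdeal i))
  rw [h0, add_zero, one_pow]

/-- The character at the Taylor–Wiles primes with generators of inertia. -/
structure TWData (p : ℕ) {r : ℕ} (n : ℕ) (qv : Fin r → ℕ) (L₀ : ℕ) where
  ψ : (ZMod L₀)ˣ →* TWGroup p r n
  surjective : Function.Surjective ψ
  eq_one : ∀ w : ℕ, (∀ i, qv i ≠ w) → w.Prime → w ∣ L₀ → ∀ u : (ZMod L₀)ˣ,
    ((u : ZMod L₀).cast : ZMod (L₀ / w)) = 1 → ψ u = 1
  place : Fin r → ValuationSubring Q̄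
  lies : ∀ i, (place i).LiesOverPrime (qv i)
  σ : Fin r → Gal
  σ_mem : ∀ i, σ i ∈ (place i).inertiaSubgroupIn ℚ
  a : ∀ i, (ZMod (qv i))ˣ
  σ_apply : ∀ i, ∀ μ : Q̄, μ ^ qv i = 1 → σ i μ = μ ^ (a i : ZMod (qv i)).val
  gen : ∀ (i : Fin r) (hd : qv i ∣ L₀) (u : (ZMod L₀)ˣ),
    ((u : ZMod L₀).cast : ZMod (L₀ / qv i)) = 1 → ZMod.unitsMap hd u = a i →
      ψ u ^ halfInvExp (TWGroup p r n) = twGen p n i

/-- The character exists. -/
theorem nonempty_twData (hp2 : p ≠ 2) (n : ℕ) (qv : Fin r → ℕ) {L₀ : ℕ} (hL : Squarefree L₀)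
    (hprime : ∀ i, (qv i).Prime) (hinj : Function.Injective qv) (hdvd : ∀ i, qv i ∣ L₀)
    (hQ : ∀ i, p ^ (n + 1) ∣ qv i - 1) : Nonempty (TWData p n qv L₀) := by
  classical
  have hpp : p.Prime := Fact.out
  choose A hA using fun i => Arith.exists_liesOverPrime (hprime i)
  choose σ a π m hσ hμ hord hπ hπord hπres hπresp using fun i =>
    Assembly.exists_inertia_uniformiser hpp (hA i) (hprime i)
      ((dvd_pow_self p n.succ_ne_zero).trans (hQ i))
  set h := halfInvExp (TWGroup p r n) with hh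
  obtain ⟨cQ, hcQ⟩ : ∃ c : ZMod (p ^ n), Fin r → (h : ZMod (p ^ n)) * c = 1 := by
    rcases Nat.eq_zero_or_pos n with rfl | hn
    · exact ⟨0, fun _ => @Subsingleton.elim _ (ZMod.subsingleton_iff.2 (pow_zero p)) _ _⟩
    rcases Nat.eq_zero_or_pos r with rfl | hr
    · exact ⟨0, fun j => j.elim0⟩
    have hcop : h.Coprime (p ^ n) := by
      refine Nat.Coprime.pow_right n ?_
      rw [Nat.coprime_comm, hpp.coprime_iff_not_dvd]
      intro hd
      obtain ⟨t, ht⟩ := odd_card_twGroup (r := r) hp2 n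
      rw [hh, halfInvExp, ht, Nat.add_sub_cancel, Nat.mul_div_cancel_left _ two_pos] at hd
      have hc : p ∣ Nat.card (TWGroup p r n) := by
        rw [Assembly.card_levelGroup]
        exact dvd_pow_self p (by simp; omega)
      have h1 : p ∣ 1 := (Nat.dvd_add_right (dvd_mul_of_dvd_right hd 2)).mp (ht ▸ hc)
      exact hpp.one_lt.ne' (Nat.dvd_one.mp h1)
    exact ⟨((ZMod.unitOfCoprime h hcop)⁻¹ : (ZMod (p ^ n))ˣ), fun _ => by
      rw [← ZMod.coe_unitOfCoprime h hcop]; exact Units.mul_inv _⟩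
  obtain ⟨ψ, hs, hgen, htriv⟩ := Assembly.exists_levelPsi_aux (V := Empty) n hL Empty.elim qv
    (Sum.rec (fun x => x.elim) hprime) (Sum.rec (fun x => x.elim) hdvd)
    (by rintro (x | i) (y | j) h
        exacts [x.elim, x.elim, y.elim, congrArg Sum.inr (hinj h)])
    (fun v => v.elim) (fun i => (pow_dvd_pow p n.le_succ).trans (hQ i))
    (Sum.rec (fun x => x.elim) a) (Sum.rec (fun x => x.elim) hord) 0 (fun v => v.elim) cQ hcQ
  refine ⟨⟨ψ, hs, fun w hw hwp hwL u hu => htriv w ?_ hwp hwL u hu, A, hA, σ, hσ, a, hμ,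
    fun i hd u hu hua => hgen (Sum.inr i) u hu hua⟩⟩
  rintro (x | i)
  · exact x.elim
  · exact hw i

variable [IsDomain O] [IsDiscreteValuationRing O] [IsAdicComplete (maximalIdeal O) O]
  [Finite (ResidueField O)] [CharZero O] [CharP (ResidueField O) p] {n : ℕ} {qv : Fin r → ℕ}
  {L₀ L : ℕ} [NeZero L] {S : Finset ℕ} {abar : ℕ → ResidueField O}
  {ρbar : ResidualGaloisRep (ResidueField O)} {W : Rigid O}

/-- The trace of a generator of inertia at a Taylor–Wiles prime. -/
theorem TWData.trace_σ (T : TWData p n qv L₀) (h : L₀ ∣ L)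
    (X : LevelAt p W ρbar S abar (psiAt T.ψ h)) (hp : (p : O) ∈ maximalIdeal O) (hp2 : p ≠ 2)
    (hpS : p ∈ S) (hL : Squarefree L) (i : Fin r) (hprime : (qv i).Prime) (hd : qv i ∣ L₀)
    (hqp : qv i ≠ p)
    (hbarv : ∀ A : ValuationSubring Q̄, A.LiesOverPrime (qv i) → ∀ σ ∈ A.inertiaSubgroupIn ℚ,
      LinearMap.trace (ResidueField O) ρbar.V (ρbar.ρ σ) = 2) :
    (X.rep.ru (T.σ i)).trace =
      diaA X.N.H (twGen p n i) + diaA X.N.H (twGen p n i)⁻¹ := by
  have : Fact (qv i).Prime := ⟨hprime⟩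
  have hdL : qv i ∣ L := hd.trans h
  have hnd : ∀ {d : ℕ}, d ∣ L → qv i ∣ d → (qv i).Coprime (d / qv i) := fun {d} hdd hqd =>
    hprime.coprime_iff_not_dvd.2 fun h' => hprime.not_isUnit
      (hL.squarefree_of_dvd hdd _ ((Nat.dvd_div_iff_mul_dvd hqd).1 h'))
  obtain ⟨u, hu1, hu2⟩ := Assembly.exists_unit_crt hdL (hnd dvd_rfl hdL) (T.a i)
  have hua : ((u : ZMod L).cast : ZMod (qv i)) = ((T.a i : ZMod (qv i)).val : ℕ) := by
    rw [ZMod.natCast_zmod_val, ← hu2, ZMod.unitsMap_val]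
  rw [X.rep.trace_twisted hp (isPGroup_twGroup n) hp2 hpS hL hdL hqp hbarv (T.lies i)
    (T.σ_mem i) (T.σ_apply i) u hu1 hua]
  have hg : psiAt T.ψ h u ^ halfInvExp (TWGroup p r n) = twGen p n i := by
    refine T.gen i hd _ ?_ ?_
    · have h1 : ZMod.unitsMap (Nat.div_dvd_of_dvd hdL) u = 1 :=
        Units.ext (by rw [ZMod.unitsMap_val, hu1, Units.val_one])
      have h2 : ZMod.unitsMap (Nat.div_dvd_of_dvd hd) (ZMod.unitsMap h u) = 1 := by
        rw [← MonoidHom.comp_apply, ZMod.unitsMap_comp, ← ZMod.unitsMap_comp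
          (Nat.div_dvd_div hd h) (Nat.div_dvd_of_dvd hdL), MonoidHom.comp_apply, h1, map_one]
      have h3 := congrArg Units.val h2
      rwa [ZMod.unitsMap_val, Units.val_one] at h3
    · rw [← hu2, ← MonoidHom.comp_apply, ZMod.unitsMap_comp]
  rw [hg]

end Fermat.Agent.RT.Lift
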