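import Fermat.Agent.RT.Lift.Levels.Frame
import Fermat.Agent.RT.Lift.Levels.TWChar
import Fermat.Agent.RT.Lift.Levels.DegMatrices
import Fermat.Agent.RT.Lift.Levels

/-!
# The levels of one `n` and their actions in coordinates

The modules at all sets of places with the compatible maps from the top one, and the actions of
the coordinate series on them along the character of the Taylor–Wiles primes.
-/

set_option autoImplicit false
set_option linter.style.haveILetI false
set_option linter.unusedSectionVars false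
set_option synthInstance.maxHeartbeats 200000

noncomputable section

namespace Fermat.Agent.RT.Lift

open IsLocalRing Module WeierstrassCurve MvPowerSeries
open Fermat.Agent.Deform Fermat.Agent.Arith Fermat.Agent.RT.Germ
open Fermat.Agent.RT.Assembly (DiaBasis levelIdeal)
open Fermat.Agent.LevelRaising (RaiseData)

variable {O : Type} [CommRing O] [IsDomain O] [IsDiscreteValuationRing O]
  [IsAdicComplete (maximalIdeal O) O] [Finite (ResidueField O)] [CharZero O]
  {K : Type*} [NontriviallyNormedField K] [IsUltrametricDist K] [CompleteSpace K]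
  {φ : O →+* ball1 K}
  {p : ℕ} [Fact p.Prime] [CharP (ResidueField O) p] {W : WeierstrassCurve ℤ} {M R : ℕ}

namespace Frame

variable (F : Frame p W M R φ)

/-- The base level at `n`. -/
abbrev base (n : ℕ) : ℕ := baseLevel M R (F.qv n)

/-- The level of a set of places at `n`. -/
abbrev lev (n : ℕ) (B : Finset (Places W p M)) : ℕ := levelOf R (F.qv n) B

/-- The primes avoided by the operators at `n`. -/
abbrev ops (n : ℕ) : Finset ℕ := opSet W p R (F.qv n)

theorem squarefree_lev (n : ℕ) (B : Finset (Places W p M)) : Squarefree (F.lev n B) :=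
  F.X.squarefree_levelOf (F.tw n).injective (F.tw n).prime (F.tw n).notMem B

instance neZero_lev (n : ℕ) (B : Finset (Places W p M)) : NeZero (F.lev n B) :=
  ⟨(F.squarefree_lev n B).ne_zero⟩

theorem base_dvd (n : ℕ) (B : Finset (Places W p M)) : F.base n ∣ F.lev n B :=
  dvd_mul_right _ _

theorem lev_dvd (n : ℕ) {B B' : Finset (Places W p M)} (h : B ⊆ B') : F.lev n B ∣ F.lev n B' :=
  mul_dvd_mul_left _ (Finset.prod_dvd_prod_of_subset _ _ _ h)

theorem squarefree_base (n : ℕ) : Squarefree (F.base n) :=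
  (F.squarefree_lev n ∅).squarefree_of_dvd (F.base_dvd n ∅)

theorem qv_dvd_base (n : ℕ) (i : Fin F.r') : F.qv n i ∣ F.base n :=
  dvd_mul_of_dvd_right (Finset.dvd_prod_of_mem _ (Finset.mem_univ i)) _

theorem qv_ne (n : ℕ) (i : Fin F.r') : F.qv n i ≠ p := fun h =>
  (F.tw n).notMem i (by rw [h]; exact Finset.mem_insert_self _ _)

theorem p_mem_ops (n : ℕ) : p ∈ F.ops n :=
  Finset.mem_union_left _ (Finset.mem_insert_self _ _)

theorem p_mem (_F : Frame p W M R φ) : (p : O) ∈ maximalIdeal O := by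
  rw [← residue_eq_zero_iff, map_natCast, CharP.cast_eq_zero]

theorem ops_prime (n : ℕ) {B : Finset (Places W p M)} {q : ℕ} (hq : q.Prime) (h : q ∣ F.lev n B) :
    q ∈ F.ops n :=
  F.X.prime_dvd_levelOf (F.tw n).prime hq h

theorem place_mem_ops (n : ℕ) (v : Places W p M) : (v : ℕ) ∈ F.ops n :=
  Finset.mem_union_left _ (F.X.primeFactors_subset v.prime (dvd_mul_of_dvd_left v.dvd _))

theorem raise (n : ℕ) {B : Finset (Places W p M)} {v : Places W p M} (hv : v ∉ B) :
    RaiseData (v : ℕ) (F.lev n B) :=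
  F.X.raiseData (F.tw n).prime (F.tw n).notMem hv

end Frame

/-- A basis over the diamond operators with its rank renamed. -/
def castBasis {A : Type} [CommRing A] {G N : Type} [CommGroup G] [AddCommGroup N] [Module A N]
    {dia : G →* Module.End A N} {d d' : ℕ} (B : DiaBasis dia d) (h : d = d') : DiaBasis dia d' :=
  h ▸ B

variable {F : Frame p W M R φ}

/-- The levels over all sets of places at one `n`. -/
structure LevelFamily (F : Frame p W M R φ) (n : ℕ) where
  tw : TWData p n (F.qv n) (F.base n)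
  lvl : ∀ B : Finset (Places W p M), LevelAt p F.X.rigid F.X.ρbar (F.ops n)
    (curveAbar W : ℕ → ResidueField O) (psiAt tw.ψ (F.base_dvd n B))

/-- The character at `n` of a set of places. -/
abbrev LevelFamily.psi {n : ℕ} (Φ : LevelFamily F n) (B : Finset (Places W p M)) :
    (ZMod (F.lev n B))ˣ →* TWGroup p F.r' n :=
  psiAt Φ.tw.ψ (F.base_dvd n B)

theorem hasCharpolys_mono {S S' : Finset ℕ} (h : S ⊆ S') {abar : ℕ → ResidueField O}
    {ρbar : ResidualGaloisRep (ResidueField O)} (hc : Glue.HasCharpolys S abar ρbar) :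
    Glue.HasCharpolys S' abar ρbar :=
  fun ℓ hℓ hℓS => hc ℓ hℓ fun hm => hℓS (h hm)

/-- The families exist. -/
theorem Frame.nonempty_family (F : Frame p W M R φ) (hp2 : p ≠ 2) (n : ℕ) :
    Nonempty (LevelFamily F n) := by
  obtain ⟨T⟩ := nonempty_twData hp2 n (F.qv n) (F.squarefree_base n) (F.tw n).prime
    (F.tw n).injective (F.qv_dvd_base n) (F.tw n).dvd
  refine ⟨⟨T, fun B => (nonempty_levelAt (L := F.lev n B) F.p_mem
    (isPGroup_twGroup n) hp2 (F.p_mem_ops n) F.X.abs
    (hasCharpolys_mono Finset.subset_union_left F.X.charpolys) F.X.rigid_rb (F.X.eis _)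
    (psiAt_surjective T.surjective _) (F.X.weights_levelOf (F.tw n).prime B)
    (F.squarefree_lev n B) (fun _ hq h => F.ops_prime n hq h)
    (F.X.congruent_levelOf (F.tw n).injective (F.tw n).prime (F.tw n).notMem B)).some⟩⟩

namespace LevelFamily

variable {n : ℕ} (Φ : LevelFamily F n)

theorem psi_surjective (B : Finset (Places W p M)) : Function.Surjective (Φ.psi B) :=
  psiAt_surjective Φ.tw.surjective _

theorem psi_of_subset {B B' : Finset (Places W p M)} (h : B ⊆ B') :
    Φ.psi B' = (Φ.psi B).comp (ZMod.unitsMap (F.lev_dvd n h)) := by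
  rw [LevelFamily.psi, LevelFamily.psi, psiAt, psiAt, MonoidHom.comp_assoc, ZMod.unitsMap_comp]

/-- The character is trivial at the places. -/
theorem psi_eq_one {B : Finset (Places W p M)} {v : Places W p M} (hv : v ∈ B)
    (u : (ZMod (F.lev n B))ˣ)
    (hu : ((u : ZMod (F.lev n B)).cast : ZMod (F.lev n B / (v : ℕ))) = 1) : Φ.psi B u = 1 :=
  psiAt_eq_one v.prime (F.base_dvd n B) (dvd_mul_of_dvd_right (Finset.dvd_prod_of_mem _ hv) _)
    (fun h => Φ.tw.eq_one _ (fun i hi => (F.tw n).notMem i (hi ▸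
      F.X.primeFactors_subset v.prime (dvd_mul_of_dvd_left v.dvd _))) v.prime h) u hu

theorem d_eq (B : Finset (Places W p M)) : (Φ.lvl B).N.H.d = F.D B :=
  (Φ.lvl B).N.d_eq.trans (F.rank n B _ (Φ.lvl B).N.isLocalizer_top)

/-- The basis over the diamond operators, indexed independently of `n`. -/
def basis (B : Finset (Places W p M)) : DiaBasis (Φ.lvl B).N.H.dia (F.D B) :=
  castBasis ⟨(Φ.lvl B).N.H.basis, (Φ.lvl B).N.H.basis_bijective⟩ (Φ.d_eq B)

/-- The top algebra. -/
abbrev Top : Type := (Φ.lvl Finset.univ).N.H.algebra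

theorem exists_step {L L' q : ℕ} [NeZero L] [NeZero L'] {S : Finset ℕ}
    {abar : ℕ → ResidueField O} {ψ : (ZMod L)ˣ →* TWGroup p F.r' n}
    {ψ' : (ZMod L')ˣ →* TWGroup p F.r' n} {Wr : Rigid O} {ρb : ResidualGaloisRep (ResidueField O)}
    (X : LevelAt p Wr ρb S abar ψ) (Y : LevelAt p Wr ρb S abar ψ') (e : L' = L * q) (h : L ∣ L')
    (hψ' : ψ' = ψ.comp (ZMod.unitsMap h)) (hψ : Function.Surjective ψ) (hq : RaiseData q L)
    (hqS : q ∈ S) : ∃ π : Y.N.H.algebra →ₐ[O] X.N.H.algebra, IsCompatHom Y.N.H X.N.H π := by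
  subst e
  subst hψ'
  exact X.exists_compatHom hψ hq hqS Y

theorem exists_cons {B : Finset (Places W p M)} {v : Places W p M} (hv : v ∉ B) :
    ∃ π : (Φ.lvl (Finset.cons v B hv)).N.H.algebra →ₐ[O] (Φ.lvl B).N.H.algebra,
      IsCompatHom (Φ.lvl (Finset.cons v B hv)).N.H (Φ.lvl B).N.H π :=
  exists_step (Φ.lvl B) (Φ.lvl _) (levelOf_cons _ hv) (F.lev_dvd n (Finset.subset_cons hv))
    (Φ.psi_of_subset (Finset.subset_cons hv)) (Φ.psi_surjective B) (F.raise n hv) (F.place_mem_ops n v)

theorem exists_down (B : Finset (Places W p M)) :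
    ∃ π : Φ.Top →ₐ[O] (Φ.lvl B).N.H.algebra,
      IsCompatHom (Φ.lvl Finset.univ).N.H (Φ.lvl B).N.H π := by
  classical
  suffices h : ∀ k, ∀ B : Finset (Places W p M), Bᶜ.card = k →
      ∃ π : Φ.Top →ₐ[O] (Φ.lvl B).N.H.algebra,
        IsCompatHom (Φ.lvl Finset.univ).N.H (Φ.lvl B).N.H π from h _ B rfl
  intro k
  induction k with
  | zero =>
    intro B hB
    obtain rfl : B = Finset.univ := by
      rw [← compl_compl B, Finset.card_eq_zero.1 hB, Finset.compl_empty]
    exact ⟨_, IsCompatHom.id _⟩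
  | succ k ih =>
    intro B hB
    obtain ⟨v, hv⟩ := Finset.card_pos.1 (show 0 < Bᶜ.card by omega)
    have hvB : v ∉ B := Finset.mem_compl.1 hv
    obtain ⟨π, hπ⟩ := ih (Finset.cons v B hvB) (by
      rw [Finset.cons_eq_insert, Finset.compl_insert, Finset.card_erase_of_mem hv, hB,
        Nat.succ_sub_one])
    obtain ⟨π', hπ'⟩ := Φ.exists_cons hvB
    exact ⟨_, hπ'.comp hπ⟩

/-- The map of the Hecke algebra of the top level to that of a set of places. -/
def down (B : Finset (Places W p M)) : Φ.Top →ₐ[O] (Φ.lvl B).N.H.algebra :=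
  (Φ.exists_down B).choose

theorem isCompat_down (B : Finset (Places W p M)) :
    IsCompatHom (Φ.lvl Finset.univ).N.H (Φ.lvl B).N.H (Φ.down B) :=
  (Φ.exists_down B).choose_spec

theorem mapM_down (hp2 : p ≠ 2) (B : Finset (Places W p M)) :
    mapM (Φ.down B : Φ.Top →+* (Φ.lvl B).N.H.algebra) (Φ.lvl Finset.univ).rep.ru =
      (Φ.lvl B).rep.ru := by
  suffices h : ∀ {ψ' : (ZMod (F.lev n Finset.univ))ˣ →* TWGroup p F.r' n}
      (Y : LevelAt p F.X.rigid F.X.ρbar (F.ops n) (curveAbar W : ℕ → ResidueField O) ψ')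
      (_ : ψ' = (Φ.psi B).comp (ZMod.unitsMap (F.lev_dvd n (Finset.subset_univ B))))
      {π : Y.N.H.algebra →ₐ[O] (Φ.lvl B).N.H.algebra}, IsCompatHom Y.N.H (Φ.lvl B).N.H π →
      mapM (π : Y.N.H.algebra →+* (Φ.lvl B).N.H.algebra) Y.rep.ru = (Φ.lvl B).rep.ru from
    h (Φ.lvl Finset.univ) (Φ.psi_of_subset (Finset.subset_univ B)) (Φ.isCompat_down B)
  intro ψ' Y e π hπ
  subst e
  exact (Φ.lvl B).mapM_ru hp2 (F.p_mem_ops n) F.X.abs F.X.rigid_rb _ Y hπ

theorem comp_down {B : Finset (Places W p M)} {v : Places W p M} (hv : v ∉ B)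
    {π : (Φ.lvl (Finset.cons v B hv)).N.H.algebra →ₐ[O] (Φ.lvl B).N.H.algebra}
    (hπ : IsCompatHom (Φ.lvl (Finset.cons v B hv)).N.H (Φ.lvl B).N.H π) :
    π.comp (Φ.down (Finset.cons v B hv)) = Φ.down B :=
  (hπ.comp (Φ.isCompat_down _)).unique (Φ.isCompat_down B)

/-- The action of a ring mapping to the top algebra on the level of a set of places. -/
def act {Λ : Type} [CommRing Λ] [Algebra O Λ] (g : Λ →ₐ[O] Φ.Top) (B : Finset (Places W p M)) :
    Λ →ₐ[O] Matrix (Fin (F.D B)) (Fin (F.D B)) (LevelQuot O F.r' p n) :=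
  ((Φ.basis B).rep (twChar O p F.r' n) (algebra_comm (Φ.lvl B).N.H)).comp ((Φ.down B).comp g)

end LevelFamily

/-- The coordinate indices of the places. -/
abbrev placeκ (F : Frame p W M R φ) (v : Places W p M) : Type := (F.place v).κ

/-- Coordinates for the family at `n`: values at every place of one lift over the top algebra and
a map of the series onto the top algebra up to what the levels need. -/
structure Coords {n : ℕ} (Φ : LevelFamily F n) (ρ : Type) [Finite ρ] where
  A : Type
  [commRing : CommRing A]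
  [localRing : IsLocalRing A]
  [algebra : Algebra O A]
  isResAlg : IsResAlg O A
  r : Gal →* M2 A
  toTop : A →ₐ[O] Φ.Top
  map_r : mapM (toTop : A →+* Φ.Top) r = (Φ.lvl Finset.univ).rep.ru
  γ : MvPowerSeries (LCoord (placeκ F) ρ) O →ₐ[O] A
  c : ∀ v : Places W p M, placeκ F v → A
  γ_X : ∀ v i, γ (X (Sum.inl ⟨v, i⟩)) = c v i
  values : ∀ v : Places W p M, PlaceValues isResAlg (F.place v).D (F.place v).ε (v : ℕ)
    (r (F.place v).σ) (r (F.place v).F) (c v)
  quad : ∀ i, ∃ a, toTop (γ a) = ((Φ.lvl Finset.univ).rep.ru (Φ.tw.σ i)).trace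

attribute [instance] Coords.commRing Coords.localRing Coords.algebra

namespace Coords

variable {n : ℕ} {Φ : LevelFamily F n} {ρ : Type} [Finite ρ]

/-- The series mapping to the top algebra. -/
abbrev toAlg (C : Coords Φ ρ) : MvPowerSeries (LCoord (placeκ F) ρ) O →ₐ[O] Φ.Top :=
  C.toTop.comp C.γ

/-- The action on the level of a set of places. -/
abbrev act (C : Coords Φ ρ) (B : Finset (Places W p M)) :
    MvPowerSeries (LCoord (placeκ F) ρ) O →ₐ[O]
      Matrix (Fin (F.D B)) (Fin (F.D B)) (LevelQuot O F.r' p n) :=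
  Φ.act C.toAlg B

end Coords

end Fermat.Agent.RT.Lift
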