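import Fermat.Agent.RT.Lift.Levels.Bound
import Fermat.Agent.RT.Lift.AtP.Strict

/-!
# Derivations killing the unit root give strictly ordinary deformations

For an ordinary representation whose Frobenius acts on the unramified quotient by `α`, a derivation
killing `α` gives a deformation to dual numbers which is strictly ordinary, provided the residual
value of `α` has square one.
-/

set_option autoImplicit false
set_option maxHeartbeats 1000000
set_option synthInstance.maxHeartbeats 400000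
set_option linter.unusedSectionVars false

noncomputable section

namespace Fermat.Agent.RT.Lift

open IsLocalRing Module Fermat.Agent.Deform Fermat.Agent.CFT.Tangent Fermat.Agent.Arith
open Fermat.Agent.RT.Assembly
open scoped TensorProduct

section UnitRoot

variable {A : Type} [CommRing A] [IsLocalRing A] [IsNoetherianRing A] {ρ : GaloisRepAdic A} {p : ℕ}

/-- `ρ` is ordinary at `p`, a Frobenius acting on the quotient by `α`. -/
def HasUnitRoot (ρ : GaloisRepAdic A) (p : ℕ) (α : A) : Prop :=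
  ∀ P : ValuationSubring QBar, P.LiesOverPrime p → ∃ b : Basis (Fin 2) A ρ.V,
    (∀ σ ∈ P.inertiaSubgroupIn ℚ, ∀ v, ρ.ρ σ v - v ∈ A ∙ b 0) ∧
      (∀ σ ∈ P.decompositionSubgroup ℚ, ρ.ρ σ (b 0) ∈ A ∙ b 0) ∧
      ∃ F : Gal, P.IsFrobeniusAt F p ∧ ∀ v, ρ.ρ F v - α • v ∈ A ∙ b 0

end UnitRoot

/-- A base change making the unit root a square root of one is strictly ordinary. -/
theorem isStrictOrdinaryAt_baseChange_of_unitRoot {A B : Type} [CommRing A] [IsLocalRing A]
    [CommRing B] [IsLocalRing B] (φ : A →+* B) (hφ : IsLocalHom φ) {ρ : GaloisRepAdic A} {p : ℕ}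
    (hdet : ρ.DetIsCyclotomic p) [Fact p.Prime] {α : A} (hroot : HasUnitRoot ρ p α) (hα2 : φ α * φ α = 1)
    (hfin : ∃ L : IntermediateField ℚ QBar, FiniteDimensional ℚ L ∧
      ∀ g : Gal, (∀ x ∈ L, g x = x) → (ρ.baseChangeAlong φ hφ).ρ g = 1) :
    (ρ.baseChangeAlong φ hφ).IsStrictOrdinaryAt p := by
  let := φ.toAlgebra
  set ρ' := ρ.baseChangeAlong φ hφ
  have hdet' : ρ'.DetIsCyclotomic p := CFT.Tangent.DetIsCyclotomic.baseChange φ hφ hdet
  obtain ⟨L, hL, htriv⟩ := hfin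
  refine EC.Rep.isStrictOrdinaryAt_of_lines ρ' hdet' fun P hP => ?_
  obtain ⟨b, hI, hD, F, hF, hFα⟩ := hroot P hP
  let b' : Basis (Fin 2) B (B ⊗[A] ρ.V) := b.baseChange B
  have hb'0 : b' 0 = (1 : B) ⊗ₜ[A] b 0 := Basis.baseChange_apply _ _ _
  have hsmul : ∀ (a : A) (c : B) (w : ρ.V),
      c ⊗ₜ[A] (a • w) = φ a • (c ⊗ₜ[A] w) := fun a c w => by
    rw [TensorProduct.tmul_smul]
    exact (algebraMap_smul B a (c ⊗ₜ[A] w)).symm
  have hmem : ∀ (c : B) (w : ρ.V), w ∈ A ∙ b 0 → c ⊗ₜ[A] w ∈ B ∙ b' 0 := fun c w hw => by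
    obtain ⟨a, rfl⟩ := Submodule.mem_span_singleton.mp hw
    refine Submodule.mem_span_singleton.mpr ⟨φ a * c, ?_⟩
    rw [hb'0, hsmul, mul_smul, TensorProduct.smul_tmul', smul_eq_mul, mul_one]
  have hline : ∀ (g : Gal) (a : A), (∀ v, ρ.ρ g v - a • v ∈ A ∙ b 0) →
      ∀ v : B ⊗[A] ρ.V, (ρ.ρ g).baseChange B v - φ a • v ∈ B ∙ b' 0 := fun g a hg v => by
    induction v using TensorProduct.induction_on with
    | zero => rw [LinearMap.map_zero, smul_zero, sub_zero]; exact zero_mem _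
    | tmul c w =>
      rw [LinearMap.baseChange_tmul, ← hsmul, ← TensorProduct.tmul_sub]
      exact hmem c _ (hg w)
    | add x y hx hy => rw [map_add, smul_add, add_sub_add_comm]; exact add_mem hx hy
  have hI' : ∀ σ ∈ P.inertiaSubgroupIn ℚ, ∀ v : B ⊗[A] ρ.V,
      (ρ.ρ σ).baseChange B v - v ∈ B ∙ b' 0 := fun σ hσ v => by
    have := hline σ 1 (fun w => by rw [one_smul]; exact hI σ hσ w) v
    rwa [map_one, one_smul] at this
  have hD' : ∀ σ ∈ P.decompositionSubgroup ℚ, (ρ.ρ σ).baseChange B (b' 0) ∈ B ∙ b' 0 :=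
      fun σ hσ => by
    rw [hb'0, LinearMap.baseChange_tmul, ← hb'0]
    exact hmem 1 _ (hD σ hσ)
  refine ⟨b', hI', fun σ hσ => ⟨hD' σ hσ, ?_⟩⟩
  obtain ⟨i, τ, hτ, hag⟩ := AtP.exists_frobenius_mul_inertia_at hP L hF hσ
  refine ⟨φ α ^ i, by rw [← mul_pow, hα2, one_pow], fun v => ?_⟩
  have e : ρ'.ρ σ = ρ'.ρ (F ^ i * τ) := by
    rw [show σ = F ^ i * τ * ((F ^ i * τ)⁻¹ * σ) by group, map_mul ρ'.ρ,
      htriv ((F ^ i * τ)⁻¹ * σ) (fun x hx => by
        rw [AlgEquiv.mul_apply, hag x hx, ← AlgEquiv.mul_apply, inv_mul_cancel, AlgEquiv.one_apply]),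
      mul_one]
  have hstab : ∀ w ∈ B ∙ b' 0, (ρ.ρ F).baseChange B w ∈ B ∙ b' 0 := fun w hw => by
    obtain ⟨c, rfl⟩ := Submodule.mem_span_singleton.mp hw
    rw [map_smul]
    exact Submodule.smul_mem _ c (hD' F hF.mem_decompositionSubgroup)
  have hpow : ∀ (j : ℕ) (v : B ⊗[A] ρ.V),
      (ρ.ρ (F ^ j * τ)).baseChange B v - φ α ^ j • v ∈ B ∙ b' 0 := fun j => by
    induction j with
    | zero => intro v; rw [pow_zero, one_mul, pow_zero, one_smul]; exact hI' τ hτ v
    | succ j ih =>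
      intro v
      rw [pow_succ', mul_assoc, map_mul, LinearMap.baseChange_mul, Module.End.mul_apply, pow_succ',
        mul_smul]
      have h1 := hstab _ (ih v)
      rw [map_sub, map_smul] at h1
      have h2 := Submodule.smul_mem _ (φ α ^ j) (hline F α hFα v)
      rw [smul_sub, ← mul_smul, mul_comm, mul_smul] at h2
      have := add_mem h1 h2
      rwa [sub_add_sub_cancel] at this
  rw [e]
  exact hpow i v

variable {O : Type} [CommRing O] [IsLocalRing O] [Finite (ResidueField O)]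
  {R : Type} [CommRing R] [IsLocalRing R] [IsNoetherianRing R]
  [IsAdicComplete (maximalIdeal R) R] [Algebra O R]
  (p : ℕ) [Fact p.Prime] {W : Rigid O} {h : IsResAlg O R} {ru : Gal →* M2 R}

local notation "𝔻" => DualNumber (ResidueField O)

/-- **Derivations killing the unit root give strictly ordinary dual numbers.** -/
theorem exists_strict_dual_of_unitRoot (hl : Lifts W h ru) (hc : IsCont ru)
    (hdet : (toRep ru hc).DetIsCyclotomic p) (hrb : GaloisFactorsThroughFiniteLevel W.rb) {α : R}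
    (hroot : HasUnitRoot (toRep ru hc) p α) (hsq : augment h α ^ 2 = 1)
    (δ : tangentDer h) (hδ : δ.1 α = 0) :
    letI := dualAlgebra O
    ∃ (ρ : GaloisRepAdic (DualNumber (ResidueField O)))
      (B : Basis (Fin 2) (DualNumber (ResidueField O)) ρ.V), ρ.IsStrictOrdinaryAt p ∧
      ρ.DetIsCyclotomic p ∧ ∀ σ, matOf ρ B σ = (1 + epsM (tangentCls W h ru δ σ)) * inlM (W.rb σ) := by
  let := dualAlgebra O
  set φ := (tangentHom h δ : R →+* DualNumber (ResidueField O)) with hφ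
  let _ := φ.toAlgebra
  let ρ' := (toRep ru hc).baseChangeAlong φ (isLocalHom_tangentHom δ)
  let B : Basis (Fin 2) 𝔻 ρ'.V :=
    (Pi.basisFun R (Fin 2)).baseChange 𝔻
  have hdet' : ρ'.DetIsCyclotomic p :=
    CFT.Tangent.DetIsCyclotomic.baseChange φ (isLocalHom_tangentHom δ) hdet
  have hmat : ∀ σ, matOf ρ' B σ = (1 + epsM (tangentCls W h ru δ σ)) * inlM (W.rb σ) := fun σ => by
    refine (DFunLike.congr_fun (matOf_baseChangeAlong _ (isLocalHom_tangentHom δ) (toRep ru hc)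
      (Pi.basisFun R (Fin 2))) σ).trans ?_
    rw [matOf_toRep]
    exact mapM_tangentHom hl δ σ
  refine ⟨ρ', B, ?_, hdet', hmat⟩
  obtain ⟨L₁, hL₁, h₁⟩ := tangentCls_finiteLevel hc δ (W := W) (h := h)
  obtain ⟨L₂, hL₂, h₂⟩ := hrb
  have htriv : ∀ g : Gal, (∀ x ∈ L₁ ⊔ L₂, g x = x) → ρ'.ρ g = 1 := fun g hg => by
    refine (LinearMap.toMatrixAlgEquiv B).injective ?_
    rw [map_one]
    show matOf ρ' B g = 1
    rw [hmat, h₁ g fun x hx => hg x ((le_sup_left : L₁ ≤ L₁ ⊔ L₂) hx),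
      h₂ g fun x hx => hg x ((le_sup_right : L₂ ≤ L₁ ⊔ L₂) hx)]
    ext i j <;> fin_cases i <;> fin_cases j <;> simp [epsM, inlM, Matrix.mul_apply]
  have hα2 : φ α * φ α = 1 := by
    rw [← map_mul]
    refine TrivSqZeroExt.ext ?_ ?_
    · show augment h (α * α) = 1
      rw [map_mul, ← sq, hsq]
    · show δ.1 (α * α) = 0
      rw [δ.2.2.1, hδ]; simp
  refine isStrictOrdinaryAt_baseChange_of_unitRoot φ (isLocalHom_tangentHom δ) hdet hroot hα2
    ⟨L₁ ⊔ L₂, inferInstance, htriv⟩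

end Fermat.Agent.RT.Lift
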