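import Fermat.Agent.RT.Lift.Levels.Places
import Fermat.Agent.RT.Lift.Levels.Tower
import Fermat.Agent.RT.GammaH.RankBound
import Fermat.Agent.RT.Assembly.Core
import Fermat.Agent.CFT.Tangent.Main

/-!
# The frame of the patching argument

Primes `qv n` for every `n` and the levels `M R ∏ qv ∏ B` at which the rank of the module over the
diamond operators does not depend on `n`.
-/

set_option autoImplicit false
set_option linter.style.haveILetI false
set_option linter.unusedSectionVars false

noncomputable section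

namespace Fermat.Agent.RT.Lift

open IsLocalRing Module WeierstrassCurve
open Fermat.Agent.Deform Fermat.Agent.Arith Fermat.Agent.RT.Germ
open Fermat.Agent.RT.GammaH
open Fermat.Agent.LevelRaising (RaiseData)

local notation "Q̄" => AlgebraicClosure ℚ

/-- The places as a type. -/
abbrev Places (W : WeierstrassCurve ℤ) (p M : ℕ) : Type := {v : ℕ // v ∈ raisePlaces W p M}

theorem Places.prime {W : WeierstrassCurve ℤ} {p M : ℕ} (v : Places W p M) : (v : ℕ).Prime :=
  Nat.prime_of_mem_primeFactors (Finset.mem_filter.1 v.2).1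

instance Places.fact {W : WeierstrassCurve ℤ} {p M : ℕ} (v : Places W p M) : Fact (v : ℕ).Prime :=
  ⟨v.prime⟩

theorem Places.ne {W : WeierstrassCurve ℤ} {p M : ℕ} (v : Places W p M) : (v : ℕ) ≠ p :=
  (Finset.mem_filter.1 v.2).2.1

theorem Places.not_dvd {W : WeierstrassCurve ℤ} {p M : ℕ} (v : Places W p M) : ¬ (v : ℕ) ∣ M :=
  (Finset.mem_filter.1 v.2).2.2

theorem Places.dvd {W : WeierstrassCurve ℤ} {p M : ℕ} (v : Places W p M) :
    (v : ℕ) ∣ W.conductorLevel :=
  Nat.dvd_of_mem_primeFactors (Finset.mem_filter.1 v.2).1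

/-- The product of the places in a set. -/
def placeProd {W : WeierstrassCurve ℤ} {p M : ℕ} (B : Finset (Places W p M)) : ℕ :=
  ∏ v ∈ B, (v : ℕ)

/-- The base level at the primes `q`. -/
def baseLevel {r' : ℕ} (M R : ℕ) (q : Fin r' → ℕ) : ℕ := M * R * ∏ i, q i

/-- The level at the primes `q` and the places `B`. -/
def levelOf {W : WeierstrassCurve ℤ} {p M : ℕ} {r' : ℕ} (R : ℕ) (q : Fin r' → ℕ)
    (B : Finset (Places W p M)) : ℕ :=
  baseLevel M R q * placeProd B

/-- The primes outside which the operators live. -/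
def opSet (W : WeierstrassCurve ℤ) (p R : ℕ) {r' : ℕ} (q : Fin r' → ℕ) : Finset ℕ :=
  badSet W p R ∪ Finset.univ.image q

/-- Taylor–Wiles primes for the residual matrices. -/
structure IsTWPrimes {k : Type} [Field k] (p : ℕ) [Fact p.Prime] (r : Gal →* M2 k)
    (Smin T S : Finset ℕ) (n : ℕ) {r' : ℕ} (q : Fin r' → ℕ) : Prop where
  injective : Function.Injective q
  prime : ∀ i, (q i).Prime
  notMem : ∀ i, q i ∉ S
  dvd : ∀ i, p ^ (n + 1) ∣ q i - 1
  distinct : ∀ i, ∀ A : ValuationSubring Q̄, A.LiesOverPrime (q i) →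
    ∀ φ : Gal, A.IsFrobeniusAt φ (q i) →
      ∃ α β : k, α ≠ β ∧ (r φ).trace = α + β ∧ (r φ).det = α * β
  core : CFT.Tangent.LiftCoreAtSlack p r Smin T q

theorem IsTWPrimes.mono {k : Type} [Field k] {p : ℕ} [Fact p.Prime] {r : Gal →* M2 k}
    {Smin T S : Finset ℕ} {n m : ℕ} (hnm : n ≤ m) {r' : ℕ} {q : Fin r' → ℕ}
    (h : IsTWPrimes p r Smin T S m q) : IsTWPrimes p r Smin T S n q :=
  ⟨h.injective, h.prime, h.notMem,
    fun i => (pow_dvd_pow p (Nat.succ_le_succ hnm)).trans (h.dvd i), h.distinct, h.core⟩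

variable {O : Type} [CommRing O] [IsDomain O] [IsDiscreteValuationRing O]
  [IsAdicComplete (maximalIdeal O) O] [Finite (ResidueField O)] [CharZero O]
  {K : Type*} [NontriviallyNormedField K] [IsUltrametricDist K] [CompleteSpace K]
  {p : ℕ} [Fact p.Prime] [CharP (ResidueField O) p] {W : WeierstrassCurve ℤ} {M R : ℕ}

section Facts

variable (X : RaiseSetting O p W M R)

include X

theorem RaiseSetting.primeFactors_subset {q : ℕ} (hq : q.Prime) (h : q ∣ W.conductorLevel * R) :
    q ∈ badSet W p R :=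
  Finset.mem_insert_of_mem (Nat.mem_primeFactors.2 ⟨hq, h, X.squarefree.ne_zero⟩)

theorem RaiseSetting.mem_badSet_prime {q : ℕ} (h : q ∈ badSet W p R) : q.Prime := by
  rcases Finset.mem_insert.1 h with rfl | h
  · exact Fact.out
  · exact Nat.prime_of_mem_primeFactors h

/-- The residual matrices are trivial on inertia outside `p` and the primes of `M`. -/
theorem RaiseSetting.rb_inertia {q : ℕ} (hq : q.Prime) (hqp : q ≠ p) (hqM : ¬ q ∣ M)
    {A : ValuationSubring Q̄} (hA : A.LiesOverPrime q) {σ : Gal}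
    (hσ : σ ∈ A.inertiaSubgroupIn ℚ) : X.rigid.rb σ = 1 := by
  rw [X.rigid_rb]
  show LinearMap.toMatrixAlgEquiv X.bb (X.ρbar.ρ σ) = 1
  rw [X.unramified q hq hqp hqM A hA σ hσ, map_one]

theorem RaiseSetting.ne_zero_M : M ≠ 0 := fun h => X.squarefree.ne_zero (by
  rw [(Nat.eq_zero_of_zero_dvd (h ▸ X.level_dvd) : W.conductorLevel = 0), zero_mul])

theorem RaiseSetting.placeProd_mul_dvd (B : Finset (Places W p M)) :
    M * placeProd B ∣ W.conductorLevel := by
  refine Nat.Coprime.mul_dvd_of_dvd_of_dvd ?_ X.level_dvd ?_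
  · exact Nat.Coprime.prod_right fun v _ =>
      ((v.prime).coprime_iff_not_dvd.2 v.not_dvd).symm
  · rw [placeProd, ← Finset.prod_image (f := fun v : ℕ => v) fun v _ w _ h => Subtype.ext h]
    refine Finset.prod_primes_dvd _ (fun v hv => ?_) fun v hv => ?_ <;>
      obtain ⟨(w : Places W p M), -, rfl⟩ := Finset.mem_image.1 hv
    exacts [(Places.prime w).prime, Places.dvd w]

theorem RaiseSetting.squarefree_levelOf {r' : ℕ} {q : Fin r' → ℕ} (hinj : Function.Injective q)
    (hq : ∀ i, (q i).Prime) (hqS : ∀ i, q i ∉ badSet W p R) (B : Finset (Places W p M)) :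
    Squarefree (levelOf R q B) := by
  have hdvd : M * placeProd B * R ∣ W.conductorLevel * R :=
    mul_dvd_mul_right (X.placeProd_mul_dvd B) R
  rw [levelOf, baseLevel, show M * R * (∏ i, q i) * placeProd B =
    M * placeProd B * R * ∏ i, q i by ring]
  refine (Nat.squarefree_mul ?_).2 ⟨X.squarefree.squarefree_of_dvd hdvd, ?_⟩
  · refine Nat.Coprime.prod_right fun i _ => ?_
    rw [Nat.coprime_comm, (hq i).coprime_iff_not_dvd]
    exact fun h => hqS i (X.primeFactors_subset (hq i) (h.trans hdvd))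
  · rw [← Finset.prod_image (f := fun v : ℕ => v) fun i _ j _ h => hinj h]
    refine Finset.squarefree_prod_of_pairwise_isCoprime (fun a ha b hb hab => ?_) fun a ha => ?_
    · obtain ⟨i, -, rfl⟩ := Finset.mem_image.1 ha
      obtain ⟨j, -, rfl⟩ := Finset.mem_image.1 hb
      exact Nat.coprime_iff_isRelPrime.1 ((Nat.coprime_primes (hq i) (hq j)).2 hab)
    · obtain ⟨i, -, rfl⟩ := Finset.mem_image.1 ha
      exact (hq i).squarefree

theorem RaiseSetting.prime_dvd_levelOf {r' : ℕ} {q : Fin r' → ℕ} (hq : ∀ i, (q i).Prime)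
    {B : Finset (Places W p M)} {l : ℕ} (hl : l.Prime) (h : l ∣ levelOf R q B) :
    l ∈ opSet W p R q := by
  rcases hl.dvd_mul.1 h with h1 | h1
  · rcases hl.dvd_mul.1 h1 with h2 | h2
    · refine Finset.mem_union_left _ (X.primeFactors_subset hl ?_)
      rcases hl.dvd_mul.1 h2 with h3 | h3
      · exact dvd_mul_of_dvd_left (h3.trans X.level_dvd) _
      · exact dvd_mul_of_dvd_right h3 _
    · obtain ⟨i, -, hi⟩ := hl.prime.exists_mem_finset_dvd h2
      exact Finset.mem_union_right _ (Finset.mem_image.2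
        ⟨i, Finset.mem_univ i, ((Nat.prime_dvd_prime_iff_eq hl (hq i)).1 hi).symm⟩)
  · obtain ⟨v, -, hv⟩ := hl.prime.exists_mem_finset_dvd h1
    refine Finset.mem_union_left _ (X.primeFactors_subset hl ?_)
    exact dvd_mul_of_dvd_left (hv.trans v.dvd) _

theorem RaiseSetting.congruent_levelOf {r' : ℕ} {q : Fin r' → ℕ} (hinj : Function.Injective q)
    (hq : ∀ i, (q i).Prime) (hqS : ∀ i, q i ∉ badSet W p R) (B : Finset (Places W p M)) :
    IsCongruentLevel (opSet W p R q) (curveAbar W : ℕ → ResidueField O) (levelOf R q B) :=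
  isCongruentLevel_of_dvd Finset.subset_union_left (X.squarefree_levelOf hinj hq hqS B)
    (dvd_mul_of_dvd_left (dvd_mul_of_dvd_left (dvd_mul_right M R) _) _)
    (fun _ hl h => X.prime_dvd_levelOf hq hl h) X.level_congruent

theorem RaiseSetting.weights_levelOf {r' : ℕ} {q : Fin r' → ℕ} (hq : ∀ i, (q i).Prime)
    (B : Finset (Places W p M)) : HasSTWeights O (levelOf R q B) := by
  refine X.weights _ (mul_ne_zero (mul_ne_zero (mul_ne_zero X.ne_zero_M ?_) ?_) ?_)
    (dvd_mul_of_dvd_left (dvd_mul_of_dvd_left (dvd_mul_left R M) _) _)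
  · exact fun h => X.squarefree.ne_zero (by rw [h, mul_zero])
  · exact Finset.prod_ne_zero_iff.2 fun i _ => (hq i).ne_zero
  · exact Finset.prod_ne_zero_iff.2 fun v _ => v.prime.ne_zero

omit X in
theorem levelOf_cons {r' : ℕ} (q : Fin r' → ℕ) {B : Finset (Places W p M)} {v : Places W p M}
    (hv : v ∉ B) : levelOf R q (Finset.cons v B hv) = levelOf R q B * (v : ℕ) := by
  rw [levelOf, levelOf, placeProd, placeProd, Finset.prod_cons]
  ring

theorem RaiseSetting.not_dvd_levelOf {r' : ℕ} {q : Fin r' → ℕ} (hq : ∀ i, (q i).Prime)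
    (hqS : ∀ i, q i ∉ badSet W p R) {B : Finset (Places W p M)} {v : Places W p M} (hv : v ∉ B) :
    ¬ (v : ℕ) ∣ levelOf R q B := by
  intro h
  rcases v.prime.dvd_mul.1 h with h1 | h1
  · rcases v.prime.dvd_mul.1 h1 with h2 | h2
    · rcases v.prime.dvd_mul.1 h2 with h3 | h3
      · exact v.not_dvd h3
      · exact v.prime.not_isUnit (X.squarefree _ (mul_dvd_mul v.dvd h3))
    · obtain ⟨i, -, hi⟩ := v.prime.prime.exists_mem_finset_dvd h2
      exact hqS i (X.primeFactors_subset (hq i) (dvd_mul_of_dvd_left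
        ((Nat.prime_dvd_prime_iff_eq v.prime (hq i)).1 hi ▸ v.dvd) _))
  · obtain ⟨w, hw, hi⟩ := v.prime.prime.exists_mem_finset_dvd h1
    exact hv ((Subtype.ext ((Nat.prime_dvd_prime_iff_eq v.prime w.prime).1 hi)) ▸ hw)

theorem RaiseSetting.raiseData {r' : ℕ} {q : Fin r' → ℕ} (hq : ∀ i, (q i).Prime)
    (hqS : ∀ i, q i ∉ badSet W p R) {B : Finset (Places W p M)} {v : Places W p M} (hv : v ∉ B) :
    RaiseData (v : ℕ) (levelOf R q B) :=
  ⟨v.prime, X.not_dvd_levelOf hq hqS hv⟩

/-- The rank at the Taylor–Wiles primes is bounded independently of them. -/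
theorem RaiseSetting.finrank_levelOf_le (hp2 : p ≠ 2) {n r' : ℕ} {q : Fin r' → ℕ} {Smin T : Finset ℕ}
    (h : IsTWPrimes p X.rigid.rb Smin T (badSet W p R) n q) (B : Finset (Places W p M))
    {e : OpRing O (levelOf R q B) (opSet W p R q)}
    (he : IsLocalizer (resIdeal (opSet W p R q) (curveAbar W) (levelOf R q B))
      (HomMod O (opSet W p R q) (⊤ : Subgroup (ZMod (levelOf R q B))ˣ) O) e) :
    finrank O (localPart O e
      (HomMod O (opSet W p R q) (⊤ : Subgroup (ZMod (levelOf R q B))ˣ) O)) ≤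
      2 ^ (r' + 1) * finrank ℂ (CuspForm (CongruenceSubgroup.Gamma0 (M * placeProd B * R)) 2) := by
  have hsq := X.squarefree_levelOf h.injective h.prime h.notMem B
  have : NeZero (levelOf R q B) := ⟨hsq.ne_zero⟩
  have hcard : (Finset.univ.image q).card = r' := by
    rw [Finset.card_image_of_injective _ h.injective, Finset.card_univ, Fintype.card_fin]
  refine (finrank_localPart_le_of_new (p := p) hp2 (X.weights_levelOf h.prime B).1 hsq
    (fun l hl hd => X.prime_dvd_levelOf h.prime hl hd) (X.eis _)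
    (N := M * placeProd B * R) (Q := Finset.univ.image q) ?_ ?_ ?_ he).trans (by rw [hcard])
  · rw [Finset.prod_image fun i _ j _ hij => h.injective hij, levelOf, baseLevel]
    ring
  · intro x hx
    obtain ⟨i, -, rfl⟩ := Finset.mem_image.1 hx
    exact h.prime i
  · rintro N g hg hN ⟨x, hx, hxN⟩ hcg
    obtain ⟨i, -, rfl⟩ := Finset.mem_image.1 hx
    have : NeZero N := ⟨fun h0 => hsq.ne_zero (Nat.eq_zero_of_zero_dvd (h0 ▸ hN))⟩
    refine Assembly.not_dvd_level_of_distinct X.det_cyclotomic X.bb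
      (fun S N => X.special S N) (h.prime i) ((dvd_pow_self p n.succ_ne_zero).trans (h.dvd i))
      (fun A hA φ hφ => ?_) hg hcg (hsq.squarefree_of_dvd hN) hxN
    rw [← X.rigid_rb]
    exact h.distinct i A hA φ hφ

end Facts

/-- What does not vary with `n`, and the primes for every `n`. -/
structure Frame (p : ℕ) [Fact p.Prime] (W : WeierstrassCurve ℤ) (M R : ℕ) (φ : O →+* ball1 K) where
  X : RaiseSetting O p W M R
  rW : Gal →* M2 O
  cont : IsCont rW
  lifts : Lifts X.rigid (isResAlg_self O) rW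
  normal : IsNormal X.rigid rW
  point : IsCurvePoint W p rW cont
  place : ∀ v : Places W p M, PlaceSetup φ X.rigid rW p (v : ℕ)
  r' : ℕ
  qv : ℕ → Fin r' → ℕ
  tw : ∀ n, IsTWPrimes p X.rigid.rb (insert p M.primeFactors) (raisePlaces W p M) (badSet W p R) n
    (qv n)
  D : Finset (Places W p M) → ℕ
  rank : ∀ (n : ℕ) (B : Finset (Places W p M))
    (e : OpRing O (levelOf R (qv n) B) (opSet W p R (qv n))),
    IsLocalizer (resIdeal (opSet W p R (qv n)) (curveAbar W) (levelOf R (qv n) B))
      (HomMod O (opSet W p R (qv n)) (⊤ : Subgroup (ZMod (levelOf R (qv n) B))ˣ) O) e →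
    finrank O (localPart O e (HomMod O (opSet W p R (qv n))
      (⊤ : Subgroup (ZMod (levelOf R (qv n) B))ˣ) O)) = D B

open Classical in
/-- **A frame exists.** -/
theorem RaiseSetting.exists_frame [IsAlgClosed K] {φ : O →+* ball1 K} (X : RaiseSetting O p W M R)
    (hΔ : W.Δ ≠ 0) (hp2 : p ≠ 2) (hφinj : Function.Injective φ)
    (hφ : ∀ c ∈ maximalIdeal O, ‖(φ c : K)‖ < 1) : Nonempty (Frame p W M R φ) := by
  have hpO : (p : O) ∈ maximalIdeal O := by
    rw [← residue_eq_zero_iff, map_natCast, CharP.cast_eq_zero]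
  obtain ⟨rW, hc, hl, hn, hW⟩ := X.curve
  have hplace := fun v : Places W p M => X.exists_placeSetup hΔ hp2 hpO hφinj hφ hl hW v.2
  have hM0 := X.ne_zero_M
  have hsub : insert p M.primeFactors ⊆ badSet W p R := Finset.insert_subset
    (Finset.mem_insert_self _ _) fun q hq => X.primeFactors_subset (Nat.prime_of_mem_primeFactors hq)
      (dvd_mul_of_dvd_left ((Nat.dvd_of_mem_primeFactors hq).trans X.level_dvd) _)
  have hnotM : ∀ {q : ℕ}, q.Prime → q ∉ insert p M.primeFactors → q ≠ p ∧ ¬ q ∣ M := fun {q} hq h =>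
    ⟨fun e => h (Finset.mem_insert.2 (Or.inl e)), fun hd => h (Finset.mem_insert_of_mem
      (Nat.mem_primeFactors.2 ⟨hq, hd, hM0⟩))⟩
  obtain ⟨r', hr'⟩ := CFT.Tangent.liftCoreInputSlack (ResidueField O) p hp2 X.rigid.rb
    (X.rigid_rb ▸ CFT.TWPrimes.finiteLevel_matRes X.ρbar X.bb) (X.rigid_rb ▸ X.twHyp)
    (fun σ m hm => by
      rw [X.rigid_rb]
      exact (LinearMap.det_toMatrix X.bb (X.ρbar.ρ σ)).trans (X.det_cyclotomic σ m hm))
    (insert p M.primeFactors) (raisePlaces W p M) (badSet W p R) (Finset.mem_insert_self _ _) hsub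
    (fun v hv => X.primeFactors_subset (Nat.prime_of_mem_primeFactors (Finset.mem_filter.1 hv).1)
      (dvd_mul_of_dvd_left (Nat.dvd_of_mem_primeFactors (Finset.mem_filter.1 hv).1) _))
    (Finset.disjoint_left.2 fun q hq hq' => by
      obtain ⟨-, h1, h2⟩ := Finset.mem_filter.1 hq'
      rcases Finset.mem_insert.1 hq with rfl | hq
      · exact h1 rfl
      · exact h2 (Nat.dvd_of_mem_primeFactors hq))
    (fun q hq => X.mem_badSet_prime hq)
    (fun q hq hqS A hA σ hσ => X.rb_inertia hq (hnotM hq hqS).1 (hnotM hq hqS).2 hA hσ)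
    (fun q hq hqp hfq => by
      have hqM : q ∣ M :=
        Nat.dvd_of_mem_primeFactors ((Finset.mem_insert.1 hq).resolve_left hqp)
      have hA : (padicPlace q).LiesOverPrime q := CFT.Local.padicPlace_liesOverPrime q
      refine ⟨fun τ hτ => ?_, ?_⟩
      · refine ⟨?_, ?_⟩
        · rw [X.rigid_rb]
          exact ((LinearMap.trace_eq_matrix_trace _ X.bb _).symm).trans
            (X.inertia_trace q hfq.out hqp _ hA τ hτ)
        · rw [X.rigid_rb]
          refine (LinearMap.det_toMatrix X.bb (X.ρbar.ρ τ)).trans ?_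
          rw [X.det_cyclotomic τ 1 fun μ hμ => by
            rw [pow_one]
            exact Arith.inertia_root hA hfq.out hτ hμ fun h =>
              hqp ((Nat.prime_dvd_prime_iff_eq hfq.out Fact.out).1 h), Nat.cast_one]
      · obtain ⟨τ, hτ, hne⟩ := X.ramified q hfq.out hqp hqM _ hA
        refine ⟨τ, hτ, fun h => hne ?_⟩
        rw [X.rigid_rb] at h
        exact (LinearMap.toMatrixAlgEquiv X.bb).injective (h.trans (map_one _).symm))
  choose q hinj hq hdist hcore using hr'
  have htw : ∀ m, IsTWPrimes p X.rigid.rb (insert p M.primeFactors) (raisePlaces W p M)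
      (badSet W p R) m (q m) := fun m =>
    ⟨hinj m, fun i => (hq m i).1, fun i => (hq m i).2.1, fun i => (hq m i).2.2, hdist m, hcore m⟩
  let rk : ℕ → Finset (Places W p M) → ℕ := fun m B =>
    if h : ∃ e : OpRing O (levelOf R (q m) B) (opSet W p R (q m)),
      IsLocalizer (resIdeal (opSet W p R (q m)) (curveAbar W) (levelOf R (q m) B))
        (HomMod O (opSet W p R (q m)) (⊤ : Subgroup (ZMod (levelOf R (q m) B))ˣ) O) e
    then finrank O (localPart O h.choose
      (HomMod O (opSet W p R (q m)) (⊤ : Subgroup (ZMod (levelOf R (q m) B))ˣ) O)) else 0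
  let bd : Finset (Places W p M) → ℕ := fun B =>
    2 ^ (r' + 1) * finrank ℂ (CuspForm (CongruenceSubgroup.Gamma0 (M * placeProd B * R)) 2)
  have hrk : ∀ m B, rk m B < bd B + 1 := fun m B => by
    simp only [rk]
    split_ifs with h
    · exact Nat.lt_succ_of_le (X.finrank_levelOf_le hp2 (htw m) B h.choose_spec)
    · exact Nat.succ_pos _
  obtain ⟨D, hD⟩ := Finite.exists_infinite_fiber
    fun m => fun B => (⟨rk m B, hrk m B⟩ : Fin (bd B + 1))
  choose g hg hgn using fun n => (Set.infinite_coe_iff.1 hD).exists_gt n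
  exact ⟨{
    X := X, rW := rW, cont := hc, lifts := hl, normal := hn, point := hW
    place := fun v => (hplace v).some
    r' := r', qv := fun n => q (g n)
    tw := fun n => (htw (g n)).mono (hgn n).le
    D := fun B => (D B : ℕ)
    rank := fun n B e he => by
      have hfib := congrArg Fin.val (congrFun (hg n) B)
      refine Eq.trans ?_ hfib
      simp only [rk]
      rw [dif_pos ⟨e, he⟩]
      exact congrArg (fun N : Submodule O _ => finrank O N) (localPart_eq he
        (Exists.choose_spec (p := fun e => IsLocalizer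
          (resIdeal (opSet W p R (q (g n))) (curveAbar W) (levelOf R (q (g n)) B))
          (HomMod O (opSet W p R (q (g n))) (⊤ : Subgroup (ZMod (levelOf R (q (g n)) B))ˣ) O) e)
          ⟨e, he⟩) (resIdeal_ne_top _ _)) }⟩

end Fermat.Agent.RT.Lift
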