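import Fermat.Agent.RT.Glue.Approx
import Fermat.Agent.RT.GammaH.Congruent
import Fermat.Agent.RT.Lift.Levels.EigenTest

/-!
# Points realised by a given newform

The data of a newform attached to an eigen homomorphism give a point of the Hecke algebra, whose
trace at a Frobenius away from the level is the coefficient; the traces of the points over one
homomorphism do not depend on the newform.
-/

set_option autoImplicit false

noncomputable section

namespace Fermat.Agent.RT.Lift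

open IsLocalRing MvPolynomial
open Fermat.Agent.RT.GammaH
open Fermat.Agent.RT.Glue (KBar Point sA)
open GaloisReps (AbsGal HeckeGaloisModel powerTrace FullHecke)

variable {O : Type} [CommRing O] [IsDomain O] [IsDiscreteValuationRing O]
  [IsAdicComplete (maximalIdeal O) O] [Finite (ResidueField O)] [CharZero O]
  {p : ℕ} [Fact p.Prime] {L : ℕ} [NeZero L] {Δ : Type} [CommGroup Δ] {ψ : (ZMod L)ˣ →* Δ}
  {S : Finset ℕ} {abar : ℕ → ResidueField O}

/-- Points over one homomorphism have the same traces. -/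
theorem trace_unique {H : HeckeModule L ψ S abar} {hS : ∀ q : ℕ, q.Prime → q ∣ L → q ∈ S}
    (hp : (p : O) ∈ maximalIdeal O) (hpS : p ∈ S) (D : ∀ (M : ℕ) [NeZero M], HeckeGaloisModel M p)
    {θK : H.algebra →+* KBar O} (P Q : Point (p := p) H hS θK) (σ : AbsGal) :
    (P.rep D σ).trace = (Q.rep D σ).trace := by
  refine sub_eq_zero.1 (Glue.eq_zero_of_forall_integral hp fun n => ?_)
  obtain ⟨F, hF, hlev⟩ := Glue.exists_levelField (L := L) D n
  obtain ⟨ℓ, hℓ, hℓS, A, hA, s, hs, i, hi⟩ := GaloisReps.frobeniusDensity F hF σ S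
  have hfix := GaloisReps.inv_mul_fixes (g := s ^ i) (h := σ) (fun x hx => (hi x hx).symm)
  obtain ⟨r, hr, he⟩ := P.trace_congr D (n := n) (g := s ^ i) (h := σ) (hlev _ hfix _ P.dvd)
  obtain ⟨r', hr', he'⟩ := Q.trace_congr D (n := n) (g := s ^ i) (h := σ) (hlev _ hfix _ Q.dvd)
  rw [P.trace_frobenius_pow D hpS hℓ hℓS hA hs i] at he
  rw [Q.trace_frobenius_pow D hpS hℓ hℓS hA hs i] at he'
  exact ⟨r - r', hr.sub hr', by linear_combination he - he'⟩

omit [IsAdicComplete (maximalIdeal O) O] [Finite (ResidueField O)] [CharZero O] [NeZero L] in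
/-- The trace of a point at a Frobenius away from its level. -/
theorem emb_trace_frobenius {H : HeckeModule L ψ S abar} {hS : ∀ q : ℕ, q.Prime → q ∣ L → q ∈ S}
    {θK : H.algebra →+* KBar O} (P : Point (p := p) H hS θK)
    (D : ∀ (M : ℕ) [NeZero M], HeckeGaloisModel M p) {v : ℕ} (hv : v.Prime)
    (hvM : ¬ v ∣ P.M * p) {A : ValuationSubring (AlgebraicClosure ℚ)} (hA : A.LiesOverPrime v)
    {σ : AbsGal} (hσ : A.IsFrobeniusAt σ v) :
    P.emb ((P.rep D σ).trace) = ModularFormClass.qCoeff P.g v := by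
  rw [P.trace_rep D, LinearMap.trace_eq_matrix_trace P.R ((D P.M).eigenBasis P.θ'),
    Matrix.trace_eq_neg_charpoly_coeff, LinearMap.charpoly_toMatrix,
    (D P.M).charpoly_eigenAction_frobenius P.ι P.θ' GaloisReps.frobeniusDensity P.p_mem hv hvM hA hσ]
  have hvM' : ¬ v ∣ P.M := fun h => hvM (h.mul_right p)
  simp [P.emb_θ', HeckeDuality.heckeOp, hvM', ConductorLevel.eigenChar_T P.isNewform.1 hv hvM']

variable [Finite Δ] [CharP (ResidueField O) p]

omit [Finite Δ] in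
/-- A descended eigen homomorphism of the system of a point makes the smaller level congruent. -/
theorem congruent_of_point [Algebra O ℂ] (hinj : Function.Injective (algebraMap O ℂ))
    (N : LevelModule O S abar ψ) (hp : p ≠ 2) (hw : HasSTWeights O L)
    (hΔ : IsPGroup p Δ) (hψ : Function.Surjective ψ) (hL : Squarefree L)
    (hS : ∀ q : ℕ, q.Prime → q ∣ L → q ∈ S)
    (hEis : ∃ ℓ : ℕ, ℓ.Prime ∧ ℓ ∉ S ∧ abar ℓ ≠ 1 + (ℓ : ResidueField O))
    (θ : N.H.algebra →ₐ[O] ℂ) {v : ℕ} (hv : v.Prime) (hvL : v ∣ L)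
    {φ' : HomC (ψ.ker.map (ZMod.unitsMap (Nat.div_dvd_of_dvd hvL)))} (hφ' : φ' ≠ 0)
    (hdia : ∀ u, diamond (L / v) _ ℂ (ZMod.unitsMap (Nat.div_dvd_of_dvd hvL) u) φ' =
      θ (Glue.diaA N.H (ψ u)) • φ')
    (hT : ∀ ℓ : {ℓ : ℕ // ℓ.Prime ∧ ℓ ∉ S}, haveI : Fact ℓ.1.Prime := ⟨ℓ.2.1⟩
      hecke (L / v) _ ℓ.1 ℂ φ' = θ (Glue.TA N.H ℓ.2.1 ℓ.2.2) • φ') :
    IsCongruentLevel S abar (L / v) := by
  let Θ : OpRing O L S →ₐ[O] ℂ := θ.comp (opAlg N.H)
  have hΘ : ∀ b, localAct O N.e (HomMod O S ψ.ker O) b = 0 → Θ b = 0 := fun b hb => by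
    show θ (opAlg N.H b) = 0
    rw [show opAlg N.H b = 0 from Subtype.ext (LinearMap.ext fun x => N.incl_injective <| by
      rw [N.incl_opAlg]
      have h1 := congrArg Subtype.val (LinearMap.congr_fun hb ⟨N.incl x, N.incl_mem x⟩)
      rw [coe_localAct_apply] at h1
      exact h1.trans (map_zero N.incl).symm), map_zero]
  have hX : ∀ u, Θ (X (Sum.inl u)) = θ (Glue.diaA N.H (ψ u)) := fun u =>
    congrArg θ (aeval_X _ _)
  have hX' : ∀ ℓ : {ℓ : ℕ // ℓ.Prime ∧ ℓ ∉ S}, Θ (X (Sum.inr ℓ)) =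
      θ (Glue.TA N.H ℓ.2.1 ℓ.2.2) := fun ℓ => congrArg θ (aeval_X _ _)
  refine isCongruentLevel_descent (O := O) (p := p) (K := ψ.ker) hinj hp hw hΔ hψ
    (fun u => MonoidHom.mem_ker) hL hS hEis N.isLocalizer Θ hΘ hv hvL hφ'
    (fun u => by rw [hX]; exact hdia u) fun ℓ => ?_
  rw [hX']
  exact hT ℓ

set_option maxHeartbeats 1000000 in
omit [Finite Δ] in
/-- The point of a newform whose eigenvalues away from `S` are those of `θK`. -/
theorem exists_point_of_newform (N : LevelModule O S abar ψ) (hp : p ≠ 2) (hw : HasSTWeights O L)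
    (hΔ : IsPGroup p Δ) (hψ : Function.Surjective ψ) (hL : Squarefree L)
    (hS : ∀ q : ℕ, q.Prime → q ∣ L → q ∈ S)
    (hEis : ∃ ℓ : ℕ, ℓ.Prime ∧ ℓ ∉ S ∧ abar ℓ ≠ 1 + (ℓ : ResidueField O))
    (e : KBar O ≃+* ℂ) (θK : N.H.algebra →ₐ[O] KBar O)
    {M : ℕ} {g : CuspForm (CongruenceSubgroup.Gamma0 M) 2} (hg : g.IsNewform) (hdvd : M ∣ L ^ 2)
    (hcoef : ∀ (ℓ : ℕ) (hℓ : ℓ.Prime) (hℓS : ℓ ∉ S) (u : (ZMod L)ˣ), (u : ZMod L) = (ℓ : ZMod L) →
      ModularFormClass.qCoeff g ℓ =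
        e (θK (Glue.diaA N.H (ψ u))) ^ halfInvExp Δ * e (θK (Glue.TA N.H hℓ hℓS)))
    (hsq : ∀ v : ℕ, v.Prime → v ∣ L → (v ^ 2 ∣ M ↔ ∃ u : (ZMod L)ˣ,
      ((u : ZMod L).cast : ZMod (L / v)) = 1 ∧ e (θK (Glue.diaA N.H (ψ u))) ≠ 1))
    (hdesc : ∀ (v : ℕ), v.Prime → ∀ hv : v ∣ L, ¬ v ∣ M →
      ∃ φ' : Additive (gammaH (L / v) (ψ.ker.map (ZMod.unitsMap (Nat.div_dvd_of_dvd hv)))) →+ ℂ,
        φ' ≠ 0 ∧ (∀ u, diamond (L / v) _ ℂ (ZMod.unitsMap (Nat.div_dvd_of_dvd hv) u) φ' =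
          e (θK (Glue.diaA N.H (ψ u))) • φ') ∧
        ∀ (ℓ : ℕ) [Fact ℓ.Prime] (hℓ : ℓ.Prime) (hℓS : ℓ ∉ S),
          hecke (L / v) _ ℓ ℂ φ' = e (θK (Glue.TA N.H hℓ hℓS)) • φ') :
    ∃ P : Point (p := p) N.H hS θK.toRingHom, P.M = M ∧ P.emb = e ∧
      ∀ n : ℕ, ModularFormClass.qCoeff P.g n = ModularFormClass.qCoeff g n := by
  have hpm : (p : O) ∈ maximalIdeal O := by
    rw [← residue_eq_zero_iff, map_natCast, CharP.cast_eq_zero]
  have : NeZero M := ⟨fun h => pow_ne_zero 2 (NeZero.ne L) (Nat.eq_zero_of_zero_dvd (h ▸ hdvd))⟩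
  have : Module.Finite ℤ (FullHecke M) := IntegralStructure.heckeAlgebra_finite M 2 ∅
  obtain ⟨R, i1, i2, i3, i4, i5, i6, i7, i8, i9, j, θ', -, hjinj, hcomm, hθ'⟩ :=
    GaloisReps.exists_coeffExt O (e.symm.toRingHom.comp (ConductorLevel.eigenChar hg.1 ∅))
  have hpR : (p : R) ∈ maximalIdeal R := by
    rw [← map_natCast (algebraMap O R) p]
    exact map_nonunit (algebraMap O R) _ hpm
  obtain ⟨ι⟩ := GaloisReps.exists_padicHom R hpR
  have hlink : ∀ t, e (j (θ' t)) = ConductorLevel.eigenChar hg.1 ∅ t := fun t => by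
    rw [← RingHom.comp_apply j θ', hθ']
    exact e.apply_symm_apply _
  let P : Point (p := p) N.H hS θK.toRingHom := {
    M := M
    g := g
    isNewform := hg
    dvd := hdvd
    R := R
    j := j
    j_injective := hjinj
    j_algebraMap := hcomm
    p_mem := hpR
    ι := ι
    θ' := θ'
    emb := e
    emb_θ' := hlink
    value := fun {ℓ} hℓ hℓS => e.injective (by
      have hℓM : ¬ ℓ ∣ M := fun h => hℓS (hS ℓ hℓ (hℓ.dvd_of_dvd_pow (h.trans hdvd)))
      rw [hlink, HeckeDuality.heckeOp, dif_neg hℓM, ConductorLevel.eigenChar_T hg.1 hℓ hℓM]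
      refine (hcoef ℓ hℓ hℓS _ (ZMod.coe_unitOfCoprime ℓ (Glue.coprime_of_notMem hS hℓ hℓS))).trans ?_
      rw [sA, AlgHom.toRingHom_eq_coe, RingHom.coe_coe, map_mul, map_pow, map_mul, map_pow])
    sq_dvd := fun v hv hvL => (hsq v hv hvL).trans (exists_congr fun u => and_congr_right fun _ =>
      not_congr ((EmbeddingLike.map_eq_one_iff (f := e))))
    congruent := fun v hv hvL hvM => by
      let : Algebra O ℂ := (e.toRingHom.comp (algebraMap O (KBar O))).toAlgebra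
      have hσ : Function.Injective (algebraMap O ℂ) := e.injective.comp (by
        rw [IsScalarTower.algebraMap_eq O (FractionRing O) (KBar O)]
        exact (algebraMap (FractionRing O) _).injective.comp (IsFractionRing.injective O _))
      let θ : N.H.algebra →ₐ[O] ℂ :=
        { e.toRingHom.comp θK.toRingHom with
          commutes' := fun c => congrArg e (θK.commutes c) }
      obtain ⟨φ', hφ', hd', hT'⟩ := hdesc v hv hvL hvM
      exact congruent_of_point hσ N hp hw hΔ hψ hL hS hEis θ hv hvL hφ' hd' fun ℓ =>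
        haveI : Fact ℓ.1.Prime := ⟨ℓ.2.1⟩
        hT' ℓ.1 ℓ.2.1 ℓ.2.2 }
  exact ⟨P, rfl, rfl, fun n => rfl⟩

end Fermat.Agent.RT.Lift
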