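import Fermat.Agent.RT.Lift.Levels.Frame
import Fermat.Agent.RT.Lift.Levels.TWChar
import Fermat.Agent.RT.Lift.Levels.DiaMat
import Fermat.Agent.RT.Lift.Levels.DegMatrices
import Fermat.Agent.RT.Lift.Levels.EigenTest
import Fermat.Agent.RT.Lift.Levels.NewformPoint
import Fermat.Agent.RT.Lift.Levels
import Fermat.Agent.ConductorLevel.Compare

/-!
# Reduction of a level at the augmentation to the level of the conductor

At the augmentation the matrices of a level see only the points with trivial diamonds. Their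
newforms have squarefree level prime to the Taylor–Wiles primes, so their systems occur in the
Hecke module of level `conductorLevel * R`: the relations between the operators there hold between
the matrices.
-/

set_option autoImplicit false
set_option linter.style.haveILetI false
set_option linter.unusedSectionVars false
set_option synthInstance.maxHeartbeats 200000

noncomputable section

namespace Fermat.Agent.RT.Lift

open IsLocalRing Module MvPolynomial
open Fermat.Agent.Deform Fermat.Agent.RT.GammaH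
open Fermat.Agent.RT.Glue (KBar Point sA diaA TA)
open Fermat.Agent.RT.Assembly (DiaBasis levelIdeal)
open CongruenceSubgroup ModularFormClass

local notation "Q̄" => AlgebraicClosure ℚ

section Aug

variable {O : Type} [CommRing O] {p r : ℕ} [Fact p.Prime]

theorem augLevel_twChar (n : ℕ) (δ : TWGroup p r n) :
    augLevel O p r n (twChar O p r n δ) = 1 := by
  simp [twChar, Assembly.levelChar, augLevel, AlgHom.mk', map_prod]

variable [IsDomain O] [IsDiscreteValuationRing O] [IsAdicComplete (maximalIdeal O) O]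
  [Finite (ResidueField O)] [CharZero O]

theorem augLevel_spec {n d : ℕ} {M : Type} [AddCommGroup M] [Module O M]
    {dia : TWGroup p r n →* Module.End O M} (B : DiaBasis dia d) (x : M) (i : Fin d) :
    augLevel O p r n (B.spec (twChar O p r n) x i) = augVec B x i := by
  suffices h : ((augLevel O p r n).toLinearMap.compLeft (Fin d)) ∘ₗ B.spec (twChar O p r n) =
      augVec B from congrFun (LinearMap.congr_fun h x) i
  refine B.linearMap_ext fun j δ => funext fun k => ?_
  rw [LinearMap.comp_apply, DiaBasis.spec_dia_basis, augVec, DiaBasis.spec_dia_basis]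
  simp [Pi.single_apply, apply_ite (augLevel O p r n), augLevel_twChar]

variable {L : ℕ} [NeZero L] {S : Finset ℕ} {abar : ℕ → ResidueField O}

/-- An operator vanishing at the points with trivial diamonds vanishes at the augmentation. -/
theorem augLevel_rep_eq_zero {n d : ℕ} {ψ : (ZMod L)ˣ →* TWGroup p r n}
    (H : HeckeModule L ψ S abar) (B : DiaBasis H.dia d) {a : H.algebra}
    (ha : ∀ θ : H.algebra →ₐ[O] KBar O, (∀ δ, θ (diaA H δ) = 1) → θ a = 0) :
    (augLevel O p r n).mapMatrix (B.rep (twChar O p r n) (algebra_comm H) a) = 0 := by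
  classical
  have := Fintype.ofFinite (TWGroup p r n)
  set N : H.algebra := ∑ δ, diaA H δ
  have hN : a * N = 0 := Glue.eq_zero_of_forall_point fun θ => by
    rw [map_mul]
    by_cases h1 : ∀ δ, θ (diaA H δ) = 1
    · rw [ha θ h1, zero_mul]
    · obtain ⟨δ₀, h0⟩ := not_forall.1 h1
      have hs : θ (diaA H δ₀) * θ N = θ N := by
        rw [← map_mul, Finset.mul_sum]
        simp only [← map_mul (diaA H)]
        exact congrArg θ (Equiv.sum_comp (Equiv.mulLeft δ₀) fun δ => diaA H δ)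
      have : (θ (diaA H δ₀) - 1) * θ N = 0 := by rw [sub_mul, hs, one_mul, sub_self]
      rw [(mul_eq_zero.1 this).resolve_left (sub_ne_zero.2 h0), mul_zero]
  refine Matrix.ext fun i j => ?_
  show augLevel O p r n (B.spec (twChar O p r n) ((a : Module.End O H.M) (B.basis j)) i) = 0
  rw [augLevel_spec]
  have hsum : ∀ y, augVec B ((N : Module.End O H.M) y) =
      (Fintype.card (TWGroup p r n) : O) • augVec B y := fun y => by
    simp only [N, AddSubmonoidClass.coe_finsetSum, LinearMap.sum_apply, map_sum]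
    rw [Finset.sum_congr rfl fun δ _ => show augVec B ((diaA H δ : Module.End O H.M) y) =
      augVec B y from augVec_dia B δ y, Finset.sum_const, Finset.card_univ, Nat.cast_smul_eq_nsmul]
  have h := hsum ((a : Module.End O H.M) (B.basis j))
  rw [← Module.End.mul_apply, ← Subalgebra.coe_mul, mul_comm, hN] at h
  have hz : (0 : Fin d → O) i = (Fintype.card (TWGroup p r n) : O) •
      augVec B ((a : Module.End O H.M) (B.basis j)) i := by
    rw [← Pi.smul_apply, ← h]
    simp
  rw [Pi.zero_apply, smul_eq_mul, eq_comm, mul_eq_zero] at hz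
  exact hz.resolve_left (Nat.cast_ne_zero.2 Fintype.card_ne_zero)

end Aug

section Eigen

variable {O : Type} [CommRing O] [Algebra O ℂ] {L M : ℕ} [NeZero L] [NeZero M] {S : Finset ℕ}

theorem widen_self_eq (h : S ⊆ S) (b : OpRing O L S) : widen O L h b = b := by
  have : widen O L h = AlgHom.id O (OpRing O L S) := MvPolynomial.algHom_ext fun i => by
    rcases i with u | ℓ <;> simp [widen]
  rw [this, AlgHom.id_apply]

/-- A newform of level dividing `L` has an eigen homomorphism at level `L`. -/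
theorem exists_eigen_of_newform {K : Subgroup (ZMod L)ˣ} (hK : K = ⊤)
    (hS : ∀ v : ℕ, v.Prime → v ∣ L → v ∈ S) (hML : M ∣ L) {g : CuspForm (Gamma0 M) 2}
    (hg : g.IsNewform) :
    ∃ φ : HomC K, φ ≠ 0 ∧ ∀ b, opC O S K b φ =
      aeval (R := O) (Sum.elim 1 fun ℓ : {ℓ : ℕ // ℓ.Prime ∧ ℓ ∉ S} => qCoeff g ℓ.1) b • φ := by
  subst hK
  have hdM : 1 * M ∣ L := by rwa [one_mul]
  set b₀ := Newforms.levelRaise 1 hdM g
  refine ⟨perZero b₀, fun h => hg.1.ne_zero (Newforms.levelRaise_injective hdM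
    (((perZero_injective (h.trans (map_zero _).symm)).trans
      (map_zero (Newforms.levelRaise 1 hdM)).symm))), fun a => ?_⟩
  induction a using MvPolynomial.induction_on with
  | C z => rw [opC_C, Module.algebraMap_end_apply, ← algebraMap_eq, AlgHom.commutes, algebraMap_smul]
  | add a a' ha ha' => simp only [map_add, LinearMap.add_apply, ha, ha', add_smul]
  | mul_X a i ha =>
    have hi : opC O S (⊤ : Subgroup (ZMod L)ˣ) (X i) (perZero b₀) =
        aeval (R := O) (Sum.elim 1 fun ℓ : {ℓ : ℕ // ℓ.Prime ∧ ℓ ∉ S} => qCoeff g ℓ.1)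
          (X i) • perZero b₀ := by
      rcases i with u | ℓ
      · simp [opC_inl, diamond_top]
      · have : Fact ℓ.1.Prime := ⟨ℓ.2.1⟩
        have hℓL : ¬ ℓ.1 ∣ L := fun h => ℓ.2.2 (hS _ ℓ.2.1 h)
        have hℓM : ¬ ℓ.1 ∣ M := fun h => hℓL (h.trans hML)
        have hb : Newforms.hOp L ℓ.2.1 b₀ = qCoeff g ℓ.1 • b₀ := by
          show Newforms.hOp L ℓ.2.1 (Newforms.levelRaise 1 hdM g) = _
          rw [Newforms.hOp_levelRaise ℓ.2.1 hdM ℓ.2.1.not_dvd_one (iff_of_false hℓL hℓM),
            Newforms.hOp_of_isNormalizedEigenform hg.1 ℓ.2.1, map_smul]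
        rw [opC_inr, aeval_X, Sum.elim_inr, perZero_apply,
          ← per_heckeForm, heckeForm_toFormH ℓ.1 hb,
          per_smul]
    simp only [map_mul, Module.End.mul_apply, hi, map_smul, ha, smul_smul, mul_comm]

end Eigen

section Point

variable {O : Type} [CommRing O] [IsDomain O] [IsDiscreteValuationRing O]
  [IsAdicComplete (maximalIdeal O) O] [Finite (ResidueField O)] [CharZero O]

/-- A complex point of a local algebra finite over `O` has a reduction, which is the
augmentation. -/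
theorem exists_red_point [Algebra O ℂ] (hinj : Function.Injective (algebraMap O ℂ)) {A : Type}
    [CommRing A] [IsLocalRing A] [Algebra O A] [Module.Finite O A] (h : IsResAlg O A)
    (f : A →ₐ[O] ℂ) :
    ∃ red : integralClosure ℤ ℂ →+* AlgebraicClosure (ResidueField O),
      ∀ (z : integralClosure ℤ ℂ) (x : A), (z : ℂ) = f x →
        red z = algebraMap (ResidueField O) _ (augment h x) := by
  obtain ⟨red, hred⟩ := exists_red O hinj
  let fR : A →ₐ[O] integralClosure O ℂ :=
    f.codRestrict _ fun x => (Algebra.IsIntegral.isIntegral (R := O) x).map f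
  let incl : integralClosure ℤ ℂ →+* integralClosure O ℂ :=
    ((integralClosure ℤ ℂ).val.toRingHom).codRestrict (integralClosure O ℂ).toSubring
      fun z => (z.2 : IsIntegral ℤ (z : ℂ)).tower_top
  let ω : A →+* AlgebraicClosure (ResidueField O) := red.comp fR.toRingHom
  have hω : ∀ c, ω (algebraMap O A c) = algebraMap (ResidueField O) _ (residue O c) := fun c => by
    show red (fR (algebraMap O A c)) = _
    rw [AlgHom.commutes, hred]
  have hkill : ∀ x ∈ maximalIdeal A, ω x = 0 := by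
    intro x hx
    obtain ⟨j, hj⟩ := Assembly.exists_pow_le_map (O := O) (A := A)
    have hle : (maximalIdeal O).map (algebraMap O A) ≤ RingHom.ker ω :=
      Ideal.map_le_iff_le_comap.2 fun c hc => RingHom.mem_ker.2 (by
        rw [hω, (residue_eq_zero_iff c).2 hc, map_zero])
    have := RingHom.mem_ker.1 (hle (hj (Ideal.pow_mem_pow hx j)))
    rw [map_pow] at this
    exact eq_zero_of_pow_eq_zero this
  refine ⟨red.comp incl, fun z x hz => ?_⟩
  have e : incl z = fR x := Subtype.ext hz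
  obtain ⟨c, hc⟩ := exists_sub_mem h x
  have h1 := hkill _ hc
  rw [map_sub, hω, sub_eq_zero] at h1
  have h2 := (augment_eq_zero_iff h _).2 hc
  rw [map_sub, AlgHom.commutes, sub_eq_zero] at h2
  show red (incl z) = _
  rw [e, show red (fR x) = ω x from rfl, h1, h2]
  rfl

variable {p : ℕ} [Fact p.Prime] [CharP (ResidueField O) p] {W : WeierstrassCurve ℤ} {M R : ℕ}

theorem RaiseSetting.trace_rb_frobenius (X : RaiseSetting O p W M R) {ℓ : ℕ} (hℓ : ℓ.Prime)
    (hℓS : ℓ ∉ badSet W p R) {A : ValuationSubring Q̄} (hA : A.LiesOverPrime ℓ) {σ : Gal}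
    (hσ : A.IsFrobeniusAt σ ℓ) :
    (X.rigid.rb σ).trace = (curveAbar W ℓ : ResidueField O) := by
  rw [X.rigid_rb]
  exact ((LinearMap.trace_eq_matrix_trace _ X.bb _).symm).trans
    (ConductorLevel.trace_det_of_charpoly X.ρbar.finrank_eq (X.charpolys ℓ hℓ hℓS A hA σ hσ)).1

/-- **The points with trivial diamonds satisfy the relations of level `conductorLevel * R`.** -/
theorem RaiseSetting.aeval_point_eq_zero (X : RaiseSetting O p W M R)
    (N₀ : LevelModule O (badSet W p R) (curveAbar W : ℕ → ResidueField O)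
      (1 : (ZMod (W.conductorLevel * R))ˣ →* Unit))
    {n r : ℕ} {q : Fin r → ℕ} {Smin T : Finset ℕ}
    (hq : IsTWPrimes p X.rigid.rb Smin T (badSet W p R) n q)
    {L : ℕ} [NeZero L] (hL : Squarefree L) (hLq : L ∣ W.conductorLevel * R * ∏ i, q i)
    {ψ : (ZMod L)ˣ →* TWGroup p r n} {S : Finset ℕ}
    (Y : LevelAt p X.rigid X.ρbar S (curveAbar W : ℕ → ResidueField O) ψ)
    (θ : Y.N.H.algebra →ₐ[O] KBar O) (hθ : ∀ δ, θ (diaA Y.N.H δ) = 1)
    {P : MvPolynomial {ℓ : ℕ // ℓ.Prime ∧ ℓ ∉ badSet W p R} O}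
    (hP : aeval (heckeGen N₀.H) P = 0)
    (F : {ℓ : ℕ // ℓ.Prime ∧ ℓ ∉ badSet W p R} → Y.N.H.algebra)
    (hF : ∀ ℓ ∈ P.vars, ∃ h : ℓ.1 ∉ S, F ℓ = sA Y.N.H Y.hS ℓ.2.1 h) :
    θ (aeval F P) = 0 := by
  classical
  set Q := Y.rep.pt θ
  have : NeZero (W.conductorLevel * R) := ⟨X.squarefree.ne_zero⟩
  let σC : O →+* ℂ := Q.emb.toRingHom.comp (algebraMap O (KBar O))
  let : Algebra O ℂ := σC.toAlgebra
  have hinj : Function.Injective (algebraMap O ℂ) := by
    refine Q.emb.injective.comp ?_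
    rw [IsScalarTower.algebraMap_eq O (FractionRing O) (KBar O)]
    exact (algebraMap (FractionRing O) (KBar O)).injective.comp (IsFractionRing.injective O _)
  let f : Y.N.H.algebra →ₐ[O] ℂ :=
    { Q.emb.toRingHom.comp θ.toRingHom with
      commutes' := fun c => congrArg Q.emb (θ.commutes c) }
  -- the level
  have hsqM : Squarefree Q.M := Nat.squarefree_iff_prime_squarefree.2 fun v hv hvv => by
    have hvL : v ∣ L := hv.dvd_of_dvd_pow (((dvd_mul_left v v).trans hvv).trans Q.dvd)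
    exact Q.sq_not_dvd hv hvL (fun u _ => hθ (ψ u)) (by rwa [sq])
  have hML : Q.M ∣ L := by
    refine (Nat.prod_primeFactors_of_squarefree hsqM).symm.dvd.trans
      ((Finset.prod_dvd_prod_of_subset _ _ _ ?_).trans (Nat.prod_primeFactors_of_squarefree hL).dvd)
    exact (Nat.primeFactors_mono Q.dvd (pow_ne_zero 2 (NeZero.ne L))).trans
      (Nat.primeFactors_pow _ two_ne_zero).le
  -- the traces
  obtain ⟨red, hred⟩ := exists_red_point hinj Y.rep.isResAlg f
  have htr : ∀ {ℓ : ℕ}, ℓ.Prime → ℓ ∉ badSet W p R → ¬ ℓ ∣ Q.M →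
      ∀ {A : ValuationSubring Q̄}, A.LiesOverPrime ℓ → ∀ {σ : Gal}, A.IsFrobeniusAt σ ℓ →
        qCoeff Q.g ℓ = f (Y.rep.ru σ).trace := by
    intro ℓ hℓ hℓS hℓM A hA σ hσ
    have hne : ¬ ℓ ∣ Q.M * p := fun h => (hℓ.dvd_mul.1 h).elim hℓM fun h' =>
      hℓS (by rw [(Nat.prime_dvd_prime_iff_eq hℓ Fact.out).1 h']; exact Finset.mem_insert_self _ _)
    rw [← emb_trace_frobenius Q (fun M _ => Assembly.model M p) hℓ hne hA hσ, Y.rep.trace_eq]
    exact congrArg Q.emb (Y.rep.G.trace_eq θ σ).symm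
  have hcong : IsCongruentForm (S ∪ badSet W p R) (curveAbar W : ℕ → ResidueField O) Q.g := by
    refine ⟨Q.isNewform.1, red, fun ℓ hℓ hℓS z hz => ?_⟩
    obtain ⟨h1, h2⟩ := Finset.notMem_union.1 hℓS
    obtain ⟨A, hA⟩ := Arith.exists_liesOverPrime hℓ
    obtain ⟨σ, hσ⟩ := Arith.exists_isFrobeniusAt hA hℓ
    rw [hred z _ (hz.trans (htr hℓ h2 (fun h => h1 (Y.hS ℓ hℓ (h.trans hML))) hA hσ)),
      augment_trace Y.rep.lifts, X.trace_rb_frobenius hℓ h2 hA hσ]
  have hML₀ : Q.M ∣ W.conductorLevel * R := by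
    refine Nat.Coprime.dvd_of_dvd_mul_right ?_ (hML.trans hLq)
    refine Nat.Coprime.prod_right fun i _ => ((hq.prime i).coprime_iff_not_dvd.2 ?_).symm
    refine Assembly.not_dvd_level_of_distinct X.det_cyclotomic X.bb (fun S N => X.special S N)
      (hq.prime i) ((dvd_pow_self p n.succ_ne_zero).trans (hq.dvd i)) (fun A hA φ hφ => ?_)
      Q.isNewform hcong hsqM
    rw [← X.rigid_rb]
    exact hq.distinct i A hA φ hφ
  have hS₀ : ∀ v : ℕ, v.Prime → v ∣ W.conductorLevel * R → v ∈ badSet W p R :=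
    fun v hv h => X.primeFactors_subset hv h
  -- the system at the small level
  let Θ : OpRing O (W.conductorLevel * R) (badSet W p R) →ₐ[O] ℂ :=
    aeval (Sum.elim 1 fun ℓ => qCoeff Q.g ℓ.1)
  have hfr : ∀ ℓ : {ℓ : ℕ // ℓ.Prime ∧ ℓ ∉ badSet W p R}, ∃ x : Y.N.H.algebra,
      f x = qCoeff Q.g ℓ.1 ∧ augment Y.rep.isResAlg x = curveAbar W ℓ.1 := fun ℓ => by
    obtain ⟨A, hA⟩ := Arith.exists_liesOverPrime ℓ.2.1
    obtain ⟨σ, hσ⟩ := Arith.exists_isFrobeniusAt hA ℓ.2.1
    exact ⟨(Y.rep.ru σ).trace,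
      (htr ℓ.2.1 ℓ.2.2 (fun h => ℓ.2.2 (hS₀ _ ℓ.2.1 (h.trans hML₀))) hA hσ).symm,
      (augment_trace Y.rep.lifts σ).trans (X.trace_rb_frobenius ℓ.2.1 ℓ.2.2 hA hσ)⟩
  choose t ht using hfr
  let Ψ : OpRing O (W.conductorLevel * R) (badSet W p R) →ₐ[O] Y.N.H.algebra :=
    aeval (Sum.elim 1 t)
  have hΘ : Θ = f.comp Ψ := MvPolynomial.algHom_ext fun i => by
    rcases i with u | ℓ
    · simp [Θ, Ψ]
    · simp [Θ, Ψ, (ht ℓ).1]
  have hΨ : (augment Y.rep.isResAlg).comp Ψ =
      opRes (badSet W p R) (curveAbar W) (W.conductorLevel * R) :=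
    MvPolynomial.algHom_ext fun i => by
      rcases i with u | ℓ
      · simp [Ψ, opRes_inl]
      · simp [Ψ, opRes_inr, (ht ℓ).2]
  have he : Θ N₀.e ≠ 0 := by
    have h1 : opRes (badSet W p R) (curveAbar W : ℕ → ResidueField O) _ N₀.e = 1 := by
      have := (mem_resIdeal (badSet W p R) (curveAbar W : ℕ → ResidueField O)).1
        N₀.isLocalizer.sub_one_mem
      rwa [map_sub, map_one, sub_eq_zero] at this
    rw [← hΨ, AlgHom.comp_apply] at h1
    have hu : IsUnit (Ψ N₀.e) := notMem_maximalIdeal.1 fun hm => one_ne_zero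
      (h1.symm.trans ((augment_eq_zero_iff _ _).2 hm))
    rw [hΘ, AlgHom.comp_apply]
    exact (hu.map f).ne_zero
  have : NeZero Q.M := Q.neM
  obtain ⟨φ, hφ, heig⟩ := exists_eigen_of_newform (O := O) (M := Q.M)
    (K := (1 : (ZMod (W.conductorLevel * R))ˣ →* Unit).ker)
    (eq_top_iff.2 fun u _ => MonoidHom.mem_ker.2 rfl) hS₀ hML₀ Q.isNewform
  obtain ⟨θH, hθH⟩ := N₀.exists_point_of_eigen (fun x => ⟨1, rfl⟩) Finset.Subset.rfl
    (θ := Θ.toRingHom) hφ heig (by rwa [widen_self_eq])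
  -- the relation
  set P' : OpRing O (W.conductorLevel * R) (badSet W p R) := rename Sum.inr P
  have hgen : opAlg N₀.H P' = aeval (heckeGen N₀.H) P := by
    rw [opAlg, aeval_rename]
    rfl
  have hzero : Θ P' = 0 := by
    have h := hθH P'
    rw [hgen, hP, map_zero, widen_self_eq] at h
    exact h.symm
  have hval : f (aeval F P) = Θ P' := by
    show f (aeval F P) = aeval _ (rename Sum.inr P)
    rw [aeval_rename, ← AlgHom.comp_apply, comp_aeval]
    refine eval₂Hom_congr' rfl (fun ℓ hℓ _ => ?_) rfl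
    obtain ⟨h, hFℓ⟩ := hF ℓ hℓ
    have hℓM : ¬ ℓ.1 ∣ Q.M := fun hd => ℓ.2.2 (hS₀ _ ℓ.2.1 (hd.trans hML₀))
    show Q.emb (θ (F ℓ)) = qCoeff Q.g ℓ.1
    rw [hFℓ, show θ (sA Y.N.H Y.hS ℓ.2.1 h) =
      Q.j (Q.θ' (HeckeDuality.heckeOp Q.M 2 ℓ.1 ℓ.2.1)) from (Q.value ℓ.2.1 h).symm, Q.emb_θ',
      HeckeDuality.heckeOp, dif_neg hℓM, ConductorLevel.eigenChar_T Q.isNewform.1 ℓ.2.1 hℓM]
  rw [hzero] at hval
  exact (map_eq_zero_iff _ Q.emb.injective).1 hval

/-- **Reduction at the augmentation**: a relation between the operators of level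
`conductorLevel * R` holds between the matrices of every level at the augmentation. -/
theorem RaiseSetting.augLevel_rep_aeval_eq_zero (X : RaiseSetting O p W M R)
    (N₀ : LevelModule O (badSet W p R) (curveAbar W : ℕ → ResidueField O)
      (1 : (ZMod (W.conductorLevel * R))ˣ →* Unit))
    {n r d : ℕ} {q : Fin r → ℕ} {Smin T : Finset ℕ}
    (hq : IsTWPrimes p X.rigid.rb Smin T (badSet W p R) n q)
    {L : ℕ} [NeZero L] (hL : Squarefree L) (hLq : L ∣ W.conductorLevel * R * ∏ i, q i)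
    {ψ : (ZMod L)ˣ →* TWGroup p r n} {S : Finset ℕ}
    (Y : LevelAt p X.rigid X.ρbar S (curveAbar W : ℕ → ResidueField O) ψ)
    (B : DiaBasis Y.N.H.dia d)
    {P : MvPolynomial {ℓ : ℕ // ℓ.Prime ∧ ℓ ∉ badSet W p R} O}
    (hP : aeval (heckeGen N₀.H) P = 0)
    (F : {ℓ : ℕ // ℓ.Prime ∧ ℓ ∉ badSet W p R} → Y.N.H.algebra)
    (hF : ∀ ℓ ∈ P.vars, ∃ h : ℓ.1 ∉ S, F ℓ = sA Y.N.H Y.hS ℓ.2.1 h) :
    (augLevel O p r n).mapMatrix (B.rep (twChar O p r n) (algebra_comm Y.N.H) (aeval F P)) = 0 :=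
  augLevel_rep_eq_zero Y.N.H B fun θ hθ => X.aeval_point_eq_zero N₀ hq hL hLq Y θ hθ hP F hF

/-- The level module of the base level exists. -/
theorem RaiseSetting.nonempty_baseModule (X : RaiseSetting O p W M R) (hp2 : p ≠ 2) :
    Nonempty (LevelModule O (badSet W p R) (curveAbar W : ℕ → ResidueField O)
      (1 : (ZMod (W.conductorLevel * R))ˣ →* Unit)) := by
  have : NeZero (W.conductorLevel * R) := ⟨X.squarefree.ne_zero⟩
  obtain ⟨N, -⟩ := nonempty_levelModule (p := p)
    (ψ := (1 : (ZMod (W.conductorLevel * R))ˣ →* Unit)) hp2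
    (X.weights _ X.squarefree.ne_zero (dvd_mul_left R _))
    (IsPGroup.of_card (n := 0) (by simp)) (fun x => ⟨1, rfl⟩) X.squarefree
    (fun v hv h => X.primeFactors_subset hv h) (X.eis _)
  exact ⟨N⟩

end Point

end Fermat.Agent.RT.Lift
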