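import Fermat.Agent.RT.Lift.Levels.NoFlip
import Fermat.Agent.RT.Lift.Levels.Reduce

/-!
# The relations at the augmentation for a frame
-/

set_option autoImplicit false
set_option linter.style.haveILetI false
set_option linter.unusedSectionVars false
set_option synthInstance.maxHeartbeats 200000

noncomputable section

namespace Fermat.Agent.RT.Lift

open IsLocalRing WeierstrassCurve
open Fermat.Agent.Deform Fermat.Agent.RT.Germ

variable {O : Type} [CommRing O] [IsDomain O] [IsDiscreteValuationRing O]
  [IsAdicComplete (maximalIdeal O) O] [Finite (ResidueField O)] [CharZero O]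
  {K : Type*} [NontriviallyNormedField K] [IsUltrametricDist K] [CompleteSpace K]
  [IsAlgClosed K] {φ : O →+* ball1 K}
  {p : ℕ} [Fact p.Prime] [CharP (ResidueField O) p] {W : WeierstrassCurve ℤ} {M R : ℕ}

/-- The level of the conductor with the primes at `n` is squarefree. -/
theorem Frame.squarefree_full (F : Frame p W M R φ) (n : ℕ) :
    Squarefree (W.conductorLevel * R * ∏ i, F.qv n i) := by
  have hq := (F.tw n).prime
  refine (Nat.squarefree_mul ?_).2 ⟨F.X.squarefree, ?_⟩
  · refine Nat.Coprime.prod_right fun i _ => ?_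
    rw [Nat.coprime_comm, (hq i).coprime_iff_not_dvd]
    exact fun h => (F.tw n).notMem i (F.X.primeFactors_subset (hq i) h)
  · rw [← Finset.prod_image (f := fun v : ℕ => v) fun i _ j _ h => (F.tw n).injective h]
    refine Finset.squarefree_prod_of_pairwise_isCoprime (fun a ha b hb hab => ?_) fun a ha => ?_
    · obtain ⟨i, -, rfl⟩ := Finset.mem_image.1 ha
      obtain ⟨j, -, rfl⟩ := Finset.mem_image.1 hb
      exact Nat.coprime_iff_isRelPrime.1 ((Nat.coprime_primes (hq i) (hq j)).2 hab)
    · obtain ⟨i, -, rfl⟩ := Finset.mem_image.1 ha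
      exact (hq i).squarefree

/-- The relations of level `conductorLevel * R` hold at the augmentation. -/
theorem Frame.reduces (F : Frame p W M R φ) (hp2 : p ≠ 2) : F.Reduces := by
  obtain ⟨N0⟩ := F.X.nonempty_baseModule hp2
  refine ⟨1, N0.H, fun n L _ hL ψ _ Y d B f P hf hP => ?_⟩
  exact F.X.augLevel_rep_aeval_eq_zero N0 (F.tw n) (hL ▸ F.squarefree_full n) hL.dvd Y B hP f hf

end Fermat.Agent.RT.Lift
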