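import Fermat.Agent.RT.Glue.Main
import Fermat.Agent.RT.Lift.Levels.NewformPoint
import Fermat.Agent.RT.Lift.Degeneracy

/-!
# `⟨v⟩ ^ e T_v` on a level module is the trace of Frobenius at `v`

For `v ∈ S` prime to the level: on every eigen homomorphism meeting the localisation the newform
of the system for `S \ {v}` realises the point, so its `v`-th coefficient is the trace of Frobenius.
-/

set_option autoImplicit false

noncomputable section

namespace Fermat.Agent.RT.Lift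

open IsLocalRing MvPolynomial
open Fermat.Agent.RT.GammaH
open Fermat.Agent.LevelRaising (RaiseData)
open Fermat.Agent.RT.Glue (KBar Point Glued)
open GaloisReps (AbsGal HeckeGaloisModel)

variable {O : Type} [CommRing O] [IsDomain O] [IsDiscreteValuationRing O]
  [IsAdicComplete (maximalIdeal O) O] [Finite (ResidueField O)] [CharZero O]
  {p : ℕ} [Fact p.Prime] [CharP (ResidueField O) p] {L : ℕ} [NeZero L] {Δ : Type} [CommGroup Δ]
  [Finite Δ] {ψ : (ZMod L)ˣ →* Δ} {S : Finset ℕ} {abar : ℕ → ResidueField O}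
  (N : LevelModule O S abar ψ) (hp : p ≠ 2) (hw : HasSTWeights O L) (hΔ : IsPGroup p Δ)
  (hψ : Function.Surjective ψ) (hL : Squarefree L) (hS : ∀ q : ℕ, q.Prime → q ∣ L → q ∈ S)
  (hEis : ∃ ℓ : ℕ, ℓ.Prime ∧ ℓ ∉ S ∧ abar ℓ ≠ 1 + (ℓ : ResidueField O))

omit [IsAdicComplete (maximalIdeal O) O] [Finite (ResidueField O)] [CharZero O] [NeZero L] in
include hp hΔ hψ in
theorem halfInvExp_eq_card :
    (Nat.card ((ZMod L)ˣ ⧸ ψ.ker) - 1) / 2 = halfInvExp Δ ∧
      Odd (Nat.card ((ZMod L)ˣ ⧸ ψ.ker)) := by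
  obtain ⟨E, -⟩ := exists_deltaEquiv (K := ψ.ker) (fun u => MonoidHom.mem_ker) hψ
  obtain ⟨k, hk⟩ := IsPGroup.iff_card.1 hΔ
  rw [← Nat.card_congr E]
  exact ⟨rfl, hk ▸ ((Fact.out : p.Prime).odd_of_ne_two hp).pow⟩

/-- The character of an eigen homomorphism at a point. -/
def pointChar (θ : N.H.algebra →+* ℂ) : (ZMod L)ˣ →* ℂˣ :=
  (((θ : N.H.algebra →* ℂ).comp (Glue.diaA N.H)).toHomUnits).comp ψ

omit [IsAdicComplete (maximalIdeal O) O] [Finite (ResidueField O)] [CharZero O] [NeZero L]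
  [Finite Δ] in
theorem pointChar_apply (θ : N.H.algebra →+* ℂ) (u : (ZMod L)ˣ) :
    (pointChar N θ u : ℂ) = θ (Glue.diaA N.H (ψ u)) := rfl

omit [IsAdicComplete (maximalIdeal O) O] [Finite (ResidueField O)] [CharZero O] [NeZero L]
  [Finite Δ] in
theorem pointChar_ker (θ : N.H.algebra →+* ℂ) (u : (ZMod L)ˣ) (hu : u ∈ ψ.ker) :
    pointChar N θ u = 1 := by
  rw [pointChar, MonoidHom.comp_apply, MonoidHom.mem_ker.1 hu, map_one]

include hp hw hΔ hψ hL hS hEis in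
/-- The point of the newform of an eigen homomorphism, possibly for a smaller set of primes. -/
theorem exists_point_of_data (e : KBar O ≃+* ℂ) (θK : N.H.algebra →ₐ[O] KBar O) {S' : Finset ℕ}
    (hSS : S' ⊆ S) (a : ℕ → ℂ)
    (ha : ∀ (ℓ : ℕ) (hℓ : ℓ.Prime) (hℓS : ℓ ∉ S), a ℓ = e (θK (Glue.TA N.H hℓ hℓS)))
    {M : ℕ} {g : CuspForm (CongruenceSubgroup.Gamma0 M) 2} (hg : g.IsNewform) (hdvd : M ∣ L ^ 2)
    (hcoef : ∀ ℓ : ℕ, ℓ.Prime → ℓ ∉ S' → ∀ u : (ZMod L)ˣ, (u : ZMod L) = (ℓ : ZMod L) →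
      ModularFormClass.qCoeff g ℓ = (pointChar N (e.toRingHom.comp θK.toRingHom) u : ℂ) ^
        ((Nat.card ((ZMod L)ˣ ⧸ ψ.ker) - 1) / 2) * a ℓ)
    (hsq : ∀ v : ℕ, v.Prime → v ∣ L → (v ^ 2 ∣ M ↔ ∃ u : (ZMod L)ˣ,
      ((u : ZMod L).cast : ZMod (L / v)) = 1 ∧ pointChar N (e.toRingHom.comp θK.toRingHom) u ≠ 1))
    (hdesc : ∀ (v : ℕ), v.Prime → ∀ hv : v ∣ L, ¬ v ∣ M →
      ∃ φ' : Additive (gammaH (L / v) (ψ.ker.map (ZMod.unitsMap (Nat.div_dvd_of_dvd hv)))) →+ ℂ,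
        φ' ≠ 0 ∧ (∀ u, diamond (L / v) _ ℂ (ZMod.unitsMap (Nat.div_dvd_of_dvd hv) u) φ' =
          (pointChar N (e.toRingHom.comp θK.toRingHom) u : ℂ) • φ') ∧
        ∀ (ℓ : ℕ) [Fact ℓ.Prime], ℓ ∉ S' → hecke (L / v) _ ℓ ℂ φ' = a ℓ • φ') :
    ∃ P : Point (p := p) N.H hS θK.toRingHom, P.M = M ∧ P.emb = e ∧
      ∀ n : ℕ, ModularFormClass.qCoeff P.g n = ModularFormClass.qCoeff g n := by
  refine exists_point_of_newform N hp hw hΔ hψ hL hS hEis e θK hg hdvd
    (fun ℓ hℓ hℓS u hu => ?_) (fun v hv hvL => ?_) fun v hv hvL hvM => ?_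
  · rw [hcoef ℓ hℓ (fun h => hℓS (hSS h)) u hu, (halfInvExp_eq_card (p := p) hp hΔ hψ).1,
      pointChar_apply, ha ℓ hℓ hℓS]
    rfl
  · rw [hsq v hv hvL]
    refine exists_congr fun u => and_congr_right fun _ => not_congr ?_
    rw [← Units.val_inj, Units.val_one, pointChar_apply]
    rfl
  · obtain ⟨φ', hφ', hd', hT'⟩ := hdesc v hv hvL hvM
    refine ⟨φ', hφ', fun u => (hd' u).trans (by rw [pointChar_apply]; rfl), ?_⟩
    intro ℓ _ hℓ hℓS
    rw [← ha ℓ hℓ hℓS]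
    exact hT' ℓ fun h => hℓS (hSS h)

include hp hw hΔ hψ hL hEis in
/-- An element with value the `v`-th coefficient at every point acts as the symmetrised operator. -/
theorem incl_eq_symT_of_points {v : ℕ} [Fact v.Prime] (h : RaiseData v L) (t₀ : N.H.algebra)
    (ht₀ : ∀ (θ : N.H.algebra →ₐ[O] KBar O) (Q : Point (p := p) N.H hS θ.toRingHom), ¬ v ∣ Q.M →
      Q.emb (θ t₀) = ModularFormClass.qCoeff Q.g v) (x : N.H.M) :
    N.incl ((t₀ : Module.End O N.H.M) x) = symT h O ψ.ker (halfInvExp Δ) (N.incl x) := by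
  classical
  have hpm : (p : O) ∈ maximalIdeal O := by
    rw [← residue_eq_zero_iff, map_natCast, CharP.cast_eq_zero]
  obtain ⟨ι⟩ := GaloisReps.exists_padicHom O hpm
  obtain ⟨e⟩ := Glue.nonempty_ringEquiv_complex O ι
  let : Algebra O ℂ := (e.toRingHom.comp (algebraMap O (KBar O))).toAlgebra
  have hinj : Function.Injective (algebraMap O ℂ) := e.injective.comp (by
    rw [IsScalarTower.algebraMap_eq O (FractionRing O) (KBar O)]
    exact (algebraMap (FractionRing O) _).injective.comp (IsFractionRing.injective O _))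
  have hneg : (-1 : (ZMod L)ˣ) ∈ ψ.ker := neg_one_mem_ker (p := p) ψ hp hΔ
  obtain ⟨hhalf, hodd⟩ := halfInvExp_eq_card (p := p) hp hΔ hψ
  obtain ⟨q, hq, hqS, hqE⟩ := id hEis
  obtain ⟨P, hP, hpar⟩ := exists_parabolicOp (O := O) (K := ψ.ker) S abar hL hneg hq hqS
    (fun hd => hqS (hS q hq hd)) hqE
  have hSS : S.erase v ⊆ S := Finset.erase_subset v S
  have hS' : ∀ w : ℕ, w.Prime → w ∣ L → w ∈ S.erase v := fun w hw hwL =>
    Finset.mem_erase.2 ⟨fun he => h.not_dvd (he ▸ hwL), hS w hw hwL⟩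
  let iv : {ℓ : ℕ // ℓ.Prime ∧ ℓ ∉ S.erase v} := ⟨v, h.prime, Finset.notMem_erase v S⟩
  obtain ⟨b, hb⟩ := opAlg_surjective N.H hψ t₀
  let t : OpRing O L (S.erase v) := X (Sum.inl (qUnit h ^ halfInvExp Δ)) * X (Sum.inr iv)
  have hW := N.smul_incl_eq_zero (x := x) hneg hL hodd hSS hS' hinj hP
    (W := ModularCurve.Period.parabolicHoms ℂ (gammaH L ψ.ker) ℂ) le_rfl
    (fun b φ hφ => opC_mem_parabolicHoms hneg b φ hφ) (a := widen O L hSS b - t)
    (hpar ℂ (toHomMod (toHomC (N.incl x)))) fun θ φ hφW hφ0 heig he => ?_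
  · have h1 : toHomMod.symm (b • N.incl x) =
        toHomMod.symm (t • (toHomMod (toHomMod.symm (N.incl x)) :
          HomMod O (S.erase v) ψ.ker O)) := by
      rw [sub_smul, sub_eq_zero] at hW
      rw [← hW, widen_smul hSS b (toHomMod.symm (N.incl x)), LinearEquiv.apply_symm_apply]
    rw [← hb, N.incl_opAlg]
    refine toHomMod.symm.injective (h1.trans ?_)
    have : Fact iv.1.Prime := ⟨h.prime⟩
    simp only [t, mul_smul, X_inr_smul, X_inl_smul]
    rfl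
  · obtain ⟨θH, hθH⟩ := N.exists_point_of_eigen hψ hSS hφ0 heig he
    have hC : ∀ c : O, θ (C c) = algebraMap O ℂ c := fun c => by
      have h1 := heig (C c)
      rw [opC_C, Module.algebraMap_end_apply] at h1
      exact (smul_left_injective ℂ hφ0 h1).symm
    let θK : N.H.algebra →ₐ[O] KBar O :=
      { e.symm.toRingHom.comp θH with
        commutes' := fun c => by
          show e.symm (θH (algebraMap O N.H.algebra c)) = _
          rw [← (opAlg N.H).commutes c, hθH, MvPolynomial.algebraMap_eq,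
            show widen O L hSS (C c) = C c from rename_C _ c, hC]
          exact e.symm_apply_apply _ }
    have heθ : ∀ z, e (θK z) = θH z := fun z => e.apply_symm_apply _
    have hθeq : e.toRingHom.comp θK.toRingHom = θH := RingHom.ext heθ
    have hdia : ∀ u, θ (X (Sum.inl u)) = θH (Glue.diaA N.H (ψ u)) := fun u => by
      have h1 := hθH (X (Sum.inl u))
      rw [opAlg, aeval_X, widen, rename_X] at h1
      exact h1.symm
    let a : ℕ → ℂ := fun ℓ =>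
      if hℓ : ℓ.Prime ∧ ℓ ∉ S.erase v then θ (X (Sum.inr ⟨ℓ, hℓ⟩)) else 0
    have hφd : ∀ u, diamond L ψ.ker ℂ u φ = (pointChar N θH u : ℂ) • φ := fun u => by
      have h1 := heig (X (Sum.inl u))
      rw [opC_inl, hdia] at h1
      exact h1
    have hφT : ∀ (ℓ : ℕ) [Fact ℓ.Prime], ℓ ∉ S.erase v → hecke L ψ.ker ℓ ℂ φ = a ℓ • φ := by
      intro ℓ hℓ hℓS
      have : Fact (⟨ℓ, hℓ.out, hℓS⟩ : {ℓ : ℕ // ℓ.Prime ∧ ℓ ∉ S.erase v}).1.Prime := hℓ
      have h1 := heig (X (Sum.inr ⟨ℓ, hℓ.out, hℓS⟩))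
      rw [opC_inr] at h1
      simp only [a, dif_pos (show ℓ.Prime ∧ ℓ ∉ S.erase v from ⟨hℓ.out, hℓS⟩)]
      exact h1
    have ha : ∀ (ℓ : ℕ) (hℓ : ℓ.Prime) (hℓS : ℓ ∉ S), a ℓ = e (θK (Glue.TA N.H hℓ hℓS)) := by
      intro ℓ hℓ hℓS
      have h1 := hθH (X (Sum.inr ⟨ℓ, hℓ, hℓS⟩))
      rw [opAlg, aeval_X, widen, rename_X] at h1
      simp only [a, dif_pos (show ℓ.Prime ∧ ℓ ∉ S.erase v from ⟨hℓ, fun h => hℓS (hSS h)⟩)]
      rw [heθ]
      exact h1.symm
    obtain ⟨M, g, hg, hdvd, hcoef, hsq, hdesc, -⟩ := exists_newform_of_eigen hL hneg hodd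
      (S.erase v) hS' (pointChar N θH) (pointChar_ker N θH) a hφW hφ0 hφd hφT
    obtain ⟨Q, hQM, hQe, hQg⟩ := exists_point_of_data N hp hw hΔ hψ hL hS hEis e θK hSS a ha hg
      hdvd (hθeq ▸ hcoef) (hθeq ▸ hsq) (hθeq ▸ hdesc)
    have h1 := ht₀ θK Q fun hd => h.not_dvd (h.prime.dvd_of_dvd_pow (hd.trans Q.dvd))
    rw [hQe, hQg, heθ, ← hb, hθH, hcoef v h.prime (Finset.notMem_erase v S) (qUnit h)
      (ZMod.coe_unitOfCoprime v _), hhalf, pointChar_apply, ← map_pow, ← map_pow, ← map_pow,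
      ← hdia] at h1
    rw [map_sub, h1, sub_eq_zero]
    simp only [t, map_mul, a, dif_pos (show v.Prime ∧ v ∉ S.erase v from
      ⟨h.prime, Finset.notMem_erase v S⟩)]
    rfl

variable (D : ∀ (M : ℕ) [NeZero M], HeckeGaloisModel M p)
  [IsLocalRing N.H.algebra] {pt : ∀ θ : N.H.algebra →ₐ[O] KBar O,
  Point (p := p) N.H hS θ.toRingHom} (G : Glued D pt)

include hp hw hΔ hψ hL hEis in
/-- **The symmetrised operator at `v` is the trace of a Frobenius element.** -/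
theorem incl_trace_eq_symT (hpS : p ∈ S) {v : ℕ} [Fact v.Prime] (h : RaiseData v L)
    (hvp : v ≠ p) {A : ValuationSubring (AlgebraicClosure ℚ)} (hA : A.LiesOverPrime v)
    {σ : AbsGal} (hσ : A.IsFrobeniusAt σ v) (x : N.H.M) :
    N.incl (((G.R σ).trace : Module.End O N.H.M) x) =
      symT h O ψ.ker (halfInvExp Δ) (N.incl x) := by
  have hpm : (p : O) ∈ maximalIdeal O := by
    rw [← residue_eq_zero_iff, map_natCast, CharP.cast_eq_zero]
  refine incl_eq_symT_of_points N hp hw hΔ hψ hL hS hEis h _ (fun θ Q hvQ => ?_) x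
  rw [G.trace_eq θ σ, trace_unique hpm hpS D (pt θ) Q σ]
  exact emb_trace_frobenius Q D h.prime (fun hd => (h.prime.dvd_mul.1 hd).elim hvQ
    fun hd => hvp ((Nat.prime_dvd_prime_iff_eq h.prime Fact.out).1 hd)) hA hσ

end Fermat.Agent.RT.Lift
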