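import Fermat.Agent.RT.Assembly.Normal
import Fermat.Agent.Deform.Level

/-!
# The algebra generated by the entries of two lifts of one residual representation

Two normalised lifts over `A` and `B` give one over the subalgebra of `A × B` generated by the
pairs of entries, which is local, finite over `O` and generated by its entries.
-/

set_option autoImplicit false
set_option linter.style.haveILetI false
set_option linter.unusedSectionVars false
set_option synthInstance.maxHeartbeats 200000

noncomputable section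

namespace Fermat.Agent.RT.Lift

open IsLocalRing Fermat.Agent.Deform

variable {O : Type} [CommRing O] [IsDomain O] [IsDiscreteValuationRing O]
  [IsAdicComplete (maximalIdeal O) O]
  {A B : Type} [CommRing A] [IsLocalRing A] [Algebra O A] [CommRing B] [IsLocalRing B] [Algebra O B]

/-- A lift over a subalgebra of a finite algebra is continuous if its entries are. -/
theorem isCont_subalgebra {P : Type} [CommRing P] [Algebra O P] [Module.Finite O P]
    (S : Subalgebra O P) [IsLocalRing S] (hS : IsLocalHom (algebraMap O S)) {r : Gal →* M2 S}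
    (hr : ∀ n : ℕ, ∃ L : IntermediateField ℚ (AlgebraicClosure ℚ), FiniteDimensional ℚ L ∧
      ∀ σ : Gal, (∀ x ∈ L, σ x = x) → ∀ i j,
        ((r σ i j - (1 : M2 S) i j : S) : P) ∈ maximalIdeal O ^ n • (⊤ : Submodule O P)) :
    IsCont r := by
  intro n
  obtain ⟨k, hk⟩ := (maximalIdeal O).exists_pow_inf_eq_pow_smul (Subalgebra.toSubmodule S)
  obtain ⟨L, hL, hL'⟩ := hr (n + k)
  refine ⟨L, hL, fun σ hσ a b => ?_⟩
  set x : S := r σ a b - (1 : M2 S) a b
  have hmem : (x : P) ∈ maximalIdeal O ^ (n + k) • (⊤ : Submodule O P) ⊓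
      Subalgebra.toSubmodule S := ⟨hL' σ hσ a b, x.2⟩
  rw [hk (n + k) (Nat.le_add_left _ _), Nat.add_sub_cancel] at hmem
  have hmem' : (x : P) ∈ maximalIdeal O ^ n • Subalgebra.toSubmodule S :=
    Submodule.smul_mono le_rfl inf_le_right hmem
  have hmap : maximalIdeal O ^ n • Subalgebra.toSubmodule S =
      (maximalIdeal O ^ n • (⊤ : Submodule O S)).map S.val.toLinearMap := by
    rw [Submodule.map_smul'', Submodule.map_top]
    congr 1
    ext y
    simp
  rw [hmap] at hmem'
  obtain ⟨y, hy, hyx⟩ := hmem'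
  obtain rfl : y = x := Subtype.ext hyx
  rw [Ideal.smul_top_eq_map, SetLike.mem_coe, Submodule.restrictScalars_mem, Ideal.map_pow] at hy
  have hle : (maximalIdeal O).map (algebraMap O S) ≤ maximalIdeal S :=
    Ideal.map_le_iff_le_comap.mpr fun o ho => map_nonunit (algebraMap O S) o ho
  exact Ideal.pow_right_mono hle n hy

section Fib

variable (hA : IsResAlg O A) (hB : IsResAlg O B)

/-- The pairs with one residue. -/
def fibAlg : Subalgebra O (A × B) :=
  AlgHom.equalizer ((augment hA).comp (AlgHom.fst O A B)) ((augment hB).comp (AlgHom.snd O A B))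

variable {hA hB}

theorem mem_fibAlg {x : A × B} : x ∈ fibAlg hA hB ↔ augment hA x.1 = augment hB x.2 := Iff.rfl

theorem isUnit_fibAlg_iff (x : fibAlg hA hB) : IsUnit x ↔ augment hA (x : A × B).1 ≠ 0 := by
  refine ⟨fun h => ((h.map (((augment hA).comp (AlgHom.fst O A B)).comp (fibAlg hA hB).val))).ne_zero,
    fun h => ?_⟩
  have h1 : IsUnit (x : A × B).1 := by
    by_contra hu
    exact h ((augment_eq_zero_iff hA _).2 hu)
  have h2 : IsUnit (x : A × B).2 := by
    by_contra hu
    exact h ((mem_fibAlg.1 x.2).trans ((augment_eq_zero_iff hB _).2 hu))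
  obtain ⟨a, ha⟩ := isUnit_iff_exists_inv.1 h1
  obtain ⟨b, hb⟩ := isUnit_iff_exists_inv.1 h2
  have hab : augment hA a = augment hB b := by
    refine mul_left_cancel₀ h ?_
    rw [← map_mul, ha, map_one, mem_fibAlg.1 x.2, ← map_mul, hb, map_one]
  exact isUnit_iff_exists_inv.2 ⟨⟨(a, b), hab⟩, Subtype.ext (Prod.ext ha hb)⟩

instance isLocalRing_fibAlg : IsLocalRing (fibAlg hA hB) :=
  haveI : Nontrivial (fibAlg hA hB) := ⟨⟨0, 1, fun h => one_ne_zero (α := A)
    (congrArg (fun x : fibAlg hA hB => (x : A × B).1) h).symm⟩⟩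
  IsLocalRing.of_nonunits_add fun x y hx hy => by
    rw [mem_nonunits_iff, isUnit_fibAlg_iff, not_not] at hx hy ⊢
    rw [Subalgebra.coe_add, Prod.fst_add, map_add, hx, hy, add_zero]

theorem isResAlg_fibAlg : IsResAlg O (fibAlg hA hB) := by
  refine ⟨⟨fun o ho => ?_⟩, fun z => ?_⟩
  · have := hA.isLocalHom
    exact (isUnit_map_iff (algebraMap O A) o).1
      (ho.map ((AlgHom.fst O A B).comp (fibAlg hA hB).val))
  · obtain ⟨x, rfl⟩ := residue_surjective z
    obtain ⟨o, ho⟩ := exists_sub_mem hA (x : A × B).1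
    refine ⟨o, ?_⟩
    show residue _ (algebraMap O (fibAlg hA hB) o) = residue _ x
    rw [eq_comm, ← sub_eq_zero, ← map_sub, residue_eq_zero_iff, IsLocalRing.mem_maximalIdeal,
      mem_nonunits_iff, isUnit_fibAlg_iff, not_not, augment_eq_zero_iff]
    exact ho

theorem augment_fibAlg (x : fibAlg hA hB) :
    augment (isResAlg_fibAlg (hA := hA) (hB := hB)) x = augment hA (x : A × B).1 := by
  refine (DFunLike.congr_fun (eq_augment _
    (((augment hA).comp (AlgHom.fst O A B)).comp (fibAlg hA hB).val) fun a ha => ?_) x).symm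
  rw [IsLocalRing.mem_maximalIdeal, mem_nonunits_iff, isUnit_fibAlg_iff, not_not] at ha
  exact ha

end Fib

/-- A lift over an algebra with two projections onto given lifts, generated by its entries. -/
structure JointLift {W : Rigid O} (r₁ : Gal →* M2 A) (r₂ : Gal →* M2 B) : Type 1 where
  J : Type
  [commRing : CommRing J]
  [localRing : IsLocalRing J]
  [algebra : Algebra O J]
  [finite : Module.Finite O J]
  [noetherian : IsNoetherianRing J]
  [complete : IsAdicComplete (maximalIdeal J) J]
  isResAlg : IsResAlg O J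
  ru : Gal →* M2 J
  cont : IsCont ru
  lifts : Lifts W isResAlg ru
  normal : IsNormal W ru
  gen : Algebra.adjoin O (entries ru) = ⊤
  fst : J →ₐ[O] A
  snd : J →ₐ[O] B
  isLocalHom_fst : IsLocalHom (fst : J →+* A)
  isLocalHom_snd : IsLocalHom (snd : J →+* B)
  map_fst : mapM (fst : J →+* A) ru = r₁
  map_snd : mapM (snd : J →+* B) ru = r₂
  ext : ∀ {x y : J}, fst x = fst y → snd x = snd y → x = y

attribute [instance] JointLift.commRing JointLift.localRing JointLift.algebra JointLift.finite
  JointLift.noetherian JointLift.complete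

variable {W : Rigid O} {hA : IsResAlg O A} {hB : IsResAlg O B} {r₁ : Gal →* M2 A}
  {r₂ : Gal →* M2 B}

/-- The pair of two lifts. -/
def pairLift (h₁ : Lifts W hA r₁) (h₂ : Lifts W hB r₂) : Gal →* M2 (fibAlg hA hB) where
  toFun σ := Matrix.of fun i j => ⟨(r₁ σ i j, r₂ σ i j), (h₁ σ i j).trans (h₂ σ i j).symm⟩
  map_one' := Matrix.ext fun i j => Subtype.ext <| by
    simp only [map_one, Matrix.of_apply, Matrix.one_apply]
    split_ifs <;> rfl
  map_mul' σ τ := Matrix.ext fun i j => Subtype.ext <| by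
    simp [map_mul, Matrix.mul_apply]

variable [Module.Finite O A] [Module.Finite O B]

/-- **The joint lift exists.** -/
theorem nonempty_jointLift (h₁ : Lifts W hA r₁) (h₂ : Lifts W hB r₂) (hc₁ : IsCont r₁)
    (hc₂ : IsCont r₂) (hn₁ : IsNormal W r₁) (hn₂ : IsNormal W r₂) :
    Nonempty (JointLift (W := W) r₁ r₂) := by
  have : IsNoetherian O (A × B) := isNoetherian_of_isNoetherianRing_of_finite O _
  have : Module.Finite O (fibAlg hA hB) :=
    Module.Finite.of_injective (fibAlg hA hB).val.toLinearMap Subtype.val_injective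
  have hres := isResAlg_fibAlg (hA := hA) (hB := hB)
  set ru := pairLift h₁ h₂ with hru
  have hl : Lifts W hres ru := fun σ i j => by rw [augment_fibAlg]; exact h₁ σ i j
  have hn : IsNormal W ru := by
    have key : ∀ (c : Gal →₀ O) i j, ((evalC c ru i j : fibAlg hA hB) : A × B) =
        (evalC c r₁ i j, evalC c r₂ i j) := fun c i j => by
      refine Prod.ext ?_ ?_
      · show ((AlgHom.fst O A B).comp (fibAlg hA hB).val) (evalC c ru i j) = _
        rw [← evalC_map]
        rfl
      · show ((AlgHom.snd O A B).comp (fibAlg hA hB).val) (evalC c ru i j) = _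
        rw [← evalC_map]
        rfl
    exact ⟨Subtype.ext ((key _ _ _).trans (Prod.ext hn₁.1 hn₂.1)),
      Subtype.ext ((key _ _ _).trans (Prod.ext hn₁.2.1 hn₂.2.1)),
      Subtype.ext ((key _ _ _).trans (Prod.ext hn₁.2.2 hn₂.2.2))⟩
  have hcont : IsCont ru := by
    refine isCont_subalgebra (fibAlg hA hB) hres.isLocalHom fun n => ?_
    obtain ⟨j₁, hj₁⟩ := Assembly.exists_pow_le_map (O := O) (A := A)
    obtain ⟨j₂, hj₂⟩ := Assembly.exists_pow_le_map (O := O) (A := B)
    obtain ⟨L₁, hL₁, hL₁'⟩ := hc₁ (j₁ * n)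
    obtain ⟨L₂, hL₂, hL₂'⟩ := hc₂ (j₂ * n)
    refine ⟨L₁ ⊔ L₂, inferInstance, fun σ hσ i j => ?_⟩
    have e₁ := hL₁' σ (fun x hx => hσ x ((le_sup_left : L₁ ≤ L₁ ⊔ L₂) hx)) i j
    have e₂ := hL₂' σ (fun x hx => hσ x ((le_sup_right : L₂ ≤ L₁ ⊔ L₂) hx)) i j
    rw [pow_mul] at e₁ e₂
    have m₁ : r₁ σ i j - (1 : M2 A) i j ∈ maximalIdeal O ^ n • (⊤ : Submodule O A) := by
      rw [Ideal.smul_top_eq_map, Submodule.restrictScalars_mem, Ideal.map_pow]
      exact Ideal.pow_right_mono hj₁ n e₁
    have m₂ : r₂ σ i j - (1 : M2 B) i j ∈ maximalIdeal O ^ n • (⊤ : Submodule O B) := by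
      rw [Ideal.smul_top_eq_map, Submodule.restrictScalars_mem, Ideal.map_pow]
      exact Ideal.pow_right_mono hj₂ n e₂
    have e : ((ru σ i j - (1 : M2 (fibAlg hA hB)) i j : fibAlg hA hB) : A × B) =
        LinearMap.inl O A B (r₁ σ i j - (1 : M2 A) i j) +
          LinearMap.inr O A B (r₂ σ i j - (1 : M2 B) i j) := by
      have h1 : (((1 : M2 (fibAlg hA hB)) i j : fibAlg hA hB) : A × B) =
          ((1 : M2 A) i j, (1 : M2 B) i j) := by
        simp only [Matrix.one_apply]
        split_ifs <;> rfl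
      rw [AddSubgroupClass.coe_sub, h1]
      simp [hru, pairLift]
    rw [e]
    refine Submodule.add_mem _ ?_ ?_
    · have := Submodule.mem_map_of_mem (f := LinearMap.inl O A B) m₁
      rw [Submodule.map_smul''] at this
      exact Submodule.smul_mono le_rfl le_top this
    · have := Submodule.mem_map_of_mem (f := LinearMap.inr O A B) m₂
      rw [Submodule.map_smul''] at this
      exact Submodule.smul_mono le_rfl le_top this
  set J := Algebra.adjoin O (entries ru)
  have : IsLocalRing J := Assembly.isLocalRing_subalgebra J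
  have hJ := Assembly.isResAlg_subalgebra hres J
  have := Assembly.finite_subalgebra J
  have := Assembly.isAdicComplete_subalgebra J hJ.isLocalHom
  have := IsNoetherianRing.of_finite O J
  have hmem : ∀ σ i j, ru σ i j ∈ J := fun σ i j => Algebra.subset_adjoin ⟨(σ, i, j), rfl⟩
  have hgen : Algebra.adjoin O (entries (corestrict J ru hmem)) = ⊤ := by
    refine Subalgebra.map_injective (f := J.val) Subtype.val_injective ?_
    rw [AlgHom.map_adjoin, Algebra.map_top, Subalgebra.range_val]
    refine congrArg (Algebra.adjoin O) ?_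
    rw [entries, ← Set.range_comp]
    rfl
  have hfib : ∀ x : fibAlg hA hB, IsUnit (x : A × B).1 ∨ IsUnit (x : A × B).2 → IsUnit x := by
    intro x hx
    rw [isUnit_fibAlg_iff]
    rcases hx with hx | hx
    · exact fun h => (augment_eq_zero_iff hA _).1 h hx
    · exact fun h => (augment_eq_zero_iff hB _).1 ((mem_fibAlg.1 x.2).symm.trans h) hx
  have hloc := Assembly.isLocalHom_subalgebra_val J
  exact ⟨⟨J, hJ, corestrict J ru hmem, Assembly.isCont_corestrict hres J hcont hmem,
    Assembly.lifts_corestrict J hl hmem, Assembly.isNormal_corestrict J hn hmem, hgen,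
    ((AlgHom.fst O A B).comp (fibAlg hA hB).val).comp J.val,
    ((AlgHom.snd O A B).comp (fibAlg hA hB).val).comp J.val,
    ⟨fun x hx => (isUnit_map_iff (J.val : J →+* _) x).1 (hfib _ (Or.inl hx))⟩,
    ⟨fun x hx => (isUnit_map_iff (J.val : J →+* _) x).1 (hfib _ (Or.inr hx))⟩,
    rfl, rfl, fun h1 h2 => Subtype.ext (Subtype.ext (Prod.ext h1 h2))⟩⟩

/-- The determinant of the joint lift is cyclotomic if those of the two lifts are. -/
theorem JointLift.detIsCyclotomic {p : ℕ} [Fact p.Prime] (Jl : JointLift (W := W) r₁ r₂)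
    (hp : (p : O) ∈ maximalIdeal O) [IsAdicComplete (maximalIdeal A) A]
    [IsAdicComplete (maximalIdeal B) B] (hc₁ : IsCont r₁) (hc₂ : IsCont r₂)
    (h₁ : (toRep r₁ hc₁).DetIsCyclotomic p) (h₂ : (toRep r₂ hc₂).DetIsCyclotomic p) :
    (toRep Jl.ru Jl.cont).DetIsCyclotomic p := by
  refine ⟨?_, fun n σ a ha => ?_⟩
  · have := Jl.isResAlg.isLocalHom
    rw [← map_natCast (algebraMap O Jl.J)]
    exact map_nonunit (algebraMap O Jl.J) _ hp
  obtain ⟨c₁, e₁, hc₁'⟩ := Assembly.exists_det_algebraMap hp h₁ σ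
  obtain ⟨c₂, e₂, hc₂'⟩ := Assembly.exists_det_algebraMap hp h₂ σ
  have hc : c₁ = c₂ := Assembly.eq_of_forall_sub_mem hp fun m => by
    haveI : NeZero (p ^ m) := ⟨pow_ne_zero m (Fact.out : p.Prime).ne_zero⟩
    obtain ⟨b, hb⟩ := CFT.Tangent.exists_pow_eq_on_roots (p ^ m) σ
    have := sub_mem (hc₁' m b hb) (hc₂' m b hb)
    rwa [sub_sub_sub_cancel_right] at this
  have hdet : ∀ {C : Type} [CommRing C] [IsLocalRing C] (r : Gal →* M2 C) (hr : IsCont r),
      LinearMap.det ((toRep r hr).ρ σ) = (r σ).det := fun r hr => LinearMap.det_toLin' _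
  rw [hdet] at e₁ e₂
  have e : (Jl.ru σ).det = algebraMap O Jl.J c₁ := by
    refine Jl.ext ?_ ?_
    · rw [AlgHom.commutes, ← e₁]
      exact (RingHom.map_det (Jl.fst : Jl.J →+* A) _).trans
        (congrArg Matrix.det (DFunLike.congr_fun Jl.map_fst σ))
    · rw [AlgHom.commutes, hc, ← e₂]
      exact (RingHom.map_det (Jl.snd : Jl.J →+* B) _).trans
        (congrArg Matrix.det (DFunLike.congr_fun Jl.map_snd σ))
  obtain ⟨d, hd⟩ := Ideal.mem_span_singleton'.mp (hc₁' n a ha)
  refine Ideal.mem_span_singleton'.mpr ⟨algebraMap O Jl.J d, ?_⟩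
  rw [hdet, e, Nat.cast_pow, ← map_natCast (algebraMap O Jl.J),
    ← map_natCast (algebraMap O Jl.J) a, ← map_pow, ← map_mul, hd, map_sub]

end Fermat.Agent.RT.Lift
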