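import Fermat.Agent.RT.Assembly.Normal
import Fermat.Agent.RT.Lift.Levels.CurveLocal
import Fermat.Agent.EC.Rep.Local.Line
import Fermat.Agent.RT.Lift.Lower.Strict
import Fermat.Agent.CFT.Tangent.Dictionary
import Fermat.Agent.Mazur.Eisenstein.CycInertia

/-!
# Local conditions at `p` over a ring with two jointly injective maps

A representation over a ring embedded in a product of two local rings is flat, resp. strictly
ordinary, at `p` when both base changes are, and likewise ordinary. The line is the range of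
`ρ τ - 1` for an inertia element `τ` with determinant `-1` modulo `p`.
-/

set_option autoImplicit false
set_option linter.style.haveILetI false

noncomputable section

namespace Fermat.Agent.RT.Lift

open IsLocalRing Module Fermat.Agent.Deform
open scoped TensorProduct Matrix
open Fermat.Agent.FiniteFlat (GalOrder)
open Fermat.Agent.Arith (GQ QBar)

variable {A : Type} [CommRing A] [IsLocalRing A] {R₁ R₂ : Type} [CommRing R₁] [IsLocalRing R₁]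
  [CommRing R₂] [IsLocalRing R₂] {p : ℕ}

/-- A finite ring map has finite quotients at the extensions of powers of the maximal ideal. -/
theorem finite_quotient_map_pow [IsNoetherianRing A] {R : Type} [CommRing R]
    (hres : Finite (ResidueField A)) (φ : A →+* R) (hfin : φ.Finite) (n : ℕ) :
    Finite (R ⧸ (maximalIdeal A ^ n).map φ) := by
  classical
  let : Algebra A R := φ.toAlgebra
  have : Module.Finite A R := hfin
  have : Finite (A ⧸ maximalIdeal A) := hres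
  have : Finite (A ⧸ maximalIdeal A ^ n) :=
    Ideal.finite_quotient_pow (IsNoetherian.noetherian (maximalIdeal A)) _
  obtain ⟨r, t, ht⟩ := Submodule.fg_iff_exists_fin_generating_family.mp
    (Module.Finite.fg_top (R := A) (M := R))
  refine Finite.of_surjective
    (fun x : Fin r → A ⧸ maximalIdeal A ^ n =>
      Ideal.Quotient.mk _ (∑ i, φ (Quotient.out (x i)) * t i)) fun y => ?_
  obtain ⟨y, rfl⟩ := Ideal.Quotient.mk_surjective y
  have hy : y ∈ Submodule.span A (Set.range t) := by rw [ht]; trivial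
  obtain ⟨a, ha⟩ := Submodule.mem_span_range_iff_exists_fun A |>.1 hy
  refine ⟨fun i => Ideal.Quotient.mk _ (a i), ?_⟩
  rw [Ideal.Quotient.eq, ← ha, ← Finset.sum_sub_distrib]
  refine Ideal.sum_mem _ fun i _ => ?_
  rw [Algebra.smul_def, ← sub_mul]
  refine Ideal.mul_mem_right _ _ ?_
  show φ _ - φ _ ∈ _
  rw [← map_sub]
  exact Ideal.mem_map_of_mem φ (Ideal.Quotient.eq.1 (Quotient.out_eq _))

/-- The map from a representation to a level of a base change, with its kernel. -/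
theorem exists_levelMap (φ : A →+* R₁) (hφ : IsLocalHom φ) (ρ : GaloisRepAdic A) (J : Ideal R₁)
    (h : (ρ.baseChangeAlong φ hφ).IsFlatAt p) (hJ : Finite (R₁ ⧸ J)) :
    ∃ (M : Type) (_ : AddCommGroup M) (_ : DistribMulAction GQ M) (_ : Finite M)
      (_ : GalOrder p M) (f : ρ.V →+ M), (∀ σ v, f (ρ.ρ σ v) = σ • f v) ∧
      ∀ v, f v = 0 ↔ v ∈ J.comap φ • (⊤ : Submodule A ρ.V) := by
  classical
  let : Algebra A R₁ := φ.toAlgebra
  let ρ' := ρ.baseChangeAlong φ hφ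
  obtain ⟨H, _, _, _, _, _, e, he, heσ⟩ := h.2 J hJ
  let : DistribMulAction GQ (ρ'.V ⧸ (J • (⊤ : Submodule R₁ ρ'.V))) :=
    EC.Rep.levelDistribMulAction ρ' J
  obtain ⟨O'⟩ := Glue.nonempty_galOrder_of_hopf e he heσ
  have : Finite (ρ'.V ⧸ (J • (⊤ : Submodule R₁ ρ'.V))) := Module.finite_of_finite (R₁ ⧸ J)
  let N : Submodule R₁ (R₁ ⊗[A] ρ.V) := J • ⊤
  refine ⟨ρ'.V ⧸ (J • (⊤ : Submodule R₁ ρ'.V)), inferInstance, inferInstance, inferInstance, O',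
    N.mkQ.toAddMonoidHom.comp ((TensorProduct.mk A R₁ ρ.V 1).toAddMonoidHom),
    fun σ v => ?_, fun v => ?_⟩
  · show Submodule.Quotient.mk ((1 : R₁) ⊗ₜ[A] ρ.ρ σ v) =
      Submodule.Quotient.mk ((ρ.ρ σ).baseChange R₁ ((1 : R₁) ⊗ₜ[A] v))
    rw [LinearMap.baseChange_tmul]
  · let b := Module.finBasisOfFinrankEq A ρ.V ρ.finrank_eq
    let b' : Basis (Fin 2) R₁ (R₁ ⊗[A] ρ.V) := b.baseChange R₁
    refine (Submodule.Quotient.mk_eq_zero _).trans ?_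
    rw [CFT.Tangent.mem_ideal_smul_top_iff_repr b', CFT.Tangent.mem_ideal_smul_top_iff_repr b]
    refine forall_congr' fun i => ?_
    show b'.repr ((1 : R₁) ⊗ₜ[A] v) i ∈ J ↔ _
    rw [Basis.baseChange_repr_tmul, Ideal.mem_comap, Algebra.smul_def, mul_one]
    rfl

/-- **Flatness descends along two jointly injective finite local maps.** -/
theorem isFlatAt_of_joint [IsNoetherianRing A] (φ₁ : A →+* R₁) (φ₂ : A →+* R₂)
    (h₁ : IsLocalHom φ₁) (h₂ : IsLocalHom φ₂)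
    (hinj : ∀ a, φ₁ a = 0 → φ₂ a = 0 → a = 0) (hfin₁ : φ₁.Finite) (hfin₂ : φ₂.Finite)
    (ρ : GaloisRepAdic A) (hf₁ : (ρ.baseChangeAlong φ₁ h₁).IsFlatAt p)
    (hf₂ : (ρ.baseChangeAlong φ₂ h₂).IsFlatAt p) : ρ.IsFlatAt p := by
  classical
  have hres : Finite (ResidueField A) :=
    haveI := hf₁.1
    haveI := h₁
    Finite.of_injective _ (ResidueField.map φ₁).injective
  refine EC.Rep.isFlatAt_of_galOrder ρ p hres fun I hI => ?_
  obtain ⟨k, hk⟩ := IsLocalRing.exists_maximalIdeal_pow_le_of_isArtinianRing_quotient I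
  let : Algebra A R₁ := φ₁.toAlgebra
  let : Algebra A R₂ := φ₂.toAlgebra
  have : Module.Finite A R₁ := hfin₁
  have : Module.Finite A R₂ := hfin₂
  set ι : A →ₗ[A] R₁ × R₂ := (Algebra.linearMap A R₁).prod (Algebra.linearMap A R₂) with hι
  obtain ⟨c, hc⟩ := Ideal.exists_pow_inf_eq_pow_smul (maximalIdeal A) (LinearMap.range ι)
  set n := k + c
  set J₁ : Ideal R₁ := (maximalIdeal A ^ n).map φ₁
  set J₂ : Ideal R₂ := (maximalIdeal A ^ n).map φ₂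
  set I₀ : Ideal A := J₁.comap φ₁ ⊓ J₂.comap φ₂
  have hI₀ : I₀ ≤ I := by
    rintro a ⟨ha₁, ha₂⟩
    refine hk ?_
    have e₁ : φ₁ a ∈ maximalIdeal A ^ n • (⊤ : Submodule A R₁) := by
      rw [Ideal.smul_top_eq_map]; exact ha₁
    have e₂ : φ₂ a ∈ maximalIdeal A ^ n • (⊤ : Submodule A R₂) := by
      rw [Ideal.smul_top_eq_map]; exact ha₂
    have f₁ : ((φ₁ a, 0) : R₁ × R₂) ∈ maximalIdeal A ^ n • (⊤ : Submodule A (R₁ × R₂)) := by
      have := Submodule.mem_map_of_mem (f := LinearMap.inl A R₁ R₂) e₁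
      rw [Submodule.map_smul''] at this
      exact Submodule.smul_mono le_rfl le_top this
    have f₂ : ((0, φ₂ a) : R₁ × R₂) ∈ maximalIdeal A ^ n • (⊤ : Submodule A (R₁ × R₂)) := by
      have := Submodule.mem_map_of_mem (f := LinearMap.inr A R₁ R₂) e₂
      rw [Submodule.map_smul''] at this
      exact Submodule.smul_mono le_rfl le_top this
    have hmem : ι a ∈ maximalIdeal A ^ n • (⊤ : Submodule A (R₁ × R₂)) ⊓ LinearMap.range ι := by
      refine ⟨?_, ⟨a, rfl⟩⟩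
      have hsum := add_mem f₁ f₂
      rw [Prod.mk_add_mk, add_zero, zero_add] at hsum
      exact hsum
    rw [hc n (Nat.le_add_left c k), show n - c = k from Nat.add_sub_cancel k c] at hmem
    have h2 := Submodule.smul_mono le_rfl inf_le_right hmem
    rw [LinearMap.range_eq_map, ← Submodule.map_smul''] at h2
    obtain ⟨b, hb, hba⟩ := h2
    rw [smul_eq_mul, Ideal.mul_top] at hb
    have hab : b = a := sub_eq_zero.1 (hinj _
      (by rw [map_sub, sub_eq_zero]; exact congrArg Prod.fst hba)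
      (by rw [map_sub, sub_eq_zero]; exact congrArg Prod.snd hba))
    exact hab ▸ hb
  obtain ⟨M₁, _, _, _, O₁, f₁, hσ₁, hk₁⟩ :=
    exists_levelMap φ₁ h₁ ρ J₁ hf₁ (finite_quotient_map_pow hres φ₁ hfin₁ n)
  obtain ⟨M₂, _, _, _, O₂, f₂, hσ₂, hk₂⟩ :=
    exists_levelMap φ₂ h₂ ρ J₂ hf₂ (finite_quotient_map_pow hres φ₂ hfin₂ n)
  let f : ρ.V →+ M₁ × M₂ := f₁.prod f₂
  let b := Module.finBasisOfFinrankEq A ρ.V ρ.finrank_eq
  have hker : ∀ v, f v = 0 ↔ v ∈ I₀ • (⊤ : Submodule A ρ.V) := fun v => by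
    show (f₁ v, f₂ v) = 0 ↔ _
    rw [Prod.mk_eq_zero, hk₁, hk₂, CFT.Tangent.mem_ideal_smul_top_iff_repr b,
      CFT.Tangent.mem_ideal_smul_top_iff_repr b, CFT.Tangent.mem_ideal_smul_top_iff_repr b,
      ← forall_and]
    rfl
  let : DistribMulAction GQ (ρ.V ⧸ (I₀ • (⊤ : Submodule A ρ.V))) :=
    EC.Rep.levelDistribMulAction ρ I₀
  let g : ρ.V ⧸ (I₀ • (⊤ : Submodule A ρ.V)) →+ M₁ × M₂ :=
    QuotientAddGroup.lift (I₀ • (⊤ : Submodule A ρ.V)).toAddSubgroup f fun v hv => (hker v).mpr hv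
  have hginj : Function.Injective g := by
    refine (injective_iff_map_eq_zero g).mpr fun y hy => ?_
    obtain ⟨v, rfl⟩ := Submodule.Quotient.mk_surjective _ y
    exact (Submodule.Quotient.mk_eq_zero _).mpr ((hker v).1 hy)
  have hgσ : ∀ (σ : GQ) y, g (σ • y) = σ • g y := fun σ y => by
    obtain ⟨v, rfl⟩ := Submodule.Quotient.mk_surjective _ y
    exact Prod.ext (hσ₁ σ v) (hσ₂ σ v)
  have hle : I₀ • (⊤ : Submodule A ρ.V) ≤ I • (⊤ : Submodule A ρ.V) := Submodule.smul_mono_left hI₀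
  let π := Submodule.factor hle
  refine ⟨ρ.V ⧸ (I₀ • (⊤ : Submodule A ρ.V)), inferInstance, inferInstance,
    Finite.of_injective g hginj, (O₁.prod O₂).restrict g hginj hgσ, π.toAddMonoidHom,
    Submodule.factor_surjective hle, fun σ y => ?_⟩
  obtain ⟨v, rfl⟩ := Submodule.Quotient.mk_surjective _ y
  rfl

/-- An inertia element acts on the line of an ordinary representation through the determinant. -/
theorem apply_eq_det_smul {R : Type} [CommRing R] [IsLocalRing R] {ρ : GaloisRepAdic R}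
    (e : Basis (Fin 2) R ρ.V) {τ : GQ} (hD : ρ.ρ τ (e 0) ∈ R ∙ e 0)
    (hI : ρ.ρ τ (e 1) - e 1 ∈ R ∙ e 0) {w : ρ.V} (hw : w ∈ R ∙ e 0) :
    ρ.ρ τ w = LinearMap.det (ρ.ρ τ) • w := by
  obtain ⟨x, hx⟩ := Submodule.mem_span_singleton.mp hD
  obtain ⟨c, hc⟩ := Submodule.mem_span_singleton.mp hI
  have h1 : ρ.ρ τ (e 1) = c • e 0 + e 1 := by rw [hc]; abel
  have hd : LinearMap.det (ρ.ρ τ) = x := by
    rw [← LinearMap.det_toMatrix e, Matrix.det_fin_two]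
    simp [LinearMap.toMatrix_apply, ← hx, h1]
  obtain ⟨a, rfl⟩ := Submodule.mem_span_singleton.mp hw
  rw [map_smul, ← hx, hd, smul_comm]

/-- The matrices of a representation act as its base change does in coordinates. -/
theorem equivFun_baseChange_apply (φ : A →+* R₁) (hφ : IsLocalHom φ) (ρ : GaloisRepAdic A)
    (b : Basis (Fin 2) A ρ.V) (σ : GQ) :
    letI := φ.toAlgebra
    ∀ v : (ρ.baseChangeAlong φ hφ).V, (b.baseChange R₁).equivFun ((ρ.baseChangeAlong φ hφ).ρ σ v) =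
      (matOf ρ b σ).map φ *ᵥ (b.baseChange R₁).equivFun v := by
  let : Algebra A R₁ := φ.toAlgebra
  intro v
  let b' : Basis (Fin 2) R₁ (ρ.baseChangeAlong φ hφ).V := b.baseChange R₁
  have h1 : LinearMap.toMatrix b' b' ((ρ.baseChangeAlong φ hφ).ρ σ) = (matOf ρ b σ).map φ :=
    DFunLike.congr_fun (matOf_baseChangeAlong φ hφ ρ b) σ
  rw [← h1]
  exact (LinearMap.toMatrix_mulVec_repr b' b' ((ρ.baseChangeAlong φ hφ).ρ σ) v).symm

/-- What ordinarity says once an inertia element is fixed. -/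
theorem ordinary_facts (φ : A →+* R₁) (hφ : IsLocalHom φ) {ρ : GaloisRepAdic A}
    (h : (ρ.baseChangeAlong φ hφ).IsOrdinaryAt p) (b : Basis (Fin 2) A ρ.V)
    {P : ValuationSubring QBar} (hP : P.LiesOverPrime p) {τ : GQ}
    (hτ : τ ∈ P.inertiaSubgroupIn ℚ) :
    ∃ L : Submodule R₁ (Fin 2 → R₁),
      (∀ σ ∈ P.inertiaSubgroupIn ℚ, ∀ w, (matOf ρ b σ).map φ *ᵥ w - w ∈ L) ∧
      (∀ σ ∈ P.decompositionSubgroup ℚ, ∀ w ∈ L, (matOf ρ b σ).map φ *ᵥ w ∈ L) ∧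
      ∀ w ∈ L, (matOf ρ b τ).map φ *ᵥ w = φ (LinearMap.det (ρ.ρ τ)) • w := by
  let : Algebra A R₁ := φ.toAlgebra
  let ρ' := ρ.baseChangeAlong φ hφ
  let b' : Basis (Fin 2) R₁ ρ'.V := b.baseChange R₁
  have hm : ∀ σ v, b'.equivFun (ρ'.ρ σ v) = (matOf ρ b σ).map φ *ᵥ b'.equivFun v :=
    equivFun_baseChange_apply φ hφ ρ b
  obtain ⟨L, ⟨e, he⟩, hD, hI⟩ := h P hP
  let Φ : ρ'.V ≃ₗ[R₁] (Fin 2 → R₁) := b'.equivFun
  have hiff : ∀ v, Φ v ∈ L.map (Φ : ρ'.V →ₗ[R₁] _) ↔ v ∈ L := fun v => by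
    rw [Submodule.mem_map_equiv, LinearEquiv.symm_apply_apply]
  have he0 : e 0 ∈ L := he ▸ Submodule.mem_span_singleton_self _
  refine ⟨L.map (Φ : ρ'.V →ₗ[R₁] _), fun σ hσ w => ?_, fun σ hσ w hw => ?_, fun w hw => ?_⟩
  · obtain ⟨v, rfl⟩ := Φ.surjective w
    rw [← hm, ← map_sub]
    exact (hiff _).2 (hI σ hσ v)
  · obtain ⟨v, rfl⟩ := Φ.surjective w
    rw [← hm]
    exact (hiff _).2 (hD σ hσ v ((hiff v).1 hw))
  · obtain ⟨v, rfl⟩ := Φ.surjective w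
    rw [← hm, apply_eq_det_smul e
      (he ▸ hD τ ((show P.inertiaSubgroupIn ℚ ≤ P.decompositionSubgroup ℚ from
        Subgroup.map_subtype_le _) hτ) _ he0) (he ▸ hI τ hτ (e 1)) (he ▸ (hiff v).1 hw),
      map_smul, ← CFT.Tangent.det_baseChangeAlong φ hφ]

/-- What strict ordinarity says once an inertia element with unit `det - 1` is fixed. -/
theorem strict_facts [IsNoetherianRing R₁] [Fact p.Prime] (φ : A →+* R₁) (hφ : IsLocalHom φ)
    {ρ : GaloisRepAdic A} (hdet : ρ.DetIsCyclotomic p)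
    (h : (ρ.baseChangeAlong φ hφ).IsStrictOrdinaryAt p) (b : Basis (Fin 2) A ρ.V)
    {P : ValuationSubring QBar} (hP : P.LiesOverPrime p) {τ : GQ}
    (hτ : τ ∈ P.inertiaSubgroupIn ℚ) :
    ∃ L : Submodule R₁ (Fin 2 → R₁),
      (∀ σ ∈ P.inertiaSubgroupIn ℚ, ∀ w,
        (matOf ρ b σ).map φ *ᵥ w - w ∈ L) ∧
      (∀ σ ∈ P.decompositionSubgroup ℚ,
        (∀ w ∈ L, (matOf ρ b σ).map φ *ᵥ w ∈ L) ∧
        ∃ z : R₁, z * z = 1 ∧ ∀ w, (matOf ρ b σ).map φ *ᵥ w - z • w ∈ L) ∧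
      ∀ w ∈ L, (matOf ρ b τ).map φ *ᵥ w = φ (LinearMap.det (ρ.ρ τ)) • w := by
  let : Algebra A R₁ := φ.toAlgebra
  set ρ' := ρ.baseChangeAlong φ hφ
  let b' : Basis (Fin 2) R₁ ρ'.V := b.baseChange R₁
  have hm : ∀ σ v, b'.equivFun (ρ'.ρ σ v) = (matOf ρ b σ).map φ *ᵥ b'.equivFun v :=
    equivFun_baseChange_apply φ hφ ρ b
  obtain ⟨L, ⟨e, he⟩, hD, hI, hxz⟩ := h.2 P hP
  have hcyc : ρ'.DetIsCyclotomic p := CFT.Tangent.DetIsCyclotomic.baseChange φ hφ hdet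
  have key : ∀ σ ∈ P.decompositionSubgroup ℚ, ∃ x z : R₁, (∀ w ∈ L, ρ'.ρ σ w = x • w) ∧
      (∀ v, ρ'.ρ σ v - z • v ∈ L) ∧ z * z = 1 ∧ LinearMap.det (ρ'.ρ σ) = x * z := by
    intro σ hσ
    obtain ⟨x, z, hx, hz, hc⟩ := hxz σ hσ
    have he0 : e 0 ∈ L := he ▸ Submodule.mem_span_singleton_self _
    obtain ⟨c, hc1⟩ := Submodule.mem_span_singleton.mp (he ▸ hz (e 1))
    have h1 : ρ'.ρ σ (e 1) = c • e 0 + z • e 1 := by rw [hc1]; abel
    have hd : LinearMap.det (ρ'.ρ σ) = x * z := by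
      rw [← LinearMap.det_toMatrix e, Matrix.det_fin_two]
      simp [LinearMap.toMatrix_apply, hx _ he0, h1]
    refine ⟨x, z, hx, hz, ?_, hd⟩
    refine sub_eq_zero.1 ((Submodule.mem_bot R₁).mp ?_)
    rw [← Ideal.iInf_pow_smul_eq_bot_of_isLocalRing (maximalIdeal R₁)
      (maximalIdeal.isMaximal R₁).ne_top (M := R₁), Submodule.mem_iInf]
    intro n
    rw [smul_eq_mul, Ideal.mul_top]
    have hle : Ideal.span {((p ^ (n + 1) : ℕ) : R₁)} ≤ maximalIdeal R₁ ^ (n + 1) := by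
      rw [Ideal.span_singleton_le_iff_mem, Nat.cast_pow]
      exact Ideal.pow_mem_pow h.1 _
    obtain ⟨a, ha⟩ : ∃ a : ℕ, ∀ μ : QBar, μ ^ p ^ (n + 1) = 1 → σ μ = μ ^ a :=
      haveI : NeZero (p ^ (n + 1)) := ⟨pow_ne_zero _ (Fact.out : p.Prime).ne_zero⟩
      CFT.Tangent.exists_pow_eq_on_roots _ σ
    have e1 := hle (hc (n + 1) a ha)
    have e2 := hle (hcyc.2 (n + 1) σ a ha)
    rw [hd] at e2
    have hau : IsUnit (a : R₁) := by
      by_contra hna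
      have hdu : IsUnit (x * z) := hd ▸ LinearMap.isUnit_det _ (Group.isUnit σ |>.map ρ'.ρ)
      refine (mem_maximalIdeal (x * z)).mp ?_ hdu
      have h0 := Ideal.add_mem _ (Ideal.pow_le_self (Nat.succ_ne_zero n) e2)
        ((mem_maximalIdeal (a : R₁)).mpr hna)
      rwa [sub_add_cancel] at h0
    obtain ⟨u, hu⟩ := hau.exists_left_inv
    refine Ideal.pow_le_pow_right n.le_succ ?_
    have : z * z - 1 = u * ((x * z - (a : R₁)) - (x - (a : R₁) * z) * z) := by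
      linear_combination -(z * z - 1) * hu
    rw [this]
    exact Ideal.mul_mem_left _ _ (Ideal.sub_mem _ e2 (Ideal.mul_mem_right _ _ e1))
  let Φ : ρ'.V ≃ₗ[R₁] (Fin 2 → R₁) := b'.equivFun
  have hiff : ∀ v, Φ v ∈ L.map (Φ : ρ'.V →ₗ[R₁] _) ↔ v ∈ L := fun v => by
    rw [Submodule.mem_map_equiv, LinearEquiv.symm_apply_apply]
  refine ⟨L.map (Φ : ρ'.V →ₗ[R₁] _), fun σ hσ w => ?_, fun σ hσ => ⟨fun w hw => ?_, ?_⟩,
    fun w hw => ?_⟩
  · obtain ⟨v, rfl⟩ := Φ.surjective w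
    rw [← hm, ← map_sub]
    exact (hiff _).2 (hI σ hσ v)
  · obtain ⟨v, rfl⟩ := Φ.surjective w
    rw [← hm]
    exact (hiff _).2 (hD σ hσ v ((hiff v).1 hw))
  · obtain ⟨x, z, -, hz, hzz, -⟩ := key σ hσ
    refine ⟨z, hzz, fun w => ?_⟩
    obtain ⟨v, rfl⟩ := Φ.surjective w
    rw [← hm, ← map_smul, ← map_sub]
    exact (hiff _).2 (hz v)
  · obtain ⟨v, rfl⟩ := Φ.surjective w
    have he0 : e 0 ∈ L := he ▸ Submodule.mem_span_singleton_self _
    rw [← hm, apply_eq_det_smul e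
      (he ▸ hD τ ((show P.inertiaSubgroupIn ℚ ≤ P.decompositionSubgroup ℚ from
        Subgroup.map_subtype_le _) hτ) _ he0) (he ▸ hI τ hτ (e 1)) (he ▸ (hiff v).1 hw),
      map_smul, ← CFT.Tangent.det_baseChangeAlong φ hφ]

section Coordinates

variable {A R : Type} [CommRing A] [CommRing R]

theorem comp_mulVec (φ : A →+* R) (M : M2 A) (w : Fin 2 → A) :
    φ ∘ (M *ᵥ w) = M.map φ *ᵥ (φ ∘ w) :=
  funext fun i => RingHom.map_mulVec φ M w i

theorem comp_smul (φ : A →+* R) (c : A) (w : Fin 2 → A) : φ ∘ (c • w) = φ c • (φ ∘ w) :=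
  funext fun _ => map_mul φ _ _

theorem comp_sub (φ : A →+* R) (x y : Fin 2 → A) : φ ∘ (x - y) = φ ∘ x - φ ∘ y :=
  funext fun _ => map_sub φ _ _

/-- A quotient character `z` differing from a square root of `1` is killed. -/
theorem smul_comp_eq_zero (φ : A →+* R) (L : Submodule R (Fin 2 → R)) (T : M2 A) (d : A)
    (hL : ∀ w ∈ L, T.map φ *ᵥ w = φ d • w) {S' : M2 R}
    (hz' : ∃ z' : R, z' * z' = 1 ∧ ∀ w, S' *ᵥ w - z' • w ∈ L) (S : M2 A) (w : Fin 2 → A) (z : A)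
    (hw : φ ∘ (S *ᵥ w - z • w) ∈ L) (hS : S' = S.map φ := by rfl) :
    φ ∘ ((z * z - 1) • (T *ᵥ w - d • w)) = 0 := by
  obtain ⟨z', hzz, hz'⟩ := hz'
  subst hS
  have h1 := L.sub_mem (hz' (φ ∘ w)) hw
  rw [comp_sub, comp_mulVec, comp_smul, sub_sub_sub_cancel_left, ← sub_smul] at h1
  have h2 := hL _ h1
  rw [Matrix.mulVec_smul, smul_comm, ← sub_eq_zero, ← smul_sub] at h2
  rw [comp_smul, comp_sub, comp_mulVec, comp_smul,
    show φ (z * z - 1) = (φ z + z') * (φ z - z') by rw [map_sub, map_mul, map_one]; linear_combination hzz,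
    mul_smul, h2, smul_zero]

/-- If the range of `T - 1` lies in the `d` eigenspace and `d - 1` is a unit, that eigenspace is
spanned by the first column of an invertible matrix. -/
theorem exists_line_matrix [IsLocalRing A] (T : M2 A) (d : A) (hd : d = T.det) (hdu : IsUnit d)
    (ht : IsUnit (d - 1)) (hT : ∀ w, T *ᵥ (T *ᵥ w - w) = d • (T *ᵥ w - w)) :
    ∃ P : M2 A, IsUnit P.det ∧ T *ᵥ (fun j => P j 0) = d • (fun j => P j 0) ∧
      ∀ w, T *ᵥ w = d • w → ∃ c : A, c • (fun j => P j 0) = w := by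
  have e0 := hT ![1, 0]
  have e1 := hT ![0, 1]
  have e00 := congrFun e0 0
  have e01 := congrFun e0 1
  have e10 := congrFun e1 0
  have e11 := congrFun e1 1
  simp [Matrix.mulVec, dotProduct, Fin.sum_univ_two] at e00 e01 e10 e11
  rw [Matrix.det_fin_two] at hd
  have htr : d - 1 - ((T 0 0 - 1) + (T 1 1 - 1)) = 0 := by
    refine hdu.mul_left_eq_zero.1 ?_
    linear_combination (d - 1 - ((T 0 0 - 1) + (T 1 1 - 1)) + T 1 1) * hd - T 1 1 * e00 + T 1 0 * e10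
  have hdet0 : (T 0 0 - 1) * (T 1 1 - 1) - T 0 1 * T 1 0 = 0 := by linear_combination htr - hd
  have hor : IsUnit (T 0 0 - 1) ∨ IsUnit (T 1 1 - 1) := by
    by_contra hboth
    rw [not_or] at hboth
    refine (IsLocalRing.mem_maximalIdeal _).mp ?_ ht
    rw [show d - 1 = (T 0 0 - 1) + (T 1 1 - 1) by linear_combination htr]
    exact Ideal.add_mem _ ((IsLocalRing.mem_maximalIdeal _).mpr hboth.1)
      ((IsLocalRing.mem_maximalIdeal _).mpr hboth.2)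
  have hrows : ∀ w, T *ᵥ w = d • w → T 0 0 * w 0 + T 0 1 * w 1 = d * w 0 ∧
      T 1 0 * w 0 + T 1 1 * w 1 = d * w 1 := fun w hw => by
    have a := congrFun hw 0
    have b := congrFun hw 1
    simp [Matrix.mulVec, dotProduct, Fin.sum_univ_two] at a b
    exact ⟨a, b⟩
  rcases hor with hu | hu
  · obtain ⟨u, hu'⟩ := hu.exists_left_inv
    refine ⟨!![T 0 0 - 1, 0; T 1 0, 1], by simpa [Matrix.det_fin_two] using hu, ?_, fun w hw => ?_⟩
    · have := hT ![1, 0]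
      convert this using 2 <;> (try funext j; fin_cases j) <;> simp
    · obtain ⟨-, hb⟩ := hrows w hw
      refine ⟨u * w 0, funext fun j => ?_⟩
      fin_cases j <;> simp
      · linear_combination w 0 * hu'
      · linear_combination w 1 * hu' + u * hb + u * w 1 * htr
  · obtain ⟨u, hu'⟩ := hu.exists_left_inv
    refine ⟨!![T 0 1, 1; T 1 1 - 1, 0], by simpa [Matrix.det_fin_two] using hu.neg, ?_, fun w hw => ?_⟩
    · have := hT ![0, 1]
      convert this using 2 <;> (try funext j; fin_cases j) <;> simp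
    · obtain ⟨ha, -⟩ := hrows w hw
      refine ⟨u * w 1, funext fun j => ?_⟩
      fin_cases j <;> simp
      · linear_combination w 0 * hu' + u * ha + u * w 0 * htr
      · linear_combination w 1 * hu'

end Coordinates

/-- An inertia element at `p` with determinant different from `1` modulo the maximal ideal. -/
theorem exists_inertia_det [Fact p.Prime] (hp2 : p ≠ 2) {ρ : GaloisRepAdic A}
    (hdet : ρ.DetIsCyclotomic p) {P : ValuationSubring QBar} (hP : P.LiesOverPrime p) :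
    ∃ τ ∈ P.inertiaSubgroupIn ℚ, IsUnit (LinearMap.det (ρ.ρ τ) - 1) := by
  have hp : p.Prime := Fact.out
  obtain ⟨τ, hτ, hτinv⟩ := Mazur.Eisenstein.exists_inertia_inv hP hp 1
  set d := LinearMap.det (ρ.ρ τ) with hd
  -- the determinant is `-1` modulo the maximal ideal
  have hd1 : IsUnit (d - 1) := by
    have e1 := hdet.2 1 τ (p - 1) fun μ hμ => by
      rw [hτinv μ hμ]
      rw [pow_one] at hμ
      refine inv_eq_of_mul_eq_one_right ?_
      rw [← pow_succ', Nat.sub_add_cancel hp.one_le, hμ]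
    by_contra hn
    have h2 : ((2 : ℕ) : A) ∈ maximalIdeal A := by
      have e2 : d - ((p - 1 : ℕ) : A) ∈ maximalIdeal A :=
        (Ideal.span_singleton_le_iff_mem _).mpr (by rw [pow_one]; exact hdet.1) e1
      have e3 := Ideal.add_mem _ (Ideal.sub_mem _ e2 ((mem_maximalIdeal _).mpr hn)) hdet.1
      have e4 : d - ((p - 1 : ℕ) : A) - (d - 1) + (p : A) = ((2 : ℕ) : A) := by
        rw [Nat.cast_sub hp.one_le]; push_cast; ring
      rwa [e4] at e3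
    obtain ⟨m, hm⟩ : ∃ m : ℕ, p = 2 * m + 1 := (hp.odd_of_ne_two hp2)
    refine (maximalIdeal.isMaximal A).ne_top ((Ideal.eq_top_iff_one _).2 ?_)
    have e5 := Ideal.sub_mem _ hdet.1 (Ideal.mul_mem_right (m : A) _ h2)
    rwa [hm, show ((2 * m + 1 : ℕ) : A) - ((2 : ℕ) : A) * (m : A) = 1 by push_cast; ring] at e5
  exact ⟨τ, hτ, hd1⟩

omit [IsLocalRing R₁] [IsLocalRing R₂] in
/-- **The joint line.** Two lines in the base changes, on which an inertia element with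
`det - 1` a unit acts through the determinant, come from one line. -/
theorem exists_joint_line (φ₁ : A →+* R₁) (φ₂ : A →+* R₂)
    (hinj : ∀ a, φ₁ a = 0 → φ₂ a = 0 → a = 0) (ρ : GaloisRepAdic A) (b₀ : Basis (Fin 2) A ρ.V)
    {P : ValuationSubring QBar} {τ : GQ} (hτ : τ ∈ P.inertiaSubgroupIn ℚ)
    (hd1 : IsUnit (LinearMap.det (ρ.ρ τ) - 1))
    {L₁ : Submodule R₁ (Fin 2 → R₁)} {L₂ : Submodule R₂ (Fin 2 → R₂)}
    (hI₁ : ∀ σ ∈ P.inertiaSubgroupIn ℚ, ∀ w, (matOf ρ b₀ σ).map φ₁ *ᵥ w - w ∈ L₁)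
    (hI₂ : ∀ σ ∈ P.inertiaSubgroupIn ℚ, ∀ w, (matOf ρ b₀ σ).map φ₂ *ᵥ w - w ∈ L₂)
    (hD₁ : ∀ σ ∈ P.decompositionSubgroup ℚ, ∀ w ∈ L₁, (matOf ρ b₀ σ).map φ₁ *ᵥ w ∈ L₁)
    (hD₂ : ∀ σ ∈ P.decompositionSubgroup ℚ, ∀ w ∈ L₂, (matOf ρ b₀ σ).map φ₂ *ᵥ w ∈ L₂)
    (hτ₁ : ∀ w ∈ L₁, (matOf ρ b₀ τ).map φ₁ *ᵥ w = φ₁ (LinearMap.det (ρ.ρ τ)) • w)
    (hτ₂ : ∀ w ∈ L₂, (matOf ρ b₀ τ).map φ₂ *ᵥ w = φ₂ (LinearMap.det (ρ.ρ τ)) • w) :
    ∃ e : Basis (Fin 2) A ρ.V, (∀ σ ∈ P.inertiaSubgroupIn ℚ, ∀ v, ρ.ρ σ v - v ∈ A ∙ e 0) ∧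
      (∀ σ ∈ P.decompositionSubgroup ℚ, ρ.ρ σ (e 0) ∈ A ∙ e 0) ∧
      ∀ v ∈ A ∙ e 0, φ₁ ∘ b₀.equivFun v ∈ L₁ ∧ φ₂ ∘ b₀.equivFun v ∈ L₂ := by
  set d := LinearMap.det (ρ.ρ τ) with hd
  let Φ : ρ.V ≃ₗ[A] (Fin 2 → A) := b₀.equivFun
  have hm : ∀ σ v, Φ (ρ.ρ σ v) = matOf ρ b₀ σ *ᵥ Φ v := fun σ v =>
    (LinearMap.toMatrix_mulVec_repr b₀ b₀ (ρ.ρ σ) v).symm
  set T := matOf ρ b₀ τ with hT
  have hjoint : ∀ w w' : Fin 2 → A, φ₁ ∘ w = φ₁ ∘ w' → φ₂ ∘ w = φ₂ ∘ w' → w = w' :=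
    fun w w' e₁ e₂ => funext fun i => sub_eq_zero.1 (hinj _
      (by rw [map_sub, sub_eq_zero]; exact congrFun e₁ i)
      (by rw [map_sub, sub_eq_zero]; exact congrFun e₂ i))
  -- membership in the line, at the level of coordinates
  have hback : ∀ w, φ₁ ∘ w ∈ L₁ → φ₂ ∘ w ∈ L₂ → T *ᵥ w = d • w := fun w e₁ e₂ =>
    hjoint _ _ (by rw [comp_mulVec, comp_smul, hτ₁ _ e₁]) (by rw [comp_mulVec, comp_smul, hτ₂ _ e₂])
  have hforth : ∀ w, T *ᵥ w = d • w → φ₁ ∘ w ∈ L₁ ∧ φ₂ ∘ w ∈ L₂ := fun w hw => by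
    obtain ⟨u, hu⟩ := hd1.exists_left_inv
    have e : w = u • (T *ᵥ w - w) := by
      rw [hw, smul_sub, smul_smul, ← sub_smul]
      rw [show u * d - u = 1 by linear_combination hu, one_smul]
    constructor
    · rw [e, comp_smul, comp_sub, comp_mulVec]
      exact L₁.smul_mem _ (hI₁ τ hτ _)
    · rw [e, comp_smul, comp_sub, comp_mulVec]
      exact L₂.smul_mem _ (hI₂ τ hτ _)
  have hIm : ∀ σ ∈ P.inertiaSubgroupIn ℚ, ∀ w,
      T *ᵥ (matOf ρ b₀ σ *ᵥ w - w) = d • (matOf ρ b₀ σ *ᵥ w - w) := fun σ hσ w =>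
    hback _ (by rw [comp_sub, comp_mulVec]; exact hI₁ σ hσ _)
      (by rw [comp_sub, comp_mulVec]; exact hI₂ σ hσ _)
  -- the range of `T - 1` is a line
  obtain ⟨P₂, hP₂, hPmem, hPspan⟩ := exists_line_matrix T d
    (by rw [hd, ← LinearMap.det_toMatrix b₀]; rfl)
    (hd ▸ LinearMap.isUnit_det _ ((Group.isUnit τ).map ρ.ρ)) hd1 fun w => hIm τ hτ w
  let e : Basis (Fin 2) A ρ.V := b₀.map (Matrix.toLinearEquiv b₀ P₂ hP₂)
  have hΦe : ∀ i, Φ (e i) = fun j => P₂ j i := fun i => by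
    funext j
    show b₀.repr (Matrix.toLin b₀ b₀ P₂ (b₀ i)) j = _
    rw [Matrix.toLin_self, b₀.repr_sum_self]
  have hmem0 : T *ᵥ Φ (e 0) = d • Φ (e 0) := by rw [hΦe]; exact hPmem
  have hspan : ∀ v, T *ᵥ Φ v = d • Φ v → v ∈ A ∙ e 0 := fun v hv => by
    obtain ⟨c, hc⟩ := hPspan _ hv
    refine Submodule.mem_span_singleton.mpr ⟨c, Φ.injective ?_⟩
    rw [map_smul, hΦe, hc]
  have hstable : ∀ σ ∈ P.decompositionSubgroup ℚ, ρ.ρ σ (e 0) ∈ A ∙ e 0 := fun σ hσ =>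
    hspan _ (hback _ (by rw [hm, comp_mulVec]; exact hD₁ σ hσ _ (hforth _ hmem0).1)
      (by rw [hm, comp_mulVec]; exact hD₂ σ hσ _ (hforth _ hmem0).2))
  refine ⟨e, fun σ hσ v => hspan _ (by rw [map_sub, hm]; exact hIm σ hσ _), hstable,
    fun v hv => hforth _ ?_⟩
  obtain ⟨a, rfl⟩ := Submodule.mem_span_singleton.mp hv
  rw [map_smul, Matrix.mulVec_smul, hmem0, smul_comm]

/-- **Ordinarity descends along two jointly injective local maps.** -/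
theorem isOrdinaryAt_of_joint [Fact p.Prime]
    (hp2 : p ≠ 2) (φ₁ : A →+* R₁) (φ₂ : A →+* R₂) (h₁ : IsLocalHom φ₁) (h₂ : IsLocalHom φ₂)
    (hinj : ∀ a, φ₁ a = 0 → φ₂ a = 0 → a = 0) (ρ : GaloisRepAdic A)
    (hdet : ρ.DetIsCyclotomic p) (ho₁ : (ρ.baseChangeAlong φ₁ h₁).IsOrdinaryAt p)
    (ho₂ : (ρ.baseChangeAlong φ₂ h₂).IsOrdinaryAt p) : ρ.IsOrdinaryAt p := by
  intro P hP
  obtain ⟨τ, hτ, hd1⟩ := exists_inertia_det hp2 hdet hP
  let b₀ := Module.finBasisOfFinrankEq A ρ.V ρ.finrank_eq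
  obtain ⟨L₁, hI₁, hD₁, hτ₁⟩ := ordinary_facts φ₁ h₁ ho₁ b₀ hP hτ
  obtain ⟨L₂, hI₂, hD₂, hτ₂⟩ := ordinary_facts φ₂ h₂ ho₂ b₀ hP hτ
  obtain ⟨e, hI, hD, -⟩ := exists_joint_line φ₁ φ₂ hinj ρ b₀ hτ hd1 hI₁ hI₂ hD₁ hD₂ hτ₁ hτ₂
  refine ⟨A ∙ e 0, ⟨e, rfl⟩, fun σ hσ v hv => ?_, hI⟩
  obtain ⟨a, rfl⟩ := Submodule.mem_span_singleton.mp hv
  rw [map_smul]
  exact Submodule.smul_mem _ a (hD σ hσ)

/-- **Strict ordinarity descends along two jointly injective local maps.** -/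
theorem isStrictOrdinaryAt_of_joint [IsNoetherianRing A] [IsNoetherianRing R₁] [IsNoetherianRing R₂] [Fact p.Prime]
    (hp2 : p ≠ 2) (φ₁ : A →+* R₁) (φ₂ : A →+* R₂) (h₁ : IsLocalHom φ₁) (h₂ : IsLocalHom φ₂)
    (hinj : ∀ a, φ₁ a = 0 → φ₂ a = 0 → a = 0) (ρ : GaloisRepAdic A)
    (hdet : ρ.DetIsCyclotomic p) (hs₁ : (ρ.baseChangeAlong φ₁ h₁).IsStrictOrdinaryAt p)
    (hs₂ : (ρ.baseChangeAlong φ₂ h₂).IsStrictOrdinaryAt p) : ρ.IsStrictOrdinaryAt p := by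
  refine EC.Rep.isStrictOrdinaryAt_of_lines ρ hdet fun P hP => ?_
  obtain ⟨τ, hτ, hd1⟩ := exists_inertia_det hp2 hdet hP
  let b₀ := Module.finBasisOfFinrankEq A ρ.V ρ.finrank_eq
  let Φ : ρ.V ≃ₗ[A] (Fin 2 → A) := b₀.equivFun
  have hm : ∀ σ v, Φ (ρ.ρ σ v) = matOf ρ b₀ σ *ᵥ Φ v := fun σ v =>
    (LinearMap.toMatrix_mulVec_repr b₀ b₀ (ρ.ρ σ) v).symm
  obtain ⟨L₁, hI₁, hD₁, hτ₁⟩ := strict_facts φ₁ h₁ hdet hs₁ b₀ hP hτ
  obtain ⟨L₂, hI₂, hD₂, hτ₂⟩ := strict_facts φ₂ h₂ hdet hs₂ b₀ hP hτ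
  obtain ⟨e, hI, hD, hL⟩ := exists_joint_line φ₁ φ₂ hinj ρ b₀ hτ hd1 hI₁ hI₂
    (fun σ hσ => (hD₁ σ hσ).1) (fun σ hσ => (hD₂ σ hσ).1) hτ₁ hτ₂
  refine ⟨e, hI, fun σ hσ => ⟨hD σ hσ, ?_⟩⟩
  set d := LinearMap.det (ρ.ρ τ)
  set T := matOf ρ b₀ τ with hT
  have hjoint : ∀ w w' : Fin 2 → A, φ₁ ∘ w = φ₁ ∘ w' → φ₂ ∘ w = φ₂ ∘ w' → w = w' :=
    fun w w' e₁ e₂ => funext fun i => sub_eq_zero.1 (hinj _
      (by rw [map_sub, sub_eq_zero]; exact congrFun e₁ i)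
      (by rw [map_sub, sub_eq_zero]; exact congrFun e₂ i))
  set z := e.repr (ρ.ρ σ (e 1)) 1
  have hz : ∀ v, ρ.ρ σ v - z • v ∈ A ∙ e 0 :=
    AtP.exists_quotient_character e _ (hD σ hσ)
  refine ⟨z, ?_, hz⟩
  set v' := ρ.ρ τ (e 1) - d • e 1 with hv'
  have key₁ := smul_comp_eq_zero φ₁ L₁ T d (fun w h => hτ₁ w h) (hD₁ σ hσ).2
    (matOf ρ b₀ σ) (Φ (e 1)) z (by rw [← hm, ← map_smul, ← map_sub]; exact (hL _ (hz (e 1))).1)
  have key₂ := smul_comp_eq_zero φ₂ L₂ T d (fun w h => hτ₂ w h) (hD₂ σ hσ).2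
    (matOf ρ b₀ σ) (Φ (e 1)) z (by rw [← hm, ← map_smul, ← map_sub]; exact (hL _ (hz (e 1))).2)
  have h0 : (z * z - 1) • Φ v' = 0 := by
    have e0 : Φ v' = T *ᵥ Φ (e 1) - d • Φ (e 1) := by rw [hv', map_sub, map_smul, hm]
    rw [e0]
    exact hjoint _ _ (key₁.trans (funext fun i => (map_zero φ₁).symm))
      (key₂.trans (funext fun i => (map_zero φ₂).symm))
  rw [← map_smul, LinearEquiv.map_eq_zero_iff] at h0
  have h1 := congrArg (fun v => e.repr v 1) h0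
  obtain ⟨c', hc'⟩ := Submodule.mem_span_singleton.mp (hI τ hτ (e 1))
  rw [show v' = c' • e 0 + (1 - d) • e 1 by rw [hv', hc', sub_smul, one_smul]; abel] at h1
  simp at h1
  exact sub_eq_zero.1 ((hd1.neg.mul_left_eq_zero).1 (by linear_combination h1))

section ToRep

variable {ru : Gal →* M2 A}

/-- Flatness of a matrix representation from flatness after two jointly injective maps. -/
theorem isFlatAt_toRep_of_joint [IsNoetherianRing A] (φ₁ : A →+* R₁) (φ₂ : A →+* R₂)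
    (h₁ : IsLocalHom φ₁) (h₂ : IsLocalHom φ₂)
    (hinj : ∀ a, φ₁ a = 0 → φ₂ a = 0 → a = 0) (hfin₁ : φ₁.Finite) (hfin₂ : φ₂.Finite)
    (hc : IsCont ru) (hf₁ : (toRep (mapM φ₁ ru) (hc.map φ₁ h₁)).IsFlatAt p)
    (hf₂ : (toRep (mapM φ₂ ru) (hc.map φ₂ h₂)).IsFlatAt p) : (toRep ru hc).IsFlatAt p :=
  isFlatAt_of_joint φ₁ φ₂ h₁ h₂ hinj hfin₁ hfin₂ _
    (Assembly.isFlatAt_of_isEquiv (isEquiv_symm (isEquiv_baseChangeAlong_toRep φ₁ h₁ ru hc)) hf₁)
    (Assembly.isFlatAt_of_isEquiv (isEquiv_symm (isEquiv_baseChangeAlong_toRep φ₂ h₂ ru hc)) hf₂)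

/-- Strict ordinarity of a matrix representation from that after two jointly injective maps. -/
theorem isStrictOrdinaryAt_toRep_of_joint [IsNoetherianRing A] [IsNoetherianRing R₁]
    [IsNoetherianRing R₂] [Fact p.Prime] (hp2 : p ≠ 2) (φ₁ : A →+* R₁) (φ₂ : A →+* R₂)
    (h₁ : IsLocalHom φ₁) (h₂ : IsLocalHom φ₂)
    (hinj : ∀ a, φ₁ a = 0 → φ₂ a = 0 → a = 0)
    (hc : IsCont ru) (hdet : (toRep ru hc).DetIsCyclotomic p)
    (hs₁ : (toRep (mapM φ₁ ru) (hc.map φ₁ h₁)).IsStrictOrdinaryAt p)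
    (hs₂ : (toRep (mapM φ₂ ru) (hc.map φ₂ h₂)).IsStrictOrdinaryAt p) :
    (toRep ru hc).IsStrictOrdinaryAt p :=
  isStrictOrdinaryAt_of_joint hp2 φ₁ φ₂ h₁ h₂ hinj _ hdet
    (isStrictOrdinaryAt_of_isEquiv (isEquiv_symm (isEquiv_baseChangeAlong_toRep φ₁ h₁ ru hc)) hs₁)
    (isStrictOrdinaryAt_of_isEquiv (isEquiv_symm (isEquiv_baseChangeAlong_toRep φ₂ h₂ ru hc)) hs₂)

end ToRep

end Fermat.Agent.RT.Lift
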