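import Fermat.Agent.RT.Lift.Levels.JointAtP
import Fermat.Agent.RT.Lift.Levels.Joint
import Fermat.Agent.RT.Lift.Lower.Strict

/-!
# Ordinarity of joint lifts

A representation which is ordinary after two jointly injective local maps is ordinary.
-/

set_option autoImplicit false
set_option linter.style.haveILetI false
set_option linter.unusedSectionVars false
set_option maxHeartbeats 800000

noncomputable section

namespace Fermat.Agent.RT.Lift

open IsLocalRing Module Fermat.Agent.Deform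
open scoped TensorProduct Matrix
open Fermat.Agent.FiniteFlat (GalOrder)
open Fermat.Agent.Arith (GQ QBar)

variable {A R₁ R₂ : Type} [CommRing A] [IsLocalRing A] [CommRing R₁] [IsLocalRing R₁] [CommRing R₂]
  [IsLocalRing R₂] {p : ℕ}

/-- Equal matrices give the same ordinarity. -/
theorem isOrdinaryAt_congr {C : Type} [CommRing C] [IsLocalRing C] {r r' : Gal →* M2 C}
    (e : r = r') {hc : IsCont r} {hc' : IsCont r'} (h : (toRep r' hc').IsOrdinaryAt p) :
    (toRep r hc).IsOrdinaryAt p := by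
  subst e; exact h

/-- The joint lift of two ordinary lifts is ordinary. -/
theorem JointLift.isOrdinaryAt [Fact p.Prime] {O : Type} [CommRing O] [IsDomain O]
    [IsDiscreteValuationRing O] [IsAdicComplete (maximalIdeal O) O] {B C : Type} [CommRing B]
    [IsLocalRing B] [Algebra O B] [CommRing C] [IsLocalRing C] [Algebra O C] {W : Rigid O}
    {r₁ : Gal →* M2 B} {r₂ : Gal →* M2 C} (Jl : JointLift (W := W) r₁ r₂) (hp2 : p ≠ 2)
    {hc₁ : IsCont r₁} {hc₂ : IsCont r₂} (hdet : (toRep Jl.ru Jl.cont).DetIsCyclotomic p)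
    (h₁ : (toRep r₁ hc₁).IsOrdinaryAt p) (h₂ : (toRep r₂ hc₂).IsOrdinaryAt p) :
    (toRep Jl.ru Jl.cont).IsOrdinaryAt p :=
  isOrdinaryAt_of_joint hp2 (Jl.fst : Jl.J →+* B) (Jl.snd : Jl.J →+* C) Jl.isLocalHom_fst
    Jl.isLocalHom_snd (fun _ e₁ e₂ => Jl.ext (e₁.trans (map_zero Jl.fst).symm)
      (e₂.trans (map_zero Jl.snd).symm)) _ hdet
    (Lower.isOrdinaryAt_of_isEquiv (isEquiv_symm (isEquiv_baseChangeAlong_toRep
      (Jl.fst : Jl.J →+* B) Jl.isLocalHom_fst Jl.ru Jl.cont)) (isOrdinaryAt_congr Jl.map_fst h₁))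
    (Lower.isOrdinaryAt_of_isEquiv (isEquiv_symm (isEquiv_baseChangeAlong_toRep
      (Jl.snd : Jl.J →+* C) Jl.isLocalHom_snd Jl.ru Jl.cont)) (isOrdinaryAt_congr Jl.map_snd h₂))

end Fermat.Agent.RT.Lift
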