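import Fermat.Agent.RT.Lift.Levels.LastFrame
import Fermat.Agent.RT.Lift.Levels.JointAtP
import Fermat.Agent.RT.Lift.Lower.Strict

/-!
# The curve at a multiplicative `p`

The residual representation is ordinary at `p` and the unit root of the curve has square one.
-/

set_option autoImplicit false
set_option linter.style.haveILetI false
set_option linter.unusedSectionVars false
set_option synthInstance.maxHeartbeats 200000
set_option maxHeartbeats 800000

noncomputable section

namespace Fermat.Agent.RT.Lift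

open IsLocalRing Module WeierstrassCurve
open Fermat.Agent.Deform Fermat.Agent.Arith Fermat.Agent.RT.Germ
open scoped Matrix

/-- When `T - d` kills the images of `T - 1` and `F - z`, the formula gives `z`. -/
theorem unitRoot_eq_of_killed {A : Type} [CommRing A] {r : Gal →* M2 A} {F τ : Gal} {z : A}
    (hu : IsUnit ((r τ).det - 1))
    (h1 : (r τ - (r τ).det • (1 : M2 A)) * (r τ - 1) = 0)
    (h2 : (r τ - (r τ).det • (1 : M2 A)) * (r F - z • (1 : M2 A)) = 0) : unitRoot r F τ = z := by
  have hd : IsUnit (r τ).det := ((Group.isUnit τ).map r).map Matrix.detMonoidHom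
  have a00 := congrFun (congrFun h1 0) 0
  have a01 := congrFun (congrFun h1 0) 1
  have a10 := congrFun (congrFun h1 1) 0
  have a11 := congrFun (congrFun h1 1) 1
  have b00 := congrFun (congrFun h2 0) 0
  have b11 := congrFun (congrFun h2 1) 1
  have htr : (r τ).trace = (r τ).det + 1 := by
    -- by Cayley–Hamilton `(trace - det - 1) τ = 0`
    set T := r τ with hT
    simp only [Matrix.mul_apply, Fin.sum_univ_two, Matrix.sub_apply, Matrix.smul_apply,
      Matrix.one_apply_eq, Matrix.one_apply_ne (zero_ne_one : (0 : Fin 2) ≠ 1),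
      Matrix.one_apply_ne (one_ne_zero : (1 : Fin 2) ≠ 0), smul_eq_mul, Matrix.zero_apply,
      mul_one, mul_zero, sub_zero] at a00 a01 a10 a11
    refine sub_eq_zero.1 (hd.mul_left_eq_zero.1 ?_)
    have e00 : (T.trace - (T.det + 1)) * T 0 0 = 0 := by
      rw [Matrix.trace_fin_two, Matrix.det_fin_two] at *
      linear_combination a00
    have e10 : (T.trace - (T.det + 1)) * T 1 0 = 0 := by
      rw [Matrix.trace_fin_two, Matrix.det_fin_two] at *
      linear_combination a10
    rw [Matrix.det_fin_two T]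
    rw [Matrix.det_fin_two T] at e00 e10
    linear_combination T 1 1 * e00 - T 0 1 * e10
  have key : (r τ).det * (r F).trace - (r (F * τ)).trace = ((r τ).det - 1) * z := by
    simp only [Matrix.mul_apply, Fin.sum_univ_two, Matrix.sub_apply, Matrix.smul_apply,
      Matrix.one_apply_eq, Matrix.one_apply_ne (zero_ne_one : (0 : Fin 2) ≠ 1),
      Matrix.one_apply_ne (one_ne_zero : (1 : Fin 2) ≠ 0), smul_eq_mul, Matrix.zero_apply,
      mul_one, mul_zero, sub_zero] at b00 b11
    rw [Matrix.trace_fin_two] at htr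
    rw [map_mul, Matrix.trace_fin_two, Matrix.trace_fin_two, Matrix.mul_apply, Matrix.mul_apply,
      Fin.sum_univ_two, Fin.sum_univ_two]
    linear_combination -b00 - b11 - z * htr
  rw [unitRoot, key, ← mul_assoc, Ring.inverse_mul_cancel _ hu, one_mul]

variable {O : Type} [CommRing O] [IsDomain O] [IsDiscreteValuationRing O]
  [IsAdicComplete (maximalIdeal O) O] [Finite (ResidueField O)] [CharZero O]
  {K : Type*} [NontriviallyNormedField K] [IsUltrametricDist K] [CompleteSpace K]
  {φ : O →+* ball1 K}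
  {p : ℕ} [Fact p.Prime] [CharP (ResidueField O) p] {W : WeierstrassCurve ℤ} {M R : ℕ}

theorem Frame.dvd_Δ (_F : Frame p W M R φ) (hΔ : W.Δ ≠ 0) (hpW : p ∣ W.conductorLevel) :
    (p : ℤ) ∣ W.Δ :=
  (W.prime_dvd_conductorLevel_iff hΔ Fact.out).1 hpW

/-- **The residual representation is ordinary at a multiplicative `p`.** -/
theorem Frame.isOrdinaryAt_residual (F : Frame p W M R φ) (hΔ : W.Δ ≠ 0)
    (hpW : p ∣ W.conductorLevel) :
    (GaloisRepAdic.ofResidualGaloisRep F.X.ρbar).IsOrdinaryAt p := by
  have hresW : (GaloisRepAdic.ofResidualGaloisRep (toRep F.rW F.cont).residual).IsOrdinaryAt p := by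
    have h := Lower.isOrdinaryAt_adicBaseChange (residue O) inferInstance
      (F.point.strictOrdinary (F.dvd_Δ hΔ hpW)).isOrdinaryAt
    exact Lower.isOrdinaryAt_of_isEquiv ⟨{ toLinearEquiv := LinearEquiv.refl _ _
                                           map_apply := fun _ _ => rfl }⟩ h
  obtain ⟨B₀, hB₀⟩ := Glue.toMatrix_residual_toRep F.cont
  have := (isResAlg_self O).isLocalHom
  have hid : ∀ x : ResidueField O, ResidueField.map (algebraMap O O) x = x := fun x => by
    obtain ⟨x, rfl⟩ := residue_surjective x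
    rw [ResidueField.map_residue]
    rfl
  obtain ⟨e⟩ := Glue.isEquiv_of_toMatrix B₀ F.X.bb fun σ => by
    rw [hB₀]
    have h1 := DFunLike.congr_fun ((lifts_iff _ _).1 F.lifts) σ
    ext i j
    have h2 := congrFun (congrFun h1 i) j
    rw [mapM_apply, mapM_apply, hid, F.X.rigid_rb] at h2
    rw [Matrix.map_apply]
    exact h2
  exact Lower.isOrdinaryAt_of_isEquiv
    (ρ₁ := GaloisRepAdic.ofResidualGaloisRep (toRep F.rW F.cont).residual)
    (ρ₂ := GaloisRepAdic.ofResidualGaloisRep F.X.ρbar)
    ⟨{ toLinearEquiv := e.toLinearEquiv, map_apply := e.map_apply }⟩ hresW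

/-- **The unit root of the curve has square one.** -/
theorem Frame.unitRoot_mul_self (F : Frame p W M R φ) (hΔ : W.Δ ≠ 0) (hpW : p ∣ W.conductorLevel)
    (d : RootData p) : unitRoot F.rW d.F d.τ * unitRoot F.rW d.F d.τ = 1 := by
  have hP := CFT.Local.padicPlace_liesOverPrime p
  have hloc : IsLocalHom (RingHom.id O) := ⟨fun _ ha => ha⟩
  obtain ⟨L, hI, hD, hτ⟩ := strict_facts (RingHom.id O) hloc F.point.detCyclotomic
    (CFT.Tangent.IsStrictOrdinaryAt.baseChange (RingHom.id O) hloc
      (F.point.strictOrdinary (F.dvd_Δ hΔ hpW))) (Pi.basisFun O (Fin 2)) hP d.mem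
  have hm : ∀ σ, (matOf (toRep F.rW F.cont) (Pi.basisFun O (Fin 2)) σ).map (RingHom.id O) =
      F.rW σ := fun σ => by
    rw [matOf_toRep]
    exact Matrix.ext fun _ _ => rfl
  simp only [hm, show LinearMap.det ((toRep F.rW F.cont).ρ d.τ) = (F.rW d.τ).det from
    LinearMap.det_toLin' _, RingHom.id_apply] at hI hD hτ
  obtain ⟨-, z, hz, hzL⟩ := hD d.F d.frob.mem_decompositionSubgroup
  rw [unitRoot_eq_of_killed (z := z) (d.isUnit_det F.point.detCyclotomic) ?_ ?_]
  · exact hz
  all_goals
    refine Matrix.ext_iff_mulVec.2 fun w => ?_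
    rw [← Matrix.mulVec_mulVec, Matrix.zero_mulVec, Matrix.sub_mulVec, Matrix.smul_mulVec,
      Matrix.one_mulVec, hτ, sub_self]
    rw [Matrix.sub_mulVec]
  · rw [Matrix.one_mulVec]; exact hI d.τ d.mem w
  · rw [Matrix.smul_mulVec, Matrix.one_mulVec]; exact hzL w

end Fermat.Agent.RT.Lift
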