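import Fermat.Agent.RT.Lift.Levels.Family
import Fermat.Agent.RT.Lift.Lower.Strict
import Fermat.Agent.RT.Lift.Levels.CurveLocal

/-!
# The levels of a family at `p` and outside their new primes

Flatness at `p` prime to the level, strict ordinarity of the top level at `p` dividing it, and the
inertia at the primes of the levels other than the Taylor–Wiles primes.
-/

set_option autoImplicit false
set_option linter.style.haveILetI false
set_option linter.unusedSectionVars false
set_option synthInstance.maxHeartbeats 200000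

noncomputable section

namespace Fermat.Agent.RT.Lift

open IsLocalRing Module WeierstrassCurve
open Fermat.Agent.Deform Fermat.Agent.Arith Fermat.Agent.RT.Germ

local notation "Q̄" => AlgebraicClosure ℚ

variable {O : Type} [CommRing O] [IsDomain O] [IsDiscreteValuationRing O]
  [IsAdicComplete (maximalIdeal O) O] [Finite (ResidueField O)] [CharZero O]
  {K : Type*} [NontriviallyNormedField K] [IsUltrametricDist K] [CompleteSpace K]
  {φ : O →+* ball1 K}
  {p : ℕ} [Fact p.Prime] [CharP (ResidueField O) p] {W : WeierstrassCurve ℤ} {M R : ℕ}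

namespace RaiseSetting

variable (X : RaiseSetting O p W M R)

include X

theorem not_p_dvd_R : ¬ p ∣ R := fun h => (X.aux p Fact.out h).1 rfl

theorem not_p_dvd_levelOf {r' : ℕ} {q : Fin r' → ℕ} (hq : ∀ i, (q i).Prime)
    (hqS : ∀ i, q i ∉ badSet W p R) (hpM : ¬ p ∣ M) (B : Finset (Places W p M)) :
    ¬ p ∣ levelOf R q B := by
  have hp : p.Prime := Fact.out
  intro h
  rcases hp.dvd_mul.1 h with h1 | h1
  · rcases hp.dvd_mul.1 h1 with h2 | h2
    · rcases hp.dvd_mul.1 h2 with h3 | h3
      exacts [hpM h3, X.not_p_dvd_R h3]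
    · obtain ⟨i, -, hi⟩ := hp.prime.exists_mem_finset_dvd h2
      exact hqS i ((Nat.prime_dvd_prime_iff_eq hp (hq i)).1 hi ▸ Finset.mem_insert_self _ _)
  · obtain ⟨v, -, hv⟩ := hp.prime.exists_mem_finset_dvd h1
    exact v.ne ((Nat.prime_dvd_prime_iff_eq hp v.prime).1 hv).symm

/-- When `p ∣ M`, the primes of `M` and all places give the conductor level. -/
theorem mul_placeProd_univ (hpM : p ∣ M) :
    M * placeProd (Finset.univ : Finset (Places W p M)) = W.conductorLevel := by
  refine Nat.dvd_antisymm (X.placeProd_mul_dvd _) ?_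
  rw [← Nat.prod_primeFactors_of_squarefree W.squarefree_conductorLevel]
  refine Finset.prod_primes_dvd _ (fun q hq => (Nat.prime_of_mem_primeFactors hq).prime)
    fun q hq => ?_
  by_cases hqM : q ∣ M
  · exact hqM.mul_right _
  · have hqp : q ≠ p := fun h => hqM (h ▸ hpM)
    exact dvd_mul_of_dvd_right (Finset.dvd_prod_of_mem (fun v : Places W p M => (v : ℕ))
      (Finset.mem_univ (⟨q, Finset.mem_filter.2 ⟨hq, hqp, hqM⟩⟩ : Places W p M))) M

/-- No congruent form has the level of all places with `p` removed. -/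
theorem not_congruent_levelOf_div {r' : ℕ} {q : Fin r' → ℕ} (hinj : Function.Injective q)
    (hq : ∀ i, (q i).Prime) (hqS : ∀ i, q i ∉ badSet W p R)
    (hq1 : ∀ i, p ∣ q i - 1) (hdist : ∀ i, ∀ A : ValuationSubring Q̄, A.LiesOverPrime (q i) →
      ∀ φ : Gal, A.IsFrobeniusAt φ (q i) → ∃ α β : ResidueField O, α ≠ β ∧
        (matRes X.ρbar X.bb φ).trace = α + β ∧ (matRes X.ρbar X.bb φ).det = α * β)
    (hpM : p ∣ M) (S : Finset ℕ) :
    ¬ IsCongruentLevel S (curveAbar W : ℕ → ResidueField O)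
      (levelOf R q (Finset.univ : Finset (Places W p M)) / p) := by
  classical
  have hp : p.Prime := Fact.out
  intro hcong
  set C := W.conductorLevel / p
  have hpC : p ∣ W.conductorLevel := hpM.trans X.level_dvd
  have hlev : levelOf R q (Finset.univ : Finset (Places W p M)) = p * (C * (R * ∏ i, q i)) := by
    rw [levelOf, baseLevel, show M * R * (∏ i, q i) * placeProd (Finset.univ : Finset (Places W p M))
      = M * placeProd (Finset.univ : Finset (Places W p M)) * (R * ∏ i, q i) by ring,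
      X.mul_placeProd_univ hpM, ← mul_assoc p, Nat.mul_div_cancel' hpC]
  have hsq : Squarefree (C * (R * ∏ i, q i)) :=
    (X.squarefree_levelOf hinj hq hqS Finset.univ).squarefree_of_dvd (hlev ▸ dvd_mul_left _ p)
  rw [hlev, Nat.mul_div_cancel_left _ hp.pos] at hcong
  set S' := S ∪ (C * (R * ∏ i, q i)).primeFactors
  have hS' : ∀ l : ℕ, l.Prime → l ∣ C * (R * ∏ i, q i) → l ∈ S' := fun l hl hd =>
    Finset.mem_union_right _ (Nat.mem_primeFactors.2 ⟨hl, hd, hsq.ne_zero⟩)
  obtain ⟨N, hN, g, hg, hgc⟩ := Assembly.exists_newform_congruent hsq.ne_zero hS'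
    (hcong.imp fun f hf => Assembly.isCongruentForm_mono Finset.subset_union_left hf)
  have hNsq : Squarefree N := hsq.squarefree_of_dvd hN
  have hNR : N.Coprime (R * ∏ i, q i) := Nat.Coprime.mul_right
    (Nat.coprime_of_dvd fun l hl hlN hlR => by
      obtain ⟨hlp, haux⟩ := X.aux l hl hlR
      have : NeZero N := ⟨hNsq.ne_zero⟩
      obtain ⟨A, hA⟩ := Arith.exists_liesOverPrime (q := l) hl
      obtain ⟨σ, hσ⟩ := Arith.exists_isFrobeniusAt hA hl
      exact haux A hA σ hσ (X.special S' N g hg hgc l hl hlp hlN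
        (fun h => hl.not_isUnit (hNsq l (by rwa [← sq]))) A hA σ hσ))
    (Nat.Coprime.prod_right fun i _ => ((hq i).coprime_iff_not_dvd.2
      (Assembly.not_dvd_level_of_distinct X.det_cyclotomic X.bb (fun S N => X.special S N) (hq i)
        (hq1 i) (hdist i) hg hgc hNsq)).symm)
  refine X.minimal_p hpM (S' ∪ C.primeFactors) (isCongruentLevel_of_dvd Finset.subset_union_left
    (W.squarefree_conductorLevel.squarefree_of_dvd (Nat.div_dvd_of_dvd hpC))
    (hNR.dvd_of_dvd_mul_right hN) (fun l hl hd => Finset.mem_union_right _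
      (Nat.mem_primeFactors.2 ⟨hl, hd, ?_⟩)) ⟨g, hgc⟩)
  exact left_ne_zero_of_mul hsq.ne_zero

/-- The residual value of a trace of Frobenius at an auxiliary prime. -/
theorem isUnit_trace_sq_sub {A : Type} [CommRing A] [IsLocalRing A] [Algebra O A]
    {hA' : IsResAlg O A} {r : Gal →* M2 A} (hl : Lifts X.rigid hA' r) {q : ℕ} (hq : q.Prime)
    (hqR : q ∣ R) {P : ValuationSubring Q̄} (hP : P.LiesOverPrime q) {σ : Gal}
    (hσ : P.IsFrobeniusAt σ q) : IsUnit ((r σ).trace ^ 2 - ((q : A) + 1) ^ 2) := by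
  have := hA'.isLocalHom
  have hm : ∀ i j, residue A (r σ i j) =
      ResidueField.map (algebraMap O A) (X.rigid.rb σ i j) := fun i j => by
    have h := congrFun (congrFun (DFunLike.congr_fun ((lifts_iff hA' r).1 hl) σ) i) j
    rwa [mapM_apply, mapM_apply] at h
  refine (isUnit_map_iff (residue A) _).1 (isUnit_iff_ne_zero.2 fun h => ?_)
  have e : residue A ((r σ).trace ^ 2 - ((q : A) + 1) ^ 2) = ResidueField.map (algebraMap O A)
      ((X.rigid.rb σ).trace ^ 2 - ((q : ResidueField O) + 1) ^ 2) := by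
    simp only [map_sub, map_pow, map_add, map_natCast, map_one, Matrix.trace_fin_two, hm]
  rw [e, map_eq_zero, X.rigid_rb, sub_eq_zero] at h
  refine (X.aux q hq hqR).2 P hP σ hσ ?_
  rw [LinearMap.trace_eq_matrix_trace _ X.bb]
  exact h

end RaiseSetting

namespace LevelFamily

variable {F : Frame p W M R φ} {n : ℕ} (Φ : LevelFamily F n)

/-- The character is trivial at the primes of a level other than the Taylor–Wiles primes. -/
theorem psi_eq_one_of_ne (B : Finset (Places W p M)) {q : ℕ} (hq : q.Prime)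
    (hqv : ∀ i, F.qv n i ≠ q) (hd : q ∣ F.lev n B) (u : (ZMod (F.lev n B))ˣ)
    (hu : ((u : ZMod (F.lev n B)).cast : ZMod (F.lev n B / q)) = 1) : Φ.psi B u = 1 :=
  psiAt_eq_one hq (F.base_dvd n B) hd (fun h => Φ.tw.eq_one q hqv hq h) u hu

/-- **The levels prime to `p` are flat.** -/
theorem isFlatAt (hpM : ¬ p ∣ M) (B : Finset (Places W p M)) :
    (toRep (Φ.lvl B).rep.ru (Φ.lvl B).rep.cont).IsFlatAt p :=
  (Φ.lvl B).rep.isFlatAt F.p_mem (isPGroup_twGroup n)
    (F.X.not_p_dvd_levelOf (F.tw n).prime (F.tw n).notMem hpM B)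

/-- **The top level divisible by `p` is strictly ordinary.** -/
theorem isStrictOrdinaryAt_univ (hΔ : W.Δ ≠ 0) (hp2 : p ≠ 2) (hpM : p ∣ M) :
    (toRep (Φ.lvl Finset.univ).rep.ru (Φ.lvl Finset.univ).rep.cont).IsStrictOrdinaryAt p := by
  classical
  have hp : p.Prime := Fact.out
  set L := F.lev n (Finset.univ : Finset (Places W p M))
  set Y := (Φ.lvl Finset.univ).rep
  have hpL : p ∣ L := dvd_mul_of_dvd_left (dvd_mul_of_dvd_left (hpM.mul_right R) _) _
  have hψ := fun u hu => Φ.psi_eq_one_of_ne Finset.univ hp (F.qv_ne n) hpL u hu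
  have hnew : ∀ θ, p ∣ (Y.pt θ).M := fun θ => by
    by_contra h
    exact F.X.not_congruent_levelOf_div (F.tw n).injective (F.tw n).prime (F.tw n).notMem
      (fun i => (dvd_pow_self p n.succ_ne_zero).trans ((F.tw n).dvd i))
      (fun i A hA σ hσ => by rw [← F.X.rigid_rb]; exact (F.tw n).distinct i A hA σ hσ) hpM _
      ((Y.pt θ).congruent p hp hpL h)
  have hpW : (p : ℤ) ∣ W.Δ :=
    (W.prime_dvd_conductorLevel_iff hΔ hp).1 (hpM.trans F.X.level_dvd)
  -- the residual representation is ordinary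
  have hresW : (GaloisRepAdic.ofResidualGaloisRep (toRep F.rW F.cont).residual).IsOrdinaryAt p := by
    have h := Lower.isOrdinaryAt_adicBaseChange (residue O) inferInstance
      (F.point.strictOrdinary hpW).isOrdinaryAt
    exact Lower.isOrdinaryAt_of_isEquiv ⟨{ toLinearEquiv := LinearEquiv.refl _ _
                                           map_apply := fun _ _ => rfl }⟩ h
  obtain ⟨B₀, hB₀⟩ := Glue.toMatrix_residual_toRep F.cont
  have hres : (GaloisRepAdic.ofResidualGaloisRep (toRep Y.ru Y.cont).residual).IsOrdinaryAt p := by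
    have := Y.isResAlg.isLocalHom
    refine Lower.isOrdinaryAt_residual_of_matrices
      (ResidueField.map (algebraMap O (Φ.lvl Finset.univ).N.H.algebra)) B₀ Y.cont (fun σ => ?_) hresW
    have hid : ∀ x : ResidueField O, ResidueField.map (algebraMap O O) x = x := fun x => by
      obtain ⟨x, rfl⟩ := residue_surjective x
      rw [ResidueField.map_residue]
      rfl
    have := (isResAlg_self O).isLocalHom
    rw [hB₀]
    ext i j
    have h1 := congrFun (congrFun (DFunLike.congr_fun ((lifts_iff _ _).1 Y.lifts) σ) i) j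
    have h2 := congrFun (congrFun (DFunLike.congr_fun ((lifts_iff _ _).1 F.lifts) σ) i) j
    rw [mapM_apply, mapM_apply] at h1 h2
    rw [Matrix.map_apply, Matrix.map_apply, Matrix.map_apply, h1, h2, hid]
  have : IsNoetherianRing (Φ.lvl Finset.univ).N.H.algebra := IsNoetherianRing.of_finite O _
  refine Lower.isStrictOrdinaryAt_toRep Y.G
    (by have := hp.two_le; omega) (F.p_mem_ops n) hpL hψ hnew (AlgHom.id O _)
    Function.injective_id ⟨fun a ha => ha⟩ Y.cont (fun σ => ?_) (fun σ => ?_)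
    (Y.detIsCyclotomic F.p_mem (isPGroup_twGroup n)) hres
  · rw [Y.G.trace_rep]; exact Y.trace_eq σ
  · rw [Y.G.det_rep]; exact Y.det_eq σ

/-- Inertia is trivial away from `p`, `M`, the places of the level and the Taylor–Wiles primes. -/
theorem inertia_eq_one (B : Finset (Places W p M)) {q : ℕ} (hq : q.Prime) (hqp : q ≠ p)
    (hqM : ¬ q ∣ M) (hqB : ∀ v ∈ B, (v : ℕ) ≠ q) (hqv : ∀ i, F.qv n i ≠ q)
    {A : ValuationSubring Q̄} (hA : A.LiesOverPrime q) {σ : Gal}
    (hσ : σ ∈ A.inertiaSubgroupIn ℚ) : (Φ.lvl B).rep.ru σ = 1 := by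
  by_cases hd : q ∣ F.lev n B
  swap
  · exact (Φ.lvl B).rep.inertia_eq_one_of_not_dvd hq hqp hd hA hσ
  have hqR : q ∣ R := by
    rcases hq.dvd_mul.1 hd with h1 | h1
    · rcases hq.dvd_mul.1 h1 with h2 | h2
      · exact (hq.dvd_mul.1 h2).resolve_left hqM
      · obtain ⟨i, -, hi⟩ := hq.prime.exists_mem_finset_dvd h2
        exact absurd ((Nat.prime_dvd_prime_iff_eq hq ((F.tw n).prime i)).1 hi).symm (hqv i)
    · obtain ⟨v, hv, hv'⟩ := hq.prime.exists_mem_finset_dvd h1
      exact absurd ((Nat.prime_dvd_prime_iff_eq hq v.prime).1 hv').symm (hqB v hv)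
  obtain ⟨s, hs⟩ := Arith.exists_isFrobeniusAt hA hq
  refine (Φ.lvl B).rep.inertia_eq_one hq hqp (fun θ => ?_) hA hσ
  exact (Φ.lvl B).rep.not_dvd_of_isUnit hq hd hqp (Φ.psi_eq_one_of_ne B hq hqv hd) hA hs
    (F.X.isUnit_trace_sq_sub (Φ.lvl B).rep.lifts hq hqR hA hs) θ

/-- Inertia is unipotent at the primes of `M` other than `p` and at the places of the level. -/
theorem inertia_unipotent (B : Finset (Places W p M)) {q : ℕ} (hq : q.Prime) (hqp : q ≠ p)
    (h : q ∣ M ∨ ∃ v ∈ B, (v : ℕ) = q) {A : ValuationSubring Q̄} (hA : A.LiesOverPrime q)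
    {σ : Gal} (hσ : σ ∈ A.inertiaSubgroupIn ℚ) :
    ((Φ.lvl B).rep.ru σ).trace = 2 ∧ ((Φ.lvl B).rep.ru σ).det = 1 := by
  have hqc : q ∣ W.conductorLevel := by
    rcases h with h | ⟨v, -, rfl⟩
    exacts [h.trans F.X.level_dvd, v.dvd]
  have hd : q ∣ F.lev n B := by
    rcases h with h | ⟨v, hv, rfl⟩
    · exact dvd_mul_of_dvd_left (dvd_mul_of_dvd_left (h.mul_right R) _) _
    · exact dvd_mul_of_dvd_right (Finset.dvd_prod_of_mem _ hv) _
  exact (Φ.lvl B).rep.unipotent hq hd hqp (Φ.psi_eq_one_of_ne B hq (fun i hi =>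
    (F.tw n).notMem i (hi ▸ F.X.primeFactors_subset hq (hqc.mul_right R))) hd) hA hσ

end LevelFamily

end Fermat.Agent.RT.Lift
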