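import Fermat.Agent.RT.Lift.Levels.TopCoords
import Fermat.Agent.RT.Lift.Levels.TopAtP
import Fermat.Agent.RT.Lift.Levels.JointAtP

/-!
# The conditions on the top level when there is no flip at `p`

If `p` is good, or divides the congruent level, the joint lift of the top level and the marked
point is flat resp. strictly ordinary at `p`.
-/

set_option autoImplicit false
set_option maxHeartbeats 1000000
set_option synthInstance.maxHeartbeats 200000
set_option linter.style.haveILetI false
set_option linter.unusedSectionVars false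

noncomputable section

namespace Fermat.Agent.RT.Lift

open IsLocalRing Module WeierstrassCurve
open Fermat.Agent.Deform Fermat.Agent.Arith Fermat.Agent.RT.Germ

local notation "Q̄" => AlgebraicClosure ℚ

variable {O : Type} [CommRing O] [IsDomain O] [IsDiscreteValuationRing O]
  [IsAdicComplete (maximalIdeal O) O]

section Joint

variable {A B : Type} [CommRing A] [IsLocalRing A] [Algebra O A] [Module.Finite O A] [CommRing B]
  [IsLocalRing B] [Algebra O B] [Module.Finite O B] {Wr : Rigid O} {r₁ : Gal →* M2 A}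
  {r₂ : Gal →* M2 B} (Jl : JointLift (W := Wr) r₁ r₂) {hc₁ : IsCont r₁} {hc₂ : IsCont r₂} {p : ℕ}

theorem isFlatAt_congr {C : Type} [CommRing C] [IsLocalRing C] {r r' : Gal →* M2 C} (e : r = r')
    {hc : IsCont r} {hc' : IsCont r'} (h : (toRep r' hc').IsFlatAt p) :
    (toRep r hc).IsFlatAt p := by
  subst e; exact h

theorem isStrictOrdinaryAt_congr [Fact p.Prime] {C : Type} [CommRing C] [IsLocalRing C]
    {r r' : Gal →* M2 C} (e : r = r')
    {hc : IsCont r} {hc' : IsCont r'} (h : (toRep r' hc').IsStrictOrdinaryAt p) :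
    (toRep r hc).IsStrictOrdinaryAt p := by
  subst e; exact h

theorem JointLift.finite_fst : (Jl.fst : Jl.J →+* A).Finite :=
  RingHom.Finite.of_comp_finite (f := algebraMap O Jl.J) (by
    rw [AlgHom.comp_algebraMap]
    exact RingHom.finite_algebraMap.2 inferInstance)

theorem JointLift.finite_snd : (Jl.snd : Jl.J →+* B).Finite :=
  RingHom.Finite.of_comp_finite (f := algebraMap O Jl.J) (by
    rw [AlgHom.comp_algebraMap]
    exact RingHom.finite_algebraMap.2 inferInstance)

theorem JointLift.eq_zero {a : Jl.J} (h₁ : Jl.fst a = 0) (h₂ : Jl.snd a = 0) : a = 0 :=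
  Jl.ext (h₁.trans (map_zero _).symm) (h₂.trans (map_zero _).symm)

/-- The joint lift of two flat lifts is flat. -/
theorem JointLift.isFlatAt (h₁ : (toRep r₁ hc₁).IsFlatAt p) (h₂ : (toRep r₂ hc₂).IsFlatAt p) :
    (toRep Jl.ru Jl.cont).IsFlatAt p :=
  isFlatAt_toRep_of_joint (Jl.fst : Jl.J →+* A) (Jl.snd : Jl.J →+* B) Jl.isLocalHom_fst
    Jl.isLocalHom_snd (fun _ e₁ e₂ => Jl.eq_zero e₁ e₂) Jl.finite_fst Jl.finite_snd Jl.cont
    (isFlatAt_congr Jl.map_fst h₁) (isFlatAt_congr Jl.map_snd h₂)

/-- The joint lift of two strictly ordinary lifts is strictly ordinary. -/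
theorem JointLift.isStrictOrdinaryAt [Fact p.Prime] (hp2 : p ≠ 2)
    (hdet : (toRep Jl.ru Jl.cont).DetIsCyclotomic p)
    (h₁ : (toRep r₁ hc₁).IsStrictOrdinaryAt p) (h₂ : (toRep r₂ hc₂).IsStrictOrdinaryAt p) :
    (toRep Jl.ru Jl.cont).IsStrictOrdinaryAt p :=
  haveI := IsNoetherianRing.of_finite O A
  haveI := IsNoetherianRing.of_finite O B
  isStrictOrdinaryAt_toRep_of_joint hp2 (Jl.fst : Jl.J →+* A) (Jl.snd : Jl.J →+* B)
    Jl.isLocalHom_fst Jl.isLocalHom_snd (fun _ e₁ e₂ => Jl.eq_zero e₁ e₂) Jl.cont hdet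
    (isStrictOrdinaryAt_congr Jl.map_fst h₁) (isStrictOrdinaryAt_congr Jl.map_snd h₂)

end Joint

variable [Finite (ResidueField O)] [CharZero O]
  {K : Type*} [NontriviallyNormedField K] [IsUltrametricDist K] [CompleteSpace K]
  {φ : O →+* ball1 K}
  {p : ℕ} [Fact p.Prime] [CharP (ResidueField O) p] {W : WeierstrassCurve ℤ} {M R : ℕ}

/-- The levels of all places when no prime of the conductor level is left out. -/
theorem RaiseSetting.mul_placeProd_of_imp (X : RaiseSetting O p W M R)
    (hp : p ∣ W.conductorLevel → p ∣ M) :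
    M * placeProd (Finset.univ : Finset (Places W p M)) = W.conductorLevel := by
  refine Nat.dvd_antisymm (X.placeProd_mul_dvd _) ?_
  rw [← Nat.prod_primeFactors_of_squarefree W.squarefree_conductorLevel]
  refine Finset.prod_primes_dvd _ (fun q hq => (Nat.prime_of_mem_primeFactors hq).prime)
    fun q hq => ?_
  by_cases hqM : q ∣ M
  · exact hqM.mul_right _
  · have hqp : q ≠ p := fun h =>
      hqM (h.symm ▸ hp (h ▸ Nat.dvd_of_mem_primeFactors hq))
    exact dvd_mul_of_dvd_right (Finset.dvd_prod_of_mem (fun v : Places W p M => (v : ℕ))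
      (Finset.mem_univ (⟨q, Finset.mem_filter.2 ⟨hq, hqp, hqM⟩⟩ : Places W p M))) M

variable {F : Frame p W M R φ} {n : ℕ}

theorem Frame.lev_univ (F : Frame p W M R φ) (hp : p ∣ W.conductorLevel → p ∣ M) (n : ℕ) :
    F.lev n Finset.univ = W.conductorLevel * R * ∏ i, F.qv n i := by
  rw [Frame.lev, levelOf, baseLevel, ← F.X.mul_placeProd_of_imp hp]
  ring

/-- **The top level is ready when there is no flip at `p`.** -/
theorem LevelFamily.topReady (Φ : LevelFamily F n) (hΔ : W.Δ ≠ 0) (hp2 : p ≠ 2)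
    (hp : p ∣ W.conductorLevel → p ∣ M) : Φ.TopReady := by
  refine ⟨fun Jl => ?_, fun q hq hqS hqT hqv A hA σ hσ => ?_, fun q hqp hq A hA σ hσ => ?_⟩
  · by_cases hpW : (p : ℤ) ∣ W.Δ
    · have hpM : p ∣ M := hp ((W.prime_dvd_conductorLevel_iff hΔ Fact.out).2 hpW)
      have hdet : (toRep Jl.ru Jl.cont).DetIsCyclotomic p := by
        have := Glue.isAdicComplete_algebra (Φ.lvl Finset.univ).N.H
        exact Jl.detIsCyclotomic F.p_mem (Φ.lvl Finset.univ).rep.cont F.cont
          ((Φ.lvl Finset.univ).rep.detIsCyclotomic F.p_mem (isPGroup_twGroup n))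
          F.point.detCyclotomic
      exact Or.inr (Jl.isStrictOrdinaryAt hp2 hdet (Φ.isStrictOrdinaryAt_univ hΔ hp2 hpM)
        (F.point.strictOrdinary hpW))
    · have hpM : ¬ p ∣ M := fun h => hpW ((W.prime_dvd_conductorLevel_iff hΔ Fact.out).1
        (h.trans F.X.level_dvd))
      exact Or.inl (Jl.isFlatAt (Φ.isFlatAt hpM Finset.univ) (F.point.flat hpW))
  · have hqp : q ≠ p := fun e => hqS (Finset.mem_insert.2 (Or.inl e))
    exact Φ.inertia_eq_one Finset.univ hq hqp
      (fun h => hqS (Finset.mem_insert_of_mem (Nat.mem_primeFactors.2 ⟨hq, h, F.X.ne_zero_M⟩)))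
      (fun v _ e => hqT (e ▸ v.2)) hqv hA hσ
  · have hqpr : q.Prime := by
      rcases hq with h | h
      · exact Nat.prime_of_mem_primeFactors ((Finset.mem_insert.1 h).resolve_left hqp)
      · exact Nat.prime_of_mem_primeFactors (Finset.mem_filter.1 h).1
    refine (Φ.inertia_unipotent Finset.univ hqpr hqp ?_ hA hσ).1
    rcases hq with h | h
    · exact Or.inl (Nat.dvd_of_mem_primeFactors ((Finset.mem_insert.1 h).resolve_left hqp))
    · exact Or.inr ⟨⟨q, h⟩, Finset.mem_univ _, rfl⟩

end Fermat.Agent.RT.Lift
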