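import Fermat.Agent.RT.Lift.Levels.LastFrame
import Fermat.Agent.RT.Lift.Levels.LastCurve
import Fermat.Agent.RT.Lift.Levels.TopReady
import Fermat.Agent.RT.Lift.Levels.JointOrdinary
import Fermat.Agent.RT.Lift.Levels.AtPKills
import Fermat.Agent.RT.Lift.Levels.FlatStrict
import Fermat.Agent.RT.Lift.Levels.BoundSlack
import Fermat.Agent.RT.Lift.Levels.CoordNested

/-!
# Coordinates at the top of the last flip

The joint lift of the level `p` times the level of all places and of the curve, and that of the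
level below, which is flat at `p`: with the values at the places and `w = unit root - ε` killed, the
first order deformations of the latter are one fewer.
-/

set_option autoImplicit false
set_option linter.style.haveILetI false
set_option linter.unusedSectionVars false

noncomputable section

namespace Fermat.Agent.RT.Lift

open IsLocalRing Module WeierstrassCurve MvPowerSeries
open Fermat.Agent.Deform Fermat.Agent.Arith Fermat.Agent.RT.Germ Fermat.Agent.CFT.Tangent
open Fermat.Agent.RT.Assembly (killedDer)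

local notation "Q̄" => AlgebraicClosure ℚ

section Duals

variable {O : Type} [CommRing O] [IsLocalRing O] [Finite (ResidueField O)]
  {R : Type} [CommRing R] [IsLocalRing R] [IsNoetherianRing R]
  [IsAdicComplete (maximalIdeal R) R] [Algebra O R]
  (p : ℕ) [Fact p.Prime] [CharP (ResidueField O) p] {W : Rigid O} {h : IsResAlg O R}
  {ru : Gal →* M2 R}

/-- The bound at `p` for classes with strictly ordinary dual numbers. -/
theorem boundAtP_of_duals (hp2 : p ≠ 2) (hl : Lifts W h ru) (hc : IsCont ru)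
    (hrb : GaloisFactorsThroughFiniteLevel W.rb)
    (hdetrb : ∀ (σ : Gal) (n : ℕ), (∀ μ : QBar, μ ^ p = 1 → σ μ = μ ^ n) →
      (W.rb σ).det = (n : ResidueField O))
    (K : Submodule (ResidueField O) (tangentDer h))
    (hord : ∀ δ ∈ K, letI := dualAlgebra O
      ∃ (ρ : GaloisRepAdic (DualNumber (ResidueField O)))
        (B : Basis (Fin 2) (DualNumber (ResidueField O)) ρ.V), ρ.IsStrictOrdinaryAt p ∧
        ρ.DetIsCyclotomic p ∧
        ∀ σ, matOf ρ B σ = (1 + epsM (tangentCls W h ru δ σ)) * inlM (W.rb σ)) :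
    BoundAtP p W.rb (LinearMap.range ((tangentCls W h ru).comp K.subtype)) := by
  have h2 : (2 : ResidueField O) ≠ 0 := fun h0 => by
    have := (CharP.cast_eq_zero_iff (ResidueField O) p 2).mp (by exact_mod_cast h0)
    exact hp2 ((Nat.prime_dvd_prime_iff_eq Fact.out Nat.prime_two).mp this)
  have := Module.Finite.range ((tangentCls W h ru).comp K.subtype)
  refine finrank_le_ordinary hp2 h2 hrb hdetrb _ ?_ ?_ ?_
  · rintro _ ⟨δ, rfl⟩
    exact tangentCls_mul hl δ.1
  · rintro _ ⟨δ, rfl⟩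
    exact tangentCls_finiteLevel hc δ.1
  · rintro _ ⟨δ, rfl⟩ -
    exact hord δ.1 δ.2

theorem tangentDer_eq_zero_of_sub (δ : tangentDer h) (z : R) (o : O)
    (h0 : δ.1 (z - algebraMap O R o) = 0) : δ.1 z = 0 := by
  have h2 := δ.2.1 (z - algebraMap O R o) (algebraMap O R o)
  rwa [sub_add_cancel, h0, δ.2.2.2, add_zero] at h2

end Duals

/-- A map of an algebra generated by the entries factors onto an algebra generated by the entries
of the image. -/
theorem exists_surjective_lift {O A B T : Type} [CommRing O] [CommRing A] [Algebra O A] [CommRing B]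
    [Algebra O B] [CommRing T] [Algebra O T] {rA : Gal →* M2 A} {rB : Gal →* M2 B}
    (hA : Algebra.adjoin O (entries rA) = ⊤) (hB : Algebra.adjoin O (entries rB) = ⊤)
    (f : A →ₐ[O] T) (ι : B →ₐ[O] T) (hι : Function.Injective ι)
    (h : mapM (f : A →+* T) rA = mapM (ι : B →+* T) rB) :
    ∃ g : A →ₐ[O] B, (∀ a, ι (g a) = f a) ∧ mapM (g : A →+* B) rA = rB ∧ Function.Surjective g := by
  have he : ∀ σ i j, f (rA σ i j) = ι (rB σ i j) := fun σ i j => by
    have e := congrFun (congrFun (DFunLike.congr_fun h σ) i) j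
    rwa [mapM_apply, mapM_apply] at e
  have hrange : ∀ a, f a ∈ ι.range := fun a => by
    have ha : a ∈ (Algebra.adjoin O (entries rA) : Subalgebra O A) := hA ▸ trivial
    suffices h : Algebra.adjoin O (entries rA) ≤ ι.range.comap f from h ha
    refine Algebra.adjoin_le ?_
    rintro _ ⟨⟨σ, i, j⟩, rfl⟩
    exact ⟨rB σ i j, (he σ i j).symm⟩
  let g : A →ₐ[O] B := (AlgEquiv.ofInjective ι hι).symm.toAlgHom.comp (f.codRestrict ι.range hrange)
  have hg : ∀ a, ι (g a) = f a := fun a =>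
    congrArg Subtype.val
      ((AlgEquiv.ofInjective ι hι).apply_symm_apply (f.codRestrict ι.range hrange a))
  have hgr : mapM (g : A →+* B) rA = rB := MonoidHom.ext fun σ => Matrix.ext fun i j => hι (by
    rw [mapM_apply]
    exact (hg _).trans (he σ i j))
  refine ⟨g, hg, hgr, fun b => ?_⟩
  have hb : b ∈ (Algebra.adjoin O (entries rB) : Subalgebra O B) := hB ▸ trivial
  suffices h : Algebra.adjoin O (entries rB) ≤ g.range from h hb
  refine Algebra.adjoin_le ?_
  rintro _ ⟨⟨σ, i, j⟩, rfl⟩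
  exact ⟨rA σ i j, hι ((hg _).trans (he σ i j))⟩

/-- The two projections of a joint lift of a lift with itself agree. -/
theorem JointLift.fst_injective {O A : Type} [CommRing O] [IsDomain O] [IsDiscreteValuationRing O]
    [IsAdicComplete (maximalIdeal O) O] [CommRing A] [IsLocalRing A] [Algebra O A] {W : Rigid O}
    {r : Gal →* M2 A} (Jl : JointLift (W := W) r r) : Function.Injective Jl.fst := fun x y h =>
  Jl.ext h (by
    have e : Jl.snd = Jl.fst := by
      refine AlgHom.ext_of_adjoin_eq_top Jl.gen ?_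
      rintro _ ⟨⟨σ, i, j⟩, rfl⟩
      have e1 := congrFun (congrFun (DFunLike.congr_fun Jl.map_fst σ) i) j
      have e2 := congrFun (congrFun (DFunLike.congr_fun Jl.map_snd σ) i) j
      rw [mapM_apply] at e1 e2
      exact e2.trans e1.symm
    rw [e]; exact h)

variable {O : Type} [CommRing O] [IsDomain O] [IsDiscreteValuationRing O]
  [IsAdicComplete (maximalIdeal O) O] [Finite (ResidueField O)] [CharZero O]
  {K : Type*} [NontriviallyNormedField K] [IsUltrametricDist K] [CompleteSpace K]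
  {φ : O →+* ball1 K}
  {p : ℕ} [Fact p.Prime] [CharP (ResidueField O) p] {W : WeierstrassCurve ℤ} {M R : ℕ}
  {L : LastFrame p W M R φ} {n : ℕ}

/-- The finiteness of a Hecke algebra, stated for its structure of commutative ring, so that the
search does not compare the two semiring structures each time. -/
theorem finite_algebra_commRing {Lv : ℕ} {Δ : Type} [CommGroup Δ] [Finite Δ] {ψ : (ZMod Lv)ˣ →* Δ}
    {S : Finset ℕ} {abar : ℕ → ResidueField O} (H : HeckeModule Lv ψ S abar) :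
    @Module.Finite O H.algebra _
      (CommRing.toCommSemiring (α := H.algebra)).toSemiring.toAddCommMonoid Algebra.toModule :=
  inferInstanceAs (Module.Finite O H.algebra)

attribute [local instance 2000] finite_algebra_commRing

theorem mapM_algHom_comp {A B C : Type} [CommRing A] [Algebra O A] [CommRing B] [Algebra O B]
    [CommRing C] [Algebra O C] (f : B →ₐ[O] C) (g : A →ₐ[O] B) (r : Gal →* M2 A) :
    mapM ((f.comp g : A →ₐ[O] C) : A →+* C) r = mapM (f : B →+* C) (mapM (g : A →+* B) r) :=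
  rfl

/-- The unit root of a point over `O` of a representation, and its deviation from the point. -/
theorem unitRoot_facts_of_point {A : Type} [CommRing A] [IsLocalRing A] [Algebra O A]
    (hA : IsResAlg O A) {r : Gal →* M2 A} {r₀ : Gal →* M2 O} (f : A →ₐ[O] O)
    (hf : mapM (f : A →+* O) r = r₀) {F τ : Gal} (hu : IsUnit ((r τ).det - 1))
    (hε : unitRoot r₀ F τ * unitRoot r₀ F τ = 1) :
    unitRoot r F τ - algebraMap O A (unitRoot r₀ F τ) ∈ maximalIdeal A ∧
      augment hA (unitRoot r F τ) ^ 2 = 1 := by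
  have h := map_unitRoot (F := F) (f : A →+* O) hu
  rw [hf] at h
  have hsnd : f (unitRoot r F τ) = unitRoot r₀ F τ := h
  have hw : unitRoot r F τ - algebraMap O A (unitRoot r₀ F τ) ∈ maximalIdeal A := fun hu => by
    have h1 := hu.map f
    rw [map_sub, hsnd, AlgHom.commutes] at h1
    exact not_isUnit_zero ((sub_self (unitRoot r₀ F τ)) ▸ h1)
  refine ⟨hw, ?_⟩
  have h1 := (augment_eq_zero_iff hA _).2 hw
  rw [map_sub, AlgHom.commutes, sub_eq_zero] at h1
  rw [h1, ← map_pow, sq, hε, map_one]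

theorem lastIncl_coord {κ : Places W p M → Type} [∀ v, Finite (κ v)] {ρ : Type} [Finite ρ]
    (i : LCoord κ ρ) : lastIncl (O := O) (X i) = X (Sum.map id some i) := by
  rw [lastIncl, substAlgHom_X]

section General

variable {F : Frame p W M R φ} {n : ℕ}

theorem Frame.residual_facts (F : Frame p W M R φ) :
    GaloisFactorsThroughFiniteLevel F.X.rigid.rb ∧
      ∀ (σ : Gal) (m : ℕ), (∀ μ : QBar, μ ^ p = 1 → σ μ = μ ^ m) →
        (F.X.rigid.rb σ).det = (m : ResidueField O) := by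
  refine ⟨?_, fun σ m hm => ?_⟩
  · rw [F.X.rigid_rb]; exact CFT.TWPrimes.finiteLevel_matRes F.X.ρbar F.X.bb
  · rw [F.X.rigid_rb]
    exact (LinearMap.det_toMatrix F.X.bb (F.X.ρbar.ρ σ)).trans (F.X.det_cyclotomic σ m hm)

theorem Frame.good_facts (F : Frame p W M R φ) (hΔ : W.Δ ≠ 0) {q : ℕ}
    (hq : q.Prime) (hqS : q ∉ insert p M.primeFactors) (hqT : q ∉ raisePlaces W p M) :
    q ≠ p ∧ ¬ q ∣ M ∧ (∀ v : Places W p M, (v : ℕ) ≠ q) ∧ W.IsGoodPrimeFor q := by
  have hqp : q ≠ p := fun e => hqS (Finset.mem_insert.2 (Or.inl e))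
  have hqM : ¬ q ∣ M := fun h =>
    hqS (Finset.mem_insert_of_mem (Nat.mem_primeFactors.2 ⟨hq, h, F.X.ne_zero_M⟩))
  exact ⟨hqp, hqM, fun v e => hqT (e ▸ v.2), fun hd => hqT (Finset.mem_filter.2
    ⟨Nat.mem_primeFactors.2 ⟨hq, (W.prime_dvd_conductorLevel_iff hΔ hq).2 hd,
      left_ne_zero_of_mul F.X.squarefree.ne_zero⟩, hqp, hqM⟩)⟩

theorem Places.image_val :
    raisePlaces W p M = Finset.univ.image fun v : Places W p M => (v : ℕ) := by
  ext q
  exact ⟨fun h => Finset.mem_image.2 ⟨⟨q, h⟩, Finset.mem_univ _, rfl⟩, fun h => by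
    obtain ⟨v, -, rfl⟩ := Finset.mem_image.1 h; exact v.2⟩

theorem Frame.frob_root (F : Frame p W M R φ) (v : Places W p M)
    (m : ℕ) (μ : QBar) (hμ : μ ^ p ^ m = 1) : (F.place v).F μ = μ ^ (v : ℕ) :=
  GaloisReps.frobenius_apply_root (CFT.Local.padicPlace_liesOverPrime (v : ℕ)) v.prime
    (F.place v).frob hμ fun h =>
      v.ne ((Nat.prime_dvd_prime_iff_eq v.prime Fact.out).1 (v.prime.dvd_of_dvd_pow h))

/-- The values at the places of a joint lift, killing as usual. -/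
def IsPlaceVals {A : Type} [CommRing A] [IsLocalRing A] [Algebra O A] (F : Frame p W M R φ)
    (hA : IsResAlg O A) (r : Gal →* M2 A) (c : ∀ v : Places W p M, placeκ F v → A) : Prop :=
  ∀ v : Places W p M, PlaceValues hA (F.place v).D (F.place v).ε (v : ℕ) (r (F.place v).σ)
    (r (F.place v).F) (c v) ∧
      ((∃ e : ResidueField O, F.X.rigid.rb (F.place v).F = e • 1) →
        ∀ δ : tangentDer hA, (∀ i, δ.1 (c v i) = 0) → ∀ i j, δ.1 (r (F.place v).F i j) = 0)

/-- Inertia at the good primes and at the minimal ones of a matrix representation. -/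
def HasInertia {A : Type} [CommRing A] (F : Frame p W M R φ) (n : ℕ) (r : Gal →* M2 A) : Prop :=
  (∀ q : ℕ, q.Prime → q ≠ p → ¬ q ∣ M → (∀ v : Places W p M, (v : ℕ) ≠ q) →
      (∀ i, F.qv n i ≠ q) → W.IsGoodPrimeFor q → ∀ A' : ValuationSubring Q̄, A'.LiesOverPrime q →
        ∀ σ ∈ A'.inertiaSubgroupIn ℚ, r σ = 1) ∧
    ∀ q : ℕ, q.Prime → q ≠ p → (q ∣ M ∨ ∃ v : Places W p M, (v : ℕ) = q) →
      ∀ A' : ValuationSubring Q̄, A'.LiesOverPrime q →
        ∀ σ ∈ A'.inertiaSubgroupIn ℚ, (r σ).trace = 2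

/-- **The bound upstairs**, with the unit root killed. -/
theorem bound_top {A A' : Type} [CommRing A] [IsLocalRing A] [Algebra O A] [CommRing A']
    [IsLocalRing A'] [Algebra O A'] {r₁ : Gal →* M2 A} {r₂ : Gal →* M2 A'}
    (JA : JointLift (W := F.X.rigid) r₁ r₂) (hΔ : W.Δ ≠ 0) (hp2 : p ≠ 2) (d : RootData p)
    (h₁ : HasInertia F n r₁) (h₂ : HasInertia F n r₂)
    (hdetA : (toRep JA.ru JA.cont).DetIsCyclotomic p)
    (hordA : (toRep JA.ru JA.cont).IsOrdinaryAt p)
    {c : ∀ v : Places W p M, placeκ F v → JA.J} (hc : IsPlaceVals F JA.isResAlg JA.ru c)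
    (hsq : augment JA.isResAlg (unitRoot JA.ru d.F d.τ) ^ 2 = 1)
    (x : Option (Σ v : Places W p M, placeκ F v) → JA.J) (hx : ∀ v i, x (some ⟨v, i⟩) = c v i)
    (hz : ∀ δ ∈ killedDer JA.isResAlg x, δ.1 (unitRoot JA.ru d.F d.τ) = 0) :
    finrank (ResidueField O) (killedDer JA.isResAlg x) + F.placeDim ≤ F.r' := by
  classical
  have hk : ∀ δ ∈ killedDer JA.isResAlg x, ∀ v i, δ.1 (c v i) = 0 := fun δ hδ v i =>
    hx v i ▸ hδ (some ⟨v, i⟩)
  obtain ⟨hrb, hdetrb⟩ := F.residual_facts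
  have key := finrank_killedDer_le_general p hp2 JA.lifts JA.normal JA.gen JA.cont hdetA hrb
    (F.tw n).core.liftCoreAt
    (fun q hq hqS hqT hqv P hP σ hσ =>
      have hq' := F.good_facts hΔ hq hqS hqT
      JA.eq_one (h₁.1 q hq hq'.1 hq'.2.1 hq'.2.2.1 hqv hq'.2.2.2 P hP σ hσ)
        (h₂.1 q hq hq'.1 hq'.2.1 hq'.2.2.1 hqv hq'.2.2.2 P hP σ hσ))
    (fun q hqS hqp P hP σ hσ => by
      have hqM := (Finset.mem_insert.1 hqS).resolve_left hqp
      have hq := Nat.prime_of_mem_primeFactors hqM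
      have hM := Or.inl (b := ∃ v : Places W p M, (v : ℕ) = q) (Nat.dvd_of_mem_primeFactors hqM)
      exact JA.trace_eq_two (h₁.2 q hq hqp hM P hP σ hσ) (h₂.2 q hq hqp hM P hP σ hσ))
    (fun v : Places W p M => (v : ℕ)) (fun v v' h => Subtype.ext h) Places.image_val
    (fun v => v.ne) (fun v => (F.place v).σ) (fun v => (F.place v).F)
    (fun v => (F.place v).mem) (fun v => (F.place v).frob) (fun v => (F.place v).inert)
    (fun v => det_eq_natCast_of_cyclotomic JA.cont hdetA (F.frob_root v))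
    (fun v => (F.place v).kummer) x
    (fun δ hδ v => (hc v).1.kill_inertia δ (hk δ hδ v))
    (fun δ hδ v hs => (hc v).2 hs δ (hk δ hδ v))
    (fun δ hδ v _ => (hc v).1.kill_trace δ (hk δ hδ v))
    (boundAtP_of_duals p hp2 JA.lifts JA.cont hrb hdetrb _ fun δ hδ =>
      exists_strict_dual_of_unitRoot p JA.lifts JA.cont hdetA hrb (d.hasUnitRoot hdetA hordA) hsq δ
        (hz δ hδ))
  rwa [← Finset.sum_congr rfl fun v _ => F.dim_eq v] at key

/-- **The bound downstairs**, where the representation is flat as well. -/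
theorem bound_low {A B : Type} [CommRing A] [IsLocalRing A] [IsNoetherianRing A] [Algebra O A]
    [CommRing B] [IsLocalRing B] [Algebra O B] {r₁ r₂ : Gal →* M2 B}
    (JB : JointLift (W := F.X.rigid) r₁ r₂) (hΔ : W.Δ ≠ 0) (hp2 : p ≠ 2) (d : RootData p)
    (h₁ : HasInertia F n r₁) (h₂ : HasInertia F n r₂)
    (hdetB : (toRep JB.ru JB.cont).DetIsCyclotomic p)
    (hordB : (toRep JB.ru JB.cont).IsOrdinaryAt p) (hflatB : (toRep JB.ru JB.cont).IsFlatAt p)
    {hA : IsResAlg O A} {rA : Gal →* M2 A} (hu : IsUnit ((rA d.τ).det - 1))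
    (g : A →ₐ[O] JB.J) (hgl : IsLocalHom (g : A →+* JB.J))
    (hgr : mapM (g : A →+* JB.J) rA = JB.ru)
    {c : ∀ v : Places W p M, placeκ F v → A} (hc : IsPlaceVals F hA rA c)
    (hsq : augment hA (unitRoot rA d.F d.τ) ^ 2 = 1)
    (x : Option (Σ v : Places W p M, placeκ F v) → A) (hx : ∀ v i, x (some ⟨v, i⟩) = c v i)
    (hz : ∀ δ ∈ killedDer hA x, δ.1 (unitRoot rA d.F d.τ) = 0) :
    finrank (ResidueField O) (killedDer JB.isResAlg fun o => g (x o)) + F.placeDim + 1 ≤ F.r' := by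
  classical
  obtain ⟨hrb, hdetrb⟩ := F.residual_facts
  have hpull : ∀ δ ∈ killedDer JB.isResAlg (fun o => g (x o)),
      pullDer hA JB.isResAlg g hgl δ ∈ killedDer hA x := fun δ hδ o => hδ o
  have hk : ∀ δ ∈ killedDer JB.isResAlg (fun o => g (x o)), ∀ v i,
      (pullDer hA JB.isResAlg g hgl δ).1 (c v i) = 0 := fun δ hδ v i =>
    hx v i ▸ hpull δ hδ (some ⟨v, i⟩)
  have hru : ∀ σ i j, g (rA σ i j) = JB.ru σ i j := fun σ i j => by
    have e := congrFun (congrFun (DFunLike.congr_fun hgr σ) i) j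
    rwa [mapM_apply] at e
  have hgz : g (unitRoot rA d.F d.τ) = unitRoot JB.ru d.F d.τ := by
    have h := map_unitRoot (F := d.F) (g : A →+* JB.J) hu
    rw [hgr] at h
    exact h
  have hsqB : augment JB.isResAlg (unitRoot JB.ru d.F d.τ) ^ 2 = 1 := by
    rw [← hgz, augment_comp hA JB.isResAlg g hgl, hsq]
  have key := finrank_killedDer_le_slack p hp2 JB.lifts JB.normal JB.gen JB.cont hdetB hrb
    (F.tw n).core 0
    (fun q hq hqS hqT hqv P hP σ hσ =>
      have hq' := F.good_facts hΔ hq hqS hqT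
      JB.eq_one (h₁.1 q hq hq'.1 hq'.2.1 hq'.2.2.1 hqv hq'.2.2.2 P hP σ hσ)
        (h₂.1 q hq hq'.1 hq'.2.1 hq'.2.2.1 hqv hq'.2.2.2 P hP σ hσ))
    (fun q hqS hqp P hP σ hσ => by
      have hqM := (Finset.mem_insert.1 hqS).resolve_left hqp
      have hq := Nat.prime_of_mem_primeFactors hqM
      have hM := Or.inl (b := ∃ v : Places W p M, (v : ℕ) = q) (Nat.dvd_of_mem_primeFactors hqM)
      exact JB.trace_eq_two (h₁.2 q hq hqp hM P hP σ hσ) (h₂.2 q hq hqp hM P hP σ hσ))
    (fun v : Places W p M => (v : ℕ)) (fun v v' h => Subtype.ext h) Places.image_val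
    (fun v => v.ne) (fun v => (F.place v).σ) (fun v => (F.place v).F)
    (fun v => (F.place v).mem) (fun v => (F.place v).frob) (fun v => (F.place v).inert)
    (fun v => det_eq_natCast_of_cyclotomic JB.cont hdetB (F.frob_root v))
    (fun v => (F.place v).kummer) (fun o => g (x o))
    (fun δ hδ v i j => by
      rw [← hru]
      exact (hc v).1.kill_inertia _ (hk δ hδ v) i j)
    (fun δ hδ v hs i j => by
      rw [← hru]
      exact (hc v).2 hs _ (hk δ hδ v) i j)
    (fun δ hδ v _ => by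
      have e := (hc v).1.kill_trace _ (hk δ hδ v)
      rw [pullDer_apply] at e
      have e' : g (rA (F.place v).F).trace = (JB.ru (F.place v).F).trace := by
        rw [Matrix.trace_fin_two, Matrix.trace_fin_two, map_add, hru, hru]
      rwa [e'] at e)
    (boundAtPSlack_zero p hp2 JB.lifts JB.cont hdetB hflatB hrb hdetrb _ fun δ hδ =>
      exists_strict_dual_of_unitRoot p JB.lifts JB.cont hdetB hrb (d.hasUnitRoot hdetB hordB) hsqB δ
        (by
          have h := hz _ (hpull δ hδ)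
          rwa [pullDer_apply, hgz] at h))
  rwa [← Finset.sum_congr rfl fun v _ => F.dim_eq v, add_zero] at key

end General

namespace LastLevel

variable (Λn : LastLevel L n)

theorem upPsi_eq_one_of_ne {q : ℕ} (hq : q.Prime) (hqv : ∀ i, L.F.qv n i ≠ q)
    (hd : q ∣ L.F.lev n Finset.univ) (u : (ZMod (L.F.lev n Finset.univ * p))ˣ)
    (hu : ((u : ZMod (L.F.lev n Finset.univ * p)).cast :
      ZMod (L.F.lev n Finset.univ * p / q)) = 1) :
    upPsi p (Λn.Φ.psi Finset.univ) u = 1 := by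
  refine Λn.Φ.psi_eq_one_of_ne Finset.univ hq hqv hd _ ?_
  have h1 : ZMod.unitsMap (Nat.div_dvd_of_dvd (dvd_mul_of_dvd_left hd p)) u = 1 :=
    Units.ext (by rw [ZMod.unitsMap_val, hu, Units.val_one])
  have h2 : ZMod.unitsMap (Nat.div_dvd_of_dvd hd)
      (ZMod.unitsMap (dvd_mul_right (L.F.lev n Finset.univ) p) u) = 1 := by
    rw [← MonoidHom.comp_apply, ZMod.unitsMap_comp,
      ← ZMod.unitsMap_comp (Nat.div_dvd_div hd (dvd_mul_right _ p))
        (Nat.div_dvd_of_dvd (dvd_mul_of_dvd_left hd p)), MonoidHom.comp_apply, h1, map_one]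
  have h3 := congrArg Units.val h2
  rwa [ZMod.unitsMap_val, Units.val_one] at h3

/-- Inertia is trivial away from `p`, `M`, the places and the Taylor–Wiles primes. -/
theorem inertia_eq_one {q : ℕ} (hq : q.Prime) (hqp : q ≠ p) (hqM : ¬ q ∣ M)
    (hqB : ∀ v : Places W p M, (v : ℕ) ≠ q) (hqv : ∀ i, L.F.qv n i ≠ q)
    {A : ValuationSubring Q̄} (hA : A.LiesOverPrime q) {σ : Gal}
    (hσ : σ ∈ A.inertiaSubgroupIn ℚ) : Λn.Y.rep.ru σ = 1 := by
  by_cases hd : q ∣ L.F.lev n Finset.univ * p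
  swap
  · exact Λn.Y.rep.inertia_eq_one_of_not_dvd hq hqp hd hA hσ
  have hd' : q ∣ L.F.lev n Finset.univ :=
    (hq.dvd_mul.1 hd).resolve_right fun h => hqp ((Nat.prime_dvd_prime_iff_eq hq Fact.out).1 h)
  have hqR : q ∣ R := by
    rcases hq.dvd_mul.1 hd' with h1 | h1
    · rcases hq.dvd_mul.1 h1 with h2 | h2
      · exact (hq.dvd_mul.1 h2).resolve_left hqM
      · obtain ⟨i, -, hi⟩ := hq.prime.exists_mem_finset_dvd h2
        exact absurd ((Nat.prime_dvd_prime_iff_eq hq ((L.F.tw n).prime i)).1 hi).symm (hqv i)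
    · obtain ⟨v, -, hv'⟩ := hq.prime.exists_mem_finset_dvd h1
      exact absurd ((Nat.prime_dvd_prime_iff_eq hq v.prime).1 hv').symm (hqB v)
  refine Λn.Y.rep.inertia_eq_one hq hqp (fun θ => ?_) hA hσ
  exact (Arith.exists_isFrobeniusAt hA hq).elim fun s hs =>
    Λn.Y.rep.not_dvd_of_isUnit hq hd hqp (Λn.upPsi_eq_one_of_ne hq hqv hd') hA hs
      (L.F.X.isUnit_trace_sq_sub Λn.Y.rep.lifts hq hqR hA hs) θ

/-- Inertia is unipotent at the primes of `M` and at the places. -/
theorem inertia_trace_eq_two {q : ℕ} (hq : q.Prime) (hqp : q ≠ p)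
    (h : q ∣ M ∨ ∃ v : Places W p M, (v : ℕ) = q) {A : ValuationSubring Q̄}
    (hA : A.LiesOverPrime q) {σ : Gal} (hσ : σ ∈ A.inertiaSubgroupIn ℚ) :
    (Λn.Y.rep.ru σ).trace = 2 := by
  have hqc : q ∣ W.conductorLevel := by
    rcases h with h | ⟨v, rfl⟩
    exacts [h.trans L.F.X.level_dvd, v.dvd]
  have hd : q ∣ L.F.lev n Finset.univ := by
    rcases h with h | ⟨v, rfl⟩
    · exact dvd_mul_of_dvd_left (dvd_mul_of_dvd_left (h.mul_right R) _) _
    · exact dvd_mul_of_dvd_right (Finset.dvd_prod_of_mem _ (Finset.mem_univ v)) _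
  exact (Λn.Y.rep.unipotent hq (dvd_mul_of_dvd_left hd p) hqp (Λn.upPsi_eq_one_of_ne hq (fun i hi =>
    (L.F.tw n).notMem i (hi ▸ L.F.X.primeFactors_subset hq (hqc.mul_right R))) hd) hA hσ).1

/-- The coordinates from the two joint lifts and the two bounds. -/
theorem nonempty_lastCoords_of_joint (d : RootData p) {ε : O} {k : ℕ}
    (JA : JointLift (W := L.F.X.rigid) Λn.Y.rep.ru L.F.rW)
    {B : Type} [CommRing B] [IsLocalRing B] [IsNoetherianRing B] [Algebra O B]
    [IsAdicComplete (maximalIdeal B) B] (hB : IsResAlg O B) (fB : B →ₐ[O] Λn.Φ.Top)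
    (g : JA.J →ₐ[O] B) (hgl : IsLocalHom (g : JA.J →+* B)) (hgsurj : Function.Surjective g)
    (hg : ∀ a, fB (g a) = Λn.π (JA.fst a))
    {c : ∀ v : Places W p M, placeκ L.F v → JA.J} (hc : IsPlaceVals L.F JA.isResAlg JA.ru c)
    (hw : unitRoot JA.ru d.F d.τ - algebraMap O JA.J ε ∈ maximalIdeal JA.J)
    (x : Option (Σ v : Places W p M, placeκ L.F v) → JA.J) (hx : ∀ v i, x (some ⟨v, i⟩) = c v i)
    (hx0 : x none = unitRoot JA.ru d.F d.τ - algebraMap O JA.J ε)
    (h0 : finrank (ResidueField O) (killedDer hB fun o => g (x o)) ≤ k)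
    (h1 : finrank (ResidueField O) (killedDer JA.isResAlg x) ≤ k + 1) :
    Nonempty (LastCoords Λn d ε k) := by
  obtain ⟨y, hy, hy1, hy0⟩ := exists_nested_coords JA.isResAlg hB g hgl hgsurj x h0 h1
  let s : LCoord (placeκ L.F) (Option (Option (Fin k))) → JA.J :=
    Sum.elim (fun vi => c vi.1 vi.2)
      fun o => o.elim (y none) fun o' => o'.elim (x none) fun i => y (some i)
  have hs : ∀ i, s i ∈ maximalIdeal JA.J := by
    rintro (vi | _ | _ | i)
    exacts [(hc vi.1).1.mem vi.2, hy _, (congrArg (· ∈ maximalIdeal JA.J) hx0).mpr hw, hy _]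
  obtain ⟨γ, hγ⟩ := Assembly.exists_evalHom (O := O) s hs
  have := JA.isResAlg.isLocalHom
  have hsurj : Function.Surjective γ := by
    refine Assembly.surjective_evalHom JA.isResAlg.residue_surjective γ hγ hs
      (maximalIdeal_le_of_detect JA.isResAlg (Set.range_subset_iff.2 hs) fun δ hδ => ?_)
    refine hy1 δ (fun o => ?_) fun o => ?_
    · rcases o with _ | vi
      exacts [hδ _ ⟨Sum.inr (some none), rfl⟩, (hx vi.1 vi.2).symm ▸ hδ _ ⟨Sum.inl vi, rfl⟩]
    · rcases o with _ | i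
      exacts [hδ _ ⟨Sum.inr none, rfl⟩, hδ _ ⟨Sum.inr (some (some i)), rfl⟩]
  have := hB.isLocalHom
  let γ₀ : MvPowerSeries (LCoord (placeκ L.F) (Option (Fin k))) O →ₐ[O] B :=
    (g.comp γ).comp lastIncl
  let s₀ : LCoord (placeκ L.F) (Option (Fin k)) → B := fun i => g (s (Sum.map id some i))
  have hγ₀ : ∀ i, γ₀ (X i) = s₀ i := fun i =>
    (congrArg g (congrArg γ (lastIncl_coord i)) : _).trans (congrArg g (hγ _))
  have hs₀ : ∀ i, s₀ i ∈ maximalIdeal B := fun i => map_nonunit (g : JA.J →+* B) _ (hs _)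
  have hsurj₀ : Function.Surjective γ₀ := by
    refine Assembly.surjective_evalHom hB.residue_surjective γ₀ hγ₀ hs₀
      (maximalIdeal_le_of_detect hB (Set.range_subset_iff.2 hs₀) fun δ hδ => ?_)
    refine hy0 δ (fun o => ?_) fun i => hδ _ ⟨Sum.inr (some i), rfl⟩
    rcases o with _ | vi
    · exact hδ _ ⟨Sum.inr none, rfl⟩
    · exact (congrArg (fun z => δ.1 (g z)) (hx vi.1 vi.2)).trans (hδ _ ⟨Sum.inl vi, rfl⟩)
  have hdown : ∀ a, ∃ b, fB (γ₀ b) = Λn.π (JA.fst a) := fun a =>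
    (hsurj₀ (g a)).elim fun b hb => ⟨b, (congrArg fB hb).trans (hg a)⟩
  exact ⟨{
    A := JA.J, isResAlg := JA.isResAlg, r := JA.ru, toTop := JA.fst, map_r := JA.map_fst
    pt := JA.snd, map_pt := JA.map_snd, γ := γ, surjective := hsurj
    surjective_down := fun a => (hdown a).elim fun b hb => ⟨b, (hg _).symm.trans hb⟩
    c := c, γ_X := fun v i => hγ (Sum.inl ⟨v, i⟩), values := fun v => (hc v).1
    γ_w := (hγ (Sum.inr (some none))).trans hx0 }⟩

/-- **Coordinates at the top of the last flip exist.** -/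
theorem exists_lastCoords (hΔ : W.Δ ≠ 0) (hp3 : 3 ≤ p) (d : RootData p) :
    L.F.placeDim + 1 ≤ L.F.r' ∧
      Nonempty (LastCoords Λn d (unitRoot L.F.rW d.F d.τ) (L.F.r' - L.F.placeDim - 1)) := by
  have hp2 : p ≠ 2 := by omega
  have hP : IsPGroup p (TWGroup p L.F.r' n) := isPGroup_twGroup n
  have hpS : p ∈ L.F.ops n := L.F.p_mem_ops n
  have hordbar := L.F.isOrdinaryAt_residual hΔ L.dvd
  have hdetY := Λn.Y.rep.detIsCyclotomic L.F.p_mem hP
  have hdetX := (Λn.Φ.lvl Finset.univ).rep.detIsCyclotomic L.F.p_mem hP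
  have := Glue.isAdicComplete_algebra Λn.Y.N.H
  have := Glue.isAdicComplete_algebra (Λn.Φ.lvl Finset.univ).N.H
  obtain ⟨JA⟩ := nonempty_jointLift Λn.Y.rep.lifts L.F.lifts Λn.Y.rep.cont L.F.cont
    Λn.Y.rep.normal L.F.normal
  obtain ⟨JB⟩ := nonempty_jointLift (Λn.Φ.lvl Finset.univ).rep.lifts
    (Λn.Φ.lvl Finset.univ).rep.lifts (Λn.Φ.lvl Finset.univ).rep.cont
    (Λn.Φ.lvl Finset.univ).rep.cont (Λn.Φ.lvl Finset.univ).rep.normal
    (Λn.Φ.lvl Finset.univ).rep.normal
  have hdetA : (toRep JA.ru JA.cont).DetIsCyclotomic p :=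
    JA.detIsCyclotomic L.F.p_mem Λn.Y.rep.cont L.F.cont hdetY L.F.point.detCyclotomic
  have hdetB : (toRep JB.ru JB.cont).DetIsCyclotomic p :=
    JB.detIsCyclotomic L.F.p_mem (Λn.Φ.lvl Finset.univ).rep.cont (Λn.Φ.lvl Finset.univ).rep.cont
      hdetX hdetX
  have hordA : (toRep JA.ru JA.cont).IsOrdinaryAt p :=
    JA.isOrdinaryAt hp2 hdetA
      (Λn.Y.isOrdinaryAt hp3 hP hpS hordbar Λn.Y.sq_not_dvd_upPsi)
      (L.F.point.strictOrdinary (L.F.dvd_Δ hΔ L.dvd)).isOrdinaryAt
  have hordX : (toRep (Λn.Φ.lvl Finset.univ).rep.ru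
      (Λn.Φ.lvl Finset.univ).rep.cont).IsOrdinaryAt p :=
    (Λn.Φ.lvl Finset.univ).isOrdinaryAt hp3 hP hpS hordbar fun θ h =>
      L.F.not_dvd_lev_univ L.not_dvd n ((Fact.out : p.Prime).dvd_of_dvd_pow
        ((dvd_pow_self p two_ne_zero).trans (h.trans ((Λn.Φ.lvl Finset.univ).rep.pt θ).dvd)))
  have hordB : (toRep JB.ru JB.cont).IsOrdinaryAt p := JB.isOrdinaryAt hp2 hdetB hordX hordX
  have hflatB : (toRep JB.ru JB.cont).IsFlatAt p :=
    JB.isFlatAt (Λn.Φ.isFlatAt L.not_dvd _) (Λn.Φ.isFlatAt L.not_dvd _)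
  obtain ⟨hw, hsqA⟩ := unitRoot_facts_of_point JA.isResAlg JA.snd JA.map_snd
    (d.isUnit_det hdetA) (L.F.unitRoot_mul_self hΔ L.dvd d)
  have hf : mapM ((Λn.π.comp JA.fst : JA.J →ₐ[O] Λn.Φ.Top) : JA.J →+* Λn.Φ.Top) JA.ru =
      mapM (JB.fst : JB.J →+* Λn.Φ.Top) JB.ru := by
    refine Eq.trans ?_ ((Λn.mapM_π hp2).trans JB.map_fst.symm)
    exact (mapM_algHom_comp Λn.π JA.fst JA.ru).trans
      (congrArg (mapM (Λn.π : Λn.Y.N.H.algebra →+* Λn.Φ.Top)) JA.map_fst)
  obtain ⟨g, hg, hgr, hgsurj⟩ := exists_surjective_lift JA.gen JB.gen (Λn.π.comp JA.fst) JB.fst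
    JB.fst_injective hf
  have hgl : IsLocalHom (g : JA.J →+* JB.J) := IsLocalHom.of_surjective _ hgsurj
  have : Module.IsTorsionFree O JA.J := JA.isTorsionFree
  obtain ⟨c, hc⟩ := exists_joint_values JA hdetA fun v =>
    Λn.inertia_trace_eq_two v.prime v.ne (Or.inr ⟨v, rfl⟩)
      (CFT.Local.padicPlace_liesOverPrime (v : ℕ)) (L.F.place v).mem
  let x : Option (Σ v : Places W p M, placeκ L.F v) → JA.J := fun o =>
    o.elim (unitRoot JA.ru d.F d.τ - algebraMap O JA.J (unitRoot L.F.rW d.F d.τ))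
      fun vi => c vi.1 vi.2
  have hz : ∀ δ ∈ killedDer JA.isResAlg x, δ.1 (unitRoot JA.ru d.F d.τ) = 0 := fun δ hδ =>
    tangentDer_eq_zero_of_sub δ _ _ (hδ none)
  have hA1 := bound_top JA hΔ hp2 d (n := n)
    ⟨fun q hq hqp hqM hqB hqv _ P hP σ hσ => Λn.inertia_eq_one hq hqp hqM hqB hqv hP hσ,
      fun q hq hqp h P hP σ hσ => Λn.inertia_trace_eq_two hq hqp h hP hσ⟩
    ⟨fun q hq hqp _ _ _ hgood P hP σ hσ => L.F.point.inertia_good q hq hgood hqp P hP σ hσ,
      fun q hq hqp _ P hP σ hσ => L.F.point.inertia_trace q hq hqp P hP σ hσ⟩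
    hdetA hordA hc hsqA x (fun _ _ => rfl) hz
  have hX : HasInertia L.F n (Λn.Φ.lvl Finset.univ).rep.ru :=
    ⟨fun q hq hqp hqM hqB hqv _ P hP σ hσ =>
      Λn.Φ.inertia_eq_one Finset.univ hq hqp hqM (fun v _ => hqB v) hqv hP hσ,
      fun q hq hqp h P hP σ hσ => (Λn.Φ.inertia_unipotent Finset.univ hq hqp
        (h.imp id fun ⟨v, hv⟩ => ⟨v, Finset.mem_univ v, hv⟩) hP hσ).1⟩
  have hB0 := bound_low JB hΔ hp2 d hX hX hdetB hordB hflatB (d.isUnit_det hdetA) g hgl hgr hc hsqA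
    x (fun _ _ => rfl) hz
  exact ⟨by omega, Λn.nonempty_lastCoords_of_joint d JA JB.isResAlg JB.fst g hgl hgsurj hg hc hw x
    (fun _ _ => rfl) rfl (by omega) (by omega)⟩

end LastLevel

end Fermat.Agent.RT.Lift
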