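import Fermat.Agent.RT.Lift.Levels.Family
import Fermat.Agent.RT.Lift.Levels.Bound
import Fermat.Agent.RT.Lift.Levels.Joint
import Fermat.Agent.RT.Assembly.LevelInstance

/-!
# Marked coordinates at the top level

The joint lift of the top level and of the marked point, with the values at the places and further
coordinates, as many as the tangent bound allows.
-/

set_option autoImplicit false
set_option maxHeartbeats 1000000
set_option synthInstance.maxHeartbeats 200000
set_option linter.style.haveILetI false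
set_option linter.unusedSectionVars false

noncomputable section

namespace Fermat.Agent.RT.Lift

open IsLocalRing Module WeierstrassCurve MvPowerSeries
open Fermat.Agent.Deform Fermat.Agent.Arith Fermat.Agent.RT.Germ Fermat.Agent.CFT.Tangent
open Fermat.Agent.RT.Assembly (levelIdeal killedDer)
open Fermat.Agent.RT.Glue (sA diaA)

local notation "Q̄" => AlgebraicClosure ℚ

variable {O : Type} [CommRing O] [IsDomain O] [IsDiscreteValuationRing O]
  [IsAdicComplete (maximalIdeal O) O] [Finite (ResidueField O)] [CharZero O]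
  {K : Type*} [NontriviallyNormedField K] [IsUltrametricDist K] [CompleteSpace K]
  {φ : O →+* ball1 K}
  {p : ℕ} [Fact p.Prime] [CharP (ResidueField O) p] {W : WeierstrassCurve ℤ} {M R : ℕ}
  {F : Frame p W M R φ} {n : ℕ} {Φ : LevelFamily F n}

open Classical in
theorem Frame.dim_eq (F : Frame p W M R φ) (v : Places W p M) :
    (F.place v).D.ur.dim =
      if ∃ e : ResidueField O, F.X.rigid.rb (F.place v).F = e • 1 then 3 else 1 := by
  split_ifs with h
  exacts [(F.place v).dim_scalar h, (F.place v).dim_line h]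

/-- The number of coordinates needed at the places. -/
def Frame.placeDim (F : Frame p W M R φ) : ℕ := ∑ v : Places W p M, (F.place v).D.ur.dim

namespace LevelFamily

variable (Φ)

/-- The condition at `p` on the joint lifts of the top level and the marked point. -/
def JointAtPCond : Prop :=
  ∀ Jl : JointLift (W := F.X.rigid) (Φ.lvl Finset.univ).rep.ru F.rW,
    (toRep Jl.ru Jl.cont).IsFlatAt p ∨ (toRep Jl.ru Jl.cont).IsStrictOrdinaryAt p

/-- Inertia at the primes outside the minimal set, the places and the Taylor–Wiles primes. -/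
def TopUnramified : Prop :=
  ∀ q : ℕ, q.Prime → q ∉ insert p M.primeFactors → q ∉ raisePlaces W p M →
    (∀ i, F.qv n i ≠ q) → ∀ A : ValuationSubring Q̄, A.LiesOverPrime q →
      ∀ σ ∈ A.inertiaSubgroupIn ℚ, (Φ.lvl Finset.univ).rep.ru σ = 1

/-- The traces of inertia at the minimal primes and at the places. -/
def TopUnipotent : Prop :=
  ∀ q : ℕ, q ≠ p → q ∈ insert p M.primeFactors ∨ q ∈ raisePlaces W p M →
    ∀ A : ValuationSubring Q̄, A.LiesOverPrime q →
      ∀ σ ∈ A.inertiaSubgroupIn ℚ, ((Φ.lvl Finset.univ).rep.ru σ).trace = 2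

end LevelFamily

section Joint

variable {A B : Type} [CommRing A] [IsLocalRing A] [Algebra O A] [CommRing B] [IsLocalRing B]
  [Algebra O B] {Wr : Rigid O} {r₁ : Gal →* M2 A} {r₂ : Gal →* M2 B}
  (Jl : JointLift (W := Wr) r₁ r₂)

theorem JointLift.fst_trace (σ : Gal) : Jl.fst (Jl.ru σ).trace = (r₁ σ).trace := by
  rw [← DFunLike.congr_fun Jl.map_fst σ]
  exact AddMonoidHom.map_trace Jl.fst (Jl.ru σ)

theorem JointLift.snd_trace (σ : Gal) : Jl.snd (Jl.ru σ).trace = (r₂ σ).trace := by
  rw [← DFunLike.congr_fun Jl.map_snd σ]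
  exact AddMonoidHom.map_trace Jl.snd (Jl.ru σ)

theorem JointLift.eq_one {σ : Gal} (h₁ : r₁ σ = 1) (h₂ : r₂ σ = 1) : Jl.ru σ = 1 := by
  rw [← DFunLike.congr_fun Jl.map_fst σ] at h₁
  rw [← DFunLike.congr_fun Jl.map_snd σ] at h₂
  refine Matrix.ext fun i j => Jl.ext ?_ ?_
  · have h := congrFun (congrFun h₁ i) j
    rw [mapM_apply] at h
    refine h.trans ?_
    simp only [Matrix.one_apply, apply_ite Jl.fst, map_one, map_zero]
  · have h := congrFun (congrFun h₂ i) j
    rw [mapM_apply] at h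
    refine h.trans ?_
    simp only [Matrix.one_apply, apply_ite Jl.snd, map_one, map_zero]

theorem JointLift.trace_eq_two {σ : Gal} (h₁ : (r₁ σ).trace = 2) (h₂ : (r₂ σ).trace = 2) :
    (Jl.ru σ).trace = 2 :=
  Jl.ext ((Jl.fst_trace σ).trans (h₁.trans (map_ofNat Jl.fst 2).symm))
    ((Jl.snd_trace σ).trans (h₂.trans (map_ofNat Jl.snd 2).symm))

theorem JointLift.isTorsionFree [Module.IsTorsionFree O A] [Module.IsTorsionFree O B] :
    Module.IsTorsionFree O Jl.J :=
  Function.Injective.moduleIsTorsionFree (fun x : Jl.J => (Jl.fst x, Jl.snd x))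
    (fun _ _ h => Jl.ext (congrArg Prod.fst h) (congrArg Prod.snd h))
    fun c x => Prod.ext (map_smul Jl.fst c x) (map_smul Jl.snd c x)

end Joint

section Values

variable {A : Type} [CommRing A] [IsLocalRing A] [Algebra O A] {r₁ : Gal →* M2 A}
  (Jl : JointLift (W := F.X.rigid) r₁ F.rW)

/-- The values at the places of a joint lift with the marked point. -/
theorem exists_joint_values [Module.IsTorsionFree O Jl.J]
    (hdetJ : (toRep Jl.ru Jl.cont).DetIsCyclotomic p)
    (htr : ∀ v : Places W p M, (r₁ (F.place v).σ).trace = 2) :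
    ∃ c : ∀ v : Places W p M, placeκ F v → Jl.J,
      ∀ v : Places W p M, PlaceValues Jl.isResAlg (F.place v).D (F.place v).ε (v : ℕ)
        (Jl.ru (F.place v).σ) (Jl.ru (F.place v).F) (c v) ∧
          ((∃ e : ResidueField O, F.X.rigid.rb (F.place v).F = e • 1) →
            ∀ δ : tangentDer Jl.isResAlg, (∀ i, δ.1 (c v i) = 0) →
              ∀ i j, δ.1 (Jl.ru (F.place v).F i j) = 0) := by
  choose c hc using fun v : Places W p M => (F.place v).values Jl.isResAlg Jl.ru Jl.lifts Jl.cont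
    hdetJ (Jl.trace_eq_two (htr v) (F.point.inertia_trace _ v.prime v.ne _
      (CFT.Local.padicPlace_liesOverPrime (v : ℕ)) _ (F.place v).mem))
  exact ⟨c, hc⟩

/-- **The tangent bound at a joint lift with the marked point.** -/
theorem joint_killedDer_le (hΔ : W.Δ ≠ 0) (hp2 : p ≠ 2)
    (hdetJ : (toRep Jl.ru Jl.cont).DetIsCyclotomic p)
    (hat : (toRep Jl.ru Jl.cont).IsFlatAt p ∨ (toRep Jl.ru Jl.cont).IsStrictOrdinaryAt p)
    (hunr : ∀ q : ℕ, q.Prime → q ∉ insert p M.primeFactors → q ∉ raisePlaces W p M →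
      (∀ i, F.qv n i ≠ q) → ∀ A : ValuationSubring Q̄, A.LiesOverPrime q →
        ∀ σ ∈ A.inertiaSubgroupIn ℚ, r₁ σ = 1)
    (htr : ∀ q : ℕ, q ≠ p → q ∈ insert p M.primeFactors →
      ∀ A : ValuationSubring Q̄, A.LiesOverPrime q →
        ∀ σ ∈ A.inertiaSubgroupIn ℚ, (r₁ σ).trace = 2)
    {c : ∀ v : Places W p M, placeκ F v → Jl.J}
    (hc : ∀ v : Places W p M, PlaceValues Jl.isResAlg (F.place v).D (F.place v).ε (v : ℕ)
        (Jl.ru (F.place v).σ) (Jl.ru (F.place v).F) (c v) ∧
          ((∃ e : ResidueField O, F.X.rigid.rb (F.place v).F = e • 1) →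
            ∀ δ : tangentDer Jl.isResAlg, (∀ i, δ.1 (c v i) = 0) →
              ∀ i j, δ.1 (Jl.ru (F.place v).F i j) = 0)) :
    finrank (ResidueField O)
      (killedDer Jl.isResAlg fun vi : Σ v : Places W p M, placeκ F v => c vi.1 vi.2) +
        F.placeDim ≤ F.r' := by
  classical
  have hdetrb : ∀ (σ : Gal) (m : ℕ), (∀ μ : QBar, μ ^ p = 1 → σ μ = μ ^ m) →
      (F.X.rigid.rb σ).det = (m : ResidueField O) := fun σ m hm => by
    rw [F.X.rigid_rb]
    exact (LinearMap.det_toMatrix F.X.bb (F.X.ρbar.ρ σ)).trans (F.X.det_cyclotomic σ m hm)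
  have hrb : GaloisFactorsThroughFiniteLevel F.X.rigid.rb := by
    rw [F.X.rigid_rb]; exact CFT.TWPrimes.finiteLevel_matRes F.X.ρbar F.X.bb
  have hsplit : ∀ g, ∃ α β : ResidueField O,
      (F.X.rigid.rb g).trace = α + β ∧ (F.X.rigid.rb g).det = α * β := by
    rw [F.X.rigid_rb]; exact F.X.split
  have hgood : ∀ {q : ℕ}, q.Prime → q ∉ insert p M.primeFactors → q ∉ raisePlaces W p M →
      q ≠ p ∧ W.IsGoodPrimeFor q := fun {q} hq hqS hqT => by
    have hqp : q ≠ p := fun e => hqS (Finset.mem_insert.2 (Or.inl e))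
    refine ⟨hqp, fun hd => ?_⟩
    by_cases hqM : q ∣ M
    · exact hqS (Finset.mem_insert_of_mem (Nat.mem_primeFactors.2 ⟨hq, hqM, F.X.ne_zero_M⟩))
    · exact hqT (Finset.mem_filter.2 ⟨Nat.mem_primeFactors.2
        ⟨hq, (W.prime_dvd_conductorLevel_iff hΔ hq).2 hd,
          left_ne_zero_of_mul F.X.squarefree.ne_zero⟩, hqp, hqM⟩)
  have := finrank_killedDer_le_general p hp2 Jl.lifts Jl.normal Jl.gen Jl.cont hdetJ hrb
    (F.tw n).core.liftCoreAt
    (fun q hq hqS hqT hqv A hA σ hσ => Jl.eq_one (hunr q hq hqS hqT hqv A hA σ hσ)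
      (F.point.inertia_good q hq (hgood hq hqS hqT).2 (hgood hq hqS hqT).1 A hA σ hσ))
    (fun q hqS hqp A hA σ hσ => Jl.trace_eq_two (htr q hqp hqS A hA σ hσ)
      (F.point.inertia_trace q
        (Nat.prime_of_mem_primeFactors ((Finset.mem_insert.1 hqS).resolve_left hqp)) hqp A hA σ hσ))
    (fun v : Places W p M => (v : ℕ)) (fun v w h => Subtype.ext h)
    (by
      ext q
      exact ⟨fun h => Finset.mem_image.2 ⟨⟨q, h⟩, Finset.mem_univ _, rfl⟩, fun h => by
        obtain ⟨v, -, rfl⟩ := Finset.mem_image.1 h; exact v.2⟩)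
    (fun v => v.ne) (fun v => (F.place v).σ) (fun v => (F.place v).F) (fun v => (F.place v).mem)
    (fun v => (F.place v).frob) (fun v => (F.place v).inert)
    (fun v => det_eq_natCast_of_cyclotomic Jl.cont hdetJ fun m μ hμ =>
      GaloisReps.frobenius_apply_root (CFT.Local.padicPlace_liesOverPrime (v : ℕ)) v.prime
        (F.place v).frob hμ fun h =>
          v.ne ((Nat.prime_dvd_prime_iff_eq v.prime Fact.out).1 (v.prime.dvd_of_dvd_pow h)))
    (fun v => (F.place v).kummer) (fun vi : Σ v : Places W p M, placeκ F v => c vi.1 vi.2)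
    (fun δ hδ v => (hc v).1.kill_inertia δ fun i => hδ ⟨v, i⟩)
    (fun δ hδ v hs => (hc v).2 hs δ fun i => hδ ⟨v, i⟩)
    (fun δ hδ v _ => (hc v).1.kill_trace δ fun i => hδ ⟨v, i⟩)
    (by
      rcases hat with h | h
      · exact boundAtP_flat p hp2 Jl.lifts Jl.cont hdetJ h hrb hdetrb hsplit _
      · exact boundAtP_strict p hp2 Jl.lifts Jl.cont hdetJ h hrb hdetrb _)
  refine le_trans (le_of_eq ?_) this
  rw [Frame.placeDim]
  congr 1
  exact Finset.sum_congr rfl fun v _ => F.dim_eq v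

end Values

/-- What the top level and the marked point must satisfy for the coordinates. -/
structure LevelFamily.TopReady (Φ : LevelFamily F n) : Prop where
  atP : Φ.JointAtPCond
  unr : Φ.TopUnramified
  tr : Φ.TopUnipotent

/-- Coordinates with a marked point, mapping onto their algebra. -/
structure Marked (Φ : LevelFamily F n) (ρ : Type) [Finite ρ] extends Coords Φ ρ where
  point : A →ₐ[O] O
  point_r : mapM (point : A →+* O) r = F.rW
  surjective : Function.Surjective γ

theorem LevelFamily.down_univ (Φ : LevelFamily F n) : Φ.down Finset.univ = AlgHom.id O Φ.Top :=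
  (Φ.isCompat_down _).unique (IsCompatHom.id _)

theorem LevelFamily.exists_jointLift (Φ : LevelFamily F n) :
    Nonempty (JointLift (W := F.X.rigid) (Φ.lvl Finset.univ).rep.ru F.rW) :=
  nonempty_jointLift (Φ.lvl Finset.univ).rep.lifts F.lifts (Φ.lvl Finset.univ).rep.cont F.cont
    (Φ.lvl Finset.univ).rep.normal F.normal

theorem LevelFamily.exists_joint_data (Φ : LevelFamily F n) (hΔ : W.Δ ≠ 0) (hp2 : p ≠ 2)
    (h : Φ.TopReady) :
    ∃ (Jl : JointLift (W := F.X.rigid) (Φ.lvl Finset.univ).rep.ru F.rW)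
      (c : ∀ v : Places W p M, placeκ F v → Jl.J),
      (∀ v : Places W p M, PlaceValues Jl.isResAlg (F.place v).D (F.place v).ε (v : ℕ)
        (Jl.ru (F.place v).σ) (Jl.ru (F.place v).F) (c v)) ∧
      finrank (ResidueField O)
        (killedDer Jl.isResAlg fun vi : Σ v : Places W p M, placeκ F v => c vi.1 vi.2) +
          F.placeDim ≤ F.r' := by
  obtain ⟨Jl⟩ := Φ.exists_jointLift
  have := Glue.isAdicComplete_algebra (Φ.lvl Finset.univ).N.H
  have hdet : (toRep Jl.ru Jl.cont).DetIsCyclotomic p :=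
    Jl.detIsCyclotomic F.p_mem (Φ.lvl Finset.univ).rep.cont F.cont
      ((Φ.lvl Finset.univ).rep.detIsCyclotomic F.p_mem (isPGroup_twGroup n)) F.point.detCyclotomic
  have : Module.IsTorsionFree O Jl.J := Jl.isTorsionFree
  have htr : ∀ v : Places W p M, ((Φ.lvl Finset.univ).rep.ru (F.place v).σ).trace = 2 := fun v =>
    h.tr _ v.ne (Or.inr v.2) _ (CFT.Local.padicPlace_liesOverPrime (v : ℕ)) _ (F.place v).mem
  have hmin : ∀ q : ℕ, q ≠ p → q ∈ insert p M.primeFactors →
      ∀ A : ValuationSubring Q̄, A.LiesOverPrime q →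
        ∀ σ ∈ A.inertiaSubgroupIn ℚ, ((Φ.lvl Finset.univ).rep.ru σ).trace = 2 :=
    fun q hqp hq => h.tr q hqp (Or.inl hq)
  have hat := h.atP Jl
  refine Exists.elim (exists_joint_values Jl hdet htr) fun c hc => ?_
  exact ⟨Jl, c, fun v => (hc v).1, joint_killedDer_le Jl hΔ hp2 hdet hat h.unr hmin hc⟩

/-- The places leave room. -/
theorem LevelFamily.placeDim_le (Φ : LevelFamily F n) (hΔ : W.Δ ≠ 0) (hp2 : p ≠ 2)
    (h : Φ.TopReady) : F.placeDim ≤ F.r' := by
  obtain ⟨Jl, c, -, hle⟩ := Φ.exists_joint_data hΔ hp2 h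
  exact le_trans (Nat.le_add_left _ _) hle

/-- **Marked coordinates exist.** -/
theorem LevelFamily.nonempty_marked (Φ : LevelFamily F n) (hΔ : W.Δ ≠ 0) (hp2 : p ≠ 2)
    (h : Φ.TopReady) : Nonempty (Marked Φ (Fin (F.r' - F.placeDim))) := by
  obtain ⟨Jl, c, hc, hle⟩ := Φ.exists_joint_data hΔ hp2 h
  obtain ⟨γ, hγ, hγX⟩ := Assembly.exists_coord_surjective Jl.isResAlg
    (fun vi : Σ v : Places W p M, placeκ F v => c vi.1 vi.2) (fun vi => (hc vi.1).mem vi.2)
    (g := F.r' - F.placeDim) (by omega)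
  exact ⟨{
    A := Jl.J, isResAlg := Jl.isResAlg, r := Jl.ru, toTop := Jl.fst, map_r := Jl.map_fst
    γ := γ, c := c, γ_X := fun v i => hγX ⟨v, i⟩, values := hc
    quad := fun i => by
      obtain ⟨a, ha⟩ := hγ (Jl.ru (Φ.tw.σ i)).trace
      exact ⟨a, (congrArg Jl.fst ha).trans (Jl.fst_trace _)⟩
    point := Jl.snd, point_r := Jl.map_snd, surjective := hγ }⟩

namespace Marked

variable {ρ : Type} [Finite ρ] (C : Marked Φ ρ)

/-- The marked point on the series. -/
abbrev psiPoint : MvPowerSeries (LCoord (placeκ F) ρ) O →ₐ[O] O := C.point.comp C.γ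

theorem toTop_trace (σ : Gal) :
    C.toTop (C.r σ).trace = ((Φ.lvl Finset.univ).rep.ru σ).trace := by
  rw [← DFunLike.congr_fun C.map_r σ]
  exact AddMonoidHom.map_trace C.toTop (C.r σ)

theorem point_trace (σ : Gal) : C.point (C.r σ).trace = (F.rW σ).trace := by
  rw [← DFunLike.congr_fun C.point_r σ]
  exact AddMonoidHom.map_trace C.point (C.r σ)

/-- The marked point satisfies the relations special at every place. -/
theorem psiPoint_rels (v : Places W p M) {g : MvPolynomial (placeκ F v) O}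
    (hg : g ∈ (compAt (fun v => (F.place v).D) Finset.univ v).rels) :
    C.psiPoint (placeHom v g) = 0 := by
  have hg' : g ∈ (F.place v).D.st.rels := by
    simpa [compAt] using hg
  have h := (C.values v).st_rels (f := C.γ.comp (placeSubst (κ := placeκ F) (ρ := ρ) v))
    (fun i => by
      show C.γ (placeSubst v (X i)) = _
      rw [placeSubst, substAlgHom_X]
      exact C.γ_X v i)
    C.point (by rw [point_trace]; exact (F.place v).trace_marked) hg'
  rwa [AlgHom.comp_apply, placeSubst_coe] at h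

theorem exists_quadSol (hp2 : p ≠ 2) (i : Fin F.r') :
    ∃ a : MvPowerSeries (LCoord (placeκ F) ρ) O,
      (Matrix.scalar (Fin (F.D Finset.univ))
          ((1 + toLevel (O := O) (r := F.r') (p := p) n (X i)) ^ 2 + 1) =
        Matrix.scalar (Fin (F.D Finset.univ)) (1 + toLevel (O := O) (r := F.r') (p := p) n (X i)) *
          C.toCoords.act Finset.univ a) ∧ C.psiPoint a = 2 := by
  obtain ⟨a, ha⟩ := C.surjective (C.r (Φ.tw.σ i)).trace
  refine ⟨a, ?_, ?_⟩
  · have htop : C.toTop (C.γ a) = diaA (Φ.lvl Finset.univ).N.H (twGen p n i) +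
        diaA (Φ.lvl Finset.univ).N.H (twGen p n i)⁻¹ := by
      rw [ha, toTop_trace]
      refine Φ.tw.trace_σ _ (Φ.lvl Finset.univ) F.p_mem hp2 (F.p_mem_ops n) (F.squarefree_lev n _)
        i ((F.tw n).prime i) (F.qv_dvd_base n i) (F.qv_ne n i) ?_
      exact fun A hA σ hσ => F.X.inertia_trace _ ((F.tw n).prime i) (F.qv_ne n i) A hA σ hσ
    have hrep : ∀ δ, (Φ.basis Finset.univ).rep (twChar O p F.r' n)
        (algebra_comm (Φ.lvl Finset.univ).N.H) (diaA (Φ.lvl Finset.univ).N.H δ) =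
          twChar O p F.r' n δ • 1 := fun δ =>
      Assembly.DiaBasis.mat_dia (Φ.basis Finset.univ) (twChar O p F.r' n) δ
    have hu : twChar O p F.r' n (twGen p n i) * twChar O p F.r' n (twGen p n i)⁻¹ = 1 := by
      rw [← map_mul, mul_inv_cancel, map_one]
    rw [twChar_gen] at hu
    rw [show C.toCoords.act Finset.univ a = (Φ.basis Finset.univ).rep (twChar O p F.r' n)
      (algebra_comm (Φ.lvl Finset.univ).N.H) (Φ.down Finset.univ (C.toTop (C.γ a))) from rfl,
      Φ.down_univ, AlgHom.id_apply, htop,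
      map_add ((Φ.basis Finset.univ).rep (twChar O p F.r' n) (algebra_comm (Φ.lvl Finset.univ).N.H)),
      hrep, hrep, twChar_gen, Matrix.smul_one_eq_diagonal, Matrix.smul_one_eq_diagonal]
    simp only [Matrix.scalar_apply, Matrix.diagonal_add, Matrix.diagonal_mul_diagonal]
    refine congrArg Matrix.diagonal (funext fun _ => ?_)
    rw [mul_add, sq, show toLevel (O := O) (r := F.r') (p := p) n
      (X i) = Ideal.Quotient.mk (levelIdeal O p n) (X i) from rfl, hu]
  · rw [AlgHom.comp_apply, ha, point_trace]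
    exact F.point.inertia_trace _ ((F.tw n).prime i) (F.qv_ne n i) _ (Φ.tw.lies i) _
      (Φ.tw.σ_mem i)

theorem exists_frobenius (hΔ : W.Δ ≠ 0) {ℓ : ℕ} (hℓ : ℓ.Prime) (hℓS : ℓ ∉ badSet W p R) :
    ∃ a : MvPowerSeries (LCoord (placeκ F) ρ) O, C.psiPoint a = (W.apOfModel ℓ : O) ∧
      ∀ hℓn : ℓ ∉ F.ops n, C.toTop (C.γ a) =
        sA (Φ.lvl Finset.univ).N.H (Φ.lvl Finset.univ).hS hℓ hℓn := by
  obtain ⟨A, hA⟩ := Arith.exists_liesOverPrime hℓ
  obtain ⟨s, hs⟩ := exists_isFrobeniusAt hA hℓ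
  obtain ⟨a, ha⟩ := C.surjective (C.r s).trace
  have hℓp : ℓ ≠ p := fun e => hℓS (Finset.mem_insert.2 (Or.inl e))
  have hgood : W.IsGoodPrimeFor ℓ := fun hd => hℓS (F.X.primeFactors_subset hℓ
    (dvd_mul_of_dvd_left ((W.prime_dvd_conductorLevel_iff hΔ hℓ).2 hd) _))
  refine ⟨a, ?_, fun hℓn => ?_⟩
  · rw [AlgHom.comp_apply, ha, point_trace]
    exact F.point.frobenius_trace ℓ hℓ hgood hℓp A hA s hs
  · rw [ha, toTop_trace]
    exact (Φ.lvl Finset.univ).rep.trace_frobenius (F.p_mem_ops n) hℓ hℓn hA hs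

end Marked

end Fermat.Agent.RT.Lift
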