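import Fermat.Agent.RT.Lift.Levels.LastSeries
import Fermat.Agent.RT.Lift.Levels.AtPOps
import Fermat.Agent.RT.Lift.Levels.AtPKills
import Fermat.Agent.RT.Lift.Levels.TopCoords
import Fermat.Agent.RT.Lift.Levels.AuxExists

/-!
# The degeneracy data of the last flip at `p`

The coordinates of the last flip give coordinates of the chain below, actions of the series with
one more variable on the levels below and on the top level, and the identities of a flip with
`c = p + 1` and `T = (ε + w) + p / (ε + w)`.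
-/

set_option autoImplicit false
set_option linter.style.haveILetI false
set_option linter.unusedSectionVars false

noncomputable section

namespace Fermat.Agent.RT.Lift

open IsLocalRing Module WeierstrassCurve MvPowerSeries
open Fermat.Agent.Deform Fermat.Agent.Arith Fermat.Agent.RT.Germ
open Fermat.Agent.RT.GammaH

/-- An algebra map of power series into a local algebra with residue field that of `O` is
local. -/
theorem isUnit_of_map_series {O : Type} [CommRing O] [IsLocalRing O] {σ : Type} {B : Type}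
    [CommRing B] [IsLocalRing B] [Algebra O B] (h : IsResAlg O B)
    (f : MvPowerSeries σ O →ₐ[O] B) {g : MvPowerSeries σ O} (hg : IsUnit (f g)) : IsUnit g := by
  by_contra hn
  haveI := h.isLocalHom
  obtain ⟨c, hc⟩ := exists_sub_mem h (f g)
  have hcu : IsUnit c := by
    by_contra hc0
    have h0 : algebraMap O B c ∈ maximalIdeal B :=
      map_nonunit (algebraMap O B) c ((IsLocalRing.mem_maximalIdeal c).2 hc0)
    have h1 := (maximalIdeal B).add_mem hc h0
    rw [sub_add_cancel] at h1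
    exact (IsLocalRing.mem_maximalIdeal _).1 h1 hg
  have hu : IsUnit (g - C c) := by
    refine MvPowerSeries.isUnit_iff_constantCoeff.2 ?_
    rw [map_sub, constantCoeff_C]
    by_contra h0
    have hg0 : constantCoeff g ∈ maximalIdeal O :=
      (IsLocalRing.mem_maximalIdeal _).2 fun hu => hn (MvPowerSeries.isUnit_iff_constantCoeff.2 hu)
    have h1 := (maximalIdeal O).sub_mem hg0 ((IsLocalRing.mem_maximalIdeal _).2 h0)
    rw [sub_sub_cancel] at h1
    exact (IsLocalRing.mem_maximalIdeal _).1 h1 hcu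
  refine (IsLocalRing.mem_maximalIdeal _).1 hc ?_
  have h2 := hu.map f
  rwa [map_sub, show (C c : MvPowerSeries σ O) = algebraMap O _ c from rfl, AlgHom.commutes] at h2

variable {O : Type} [CommRing O] [IsDomain O] [IsDiscreteValuationRing O]
  [IsAdicComplete (maximalIdeal O) O] [Finite (ResidueField O)] [CharZero O]
  {K : Type*} [NontriviallyNormedField K] [IsUltrametricDist K] [CompleteSpace K]
  {φ : O →+* ball1 K}
  {p : ℕ} [Fact p.Prime] [CharP (ResidueField O) p] {W : WeierstrassCurve ℤ} {M R : ℕ}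

variable {L : LastFrame p W M R φ} {n : ℕ} {Ln : LastLevel L n} {d : RootData p} {ε : O} {k : ℕ}
  (Lc : LastCoords Ln d ε k)

namespace LastCoords

/-- The coordinates of the chain below the last flip. -/
def coords (hp2 : p ≠ 2) : Coords Ln.Φ (Option (Fin k)) where
  A := Lc.A
  isResAlg := Lc.isResAlg
  r := Lc.r
  toTop := Ln.π.comp Lc.toTop
  map_r := by
    refine Eq.trans ?_ (Ln.mapM_π hp2)
    rw [← Lc.map_r]
    exact (mapM_mapM _ _ _).symm
  γ := Lc.γ.comp lastIncl
  c := Lc.c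
  γ_X v i := by
    rw [AlgHom.comp_apply, lastIncl_X]
    exact Lc.γ_X v i
  values := Lc.values
  quad i := by
    obtain ⟨a, ha⟩ := Lc.surjective_down (Lc.r (Ln.Φ.tw.σ i)).trace
    refine ⟨a, ha.trans ?_⟩
    refine (congrArg Ln.π (AddMonoidHom.map_trace Lc.toTop (Lc.r (Ln.Φ.tw.σ i)))).trans ?_
    refine (AddMonoidHom.map_trace Ln.π _).trans (congrArg Matrix.trace ?_)
    exact (congrArg (fun m => (m : Matrix (Fin 2) (Fin 2) Ln.Y.N.H.algebra).map Ln.π)
      (DFunLike.congr_fun Lc.map_r _)).trans (DFunLike.congr_fun (Ln.mapM_π hp2) _)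

/-- The series with one more variable on the levels below the flip. -/
abbrev actLow (B : Finset (Places W p M)) :
    MvPowerSeries (LCoord (placeκ L.F) (Option (Option (Fin k)))) O →ₐ[O]
      Matrix (Fin (L.F.D B)) (Fin (L.F.D B)) (LevelQuot O L.F.r' p n) :=
  Ln.Φ.act (Ln.π.comp (Lc.toTop.comp Lc.γ)) B

/-- The series on the top level of the flip. -/
abbrev actTop :
    MvPowerSeries (LCoord (placeκ L.F) (Option (Option (Fin k)))) O →ₐ[O]
      Matrix (Fin L.E) (Fin L.E) (LevelQuot O L.F.r' p n) :=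
  (Ln.basis.rep (twChar O p L.F.r' n) (algebra_comm Ln.Y.N.H)).comp (Lc.toTop.comp Lc.γ)

theorem actLow_comp_incl (hp2 : p ≠ 2) (B : Finset (Places W p M)) :
    (Lc.actLow B).comp lastIncl = (Lc.coords hp2).act B := rfl

/-- The element `det - 1` at `τ` is a unit in the ring of the coordinates. -/
theorem isUnit_det : IsUnit ((Lc.r d.τ).det - 1) := by
  have hp : (p : O) ∈ maximalIdeal O := L.F.p_mem
  obtain ⟨g, hg⟩ := Lc.surjective ((Lc.r d.τ).det - 1)
  have hY : IsUnit ((Ln.Y.rep.ru d.τ).det - 1) :=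
    d.isUnit_det (Ln.Y.rep.detIsCyclotomic hp (isPGroup_twGroup n))
  have h1 : IsUnit ((Lc.toTop.comp Lc.γ) g) := by
    rw [← Lc.map_r] at hY
    exact ((congrArg Lc.toTop hg).trans ((map_sub Lc.toTop _ _).trans
      (congrArg₂ (· - ·) (AlgHom.map_det Lc.toTop _) (map_one Lc.toTop)))) ▸ hY
  rw [← hg]
  exact (isUnit_of_map_series Ln.Y.rep.isResAlg _ h1).map Lc.γ

theorem toTop_unitRoot :
    Lc.toTop (unitRoot Lc.r d.F d.τ) = unitRoot Ln.Y.rep.ru d.F d.τ := by
  rw [← Lc.map_r]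
  exact map_unitRoot (Lc.toTop : Lc.A →+* Ln.Y.N.H.algebra) Lc.isUnit_det

theorem π_unitRoot (hp2 : p ≠ 2) :
    Ln.π (unitRoot Ln.Y.rep.ru d.F d.τ) =
      unitRoot (Ln.Φ.lvl Finset.univ).rep.ru d.F d.τ := by
  rw [← Ln.mapM_π hp2]
  exact map_unitRoot (Ln.π : Ln.Y.N.H.algebra →+* Ln.Φ.Top)
    (d.isUnit_det (Ln.Y.rep.detIsCyclotomic L.F.p_mem (isPGroup_twGroup n)))

/-- The coordinate `w` at the top level. -/
theorem toTop_lastW :
    ((Lc.toTop.comp Lc.γ).comp lastIncl) lastW =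
      unitRoot Ln.Y.rep.ru d.F d.τ - algebraMap O _ ε := by
  simp only [AlgHom.comp_apply, lastW, lastIncl_X]
  show Lc.toTop (Lc.γ (X (Sum.inr (some none)))) = _
  exact (congrArg Lc.toTop Lc.γ_w).trans ((map_sub Lc.toTop _ _).trans
    (congrArg₂ (· - ·) Lc.toTop_unitRoot (Lc.toTop.commutes ε)))

/-- **The degeneracy data of the last flip at one level.** -/
theorem nonempty_degStep_last (hp3 : 3 ≤ p) (hε : ε * ε = 1)
    (hord : (GaloisRepAdic.ofResidualGaloisRep L.F.X.ρbar).IsOrdinaryAt p) :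
    Nonempty (DegStep (levelMax n)
      (Lc.actLow Finset.univ) Lc.actTop
      ((p + 1 : ℕ) : MvPowerSeries (LCoord (placeκ L.F) (Option (Option (Fin k)))) O)
      (lastIncl (lastT p ε)) 1) := by
  have hp2 : p ≠ 2 := by omega
  have hΔ : IsPGroup p (TWGroup p L.F.r' n) := isPGroup_twGroup n
  have hp := L.F.p_mem
  have hpS := L.F.p_mem_ops n
  set X₀ := Ln.Φ.lvl Finset.univ with hX₀
  set zY := unitRoot Ln.Y.rep.ru d.F d.τ with hzY
  set z := unitRoot X₀.rep.ru d.F d.τ with hz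
  let f₁ := (Lc.toTop.comp Lc.γ).comp (lastIncl (κ := placeκ L.F) (ρ := Option (Fin k)))
  let f₀ := Ln.π.comp f₁
  have hw₁ : f₁ lastW = zY - algebraMap O _ ε := Lc.toTop_lastW
  have hw₀ : f₀ lastW = z - algebraMap O _ ε := by
    show Ln.π (f₁ lastW) = _
    exact (congrArg Ln.π hw₁).trans ((map_sub Ln.π _ _).trans
      (congrArg₂ (· - ·) (π_unitRoot hp2) (Ln.π.commutes ε)))
  have hactLow : Lc.actLow Finset.univ = downAct X₀.N Ln.Y.N (Ln.Φ.basis Finset.univ)
      (twChar O p L.F.r' n) (Lc.toTop.comp Lc.γ) Ln.π := by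
    simp only [actLow, LevelFamily.act, Ln.Φ.down_univ, AlgHom.id_comp]
    rfl
  obtain ⟨ℓ, aux, hℓS, hℓ⟩ := exists_auxPrime hp2 L.F.X.abs L.F.X.det_cyclotomic
    (hasCharpolys_mono (S' := L.F.ops n) Finset.subset_union_left L.F.X.charpolys)
    (Fact.out : p.Prime).ne_zero (L.F.squarefree_lev n Finset.univ).ne_zero
  have hsq : ∀ θ, ¬ p ^ 2 ∣ (X₀.rep.pt θ).M := fun θ h =>
    L.F.not_dvd_lev_univ L.not_dvd n ((Fact.out : p.Prime).dvd_of_dvd_pow
      ((dvd_pow_self p two_ne_zero).trans (h.trans (X₀.rep.pt θ).dvd)))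
  have : IsNoetherianRing X₀.N.H.algebra := isNoetherian_of_tower O inferInstance
  obtain ⟨b, F, hF, hI, hD, hFz⟩ := X₀.exists_rootBasis
    (d.hasUnitRoot (X₀.rep.detIsCyclotomic hp hΔ)
      (X₀.isOrdinaryAt hp3 hΔ hpS hord hsq)) (CFT.Local.padicPlace_liesOverPrime p)
  have hzu : IsUnit z := isUnit_root f₀ hw₀ hε
  have hT₀ : f₀ (lastT p ε) =
      z + (p : X₀.N.H.algebra) * (↑hzu.unit⁻¹ : X₀.N.H.algebra) := by
    refine hzu.mul_right_cancel ((map_lastT_mul f₀ hw₀ hε).trans ?_)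
    simp only [add_mul, mul_assoc, hzu.val_inv_mul, mul_one, sq]
  rw [hactLow]
  refine nonempty_degStep (N := X₀.N) (N' := Ln.Y.N) (h := L.raise n) (hq := hpS)
    (B := Ln.Φ.basis Finset.univ) (B' := Ln.basis) (χ := twChar O p L.F.r' n)
    (g := Lc.toTop.comp Lc.γ) (π := Ln.π) (Ln.Φ.psi_surjective _) Ln.compat hp2 hΔ
    (L.F.X.weights_levelOf (L.F.tw n).prime Finset.univ) (L.hasSTWeights n) aux hℓS hℓ
    (Ln.Φ.d_eq Finset.univ) (twChar_sub_one_mem n)
    (exists_sub_algebraMap_mem_levelMax n) (algebraMap_mem_levelMax n hp) ?_ (fun x => ?_)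
    fun x hx => ?_
  · simp only [map_natCast]
  · show X₀.N.incl ((f₀ (lastT p ε) : Module.End O X₀.N.H.M) x) = _
    rw [hT₀]
    exact incl_root_eq_symT X₀.N hp2 (L.F.X.weights_levelOf (L.F.tw n).prime Finset.univ) hΔ
      (Ln.Φ.psi_surjective _) (L.F.squarefree_lev n _) X₀.hS (L.F.X.eis _) (L.raise n) hzu.unit
      (fun θ Q hv => (AtP.point_unitRoot X₀.rep.G hp hΔ hp3 hpS (X₀.isOrdinaryAt_residual hord) Q
        (CFT.Local.padicPlace_liesOverPrime p) hF b hI hD hFz).1 hv) x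
  · have h := symRoot_sq_apply_eq_zero (T := f₁ (lastT p ε)) X₀.N Ln.Y (L.raise n) hpS d hp3
      (L.hasSTWeights n) hΔ (Ln.Φ.psi_surjective _) (L.F.squarefree_lev_mul L.not_dvd n)
      (L.F.X.eis _) hord (isUnit_root f₁ hw₁ hε) (map_lastT_mul f₁ hw₁ hε) hx
    simp only [Nat.cast_pow] at h
    simp only [pow_one, map_sub, map_pow, map_natCast]
    exact h

end LastCoords

end Fermat.Agent.RT.Lift

end
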