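import Fermat.Agent.RT.Lift.Residual
import Fermat.Agent.RT.Interface
import Fermat.Agent.RT.Assembly.Residual

/-!
# Congruent forms and the torsion of a curve

Congruences outside a finite set extend to all good primes; a newform congruent to a curve makes
the torsion of the curve unramified outside its level and `p`.
-/

set_option autoImplicit false

noncomputable section

open WeierstrassCurve Polynomial CongruenceSubgroup ModularFormClass Module
open scoped WeierstrassCurve.Affine TensorProduct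
open Fermat.Agent.GaloisReps (AbsGal)

namespace Fermat.Agent.RT.Lift

variable {W : WeierstrassCurve ℤ} {p : ℕ} [Fact p.Prime]

theorem natCast_ne_zero_of_ne {F : Type*} [Semiring F] [Nontrivial F] [CharP F p] {ℓ : ℕ}
    (hℓ : ℓ.Prime) (hne : ℓ ≠ p) : (ℓ : F) ≠ 0 := fun h =>
  hne ((Nat.prime_dvd_prime_iff_eq Fact.out hℓ).mp ((CharP.cast_eq_zero_iff F p ℓ).mp h)).symm

variable (hD : ∀ (N p : ℕ) [NeZero N] [Fact p.Prime], Nonempty (GaloisReps.HeckeGaloisModel N p))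
include hD

/-- A congruence outside a finite set gives a representation with the polynomials of the curve. -/
theorem exists_attached_hasCurveCharpolys (hΔ : W.Δ ≠ 0) {M : ℕ} (hM : M ≠ 0)
    {g : CuspForm (Gamma0 M) 2} (hg : g.IsNormalizedEigenform)
    {F : Type} [Field F] [CharP F p] [Algebra (ZMod p) F] (φ : integralClosure ℤ ℂ →+* F)
    (T : Finset ℕ)
    (hout : ∀ ℓ : ℕ, ℓ.Prime → ℓ ∉ T → ∀ a : integralClosure ℤ ℂ, (a : ℂ) = qCoeff g ℓ →
      φ a = ((W.apOfModel ℓ : ℤ) : F)) :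
    ∃ (r : ResidualGaloisRep F) (S : Finset ℕ), r.IsAttachedTo g φ ∧
      (∀ ℓ : ℕ, ℓ.Prime → ¬ ℓ ∣ M * p → r.IsUnramifiedAt ℓ) ∧ HasCurveCharpolys r W S ∧
      HasCurveCharpolys ((EC.Rep.residualRep W p hΔ).baseChange F) W S := by
  classical
  obtain ⟨r, hatt, hunr⟩ := GaloisReps.exists_residual_eigenform hD hg (Fact.out : p.Prime) φ
  set S : Finset ℕ := T ∪ insert p (M.primeFactors ∪ W.Δ.natAbs.primeFactors) with hS
  have hpS : p ∈ S := Finset.mem_union_right _ (Finset.mem_insert_self _ _)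
  have hgood : ∀ ℓ : ℕ, ℓ.Prime → ℓ ∉ S → W.IsGoodPrimeFor ℓ := fun ℓ hℓ h hd =>
    h (Finset.mem_union_right _ (Finset.mem_insert_of_mem (Finset.mem_union_right _
      (Nat.mem_primeFactors.mpr ⟨hℓ, Int.natCast_dvd.mp hd, Int.natAbs_ne_zero.mpr hΔ⟩))))
  refine ⟨r, S, hatt, hunr, fun ℓ hℓ hℓS A hA σ hσ => ?_,
    hasCurveCharpolys_residualRep hΔ hpS hgood⟩
  have hℓp : ℓ ≠ p := fun h => hℓS (h ▸ hpS)
  have hℓM : ¬ ℓ ∣ M := fun h => hℓS (Finset.mem_union_right _ (Finset.mem_insert_of_mem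
    (Finset.mem_union_left _ (Nat.mem_primeFactors.mpr ⟨hℓ, h, hM⟩))))
  obtain ⟨a, ha, hc⟩ := hatt ℓ hℓ hℓM (natCast_ne_zero_of_ne (p := p) hℓ hℓp) A hA σ hσ
  rw [hc, hout ℓ hℓ (fun h => hℓS (Finset.mem_union_left _ h)) a ha]

/-- **A congruence outside a finite set is a congruence at every good prime.** -/
theorem congruentTo_of_outside (hΔ : W.Δ ≠ 0) {M : ℕ} (hM : M ≠ 0) {g : CuspForm (Gamma0 M) 2}
    (hg : g.IsNormalizedEigenform) {𝔪 : Ideal (integralClosure ℤ ℂ)} (hm : 𝔪.IsMaximal)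
    (hpm : (p : integralClosure ℤ ℂ) ∈ 𝔪) (T : Finset ℕ)
    (hout : ∀ ℓ : ℕ, ℓ.Prime → ℓ ∉ T → ∀ a : integralClosure ℤ ℂ, (a : ℂ) = qCoeff g ℓ →
      a - ((W.apOfModel ℓ : ℤ) : integralClosure ℤ ℂ) ∈ 𝔪) :
    CongruentTo g W p 𝔪 := by
  classical
  intro ℓ hℓ hgood hℓM hℓp
  let : Field (integralClosure ℤ ℂ ⧸ 𝔪) := Ideal.Quotient.field 𝔪
  have : CharP (integralClosure ℤ ℂ ⧸ 𝔪) p := by
    refine (CharP.charP_iff_prime_eq_zero Fact.out).mpr ?_
    rw [← map_natCast (Ideal.Quotient.mk 𝔪), Ideal.Quotient.eq_zero_iff_mem]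
    exact hpm
  let : Algebra (ZMod p) (integralClosure ℤ ℂ ⧸ 𝔪) := ZMod.algebra _ p
  obtain ⟨r, S, hatt, -, hr, hW⟩ := exists_attached_hasCurveCharpolys hD hΔ hM hg
    (Ideal.Quotient.mk 𝔪) T fun l hl hlT a ha => by
      rw [Ideal.Quotient.eq.mpr (hout l hl hlT a ha), map_intCast]
  obtain ⟨A, hA⟩ := Arith.exists_liesOverPrime hℓ
  obtain ⟨σ, hσ⟩ := Arith.exists_isFrobeniusAt hA hℓ
  obtain ⟨a, ha, hc⟩ := hatt ℓ hℓ hℓM (natCast_ne_zero_of_ne (p := p) hℓ hℓp) A hA σ hσ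
  refine ⟨a, ha, Ideal.Quotient.eq.mp ?_⟩
  have h1 := (trace_det_eq_of_frobenius hr hW σ).1
  rw [(ConductorLevel.trace_det_of_charpoly r.finrank_eq hc).1] at h1
  rw [h1, map_intCast]
  show LinearMap.trace _ _ (((EC.Rep.residualRep W p hΔ).ρ σ).baseChange _) = _
  rw [LinearMap.trace_baseChange, (ConductorLevel.trace_det_of_charpoly
    (EC.Rep.residualRep W p hΔ).finrank_eq
    (EC.Rep.charpoly_residualRep_frobenius hΔ hℓ hgood hℓp hA hσ)).1, map_intCast]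

omit hD in
/-- The maximal ideal of a congruence. -/
theorem ker_isMaximal_natCast_mem {F : Type*} [Field F] [CharP F p]
    (φ : integralClosure ℤ ℂ →+* F) :
    (RingHom.ker φ).IsMaximal ∧ (p : integralClosure ℤ ℂ) ∈ RingHom.ker φ := by
  have hpm : (p : integralClosure ℤ ℂ) ∈ RingHom.ker φ := by
    rw [RingHom.mem_ker, map_natCast]; exact CharP.cast_eq_zero _ _
  have hP : (RingHom.ker φ).IsPrime := RingHom.ker_isPrime φ
  refine ⟨Ideal.isMaximal_of_isIntegral_of_isMaximal_comap (R := ℤ) _ ?_, hpm⟩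
  have hle : Ideal.span {(p : ℤ)} ≤ (RingHom.ker φ).comap (algebraMap ℤ _) := by
    rw [Ideal.span_le, Set.singleton_subset_iff, SetLike.mem_coe, Ideal.mem_comap, map_natCast]
    exact hpm
  have hmax : (Ideal.span {(p : ℤ)}).IsMaximal :=
    PrincipalIdealRing.isMaximal_of_irreducible
      (Nat.prime_iff_prime_int.mp (Fact.out : p.Prime)).irreducible
  rw [← hmax.eq_of_le (Ideal.IsPrime.comap _).ne_top hle]
  exact hmax

variable {k : Type} [Field k] [CharP k p]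

/-- A congruent form is congruent in the sense of ideals. -/
theorem exists_congruentTo_of_isCongruentForm (hΔ : W.Δ ≠ 0) {S : Finset ℕ} {M : ℕ} (hM : M ≠ 0)
    {g : CuspForm (Gamma0 M) 2}
    (hcong : IsCongruentForm S (fun ℓ => ((W.apOfModel ℓ : ℤ) : k)) g) :
    ∃ 𝔪 : Ideal (integralClosure ℤ ℂ), 𝔪.IsMaximal ∧ (p : integralClosure ℤ ℂ) ∈ 𝔪 ∧
      CongruentTo g W p 𝔪 := by
  obtain ⟨hg, φ, hφ⟩ := hcong
  have : CharP (AlgebraicClosure k) p :=
    charP_of_injective_algebraMap (algebraMap k (AlgebraicClosure k)).injective p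
  obtain ⟨hm, hpm⟩ := ker_isMaximal_natCast_mem (p := p) φ
  refine ⟨_, hm, hpm, congruentTo_of_outside hD hΔ hM hg hm hpm S fun ℓ hℓ hℓS a ha => ?_⟩
  rw [RingHom.mem_ker, map_sub, hφ ℓ hℓ hℓS a ha, map_intCast, map_intCast, sub_self]

/-- A congruent level is residually modular. -/
theorem isResiduallyModularOfLevel_of_isCongruentLevel (hΔ : W.Δ ≠ 0) {S : Finset ℕ} {M : ℕ}
    (hM : M ≠ 0) (hcong : IsCongruentLevel S (fun ℓ => ((W.apOfModel ℓ : ℤ) : k)) M) :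
    W.IsResiduallyModularOfLevel p M := by
  obtain ⟨g, hg⟩ := hcong
  obtain ⟨𝔪, hm, hpm, hc⟩ := exists_congruentTo_of_isCongruentForm hD hΔ hM hg
  exact ⟨g, 𝔪, hg.1, hm, hpm, hc⟩

omit hD in
/-- A form congruent at the good primes gives a congruent level. -/
theorem isCongruentLevel_of_congruentTo {S : Finset ℕ} {M : ℕ} {g : CuspForm (Gamma0 M) 2}
    (hg : g.IsNormalizedEigenform) {𝔪 : Ideal (integralClosure ℤ ℂ)} (hm : 𝔪.IsMaximal)
    (hpm : (p : integralClosure ℤ ℂ) ∈ 𝔪) (hcong : CongruentTo g W p 𝔪)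
    (hS : ∀ ℓ : ℕ, ℓ.Prime → ℓ ∉ S → W.IsGoodPrimeFor ℓ ∧ ¬ ℓ ∣ M ∧ ℓ ≠ p) :
    IsCongruentLevel S (fun ℓ => ((W.apOfModel ℓ : ℤ) : k)) M := by
  let : Field (integralClosure ℤ ℂ ⧸ 𝔪) := Ideal.Quotient.field 𝔪
  have hpF : CharP (integralClosure ℤ ℂ ⧸ 𝔪) p := by
    refine (CharP.charP_iff_prime_eq_zero Fact.out).mpr ?_
    rw [← map_natCast (Ideal.Quotient.mk 𝔪), Ideal.Quotient.eq_zero_iff_mem]
    exact hpm
  let : Algebra (ZMod p) (integralClosure ℤ ℂ ⧸ 𝔪) := ZMod.algebra _ p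
  let : Algebra (ZMod p) k := ZMod.algebra _ p
  have : Algebra.IsIntegral ℤ (integralClosure ℤ ℂ ⧸ 𝔪) := inferInstance
  have : Algebra.IsIntegral (ZMod p) (integralClosure ℤ ℂ ⧸ 𝔪) :=
    ⟨fun x => (Algebra.IsIntegral.isIntegral (R := ℤ) x).tower_top⟩
  let j : (integralClosure ℤ ℂ ⧸ 𝔪) →ₐ[ZMod p] AlgebraicClosure k := IsAlgClosed.lift
  refine ⟨g, hg, j.toRingHom.comp (Ideal.Quotient.mk 𝔪), fun ℓ hℓ hℓS a ha => ?_⟩
  obtain ⟨hgood, hℓM, hℓp⟩ := hS ℓ hℓ hℓS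
  obtain ⟨b, hb, hbm⟩ := hcong ℓ hℓ hgood hℓM hℓp
  rw [RingHom.comp_apply, show a = b from Subtype.ext (ha.trans hb.symm),
    Ideal.Quotient.eq.mpr hbm, map_intCast, map_intCast, map_intCast]

/-- **Unramified outside the level of a congruent form.** -/
theorem isUnramifiedAt_residualRep_of_congruentTo (hp2 : p ≠ 2) (hΔ : W.Δ ≠ 0)
    (hirr : W.ModRepIsIrreducible p) {M : ℕ} (hM : M ≠ 0) {g : CuspForm (Gamma0 M) 2}
    (hg : g.IsNormalizedEigenform) {𝔪 : Ideal (integralClosure ℤ ℂ)} (hm : 𝔪.IsMaximal)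
    (hpm : (p : integralClosure ℤ ℂ) ∈ 𝔪) (hcong : CongruentTo g W p 𝔪)
    {q : ℕ} (hq : q.Prime) (hqp : q ≠ p) (hqM : ¬ q ∣ M) :
    (EC.Rep.residualRep W p hΔ).IsUnramifiedAt q := by
  classical
  let : Field (integralClosure ℤ ℂ ⧸ 𝔪) := Ideal.Quotient.field 𝔪
  have : CharP (integralClosure ℤ ℂ ⧸ 𝔪) p := by
    refine (CharP.charP_iff_prime_eq_zero Fact.out).mpr ?_
    rw [← map_natCast (Ideal.Quotient.mk 𝔪), Ideal.Quotient.eq_zero_iff_mem]
    exact hpm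
  let : Algebra (ZMod p) (integralClosure ℤ ℂ ⧸ 𝔪) := ZMod.algebra _ p
  have hout : ∀ l : ℕ, l.Prime → l ∉ insert p (M.primeFactors ∪ W.Δ.natAbs.primeFactors) →
      ∀ a : integralClosure ℤ ℂ, (a : ℂ) = qCoeff g l →
        Ideal.Quotient.mk 𝔪 a = ((W.apOfModel l : ℤ) : integralClosure ℤ ℂ ⧸ 𝔪) :=
      fun l hl hlT a ha => by
    simp only [Finset.mem_insert, Finset.mem_union, not_or] at hlT
    obtain ⟨b, hb, hbm⟩ := hcong l hl
      (fun hd => hlT.2.2 (Nat.mem_primeFactors.mpr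
        ⟨hl, Int.natCast_dvd.mp hd, Int.natAbs_ne_zero.mpr hΔ⟩))
      (fun hd => hlT.2.1 (Nat.mem_primeFactors.mpr ⟨hl, hd, hM⟩)) hlT.1
    rw [show a = b from Subtype.ext (ha.trans hb.symm), Ideal.Quotient.eq.mpr hbm, map_intCast]
  obtain ⟨r, S, -, hunr, hr, hW⟩ := exists_attached_hasCurveCharpolys hD hΔ hM hg
    (Ideal.Quotient.mk 𝔪) _ hout
  set ρ := (EC.Rep.residualRep W p hΔ).baseChange (integralClosure ℤ ℂ ⧸ 𝔪)
  have habs : ρ.IsAbsolutelyIrreducible := Assembly.isAbsolutelyIrreducible_baseChange _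
    fun K => EC.Rep.baseChange_residualRep_isIrreducible hΔ hp2 hirr K
  let b : Basis (Fin 2) (integralClosure ℤ ℂ ⧸ 𝔪) ρ.V :=
    Module.finBasisOfFinrankEq _ ρ.V ρ.finrank_eq
  intro A hA σ hσ
  have hrσ : r.ρ σ = 1 := hunr q hq
    (fun h => (hq.dvd_mul.mp h).elim hqM fun h' =>
      hqp ((Nat.prime_dvd_prime_iff_eq hq Fact.out).mp h')) A hA σ hσ
  have htr : ∀ τ, ((LinearMap.toMatrixAlgEquiv b (ρ.ρ τ)) *
      (LinearMap.toMatrixAlgEquiv b (ρ.ρ σ) - 1)).trace = 0 := fun τ => by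
    have e : ∀ s, (LinearMap.toMatrixAlgEquiv b (ρ.ρ s)).trace =
        LinearMap.trace (integralClosure ℤ ℂ ⧸ 𝔪) r.V (r.ρ s) :=
      fun s => (LinearMap.trace_eq_matrix_trace _ b _).symm.trans
        (trace_det_eq_of_frobenius hr hW s).1.symm
    rw [mul_sub, mul_one, ← map_mul, ← map_mul, Matrix.trace_sub, e, e, map_mul, hrσ, mul_one,
      sub_self]
  have h0 : ∀ X : Matrix (Fin 2) (Fin 2) (integralClosure ℤ ℂ ⧸ 𝔪),
      (X * (LinearMap.toMatrixAlgEquiv b (ρ.ρ σ) - 1)).trace = 0 := fun X => by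
    have hX : X ∈ Submodule.span (integralClosure ℤ ℂ ⧸ 𝔪)
        (Set.range fun τ => LinearMap.toMatrixAlgEquiv b (ρ.ρ τ)) := by
      rw [Deform.span_matrix_eq_top ρ habs b]; trivial
    induction hX using Submodule.span_induction with
    | mem X hX => obtain ⟨τ, rfl⟩ := hX; exact htr τ
    | zero => simp
    | add x y _ _ hx hy => rw [add_mul, Matrix.trace_add, hx, hy, add_zero]
    | smul c x _ hx => rw [smul_mul_assoc, Matrix.trace_smul, hx, smul_zero]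
  have hone : ρ.ρ σ = 1 := by
    refine (LinearMap.toMatrixAlgEquiv b).injective ?_
    rw [map_one, ← sub_eq_zero]
    ext i j
    have := h0 (Matrix.single j i 1)
    simpa [Matrix.trace, Matrix.mul_apply, Matrix.single_apply, ite_and] using this
  refine LinearMap.ext fun x => Module.FaithfullyFlat.tensorProduct_mk_injective (A := ZMod p)
    (B := (integralClosure ℤ ℂ ⧸ 𝔪)) _ ?_
  exact LinearMap.congr_fun hone ((1 : (integralClosure ℤ ℂ ⧸ 𝔪)) ⊗ₜ[ZMod p] x)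

end Fermat.Agent.RT.Lift
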