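import Fermat.Agent.RT.Lift.Levels.Setting
import Fermat.Agent.RT.Lift.Levels.ResidualCongruence
import Fermat.Agent.RT.Lift.Aux3
import Fermat.Agent.RT.Lift.LowerSqAux
import Fermat.Agent.EC.Rep.TWHypothesis

/-!
# The residual setting exists

The residual representation of `W` over the residue field of the coefficient ring, with the
auxiliary factor `R = 1` for `p = 5` and a product of two auxiliary primes for `p = 3`, satisfies
the conditions of the patching argument.
-/

set_option autoImplicit false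

noncomputable section

open IsLocalRing Module Polynomial WeierstrassCurve
open CongruenceSubgroup ModularFormClass
open scoped WeierstrassCurve.Affine TensorProduct
open Fermat.Agent.Deform (Gal Rigid matRes)

namespace Fermat.Agent.RT.Lift

local notation "Q̄" => AlgebraicClosure ℚ

variable {W : WeierstrassCurve ℤ} {p : ℕ} [Fact p.Prime] {k : Type} [Field k]
  [Algebra (ZMod p) k]

/-- The determinant is the cyclotomic character. -/
theorem det_baseChange_residualRep (hΔ : W.Δ ≠ 0) {σ : Gal} {m : ℕ}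
    (hm : ∀ μ : Q̄, μ ^ p = 1 → σ μ = μ ^ m) :
    LinearMap.det (((EC.Rep.residualRep W p hΔ).baseChange k).ρ σ) = (m : k) := by
  have hn := EC.FrobTrace.card_rootsOfUnity_Qbar p
  refine (LinearMap.det_baseChange (A := k) _).trans ?_
  rw [EC.Rep.det_residualRep _ hn, Arith.modularCyclotomicCharacter_eq_natCast hn hm, map_natCast]

/-- Inertia away from `p` has trace two. -/
theorem trace_baseChange_residualRep_inertia (hΔ : W.Δ ≠ 0) (hW : W.IsSemistableModel) {q : ℕ}
    (hq : q.Prime) (hqp : q ≠ p) {A : ValuationSubring Q̄} (hA : A.LiesOverPrime q) {σ : Gal}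
    (hσ : σ ∈ A.inertiaSubgroupIn ℚ) :
    LinearMap.trace k _ (((EC.Rep.residualRep W p hΔ).baseChange k).ρ σ) = 2 := by
  have h : LinearMap.charpoly ((EC.Rep.residualRep W p hΔ).ρ σ) = (X - C 1) ^ 2 :=
    EC.Rep.isUnipotentOnInertiaAt_residualRep hΔ hq hqp (fun h => hW q hq h.2 h.1) A hA σ hσ
  rw [show ((X : (ZMod p)[X]) - C 1) ^ 2 = X ^ 2 - C 2 * X + C 1 by
    rw [show (2 : ZMod p) = 1 + 1 by norm_num, map_add, map_one]; ring] at h
  refine (LinearMap.trace_baseChange (R := ZMod p) _ k).trans ?_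
  rw [(ConductorLevel.trace_det_of_charpoly (EC.Rep.residualRep W p hΔ).finrank_eq h).1, map_ofNat]

/-- The hypothesis of the choice of the primes of Taylor and Wiles, and split polynomials. -/
theorem twHyp_residualRep (hp2 : p ≠ 2) (hΔ : W.Δ ≠ 0) (hW : W.IsSemistableModel)
    (hirr : W.ModRepIsIrreducible p) [Finite k] [CharP k p]
    (hquad : ∀ f : (ZMod p)[X], f.natDegree = 2 →
      ∃ x : k, (f.map (ZMod.castHom dvd_rfl _)).IsRoot x)
    (bb : Basis (Fin 2) k ((EC.Rep.residualRep W p hΔ).baseChange k).V) :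
    (∀ g, ∃ α β : k, (matRes ((EC.Rep.residualRep W p hΔ).baseChange k) bb g).trace = α + β ∧
        (matRes ((EC.Rep.residualRep W p hΔ).baseChange k) bb g).det = α * β) ∧
      CFT.TWPrimes.TWHyp (matRes ((EC.Rep.residualRep W p hΔ).baseChange k) bb) := by
  classical
  set ρ := (EC.Rep.residualRep W p hΔ).baseChange k with hρ
  have habs : ρ.IsAbsolutelyIrreducible := Assembly.isAbsolutelyIrreducible_baseChange _
    fun K => EC.Rep.baseChange_residualRep_isIrreducible hΔ hp2 hirr K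
  have hsplit : ∀ σ : Gal, ∃ α β : k, LinearMap.charpoly (ρ.ρ σ) =
      (X - C α) * (X - C β) := by
    intro σ
    set f := LinearMap.charpoly ((EC.Rep.residualRep W p hΔ).ρ σ)
    have hf : f.natDegree = 2 := by
      rw [LinearMap.charpoly_natDegree]
      exact (EC.Rep.residualRep W p hΔ).finrank_eq
    obtain ⟨x, hx⟩ := hquad f hf
    have hg : LinearMap.charpoly (ρ.ρ σ) = f.map (ZMod.castHom dvd_rfl k) :=
      (LinearMap.charpoly_baseChange _ k).trans (congrArg f.map (RingHom.ext_zmod _ _))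
    rw [← hg, EC.FrobTrace.charpoly_of_finrank_eq_two ρ.finrank_eq] at hx
    refine ⟨x, LinearMap.trace _ _ (ρ.ρ σ) - x, ?_⟩
    rw [EC.FrobTrace.charpoly_of_finrank_eq_two ρ.finrank_eq]
    simp only [IsRoot.def, eval_add, eval_sub, eval_pow, eval_mul, eval_X, eval_C] at hx
    rw [show LinearMap.det (ρ.ρ σ) = LinearMap.trace _ _ (ρ.ρ σ) * x - x ^ 2 by
      linear_combination hx]
    simp only [map_sub, map_mul, map_pow]
    ring
  refine ⟨fun g => ?_, ?_⟩
  · obtain ⟨α, β, h⟩ := hsplit g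
    have h' : LinearMap.charpoly (ρ.ρ g) = X ^ 2 - C (α + β) * X + C (α * β) := by
      rw [h, map_add, map_mul]; ring
    obtain ⟨h1, h2⟩ := ConductorLevel.trace_det_of_charpoly ρ.finrank_eq h'
    exact ⟨α, β, (LinearMap.trace_eq_matrix_trace k bb _).symm.trans h1,
      (LinearMap.det_toMatrix bb _).trans h2⟩
  have h2k : (2 : k) ≠ 0 := fun h => hp2 <| by
    have h2 : ((2 : ℕ) : k) = 0 := by rw [Nat.cast_two, h]
    rw [CharP.cast_eq_zero_iff k p] at h2
    exact (Nat.prime_dvd_prime_iff_eq Fact.out Nat.prime_two).1 h2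
  refine CFT.TWPrimes.twHyp_matRes ρ bb h2k habs hsplit fun G hG V hV => ?_
  let e : (ρ.baseChange k).V ≃ₗ[k] ρ.V := TensorProduct.lid k ρ.V
  have he : ∀ (σ : Gal) w, e ((ρ.baseChange k).ρ σ w) = ρ.ρ σ (e w) := fun σ w =>
    LinearMap.congr_fun (show e.toLinearMap ∘ₗ (ρ.ρ σ).baseChange k =
      ρ.ρ σ ∘ₗ e.toLinearMap by ext y; simp [e]) w
  rcases EC.Rep.residualRep_indexTwo_irreducible (hΔ := hΔ) hW hp2 hirr
    k G hG (V.map e.toLinearMap) (fun σ hσ x hx => by
      obtain ⟨w, hw, rfl⟩ := hx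
      exact ⟨_, hV σ hσ w hw, he σ w⟩) with h | h
  · exact Or.inl (Submodule.map_injective_of_injective e.injective
      (h.trans (Submodule.map_bot _).symm))
  · exact Or.inr (Submodule.map_injective_of_injective e.injective
      (h.trans (by rw [Submodule.map_top, LinearEquiv.range])))

variable {O : Type} [CommRing O] [IsDomain O] [IsDiscreteValuationRing O]
  [IsAdicComplete (maximalIdeal O) O] [Finite (ResidueField O)] [CharP (ResidueField O) p]

omit [IsAdicComplete (maximalIdeal O) O] [Finite (ResidueField O)] in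
/-- The auxiliary factor. -/
theorem exists_auxFactor (hp : p = 3 ∨ p = 5) (hΔ : W.Δ ≠ 0)
    (hW : W.IsSemistableModel) (hirr : W.ModRepIsIrreducible p) {r : ℕ}
    (hr : IsAuxLevel W p r) (hrL : r.Coprime W.conductorLevel) :
    ∃ R : ℕ, Squarefree (W.conductorLevel * R) ∧
      (∀ q : ℕ, q.Prime → q ∣ R → q ≠ p ∧ W.IsGoodPrimeFor q ∧
        ¬ (p : ℤ) ∣ W.apOfModel q ^ 2 - ((q : ℤ) + 1) ^ 2) ∧
      ∀ L : ℕ, L ≠ 0 → R ∣ L → GammaH.HasSTWeights O L := by
  rcases hp with hp3 | hp5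
  · have hr0 : r ≠ 0 := by rcases hr with ⟨-, h⟩ | ⟨h, -⟩ <;> [omega; exact h.ne_zero]
    obtain ⟨r', hr', hr'L⟩ := exists_auxLevel (Or.inl hp3) hΔ hW hirr (W.conductorLevel * r)
      (mul_ne_zero W.conductorLevel_pos.ne' hr0)
    rcases hr with ⟨h, -⟩ | ⟨hr, hr3, hrp, hrgood, hra⟩
    · exact absurd hp3 h
    rcases hr' with ⟨h, -⟩ | ⟨hr', hr3', hrp', hrgood', hra'⟩
    · exact absurd hp3 h
    have hne : r ≠ r' := fun h =>
      (hr'.coprime_iff_not_dvd.mp hr'L) (h ▸ dvd_mul_left r W.conductorLevel)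
    refine ⟨r * r', ?_, fun q hq hqR => ?_, fun L hL hRL => ?_⟩
    · rw [← mul_assoc, Nat.squarefree_mul hr'L.symm, Nat.squarefree_mul hrL.symm]
      exact ⟨⟨W.squarefree_conductorLevel, hr.squarefree⟩, hr'.squarefree⟩
    · rcases hq.dvd_mul.mp hqR with h | h
      · rw [(Nat.prime_dvd_prime_iff_eq hq hr).mp h]; exact ⟨hrp, hrgood, hra⟩
      · rw [(Nat.prime_dvd_prime_iff_eq hq hr').mp h]; exact ⟨hrp', hrgood', hra'⟩
    · have : NeZero L := ⟨hL⟩
      exact GammaH.hasSTWeights_of_dvd hr hr' hne hr3 hr3' ((dvd_mul_right r r').trans hRL)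
        ((dvd_mul_left r' r).trans hRL)
  · refine ⟨1, by rw [mul_one]; exact W.squarefree_conductorLevel,
      fun q hq hq1 => absurd hq1 hq.not_dvd_one, fun L _ _ => GammaH.hasSTWeights_of_isUnit ?_⟩
    by_contra h
    have h0 : residue O ((3 : ℕ) : O) = 0 := (residue_eq_zero_iff _).mpr (by exact_mod_cast h)
    rw [map_natCast, CharP.cast_eq_zero_iff (ResidueField O) p, hp5] at h0
    norm_num at h0

/-- **The residual setting exists.** -/
theorem exists_raiseSetting
    (hD : ∀ (N p : ℕ) [NeZero N] [Fact p.Prime], Nonempty (GaloisReps.HeckeGaloisModel N p))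
    (h35 : ConductorLevel.NewformRepInput)
    (hp : p = 3 ∨ p = 5) (hΔ : W.Δ ≠ 0) (hW : W.IsSemistableModel)
    (hirr : W.ModRepIsIrreducible p)
    (hcard : Nat.card (Submodule.torsionBy ℤ
      ((W.map (Int.castRingHom ℚ))⁄(AlgebraicClosure ℚ)).Point p) = p ^ 2)
    (hker : GaloisFactorsThroughFiniteLevel
      (WeierstrassCurve.Affine.Point.galoisRepModuleEnd (K := AlgebraicClosure ℚ) ℚ
        (W.map (Int.castRingHom ℚ)) p))
    {M : ℕ} [NeZero M] {g : CuspForm (Gamma0 M) 2} (hg : g.IsNewform)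
    {𝔪 : Ideal (integralClosure ℤ ℂ)} (hm : 𝔪.IsMaximal) (hpm : (p : integralClosure ℤ ℂ) ∈ 𝔪)
    (hcong : CongruentTo g W p 𝔪) (hML : M ∣ W.conductorLevel)
    (hminq : ∀ q : ℕ, q.Prime → q ∣ M → q ≠ p →
      ¬ ((W.map (Int.castRingHom ℚ)).residualGaloisRepOf p hcard hker).IsUnramifiedAt q)
    (hminp : p ∣ M → ¬ W.IsResiduallyModularOfLevel p (W.conductorLevel / p))
    {r : ℕ} (hr : IsAuxLevel W p r) (hrL : r.Coprime W.conductorLevel)
    (hpO : (p : O) ∈ maximalIdeal O)
    (hquad : ∀ f : (ZMod p)[X], f.natDegree = 2 →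
      ∃ x : ResidueField O, (f.map (ZMod.castHom dvd_rfl _)).IsRoot x) :
    ∃ R, Nonempty (RaiseSetting O p W M R) := by
  classical
  have hp2 : p ≠ 2 := by rcases hp with rfl | rfl <;> norm_num
  let : Algebra (ZMod p) (ResidueField O) := ZMod.algebra _ p
  obtain ⟨R, hsq, haux, hwt⟩ := exists_auxFactor (O := O) hp hΔ hW hirr hr hrL
  set ρ := (EC.Rep.residualRep W p hΔ).baseChange (ResidueField O) with hρ
  have habs : ρ.IsAbsolutelyIrreducible := Assembly.isAbsolutelyIrreducible_baseChange _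
    fun K => EC.Rep.baseChange_residualRep_isIrreducible hΔ hp2 hirr K
  let bb : Basis (Fin 2) (ResidueField O) ρ.V :=
    Module.finBasisOfFinrankEq (ResidueField O) ρ.V ρ.finrank_eq
  obtain ⟨Wr, hWr⟩ := Deform.exists_rigid ρ habs bb
  obtain ⟨hsplit, hTW⟩ := twHyp_residualRep hp2 hΔ hW hirr hquad bb
  have hinj := (algebraMap (ZMod p) (ResidueField O)).injective
  have hbad : ∀ ℓ : ℕ, ℓ.Prime → ℓ ∉ badSet W p R →
      W.IsGoodPrimeFor ℓ ∧ ¬ ℓ ∣ M ∧ ℓ ≠ p := fun ℓ hℓ h => by
    simp only [badSet, Finset.mem_insert, Nat.mem_primeFactors, not_or] at h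
    have hc : ¬ ℓ ∣ W.conductorLevel := fun hd =>
      h.2 ⟨hℓ, hd.mul_right R, mul_ne_zero W.conductorLevel_pos.ne' fun h0 =>
        by simp [h0] at hsq⟩
    exact ⟨fun hd => hc ((W.prime_dvd_conductorLevel_iff hΔ hℓ).2 hd),
      fun hd => hc (hd.trans hML), h.1⟩
  refine ⟨R, ⟨{
    ρbar := ρ
    bb := bb
    rigid := Wr
    rigid_rb := hWr
    abs := habs
    det_cyclotomic := fun σ m h => det_baseChange_residualRep hΔ h
    split := hsplit
    twHyp := hTW
    charpolys := hasCurveCharpolys_residualRep hΔ (Finset.mem_insert_self _ _)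
      fun ℓ hℓ h => (hbad ℓ hℓ h).1
    eis := fun S => ?_
    inertia_trace := fun q hq hqp A hA σ hσ =>
      trace_baseChange_residualRep_inertia hΔ hW hq hqp hA hσ
    unramified := fun q hq hqp hqM A hA σ hσ => ?_
    ramified := fun q hq hqp hqM A hA => ?_
    special := fun S N _ f hf hfc q hq hqp hqN hq2 A hA φ hφ => ?_
    level_dvd := hML
    level_congruent := isCongruentLevel_of_congruentTo hg.1 hm hpm hcong hbad
    minimal_p := fun hpM S h => hminp hpM
      (isResiduallyModularOfLevel_of_isCongruentLevel hD hΔ (Nat.div_pos (Nat.le_of_dvd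
        W.conductorLevel_pos (hpM.trans hML)) (Fact.out : p.Prime).pos).ne' h)
    squarefree := hsq
    aux := fun q hq hqR => ⟨(haux q hq hqR).1, fun A hA φ hφ h => ?_⟩
    weights := hwt
    curve := exists_curvePoint hΔ hW hp2 hpO hWr ⟨ResidualGaloisRep.Equiv.refl _⟩ }⟩⟩
  · obtain ⟨ℓ, hℓ, hℓS, -, -, hne⟩ :=
      EC.Rep.exists_apOfModel_ne (W := W) (p := p) hp2 hirr hΔ S
    refine ⟨ℓ, hℓ, hℓS, fun h => hne (hinj ?_)⟩
    rw [map_intCast, map_add, map_one, map_natCast]
    exact h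
  · show LinearMap.baseChange (ResidueField O) _ = 1
    rw [isUnramifiedAt_residualRep_of_congruentTo hD hp2 hΔ hirr (NeZero.ne M) hg.1 hm hpm hcong hq
      hqp hqM A hA σ hσ, LinearMap.baseChange_one]
  · by_contra hall
    push Not at hall
    refine hminq q hq hqM hqp fun B hB σ hσ => ?_
    obtain ⟨s, rfl⟩ := Arith.exists_smul_eq hA hB hq
    have h1 := hall _ (EC.Rep.conj_mem_inertia hσ)
    rw [map_mul, map_mul] at h1
    have h2 : ρ.ρ σ = 1 := by
      calc ρ.ρ σ = ρ.ρ s * (ρ.ρ s⁻¹ * ρ.ρ σ * ρ.ρ s) * ρ.ρ s⁻¹ := by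
            rw [← map_mul, ← map_mul, ← map_mul, ← map_mul]
            congr 1
            group
        _ = 1 := by rw [h1, mul_one, ← map_mul, mul_inv_cancel, map_one]
    refine LinearMap.ext fun x => Module.FaithfullyFlat.tensorProduct_mk_injective (A := ZMod p)
      (B := ResidueField O) _ ?_
    exact LinearMap.congr_fun h2 ((1 : ResidueField O) ⊗ₜ[ZMod p] x)
  · obtain ⟨𝔫, hn, hpn, hc⟩ := exists_congruentTo_of_isCongruentForm (k := ResidueField O) hD hΔ
      (NeZero.ne N) hfc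
    show LinearMap.trace _ _ (((EC.Rep.residualRep W p hΔ).ρ φ).baseChange (ResidueField O)) ^ 2 = _
    rw [LinearMap.trace_baseChange, ← map_pow,
      trace_residualRep_sq_of_congruentTo h35 hΔ hf hn hpn hc hq hqp hqN hq2 hA hφ, map_pow,
      map_add, map_natCast, map_one]
  · obtain ⟨hqp, hgood, hna⟩ := haux q hq hqR
    change LinearMap.trace _ _ (((EC.Rep.residualRep W p hΔ).ρ φ).baseChange (ResidueField O)) ^ 2 =
      _ at h
    rw [LinearMap.trace_baseChange, (ConductorLevel.trace_det_of_charpoly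
      (EC.Rep.residualRep W p hΔ).finrank_eq
      (EC.Rep.charpoly_residualRep_frobenius hΔ hq hgood hqp hA hφ)).1, map_intCast] at h
    refine hna ((CharP.intCast_eq_zero_iff (ResidueField O) p _).1 ?_)
    push_cast
    rw [h, sub_self]

end Fermat.Agent.RT.Lift
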