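import Fermat.Agent.RT.Lift.Levels.LastModular
import Fermat.Agent.RT.Lift.Levels.LastDeg
import Fermat.Agent.RT.Lift.Levels.DegMatrices
import Fermat.Agent.RT.Lift.Levels.FrameReduces
import Fermat.Agent.RT.Lift.Levels.ChainInst
import Fermat.Agent.RT.Lift.Levels.LastCoordsExists
import Fermat.Agent.RT.Lift.Raise

/-!
# The flip at `p` from the coordinates at the top level

Coordinates at the top levels of the last flip give the degeneracy data, hence modularity, hence
the raising statement.
-/

set_option autoImplicit false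
set_option maxHeartbeats 1000000
set_option synthInstance.maxHeartbeats 200000
set_option linter.style.haveILetI false
set_option linter.unusedSectionVars false

noncomputable section

namespace Fermat.Agent.RT.Lift

open IsLocalRing Module WeierstrassCurve MvPowerSeries
open Fermat.Agent.Deform Fermat.Agent.Arith Fermat.Agent.RT.Germ

variable {O : Type} [CommRing O] [IsDomain O] [IsDiscreteValuationRing O]
  [IsAdicComplete (maximalIdeal O) O] [Finite (ResidueField O)] [CharZero O]
  {K : Type*} [NontriviallyNormedField K] [IsUltrametricDist K] [CompleteSpace K]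
  [IsAlgClosed K] {φ : O →+* ball1 K}
  {p : ℕ} [Fact p.Prime] [CharP (ResidueField O) p] {W : WeierstrassCurve ℤ} {M R : ℕ}

/-- **Modularity from coordinates at the top levels of the last flip.** -/
theorem LastFrame.isModularAwayFromFinite_of_lastCoords (L : LastFrame p W M R φ) (hΔ : W.Δ ≠ 0)
    (hp2 : p ≠ 2) (hφinj : Function.Injective φ) (hφ : ∀ a ∈ maximalIdeal O, ‖(φ a : K)‖ < 1)
    (d : RootData p) {k : ℕ} (hk : L.F.placeDim + 1 + k = L.F.r')
    (h : ∀ n, ∀ Ln : LastLevel L n, Nonempty (LastCoords Ln d (unitRoot L.F.rW d.F d.τ) k)) :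
    IsModularAwayFromFinite W p := by
  have hp3 : 3 ≤ p := by
    have := (Fact.out : p.Prime).two_le
    omega
  obtain ⟨U, hU⟩ : ∃ U : Ultrafilter ℕ, ∀ j, ∀ᶠ n in (U : Filter ℕ), j ≤ n :=
    ⟨Filter.hyperfilter ℕ, fun j => Filter.hyperfilter_le_cofinite
      (by rw [Nat.cofinite_eq_atTop]; exact Filter.eventually_ge_atTop j)⟩
  have hε := L.F.unitRoot_mul_self hΔ L.dvd d
  have hord := L.F.isOrdinaryAt_residual hΔ L.dvd
  obtain ⟨Λn⟩ : Nonempty (∀ n, LastLevel L n) := ⟨fun n => (L.nonempty_lastLevel hp2 n).some⟩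
  obtain ⟨C⟩ : Nonempty (∀ n, LastCoords (Λn n) d (unitRoot L.F.rW d.F d.τ) k) :=
    ⟨fun n => (h n (Λn n)).some⟩
  exact L.isModularAwayFromFinite_of_coords hΔ hp2 hφinj hφ hU hε rfl hk
    (fun hφinj hφ _ _ hdim Φ C' => L.F.chainLevels hp2 hφinj hφ hdim Φ C')
    (L.F.reduces hp2) Λn C (fun n => (C n).coords hp2)
    (fun n B => (C n).actLow_comp_incl hp2 B)
    (DegData.ofSteps fun n => ((C n).nonempty_degStep_last hp3 hε hord).some)

/-- **Modularity when `p` divides the conductor level and not `M`.** -/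
theorem flipCase : FlipCaseInput := by
  intro O _ _ _ _ _ _ K _ _ _ _ φ p _ _ W M R F hΔ hp2 _ hφinj hφ hpW hpM
  obtain ⟨L⟩ := F.exists_lastFrame hp2 hpW hpM
  obtain ⟨d⟩ := nonempty_rootData hp2
  have hp3 : 3 ≤ p := by
    have := (Fact.out : p.Prime).two_le
    omega
  obtain ⟨Λ₀⟩ := L.nonempty_lastLevel hp2 0
  have hle := (Λ₀.exists_lastCoords hΔ hp3 d).1
  exact L.isModularAwayFromFinite_of_lastCoords hΔ hp2 hφinj hφ d
    (k := L.F.r' - L.F.placeDim - 1) (by omega) fun n Ln => (Ln.exists_lastCoords hΔ hp3 d).2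

end Fermat.Agent.RT.Lift
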