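import Fermat.Agent.RT.Lift.Levels.Family
import Fermat.Agent.RT.Lift.Levels.UnitRoot

/-!
# The frame of the last flip at `p`

For `p` in the conductor level and prime to `M`: above the level of all places there is one more
level, `p` times it, whose rank over the diamond operators is made independent of `n` by passing to
a subfamily of the primes; and the coordinates at that level.
-/

set_option autoImplicit false
set_option linter.style.haveILetI false
set_option linter.unusedSectionVars false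
set_option synthInstance.maxHeartbeats 200000

noncomputable section

namespace Fermat.Agent.RT.Lift

open IsLocalRing Module WeierstrassCurve MvPowerSeries
open Fermat.Agent.Deform Fermat.Agent.Arith Fermat.Agent.RT.Germ
open Fermat.Agent.RT.GammaH
open Fermat.Agent.LevelRaising (RaiseData)

variable {O : Type} [CommRing O] [IsDomain O] [IsDiscreteValuationRing O]
  [IsAdicComplete (maximalIdeal O) O] [Finite (ResidueField O)] [CharZero O]
  {K : Type*} [NontriviallyNormedField K] [IsUltrametricDist K] [CompleteSpace K]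
  {φ : O →+* ball1 K}
  {p : ℕ} [Fact p.Prime] [CharP (ResidueField O) p] {W : WeierstrassCurve ℤ} {M R : ℕ}

/-- The places together with `p` exhaust the conductor level. -/
theorem RaiseSetting.mul_placeProd_mul (X : RaiseSetting O p W M R) (hpW : p ∣ W.conductorLevel)
    (hpM : ¬ p ∣ M) : M * placeProd (Finset.univ : Finset (Places W p M)) * p = W.conductorLevel := by
  refine Nat.dvd_antisymm (Nat.Coprime.mul_dvd_of_dvd_of_dvd ?_ (X.placeProd_mul_dvd _) hpW) ?_
  · refine Nat.coprime_comm.1 ((Fact.out : p.Prime).coprime_iff_not_dvd.2 fun h => ?_)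
    rcases (Fact.out : p.Prime).dvd_mul.1 h with h | h
    · exact hpM h
    · obtain ⟨v, -, hv⟩ := (Fact.out : p.Prime).prime.exists_mem_finset_dvd h
      exact v.ne ((Nat.prime_dvd_prime_iff_eq Fact.out v.prime).1 hv).symm
  · rw [← Nat.prod_primeFactors_of_squarefree W.squarefree_conductorLevel]
    refine Finset.prod_primes_dvd _ (fun q hq => (Nat.prime_of_mem_primeFactors hq).prime)
      fun q hq => ?_
    by_cases hqp : q = p
    · exact hqp ▸ dvd_mul_left _ _
    by_cases hqM : q ∣ M
    · exact dvd_mul_of_dvd_left (dvd_mul_of_dvd_left hqM _) _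
    exact dvd_mul_of_dvd_left (dvd_mul_of_dvd_right (Finset.dvd_prod_of_mem
      (fun v : Places W p M => (v : ℕ))
      (Finset.mem_univ (⟨q, Finset.mem_filter.2 ⟨hq, hqp, hqM⟩⟩ : Places W p M))) _) _

/-- The rank at `p` times the level of all places is bounded independently of the primes `q`. -/
theorem RaiseSetting.finrank_lastLevel_le (X : RaiseSetting O p W M R) (hp2 : p ≠ 2) {n r' : ℕ}
    {q : Fin r' → ℕ} {Smin T : Finset ℕ}
    (h : IsTWPrimes p X.rigid.rb Smin T (badSet W p R) n q)
    (hsq : Squarefree (levelOf R q (Finset.univ : Finset (Places W p M)) * p))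
    {e : OpRing O (levelOf R q (Finset.univ : Finset (Places W p M)) * p) (opSet W p R q)}
    (he : IsLocalizer (resIdeal (opSet W p R q) (curveAbar W) _)
      (HomMod O (opSet W p R q)
        (⊤ : Subgroup (ZMod (levelOf R q (Finset.univ : Finset (Places W p M)) * p))ˣ) O) e) :
    finrank O (localPart O e (HomMod O (opSet W p R q)
        (⊤ : Subgroup (ZMod (levelOf R q (Finset.univ : Finset (Places W p M)) * p))ˣ) O)) ≤
      2 ^ (r' + 1) * finrank ℂ (CuspForm (CongruenceSubgroup.Gamma0
        (M * placeProd (Finset.univ : Finset (Places W p M)) * R * p)) 2) := by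
  have : NeZero (levelOf R q (Finset.univ : Finset (Places W p M)) * p) := ⟨hsq.ne_zero⟩
  have hdvd : ∀ l : ℕ, l.Prime → l ∣ levelOf R q (Finset.univ : Finset (Places W p M)) * p →
      l ∈ opSet W p R q := fun l hl hd => by
    rcases hl.dvd_mul.1 hd with hd | hd
    · exact X.prime_dvd_levelOf h.prime hl hd
    · rw [(Nat.prime_dvd_prime_iff_eq hl Fact.out).1 hd]
      exact Finset.mem_union_left _ (Finset.mem_insert_self _ _)
  have hw : HasSTWeights O (levelOf R q (Finset.univ : Finset (Places W p M)) * p) :=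
    X.weights _ hsq.ne_zero (dvd_mul_of_dvd_left (dvd_mul_of_dvd_left (dvd_mul_of_dvd_left
      (dvd_mul_left R M) _) _) _)
  have hcard : (Finset.univ.image q).card = r' := by
    rw [Finset.card_image_of_injective _ h.injective, Finset.card_univ, Fintype.card_fin]
  refine (finrank_localPart_le_of_new (p := p) hp2 hw.1 hsq hdvd (X.eis _)
    (N := M * placeProd Finset.univ * R * p) (Q := Finset.univ.image q) ?_ ?_ ?_ he).trans
    (by rw [hcard])
  · rw [Finset.prod_image fun i _ j _ hij => h.injective hij, levelOf, baseLevel]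
    ring
  · intro x hx
    obtain ⟨i, -, rfl⟩ := Finset.mem_image.1 hx
    exact h.prime i
  · rintro N g hg hN ⟨x, hx, hxN⟩ hcg
    obtain ⟨i, -, rfl⟩ := Finset.mem_image.1 hx
    have : NeZero N := ⟨fun h0 => hsq.ne_zero (Nat.eq_zero_of_zero_dvd (h0 ▸ hN))⟩
    refine Assembly.not_dvd_level_of_distinct X.det_cyclotomic X.bb
      (fun S N => X.special S N) (h.prime i) ((dvd_pow_self p n.succ_ne_zero).trans (h.dvd i))
      (fun A hA φ hφ => ?_) hg hcg (hsq.squarefree_of_dvd hN) hxN
    rw [← X.rigid_rb]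
    exact h.distinct i A hA φ hφ

namespace Frame

variable (F : Frame p W M R φ)

theorem not_dvd_lev_univ (hpM : ¬ p ∣ M) (n : ℕ) : ¬ p ∣ F.lev n Finset.univ := fun h => by
  have hp : p.Prime := Fact.out
  rcases hp.dvd_mul.1 h with h1 | h1
  · rcases hp.dvd_mul.1 h1 with h2 | h2
    · rcases hp.dvd_mul.1 h2 with h3 | h3
      · exact hpM h3
      · exact (F.X.aux p hp h3).1 rfl
    · obtain ⟨i, -, hi⟩ := hp.prime.exists_mem_finset_dvd h2
      exact F.qv_ne n i ((Nat.prime_dvd_prime_iff_eq hp ((F.tw n).prime i)).1 hi).symm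
  · obtain ⟨v, -, hv⟩ := hp.prime.exists_mem_finset_dvd h1
    exact v.ne ((Nat.prime_dvd_prime_iff_eq hp v.prime).1 hv).symm

theorem squarefree_lev_mul (hpM : ¬ p ∣ M) (n : ℕ) : Squarefree (F.lev n Finset.univ * p) :=
  (Nat.squarefree_mul ((Fact.out : p.Prime).coprime_iff_not_dvd.2
    (F.not_dvd_lev_univ hpM n)).symm).2 ⟨F.squarefree_lev n _, (Fact.out : p.Prime).squarefree⟩

instance neZero_lev_mul (n : ℕ) : NeZero (F.lev n Finset.univ * p) :=
  ⟨mul_ne_zero (F.squarefree_lev n _).ne_zero (Fact.out : p.Prime).ne_zero⟩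

theorem ops_prime_last (n : ℕ) {q : ℕ} (hq : q.Prime) (h : q ∣ F.lev n Finset.univ * p) :
    q ∈ F.ops n := by
  rcases hq.dvd_mul.1 h with h | h
  · exact F.ops_prime n hq h
  · rw [(Nat.prime_dvd_prime_iff_eq hq Fact.out).1 h]
    exact F.p_mem_ops n

/-- The family at a subsequence of the primes. -/
def reindex (g : ℕ → ℕ) (hg : ∀ n, n ≤ g n) : Frame p W M R φ :=
  { F with
    qv := fun n => F.qv (g n)
    tw := fun n => (F.tw (g n)).mono (hg n)
    rank := fun n => F.rank (g n) }

end Frame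

/-- A frame for the last flip. -/
structure LastFrame (p : ℕ) [Fact p.Prime] (W : WeierstrassCurve ℤ) (M R : ℕ) (φ : O →+* ball1 K)
    where
  F : Frame p W M R φ
  dvd : p ∣ W.conductorLevel
  not_dvd : ¬ p ∣ M
  E : ℕ
  rank : ∀ (n : ℕ) (e : OpRing O (F.lev n Finset.univ * p) (F.ops n)),
    IsLocalizer (resIdeal (F.ops n) (curveAbar W) (F.lev n Finset.univ * p))
      (HomMod O (F.ops n) (⊤ : Subgroup (ZMod (F.lev n Finset.univ * p))ˣ) O) e →
    finrank O (localPart O e (HomMod O (F.ops n)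
      (⊤ : Subgroup (ZMod (F.lev n Finset.univ * p))ˣ) O)) = E

open Classical in
/-- **A frame for the last flip exists.** -/
theorem Frame.exists_lastFrame (F : Frame p W M R φ) (hp2 : p ≠ 2) (hpW : p ∣ W.conductorLevel)
    (hpM : ¬ p ∣ M) : Nonempty (LastFrame p W M R φ) := by
  let bd : ℕ := 2 ^ (F.r' + 1) * finrank ℂ (CuspForm (CongruenceSubgroup.Gamma0
    (M * placeProd (Finset.univ : Finset (Places W p M)) * R * p)) 2)
  let rk : ℕ → ℕ := fun m =>
    if h : ∃ e : OpRing O (F.lev m Finset.univ * p) (F.ops m),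
      IsLocalizer (resIdeal (F.ops m) (curveAbar W) (F.lev m Finset.univ * p))
        (HomMod O (F.ops m) (⊤ : Subgroup (ZMod (F.lev m Finset.univ * p))ˣ) O) e
    then finrank O (localPart O h.choose
      (HomMod O (F.ops m) (⊤ : Subgroup (ZMod (F.lev m Finset.univ * p))ˣ) O)) else 0
  have hrk : ∀ m, rk m < bd + 1 := fun m => by
    simp only [rk]
    split_ifs with h
    · exact Nat.lt_succ_of_le
        (F.X.finrank_lastLevel_le hp2 (F.tw m) (F.squarefree_lev_mul hpM m) h.choose_spec)
    · exact Nat.succ_pos _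
  obtain ⟨E, hE⟩ := Finite.exists_infinite_fiber fun m => (⟨rk m, hrk m⟩ : Fin (bd + 1))
  choose g hg hgn using fun n => (Set.infinite_coe_iff.1 hE).exists_gt n
  refine ⟨⟨F.reindex g fun n => (hgn n).le, hpW, hpM, E, fun n e he => ?_⟩⟩
  refine Eq.trans ?_ (congrArg Fin.val (hg n))
  show _ = rk (g n)
  simp only [rk]
  rw [dif_pos ⟨e, he⟩]
  exact congrArg (fun N : Submodule O _ => finrank O N) (localPart_eq he
    (Exists.choose_spec (p := fun e => IsLocalizer
      (resIdeal (F.ops (g n)) (curveAbar W) (F.lev (g n) Finset.univ * p))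
      (HomMod O (F.ops (g n)) (⊤ : Subgroup (ZMod (F.lev (g n) Finset.univ * p))ˣ) O) e) ⟨e, he⟩)
    (resIdeal_ne_top _ _))

variable {L : LastFrame p W M R φ} {n : ℕ}

/-- The top level of the last flip over a family. -/
structure LastLevel (L : LastFrame p W M R φ) (n : ℕ) where
  Φ : LevelFamily L.F n
  Y : LevelAt p L.F.X.rigid L.F.X.ρbar (L.F.ops n) (curveAbar W : ℕ → ResidueField O)
    (upPsi p (Φ.psi Finset.univ))
  π : Y.N.H.algebra →ₐ[O] Φ.Top
  compat : IsCompatHom Y.N.H (Φ.lvl Finset.univ).N.H π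

theorem LastFrame.raise (L : LastFrame p W M R φ) (n : ℕ) :
    RaiseData p (L.F.lev n Finset.univ) :=
  ⟨Fact.out, L.F.not_dvd_lev_univ L.not_dvd n⟩

theorem LastFrame.hasSTWeights (L : LastFrame p W M R φ) (n : ℕ) :
    HasSTWeights O (L.F.lev n Finset.univ * p) :=
  L.F.X.weights _ (L.F.squarefree_lev_mul L.not_dvd n).ne_zero
    (dvd_mul_of_dvd_left (dvd_mul_of_dvd_left (dvd_mul_of_dvd_left (dvd_mul_left R M) _) _) _)

/-- **The top levels of the last flip exist.** -/
theorem LastFrame.nonempty_lastLevel (L : LastFrame p W M R φ) (hp2 : p ≠ 2) (n : ℕ) :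
    Nonempty (LastLevel L n) := by
  obtain ⟨Φ⟩ := L.F.nonempty_family hp2 n
  obtain ⟨Y⟩ := nonempty_levelAt (L := L.F.lev n Finset.univ * p) (S := L.F.ops n)
    (abar := (curveAbar W : ℕ → ResidueField O)) (ψ := upPsi p (Φ.psi Finset.univ)) L.F.p_mem
    (isPGroup_twGroup n) hp2 (L.F.p_mem_ops n) L.F.X.abs
    (hasCharpolys_mono Finset.subset_union_left L.F.X.charpolys) L.F.X.rigid_rb (L.F.X.eis _)
    (upPsi_surjective (Φ.psi_surjective _)) (L.hasSTWeights n)
    (L.F.squarefree_lev_mul L.not_dvd n) (fun _ hq h => L.F.ops_prime_last n hq h)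
    (isCongruentLevel_of_dvd subset_rfl (L.F.squarefree_lev_mul L.not_dvd n) (dvd_mul_right _ _)
      (fun _ hq h => L.F.ops_prime_last n hq h)
      (L.F.X.congruent_levelOf (L.F.tw n).injective (L.F.tw n).prime (L.F.tw n).notMem Finset.univ))
  obtain ⟨π, hπ⟩ := (Φ.lvl Finset.univ).exists_compatHom (Φ.psi_surjective _) (L.raise n)
    (L.F.p_mem_ops n) Y
  exact ⟨⟨Φ, Y, π, hπ⟩⟩

namespace LastLevel

variable (Λn : LastLevel L n)

theorem d_eq : Λn.Y.N.H.d = L.E :=
  Λn.Y.N.d_eq.trans (L.rank n _ Λn.Y.N.isLocalizer_top)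

/-- The basis over the diamond operators, indexed independently of `n`. -/
def basis : Assembly.DiaBasis Λn.Y.N.H.dia L.E :=
  castBasis ⟨Λn.Y.N.H.basis, Λn.Y.N.H.basis_bijective⟩ Λn.d_eq

theorem mapM_π (hp2 : p ≠ 2) :
    mapM (Λn.π : Λn.Y.N.H.algebra →+* Λn.Φ.Top) Λn.Y.rep.ru =
      (Λn.Φ.lvl Finset.univ).rep.ru :=
  (Λn.Φ.lvl Finset.univ).mapM_ru hp2 (L.F.p_mem_ops n) L.F.X.abs L.F.X.rigid_rb _ Λn.Y Λn.compat

end LastLevel

/-- The change of variables to the coordinates with one more free variable. -/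
def lastIncl {κ : Places W p M → Type} [∀ v, Finite (κ v)] {ρ : Type} [Finite ρ] :
    MvPowerSeries (LCoord κ ρ) O →ₐ[O] MvPowerSeries (LCoord κ (Option ρ)) O :=
  substAlgHom (hasSubst_of_constantCoeff_zero (a := fun i : LCoord κ ρ =>
    (X (Sum.map id some i) : MvPowerSeries (LCoord κ (Option ρ)) O)) fun _ => constantCoeff_X _)

/-- Coordinates at the top level of the last flip: the places, `w = unit root - ε` and `k + 1`
free ones, the last of which is not needed below `p`. -/
structure LastCoords (Λn : LastLevel L n) (d : RootData p) (ε : O) (k : ℕ) where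
  A : Type
  [commRing : CommRing A]
  [localRing : IsLocalRing A]
  [algebra : Algebra O A]
  isResAlg : IsResAlg O A
  r : Gal →* M2 A
  toTop : A →ₐ[O] Λn.Y.N.H.algebra
  map_r : mapM (toTop : A →+* Λn.Y.N.H.algebra) r = Λn.Y.rep.ru
  pt : A →ₐ[O] O
  map_pt : mapM (pt : A →+* O) r = L.F.rW
  γ : MvPowerSeries (LCoord (placeκ L.F) (Option (Option (Fin k)))) O →ₐ[O] A
  surjective : Function.Surjective γ
  surjective_down : ∀ a : A, ∃ f : MvPowerSeries (LCoord (placeκ L.F) (Option (Fin k))) O,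
    Λn.π (toTop (γ (lastIncl f))) = Λn.π (toTop a)
  c : ∀ v : Places W p M, placeκ L.F v → A
  γ_X : ∀ v i, γ (X (Sum.inl ⟨v, i⟩)) = c v i
  values : ∀ v : Places W p M, PlaceValues isResAlg (L.F.place v).D (L.F.place v).ε (v : ℕ)
    (r (L.F.place v).σ) (r (L.F.place v).F) (c v)
  γ_w : γ (X (Sum.inr (some none))) = unitRoot r d.F d.τ - algebraMap O A ε

attribute [instance] LastCoords.commRing LastCoords.localRing LastCoords.algebra

end Fermat.Agent.RT.Lift
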