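import Fermat.Agent.RT.Lift.Levels.LastSeries

/-!
# The top level of the last flip in coordinates

The relations of the places, the products `y y' a`, the marked point and its values on the diamond
traces and on the traces of Frobenius elements.
-/

set_option autoImplicit false
set_option maxHeartbeats 1000000
set_option linter.style.haveILetI false
set_option linter.unusedSectionVars false
set_option synthInstance.maxHeartbeats 200000

noncomputable section

namespace Fermat.Agent.RT.Lift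

open IsLocalRing Module WeierstrassCurve MvPowerSeries
open Fermat.Agent.Deform Fermat.Agent.Arith Fermat.Agent.RT.Germ
open Fermat.Agent.RT.Glue (sA diaA)

local notation "Q̄" => AlgebraicClosure ℚ

variable {O : Type} [CommRing O] [IsDomain O] [IsDiscreteValuationRing O]
  [IsAdicComplete (maximalIdeal O) O] [Finite (ResidueField O)] [CharZero O]
  {K : Type*} [NontriviallyNormedField K] [IsUltrametricDist K] [CompleteSpace K]
  {φ : O →+* ball1 K}
  {p : ℕ} [Fact p.Prime] [CharP (ResidueField O) p] {W : WeierstrassCurve ℤ} {M R : ℕ}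
  {L : LastFrame p W M R φ} {n : ℕ}

theorem map_special_eq_zero {A B : Type} [CommRing A] [CommRing B] (f : A →+* B) (t x : A) (v : ℕ)
    (h : (f t ^ 2 - ((v : B) + 1) ^ 2) * f x = 0) : f ((t ^ 2 - ((v : A) + 1) ^ 2) * x) = 0 := by
  simp only [map_mul, map_sub, map_pow, map_add, map_natCast, map_one]
  exact h

namespace LastLevel

variable (Λn : LastLevel L n)

/-- The character of the top level is trivial at the places. -/
theorem psi_eq_one (v : Places W p M) (u : (ZMod (L.F.lev n Finset.univ * p))ˣ)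
    (hu : ((u : ZMod (L.F.lev n Finset.univ * p)).cast :
      ZMod (L.F.lev n Finset.univ * p / (v : ℕ))) = 1) :
    upPsi p (Λn.Φ.psi Finset.univ) u = 1 := by
  have hv : (v : ℕ) ∣ L.F.lev n Finset.univ :=
    dvd_mul_of_dvd_right (Finset.dvd_prod_of_mem _ (Finset.mem_univ v)) _
  refine Λn.Φ.psi_eq_one (Finset.mem_univ v) _ ?_
  have h1 : ZMod.unitsMap (Nat.div_dvd_of_dvd (dvd_mul_of_dvd_left hv p)) u = 1 :=
    Units.ext (by rw [ZMod.unitsMap_val, hu, Units.val_one])
  have h2 : ZMod.unitsMap (Nat.div_dvd_of_dvd hv)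
      (ZMod.unitsMap (dvd_mul_right (L.F.lev n Finset.univ) p) u) = 1 := by
    rw [← MonoidHom.comp_apply, ZMod.unitsMap_comp,
      ← ZMod.unitsMap_comp (Nat.div_dvd_div hv (dvd_mul_right _ p))
        (Nat.div_dvd_of_dvd (dvd_mul_of_dvd_left hv p)), MonoidHom.comp_apply, h1, map_one]
  have h3 := congrArg Units.val h2
  rwa [ZMod.unitsMap_val, Units.val_one] at h3

/-- The trace of the chosen inertia element at a Taylor–Wiles prime. -/
theorem trace_σ (hp2 : p ≠ 2) (i : Fin L.F.r') :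
    (Λn.Y.rep.ru (Λn.Φ.tw.σ i)).trace = diaA Λn.Y.N.H (twGen p n i) +
      diaA Λn.Y.N.H (twGen p n i)⁻¹ := by
  suffices h : ∀ {ψ' : (ZMod (L.F.lev n Finset.univ * p))ˣ →* TWGroup p L.F.r' n}
      (Y : LevelAt p L.F.X.rigid L.F.X.ρbar (L.F.ops n) (curveAbar W : ℕ → ResidueField O) ψ'),
      ψ' = psiAt Λn.Φ.tw.ψ (dvd_mul_of_dvd_left (L.F.base_dvd n Finset.univ) p) →
      (Y.rep.ru (Λn.Φ.tw.σ i)).trace = diaA Y.N.H (twGen p n i) + diaA Y.N.H (twGen p n i)⁻¹ from
    h Λn.Y (psiAt_mul _ (L.F.base_dvd n Finset.univ) _).symm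
  intro ψ' Y e
  subst e
  exact Λn.Φ.tw.trace_σ _ Y L.F.p_mem hp2 (L.F.p_mem_ops n) (L.F.squarefree_lev_mul L.not_dvd n) i
    ((L.F.tw n).prime i) (L.F.qv_dvd_base n i) (L.F.qv_ne n i)
    fun A hA σ hσ => L.F.X.inertia_trace _ ((L.F.tw n).prime i) (L.F.qv_ne n i) A hA σ hσ

end LastLevel

namespace LastCoords

variable {Λn : LastLevel L n} {d : RootData p} {ε : O} {k : ℕ} (C : LastCoords Λn d ε k)

/-- The series mapping to the algebra of the top level. -/
abbrev toAlg : MvPowerSeries (LCoord (placeκ L.F) (Option (Option (Fin k)))) O →ₐ[O]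
    Λn.Y.N.H.algebra :=
  C.toTop.comp C.γ

/-- The marked point on the series. -/
abbrev psiPoint : MvPowerSeries (LCoord (placeκ L.F) (Option (Option (Fin k)))) O →ₐ[O] O :=
  C.pt.comp C.γ

theorem toTop_trace (σ : Gal) : C.toTop (C.r σ).trace = (Λn.Y.rep.ru σ).trace := by
  rw [← DFunLike.congr_fun C.map_r σ]
  exact AddMonoidHom.map_trace C.toTop (C.r σ)

theorem pt_trace (σ : Gal) : C.pt (C.r σ).trace = (L.F.rW σ).trace := by
  rw [← DFunLike.congr_fun C.map_pt σ]
  exact AddMonoidHom.map_trace C.pt (C.r σ)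

theorem γ_placeSubst_X (v : Places W p M) (i : placeκ L.F v) :
    C.γ.comp (placeSubst v) (X i) = C.c v i := by
  rw [AlgHom.comp_apply, placeSubst, substAlgHom_X]
  exact C.γ_X v i

/-- The relations of the places hold at the top. -/
theorem toAlg_placesRel
    {f : MvPowerSeries (LCoord (placeκ L.F) (Option (Option (Fin k)))) O}
    (hf : f ∈ placesRel (Option (Option (Fin k))) fun v => (L.F.place v).D) : C.toAlg f = 0 := by
  obtain ⟨v, g, hg, rfl⟩ := Set.mem_iUnion.1 hf
  show C.toTop (C.γ (placeSubst v g)) = 0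
  rw [← AlgHom.comp_apply C.γ, (C.values v).rel _ (C.γ_placeSubst_X v) g hg, map_zero]

/-- `y y' a` vanishes at the top for `a` in the monodromy set of a place. -/
theorem toAlg_y_mul_nSet (v : Places W p M)
    {a : MvPowerSeries (LCoord (placeκ L.F) (Option (Fin k))) O}
    (ha : a ∈ placeSubst v '' (L.F.place v).D.nSet) :
    C.toAlg (lastIncl (placeSubst v (L.F.place v).D.y *
      (placeSubst v (L.F.place v).D.y' * a))) = 0 := by
  obtain ⟨b, hb, rfl⟩ := ha
  have e0 : lastIncl (placeSubst (ρ := Option (Fin k)) v (L.F.place v).D.y *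
      (placeSubst v (L.F.place v).D.y' * placeSubst v b)) =
      placeSubst v ((L.F.place v).D.y * ((L.F.place v).D.y' * b)) := by
    rw [← map_mul (placeSubst (ρ := Option (Fin k)) v), ← map_mul (placeSubst (ρ := Option (Fin k)) v)]
    exact lastIncl_placeSubst v _
  rw [e0]
  show (C.toTop : C.A →+* Λn.Y.N.H.algebra)
    ((C.γ.comp (placeSubst (κ := placeκ L.F) v)) ((L.F.place v).D.y * ((L.F.place v).D.y' * b))) = 0
  refine (C.values v).y_mul_nSet (C.γ_placeSubst_X v)
    (C.toTop : C.A →+* Λn.Y.N.H.algebra) (fun i j => ?_) hb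
  have h := Λn.Y.rep.special_mul v.prime
    (dvd_mul_of_dvd_left (dvd_mul_of_dvd_right (Finset.dvd_prod_of_mem _ (Finset.mem_univ v)) _) p)
    v.ne (Λn.psi_eq_one v) (CFT.Local.padicPlace_liesOverPrime (v : ℕ)) (L.F.place v).mem
    (L.F.place v).frob i j
  rw [← C.toTop_trace, ← DFunLike.congr_fun C.map_r (L.F.place v).σ] at h
  have e : ((mapM (C.toTop : C.A →+* Λn.Y.N.H.algebra) C.r) (L.F.place v).σ - 1) i j =
      C.toTop ((C.r (L.F.place v).σ - 1) i j) := by
    rw [Matrix.sub_apply, Matrix.sub_apply, map_sub, mapM_apply]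
    refine congrArg₂ (· - ·) rfl ?_
    simp only [Matrix.one_apply, apply_ite C.toTop, map_one, map_zero]
  rw [e] at h
  exact map_special_eq_zero (C.toTop : C.A →+* Λn.Y.N.H.algebra) _ _ _ h

/-- The marked point satisfies the relations special at every place. -/
theorem psiPoint_rels (v : Places W p M) {g : MvPolynomial (placeκ L.F v) O}
    (hg : g ∈ (L.F.place v).D.st.rels) : C.psiPoint (placeHom v g) = 0 := by
  have h := (C.values v).st_rels (C.γ_placeSubst_X v) C.pt
    (by rw [pt_trace]; exact (L.F.place v).trace_marked) hg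
  rwa [AlgHom.comp_apply, placeSubst_coe] at h

theorem γ_lastRoot :
    C.γ (MvPowerSeries.C ε + X (Sum.inr (some none))) = unitRoot C.r d.F d.τ := by
  rw [map_add, C.γ_w, show (MvPowerSeries.C ε : MvPowerSeries (LCoord (placeκ L.F) (Option (Option (Fin k)))) O) =
    algebraMap O _ ε from rfl, AlgHom.commutes, add_sub_cancel]

/-- The marked point kills `w`. -/
theorem psiPoint_w (hε : ε * ε = 1) (hεW : ε = unitRoot L.F.rW d.F d.τ) :
    C.psiPoint (X (Sum.inr (some none))) = 0 := by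
  have hroot : IsUnit (unitRoot C.r d.F d.τ) := by
    rw [← C.γ_lastRoot]
    exact (MvPowerSeries.isUnit_iff_constantCoeff.2 (by
      rw [map_add, constantCoeff_C, constantCoeff_X, add_zero]
      exact IsUnit.of_mul_eq_one ε hε)).map C.γ
  have hu : IsUnit ((C.r d.τ).det - 1) := by
    by_contra hu
    rw [unitRoot, Ring.inverse_non_unit _ hu, zero_mul] at hroot
    exact not_isUnit_zero hroot
  rw [AlgHom.comp_apply, C.γ_w, map_sub, AlgHom.commutes, Algebra.algebraMap_self, RingHom.id_apply,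
    show C.pt (unitRoot C.r d.F d.τ) = (C.pt : C.A →+* O) (unitRoot C.r d.F d.τ) from rfl,
    map_unitRoot _ hu, C.map_pt, ← hεW, sub_self]

open Classical in
theorem exists_quadSol (hp2 : p ≠ 2) (i : Fin L.F.r') :
    ∃ a : MvPowerSeries (LCoord (placeκ L.F) (Option (Option (Fin k)))) O,
      (Matrix.scalar (Fin L.E)
          ((1 + toLevel (O := O) (r := L.F.r') (p := p) n (X i)) ^ 2 + 1) =
        Matrix.scalar (Fin L.E) (1 + toLevel (O := O) (r := L.F.r') (p := p) n (X i)) *
          Λn.basis.rep (twChar O p L.F.r' n) (algebra_comm Λn.Y.N.H) (C.toAlg a)) ∧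
        C.psiPoint a = 2 := by
  obtain ⟨a, ha⟩ := C.surjective (C.r (Λn.Φ.tw.σ i)).trace
  refine ⟨a, ?_, ?_⟩
  · have hrep : ∀ δ, Λn.basis.rep (twChar O p L.F.r' n) (algebra_comm Λn.Y.N.H)
        (diaA Λn.Y.N.H δ) = twChar O p L.F.r' n δ • 1 := fun δ =>
      Assembly.DiaBasis.mat_dia Λn.basis (twChar O p L.F.r' n) δ
    have hu : twChar O p L.F.r' n (twGen p n i) * twChar O p L.F.r' n (twGen p n i)⁻¹ = 1 := by
      rw [← map_mul, mul_inv_cancel, map_one]
    rw [twChar_gen] at hu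
    rw [AlgHom.comp_apply, ha, toTop_trace, Λn.trace_σ hp2 i,
      map_add (Λn.basis.rep (twChar O p L.F.r' n) (algebra_comm Λn.Y.N.H)), hrep, hrep, twChar_gen,
      Matrix.smul_one_eq_diagonal, Matrix.smul_one_eq_diagonal]
    simp only [Matrix.scalar_apply, Matrix.diagonal_add, Matrix.diagonal_mul_diagonal]
    refine congrArg Matrix.diagonal (funext fun _ => ?_)
    rw [mul_add, sq, show toLevel (O := O) (r := L.F.r') (p := p) n
      (X i) = Ideal.Quotient.mk (Assembly.levelIdeal O p n) (X i) from rfl, hu]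
  · rw [AlgHom.comp_apply, ha, pt_trace]
    exact L.F.point.inertia_trace _ ((L.F.tw n).prime i) (L.F.qv_ne n i) _ (Λn.Φ.tw.lies i) _
      (Λn.Φ.tw.σ_mem i)

theorem exists_frobenius (hΔ : W.Δ ≠ 0) {ℓ : ℕ} (hℓ : ℓ.Prime) (hℓS : ℓ ∉ badSet W p R) :
    ∃ a : MvPowerSeries (LCoord (placeκ L.F) (Option (Option (Fin k)))) O,
      C.psiPoint a = (W.apOfModel ℓ : O) ∧
        ∀ hℓn : ℓ ∉ L.F.ops n, C.toAlg a = sA Λn.Y.N.H Λn.Y.hS hℓ hℓn := by
  obtain ⟨A, hA⟩ := Arith.exists_liesOverPrime hℓ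
  obtain ⟨s, hs⟩ := exists_isFrobeniusAt hA hℓ
  obtain ⟨a, ha⟩ := C.surjective (C.r s).trace
  have hℓp : ℓ ≠ p := fun e => hℓS (Finset.mem_insert.2 (Or.inl e))
  have hgood : W.IsGoodPrimeFor ℓ := fun hd => hℓS (L.F.X.primeFactors_subset hℓ
    (dvd_mul_of_dvd_left ((W.prime_dvd_conductorLevel_iff hΔ hℓ).2 hd) _))
  refine ⟨a, ?_, fun hℓn => ?_⟩
  · rw [AlgHom.comp_apply, ha, pt_trace]
    exact L.F.point.frobenius_trace ℓ hℓ hgood hℓp A hA s hs
  · rw [AlgHom.comp_apply, ha, toTop_trace]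
    exact Λn.Y.rep.trace_frobenius (L.F.p_mem_ops n) hℓ hℓn hA hs

end LastCoords

end Fermat.Agent.RT.Lift
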