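import Fermat.Agent.RT.Lift.Levels
import Fermat.Agent.GaloisReps.PadicHom
import Fermat.Agent.RT.Glue.Points

/-!
# Modularity from levels at a squarefree auxiliary factor

The variants of the conclusions from levels in which the auxiliary level is any squarefree number
prime to the conductor level.
-/

set_option autoImplicit false

noncomputable section

namespace Fermat.Agent.RT.Lift

open MvPowerSeries IsLocalRing
open Fermat.Agent.RT.Assembly (levelIdeal levelIdeal_le)
open Fermat.Agent.RT.Germ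

variable {O : Type} [CommRing O] [IsDomain O] [IsDiscreteValuationRing O]
  [IsAdicComplete (maximalIdeal O) O] [Finite (ResidueField O)]
  {p t : ℕ} (hp : (p : O) ∈ maximalIdeal O) {U : Ultrafilter ℕ}
  (hU : ∀ j, ∀ᶠ n in (U : Filter ℕ), j ≤ n) {σ' : Type} [Finite σ']
  [CharZero O] [Fact p.Prime] {W : WeierstrassCurve ℤ} {R E : ℕ} {S : Finset ℕ}
  {abar : ℕ → ResidueField O} {ψL : (ZMod (W.conductorLevel * R))ˣ →* Unit}
  {K : Type*} [NontriviallyNormedField K] [IsUltrametricDist K] [CompleteSpace K] [IsAlgClosed K]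
  {φ : O →+* ball1 K} {V : Type} [Fintype V] {κ : V → Type} [∀ v, Finite (κ v)] {ρ : Type}
  [Finite ρ]

include hp hU

/-- **Modularity from levels, squarefree factor, eventual form**, given that the limit
of the marked points lies over the
annihilator of the limit of the top levels. -/
theorem isModularAwayFromFinite_of_levels_squarefree' (hΔ : W.Δ ≠ 0) (hR : Squarefree R)
    (hcop : R.Coprime W.conductorLevel) (H : HeckeModule (W.conductorLevel * R) ψL S abar)
    (top : ∀ n, MvPowerSeries σ' O →ₐ[O] Matrix (Fin E) (Fin E) (LevelQuot O t p n))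
    (quadSol : ℕ → Fin t → MvPowerSeries σ' O)
    (hquad : ∀ n i, Matrix.scalar (Fin E)
        ((1 + toLevel (O := O) (r := t) (p := p) n (X i)) ^ 2 + 1) =
      Matrix.scalar (Fin E) (1 + toLevel (O := O) (r := t) (p := p) n (X i)) *
        top n (quadSol n i))
    (ψ : ℕ → MvPowerSeries σ' O →ₐ[O] O) (hψq : ∀ n i, ψ n (quadSol n i) = 2)
    (f : {ℓ : ℕ // ℓ.Prime ∧ ℓ ∉ S} → ℕ → MvPowerSeries σ' O)
    (hψf : ∀ ℓ, ∀ᶠ n in (U : Filter ℕ), ψ n (f ℓ n) = (W.apOfModel ℓ.1 : O))
    (hred : ∀ P : MvPolynomial {ℓ : ℕ // ℓ.Prime ∧ ℓ ∉ S} O,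
      MvPolynomial.aeval (heckeGen H) P = 0 → ∀ᶠ n in (U : Filter ℕ),
        (augLevel O p t n).mapMatrix (top n (MvPolynomial.aeval (fun ℓ => f ℓ n) P)) = 0)
    (hsupp : ∀ ψ₀ : MvPowerSeries σ' O →+* O, (∀ c, ψ₀ (C c) = c) →
      (∀ g, (∀ n, ψ n g = 0) → ψ₀ g = 0) → limitAnn top U hp hU ≤ RingHom.ker ψ₀) :
    IsModularAwayFromFinite W p := by
  obtain ⟨ι⟩ := GaloisReps.exists_padicHom O hp
  obtain ⟨e⟩ := Glue.nonempty_ringEquiv_complex O ι
  exact isModularAwayFromFinite_of_relations_squarefree hΔ hR hcop H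
    (e.toRingHom.comp ((algebraMap (FractionRing O) (AlgebraicClosure (FractionRing O))).comp
      (algebraMap O (FractionRing O))))
    (relations_of_levels' hp hU H top quadSol hquad ψ hψq (fun ℓ => (W.apOfModel ℓ.1 : O)) f hψf
      hred hsupp)

/-- **Modularity from levels, without a flip at `p`, squarefree factor, eventual form**: the top
levels are those of all places,
and the marked points satisfy the relations special at every place. -/
theorem isModularAwayFromFinite_of_chain_squarefree' (hφinj : Function.Injective φ)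
    (hφ : ∀ a ∈ maximalIdeal O, ‖(φ a : K)‖ < 1) (P : ∀ v, PlaceData φ (κ v))
    (hdim : ringKrullDim (MvPowerSeries ((Σ v, Fin (P v).ur.dim) ⊕ ρ) O) ≤
      ringKrullDim (DiaSeries O t))
    {D : Finset V → ℕ}
    {act : ∀ B n, MvPowerSeries (LCoord κ ρ) O →ₐ[O]
      Matrix (Fin (D B)) (Fin (D B)) (LevelQuot O t p n)}
    (h : ChainLevels (placesChainData P hφinj hφ hdim) D act) (hΔ : W.Δ ≠ 0)
    (hR : Squarefree R) (hcop : R.Coprime W.conductorLevel)
    (H : HeckeModule (W.conductorLevel * R) ψL S abar)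
    (quadSol : ℕ → Fin t → MvPowerSeries (LCoord κ ρ) O)
    (hquad : ∀ n i, Matrix.scalar (Fin (D Finset.univ))
        ((1 + toLevel (O := O) (r := t) (p := p) n (X i)) ^ 2 + 1) =
      Matrix.scalar (Fin (D Finset.univ)) (1 + toLevel (O := O) (r := t) (p := p) n (X i)) *
        act Finset.univ n (quadSol n i))
    (ψ : ℕ → MvPowerSeries (LCoord κ ρ) O →ₐ[O] O) (hψq : ∀ n i, ψ n (quadSol n i) = 2)
    (hψrel : ∀ n v, ∀ g ∈ (compAt P Finset.univ v).rels, ψ n (placeHom v g) = 0)
    (f : {ℓ : ℕ // ℓ.Prime ∧ ℓ ∉ S} → ℕ → MvPowerSeries (LCoord κ ρ) O)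
    (hψf : ∀ ℓ, ∀ᶠ n in (U : Filter ℕ), ψ n (f ℓ n) = (W.apOfModel ℓ.1 : O))
    (hred : ∀ P : MvPolynomial {ℓ : ℕ // ℓ.Prime ∧ ℓ ∉ S} O,
      MvPolynomial.aeval (heckeGen H) P = 0 → ∀ᶠ n in (U : Filter ℕ), (augLevel O p t n).mapMatrix
        (act Finset.univ n (MvPolynomial.aeval (fun ℓ => f ℓ n) P)) = 0) :
    IsModularAwayFromFinite W p :=
  isModularAwayFromFinite_of_levels_squarefree' hp hU hΔ hR hcop H (act Finset.univ) quadSol hquad ψ
    hψq f hψf
    hred fun ψ₀ hC hψ₀ => limitAnn_le_of_chain hp hU h Finset.univ _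
      (ker_comp_mem_compPoints hφ hφinj P Finset.univ ψ₀ hC fun v g hg =>
        hψ₀ _ fun n => hψrel n v g hg)

end Fermat.Agent.RT.Lift
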