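import Fermat.Agent.RT.Lift.Levels.TopReady
import Fermat.Agent.RT.Lift.Levels.Relations
import Fermat.Agent.RT.Lift.Germ.Trace

/-!
# Modularity from a setting without a flip at `p`

The marked coordinates of every `n`, the chain over the sets of places and the relations between
the eigenvalues at the top.
-/

set_option autoImplicit false
set_option maxHeartbeats 1000000
set_option synthInstance.maxHeartbeats 200000
set_option linter.style.haveILetI false
set_option linter.unusedSectionVars false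

noncomputable section

namespace Fermat.Agent.RT.Lift

open IsLocalRing WeierstrassCurve MvPowerSeries
open Fermat.Agent.Deform Fermat.Agent.Arith Fermat.Agent.RT.Germ
open Fermat.Agent.RT.Glue (sA)

variable {O : Type} [CommRing O] [IsDomain O] [IsDiscreteValuationRing O]
  [IsAdicComplete (maximalIdeal O) O] [Finite (ResidueField O)] [CharZero O]
  {K : Type*} [NontriviallyNormedField K] [IsUltrametricDist K] [CompleteSpace K]
  [IsAlgClosed K] {φ : O →+* ball1 K}
  {p : ℕ} [Fact p.Prime] [CharP (ResidueField O) p] {W : WeierstrassCurve ℤ} {M R : ℕ}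

/-- The reduction at the augmentation of a level `conductorLevel * R * ∏ qv n`: the relations
between the operators of some module of level `conductorLevel * R` hold there. -/
def Frame.Reduces (F : Frame p W M R φ) : Prop :=
  ∃ (ψL : (ZMod (W.conductorLevel * R))ˣ →* Unit)
    (H : HeckeModule (W.conductorLevel * R) ψL (badSet W p R)
      (curveAbar W : ℕ → ResidueField O)),
    ∀ (n : ℕ) (L : ℕ) [NeZero L], L = W.conductorLevel * R * ∏ i, F.qv n i →
      ∀ {ψ : (ZMod L)ˣ →* TWGroup p F.r' n}, Function.Surjective ψ →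
      ∀ (X : LevelAt p F.X.rigid F.X.ρbar (F.ops n) (curveAbar W : ℕ → ResidueField O) ψ) (d : ℕ)
        (B : Assembly.DiaBasis X.N.H.dia d) (f : {ℓ : ℕ // ℓ.Prime ∧ ℓ ∉ badSet W p R} → X.N.H.algebra)
        (P : MvPolynomial {ℓ : ℕ // ℓ.Prime ∧ ℓ ∉ badSet W p R} O),
        (∀ ℓ ∈ P.vars, ∃ h : ℓ.1 ∉ F.ops n, f ℓ = sA X.N.H X.hS ℓ.2.1 h) →
        MvPolynomial.aeval (heckeGen H) P = 0 →
        (augLevel O p F.r' n).mapMatrix
          (B.rep (twChar O p F.r' n) (algebra_comm X.N.H) (MvPolynomial.aeval f P)) = 0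

/-- The chain of flips over the sets of places exists for every choice of coordinates. -/
def Frame.HasChain (F : Frame p W M R φ) : Prop :=
  ∀ (hφinj : Function.Injective φ) (hφ : ∀ a ∈ maximalIdeal O, ‖(φ a : K)‖ < 1)
    {ρ : Type} [Finite ρ]
    (hdim : ringKrullDim (MvPowerSeries ((Σ v, Fin (F.place v).D.ur.dim) ⊕ ρ) O) ≤
      ringKrullDim (DiaSeries O F.r'))
    (Φ : ∀ n, LevelFamily F n) (C : ∀ n, Coords (Φ n) ρ),
    ChainLevels (placesChainData (fun v => (F.place v).D) hφinj hφ hdim) F.D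
      fun B n => (C n).act B

/-- The Taylor–Wiles primes at level `n` exceed `n`. -/
theorem Frame.lt_qv (F : Frame p W M R φ) (n : ℕ) (i : Fin F.r') : n < F.qv n i := by
  have h1 : n + 1 < p ^ (n + 1) := Nat.lt_pow_self (Fact.out : p.Prime).one_lt
  have hq := ((F.tw n).prime i).two_le
  have h2 : p ^ (n + 1) ≤ F.qv n i - 1 := Nat.le_of_dvd (by omega) ((F.tw n).dvd i)
  omega

open Classical in
/-- **Modularity of `W` from a frame without a flip at `p`.** -/
theorem Frame.isModularAwayFromFinite (F : Frame p W M R φ) (hΔ : W.Δ ≠ 0)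
    (hp2 : p ≠ 2) (hφinj : Function.Injective φ) (hφ : ∀ a ∈ maximalIdeal O, ‖(φ a : K)‖ < 1)
    (hp : p ∣ W.conductorLevel → p ∣ M) (hchain : F.HasChain) (hred : F.Reduces) :
    IsModularAwayFromFinite W p := by
  obtain ⟨U, hU⟩ : ∃ U : Ultrafilter ℕ, ∀ j, ∀ᶠ n in (U : Filter ℕ), j ≤ n :=
    ⟨Filter.hyperfilter ℕ, fun j => Filter.hyperfilter_le_cofinite
      (by rw [Nat.cofinite_eq_atTop]; exact Filter.eventually_ge_atTop j)⟩
  obtain ⟨Φ⟩ : Nonempty (∀ n, LevelFamily F n) := ⟨fun n => (F.nonempty_family hp2 n).some⟩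
  have hready := fun n => (Φ n).topReady hΔ hp2 hp
  obtain ⟨C⟩ : Nonempty (∀ n, Marked (Φ n) (Fin (F.r' - F.placeDim))) :=
    ⟨fun n => ((Φ n).nonempty_marked hΔ hp2 (hready n)).some⟩
  have hle := (Φ 0).placeDim_le hΔ hp2 (hready 0)
  have hdim : ringKrullDim
      (MvPowerSeries ((Σ v, Fin (F.place v).D.ur.dim) ⊕ Fin (F.r' - F.placeDim)) O) ≤
      ringKrullDim (DiaSeries O F.r') := by
    refine le_of_eq (ringKrullDim_eq_of_card ?_)
    rw [Nat.card_sum, Nat.card_sigma, Nat.card_fin]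
    simp only [Nat.card_fin]
    rw [← Frame.placeDim, Nat.add_sub_cancel' hle]
  choose quadSol hquad hquad2 using fun n => (C n).exists_quadSol hp2
  choose f hf hfA using fun (ℓ : {ℓ : ℕ // ℓ.Prime ∧ ℓ ∉ badSet W p R}) n =>
    (C n).exists_frobenius hΔ ℓ.2.1 ℓ.2.2
  obtain ⟨ψL, H, hH⟩ := hred
  have hR : Squarefree R := F.X.squarefree.squarefree_of_dvd (dvd_mul_left R _)
  have hcop : R.Coprime W.conductorLevel :=
    (Nat.coprime_of_squarefree_mul F.X.squarefree).symm
  refine isModularAwayFromFinite_of_chain_squarefree' F.p_mem hU hφinj hφ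
    (fun v => (F.place v).D) hdim (hchain hφinj hφ hdim Φ fun n => (C n).toCoords) hΔ hR hcop H
    quadSol hquad (fun n => (C n).psiPoint) hquad2 (fun n v g hg => (C n).psiPoint_rels v hg) f
    (fun ℓ => Filter.Eventually.of_forall (hf ℓ)) fun P hP => ?_
  refine (hU (P.vars.sup fun ℓ => ℓ.1)).mono fun n hn => ?_
  have hvars : ∀ ℓ ∈ P.vars, ℓ.1 ∉ F.ops n := fun ℓ hℓ hmem => by
    rcases Finset.mem_union.1 hmem with h | h
    · exact ℓ.2.2 h
    · obtain ⟨i, -, hi⟩ := Finset.mem_image.1 h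
      have h1 : ℓ.1 ≤ n :=
        le_trans (Finset.le_sup (f := fun ℓ : {ℓ : ℕ // ℓ.Prime ∧ ℓ ∉ badSet W p R} => ℓ.1) hℓ) hn
      have h2 := F.lt_qv n i
      omega
  have hmain := hH n (F.lev n Finset.univ) (F.lev_univ hp n) ((Φ n).psi_surjective _)
    ((Φ n).lvl Finset.univ) (F.D Finset.univ) ((Φ n).basis Finset.univ)
    (fun ℓ => (C n).toTop ((C n).γ (f ℓ n))) P (fun ℓ hℓ => ⟨hvars ℓ hℓ, hfA ℓ n _⟩) hP
  have e : (C n).toCoords.act Finset.univ (MvPolynomial.aeval (fun ℓ => f ℓ n) P) =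
      ((Φ n).basis Finset.univ).rep (twChar O p F.r' n) (algebra_comm ((Φ n).lvl Finset.univ).N.H)
        (MvPolynomial.aeval (fun ℓ => (C n).toTop ((C n).γ (f ℓ n))) P) := by
    show ((Φ n).basis Finset.univ).rep (twChar O p F.r' n) (algebra_comm ((Φ n).lvl Finset.univ).N.H)
      ((Φ n).down Finset.univ ((C n).toCoords.toAlg _)) = _
    rw [(Φ n).down_univ, AlgHom.id_apply]
    exact congrArg _ (MvPolynomial.comp_aeval_apply _ (C n).toCoords.toAlg P)
  rw [e]
  exact hmain

end Fermat.Agent.RT.Lift
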