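import Fermat.Agent.RT.Lift.Levels.LastRecognition
import Fermat.Agent.RT.Lift.Levels.LastTop
import Fermat.Agent.RT.Lift.Levels.NoFlip

/-!
# Modularity through the flip at `p`

The chain over the sets of places, one flip at `p` above the level of all places and the relations
between the eigenvalues at the top.
-/

set_option autoImplicit false
set_option maxHeartbeats 1000000
set_option synthInstance.maxHeartbeats 200000
set_option linter.style.haveILetI false
set_option linter.unusedSectionVars false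

noncomputable section

namespace Fermat.Agent.RT.Lift

open IsLocalRing WeierstrassCurve MvPowerSeries
open Fermat.Agent.Deform Fermat.Agent.Arith Fermat.Agent.RT.Germ
open Fermat.Agent.RT.Glue (sA)

variable {O : Type} [CommRing O] [IsDomain O] [IsDiscreteValuationRing O]
  [IsAdicComplete (maximalIdeal O) O] [Finite (ResidueField O)] [CharZero O]
  {K : Type*} [NontriviallyNormedField K] [IsUltrametricDist K] [CompleteSpace K]
  [IsAlgClosed K] {φ : O →+* ball1 K}
  {p : ℕ} [Fact p.Prime] [CharP (ResidueField O) p] {W : WeierstrassCurve ℤ} {M R : ℕ}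
  {L : LastFrame p W M R φ}

theorem comp_aeval_eq {ι A B C : Type} [CommRing A] [Algebra O A] [CommRing B] [Algebra O B]
    [Semiring C] [Algebra O C] (g : A →ₐ[O] B) (h : B →ₐ[O] C) (f : ι → A) (Q : MvPolynomial ι O) :
    (h.comp g) (MvPolynomial.aeval f Q) = h (MvPolynomial.aeval (fun i => g (f i)) Q) :=
  congrArg h (MvPolynomial.comp_aeval_apply f g Q)

/-- The top level of the last flip is the conductor level with `R` and the primes at `n`. -/
theorem LastFrame.lev_eq (L : LastFrame p W M R φ) (n : ℕ) :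
    L.F.lev n Finset.univ * p = W.conductorLevel * R * ∏ i, L.F.qv n i := by
  rw [Frame.lev, levelOf, baseLevel, ← L.F.X.mul_placeProd_mul L.dvd L.not_dvd]
  ring

open Classical in
/-- **Modularity from the coordinates and the degeneracy data of the last flip.** -/
theorem LastFrame.isModularAwayFromFinite_of_coords (hΔ : W.Δ ≠ 0) (hp2 : p ≠ 2)
    (hφinj : Function.Injective φ) (hφ : ∀ a ∈ maximalIdeal O, ‖(φ a : K)‖ < 1)
    {U : Ultrafilter ℕ} (hU : ∀ j, ∀ᶠ n in (U : Filter ℕ), j ≤ n) {d : RootData p} {ε : O}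
    (hε : ε * ε = 1) (hεW : ε = unitRoot L.F.rW d.F d.τ) {k : ℕ}
    (hk : (∑ v, (L.F.place v).D.ur.dim) + 1 + k = L.F.r')
    (hchain : L.F.HasChain) (hred : L.F.Reduces) (Λn : ∀ n, LastLevel L n)
    (C : ∀ n, LastCoords (Λn n) d ε k) (CC : ∀ n, Coords (Λn n).Φ (Option (Fin k)))
    (hact : ∀ n B, ((Λn n).Φ.act ((Λn n).π.comp (C n).toAlg) B).comp lastIncl = (CC n).act B)
    (G : DegData (fun n => (Λn n).Φ.act ((Λn n).π.comp (C n).toAlg) Finset.univ)
      (fun n => (((Λn n).basis).rep (twChar O p L.F.r' n) (algebra_comm (Λn n).Y.N.H)).comp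
        (C n).toAlg) ((p + 1 : ℕ) : MvPowerSeries _ O) (lastIncl (lastT p ε)) 1) :
    IsModularAwayFromFinite W p := by
  set D := fun v : Places W p M => (L.F.place v).D
  let top : ∀ n, MvPowerSeries (LCoord (placeκ L.F) (Option (Option (Fin k)))) O →ₐ[O]
      Matrix (Fin L.E) (Fin L.E) (LevelQuot O L.F.r' p n) :=
    fun n => (((Λn n).basis).rep (twChar O p L.F.r' n) (algebra_comm (Λn n).Y.N.H)).comp
      (C n).toAlg
  have hdim : ringKrullDim
      (MvPowerSeries ((Σ v, Fin (D v).ur.dim) ⊕ Option (Fin k)) O) ≤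
      ringKrullDim (DiaSeries O L.F.r') := by
    refine le_of_eq (ringKrullDim_eq_of_card ?_)
    rw [Nat.card_sum, Nat.card_sigma, Nat.card_fin, Finite.card_option, Nat.card_fin]
    simp only [Nat.card_fin, D]
    omega
  have hchain' : ChainLevels (placesChainData D hφinj hφ hdim) L.F.D
      fun B n => ((Λn n).Φ.act ((Λn n).π.comp (C n).toAlg) B).comp lastIncl := by
    simp only [hact]
    exact hchain hφinj hφ hdim (fun n => (Λn n).Φ) CC
  obtain ⟨P, hP, hwP, hw'P, hgen⟩ :=
    exists_last_point (p := p) (W := W) (M := M) (k := k) hφinj D hε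
  choose quadSol hquad hquad2 using fun n => (C n).exists_quadSol hp2
  choose f hf hfA using fun (ℓ : {ℓ : ℕ // ℓ.Prime ∧ ℓ ∉ badSet W p R}) n =>
    (C n).exists_frobenius hΔ ℓ.2.1 ℓ.2.2
  obtain ⟨ψL, H, hH⟩ := hred
  have hR : Squarefree R := L.F.X.squarefree.squarefree_of_dvd (dvd_mul_left R _)
  have hcop : R.Coprime W.conductorLevel :=
    (Nat.coprime_of_squarefree_mul L.F.X.squarefree).symm
  refine isModularAwayFromFinite_of_levels_squarefree' L.F.p_mem hU hΔ hR hcop H top quadSol hquad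
    (fun n => (C n).psiPoint) hquad2 f (fun ℓ => Filter.Eventually.of_forall (hf ℓ))
    (fun Q hQ => ?_) fun ψ₀ hC hψ₀ => ?_
  · refine (hU (Q.vars.sup fun ℓ => ℓ.1)).mono fun n hn => ?_
    have hvars : ∀ ℓ ∈ Q.vars, ℓ.1 ∉ L.F.ops n := fun ℓ hℓ hmem => by
      rcases Finset.mem_union.1 hmem with h | h
      · exact ℓ.2.2 h
      · obtain ⟨i, -, hi⟩ := Finset.mem_image.1 h
        have h1 : ℓ.1 ≤ n :=
          le_trans (Finset.le_sup (f := fun ℓ : {ℓ : ℕ // ℓ.Prime ∧ ℓ ∉ badSet W p R} => ℓ.1) hℓ)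
            hn
        have h2 := L.F.lt_qv n i
        omega
    have hmain := hH n (L.F.lev n Finset.univ * p) (L.lev_eq n)
      (upPsi_surjective ((Λn n).Φ.psi_surjective _)) (Λn n).Y L.E (Λn n).basis
      (fun ℓ => (C n).toAlg (f ℓ n)) Q (fun ℓ hℓ => ⟨hvars ℓ hℓ, hfA ℓ n _⟩) hQ
    show (augLevel O p L.F.r' n).mapMatrix
      ((((Λn n).basis).rep (twChar O p L.F.r' n) (algebra_comm (Λn n).Y.N.H)).comp (C n).toAlg
        (MvPolynomial.aeval (fun ℓ => f ℓ n) Q)) = 0
    rw [comp_aeval_eq]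
    exact hmain
  · refine limitAnn_le_of_chain_last L.F.p_mem hU (placesChainData D hφinj hφ hdim) L.F.D lastIncl
      (fun B n => (Λn n).Φ.act ((Λn n).π.comp (C n).toAlg) B) hchain' top (fun n i => ?_)
      (fun n i => ⟨_, hquad n i⟩) G (w := lastW) (w' := lastW' p ε) ?_
      (rel := placesRel (Option (Option (Fin k))) D) (fun n g hg => ?_) (fun v a ha n => ?_)
      hP hwP hw'P hgen fun 𝔮 h𝔮 hd hrel hy hw => ?_
    · obtain ⟨a, ha⟩ := hchain'.quad Finset.univ n i
      exact ⟨lastIncl a, ha⟩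
    · rw [← map_mul, lastW_mul hε, map_sub, map_pow, map_pow, map_natCast]
    · show (Λn n).basis.rep (twChar O p L.F.r' n) (algebra_comm (Λn n).Y.N.H) ((C n).toAlg g) = 0
      rw [(C n).toAlg_placesRel hg]
      exact map_zero _
    · show (Λn n).basis.rep (twChar O p L.F.r' n) (algebra_comm (Λn n).Y.N.H) ((C n).toAlg _) = 0
      rw [show (C n).toAlg (lastIncl ((placesChainData D hφinj hφ hdim).y v *
        ((placesChainData D hφinj hφ hdim).y' v * a))) = 0 from (C n).toAlg_y_mul_nSet v ha]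
      exact map_zero _
    · have := h𝔮
      refine le_ker_of_last hφinj hφ D (hdim.trans hd.ge) hrel (fun v => ?_) ?_ ψ₀ hC
        (fun v g hg => hψ₀ _ fun n => (C n).psiPoint_rels v hg)
        (hψ₀ _ fun n => (C n).psiPoint_w hε hεW)
      · rw [← lastIncl_placeSubst]
        exact hy v
      · have hw' : lastIncl (O := O) (κ := placeκ L.F) (ρ := Option (Fin k))
          (X (Sum.inr none)) ∈ 𝔮 := hw
        rwa [lastIncl_X] at hw'

end Fermat.Agent.RT.Lift
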