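import Fermat.Agent.RT.Lift.Levels.LastFrame

/-!
# The series of the last flip

With `w` the coordinate `unit root - ε`: the unit root `ε + w`, the symmetrised operator
`T = (ε + w) + p / (ε + w)` and the factorisation `T ^ 2 - (p + 1) ^ 2 = w w'`.
-/

set_option autoImplicit false
set_option linter.unusedSectionVars false

noncomputable section

namespace Fermat.Agent.RT.Lift

open IsLocalRing MvPowerSeries
open Fermat.Agent.RT.Germ

variable {O : Type} [CommRing O] {p : ℕ} {W : WeierstrassCurve ℤ} {M k : ℕ}
  {κ : Places W p M → Type} [∀ v, Finite (κ v)] (ε : O)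

/-- The coordinate `w`. -/
abbrev lastW : MvPowerSeries (LCoord κ (Option (Fin k))) O := X (Sum.inr none)

/-- The unit root `ε + w`. -/
def lastRoot : MvPowerSeries (LCoord κ (Option (Fin k))) O := C ε + lastW

/-- The inverse of the unit root, for a unit `ε`. -/
def lastRootInv : MvPowerSeries (LCoord κ (Option (Fin k))) O :=
  Ring.inverse (lastRoot ε)

theorem constantCoeff_lastRoot : constantCoeff (lastRoot (κ := κ) (k := k) ε) = ε := by
  rw [lastRoot, map_add, constantCoeff_C, constantCoeff_X, add_zero]

theorem isUnit_lastRoot {ε : O} (h : ε * ε = 1) : IsUnit (lastRoot (κ := κ) (k := k) ε) :=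
  MvPowerSeries.isUnit_iff_constantCoeff.2 (by
    rw [constantCoeff_lastRoot]
    exact IsUnit.of_mul_eq_one ε h)

variable (p) in
/-- The symmetrised operator. -/
def lastT : MvPowerSeries (LCoord κ (Option (Fin k))) O :=
  lastRoot ε + (p : MvPowerSeries _ O) * lastRootInv ε

variable (p) in
/-- The cofactor of `w`. -/
def lastW' : MvPowerSeries (LCoord κ (Option (Fin k))) O :=
  (1 - (p : MvPowerSeries _ O) * C ε * lastRootInv ε) *
    (lastT p ε + ((p + 1 : ℕ) : MvPowerSeries _ O) * C ε)

theorem lastW_mul {ε : O} (h : ε * ε = 1) :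
    lastW * lastW' p ε = lastT (κ := κ) (k := k) p ε ^ 2 -
      ((p + 1 : ℕ) : MvPowerSeries (LCoord κ (Option (Fin k))) O) ^ 2 := by
  have h1 : (C ε + lastW) * lastRootInv (κ := κ) (k := k) ε = 1 :=
    Ring.mul_inverse_cancel _ (isUnit_lastRoot h)
  have h2 : (C ε : MvPowerSeries (LCoord κ (Option (Fin k))) O) * C ε = 1 := by
    rw [← map_mul, h, map_one]
  rw [lastW', lastT, lastRoot]
  push_cast
  linear_combination
    ((C ε + lastW + (p : MvPowerSeries _ O) * lastRootInv ε + ((p : MvPowerSeries _ O) + 1) * C ε) *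
        (-(p : MvPowerSeries _ O) * C ε)) * h1 +
      ((C ε + lastW + (p : MvPowerSeries _ O) * lastRootInv ε + ((p : MvPowerSeries _ O) + 1) * C ε) *
          (p : MvPowerSeries _ O) * lastRootInv ε - ((p : MvPowerSeries _ O) + 1) ^ 2) * h2

section Eval

variable {ε} {B : Type*} [CommRing B] [Algebra O B]
  (f : MvPowerSeries (LCoord κ (Option (Fin k))) O →ₐ[O] B) {z : B}
  (hw : f lastW = z - algebraMap O B ε)

include hw

theorem map_lastRoot : f (lastRoot ε) = z := by
  rw [lastRoot, map_add, hw,
    show (C ε : MvPowerSeries (LCoord κ (Option (Fin k))) O) = algebraMap O _ ε from rfl,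
    AlgHom.commutes, add_sub_cancel]

theorem isUnit_root (h : ε * ε = 1) : IsUnit z :=
  map_lastRoot f hw ▸ (isUnit_lastRoot h).map f

theorem map_lastT_mul (h : ε * ε = 1) : f (lastT p ε) * z = z ^ 2 + (p : B) := by
  have h1 : f (lastRootInv ε) * z = 1 := by
    rw [← map_lastRoot f hw, ← map_mul, lastRootInv,
      Ring.inverse_mul_cancel _ (isUnit_lastRoot h), map_one]
  rw [lastT, map_add, map_mul, map_natCast, map_lastRoot f hw]
  linear_combination (p : B) * h1

end Eval

variable [IsLocalRing O]

theorem lastIncl_X {ρ : Type} [Finite ρ] (i : LCoord κ ρ) :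
    lastIncl (O := O) (X i) = X (Sum.map id some i) := by
  rw [lastIncl, substAlgHom_X]

theorem lastIncl_placeSubst {ρ : Type} [Finite ρ] (v : Places W p M)
    (f : MvPowerSeries (κ v) O) :
    lastIncl (placeSubst (ρ := ρ) v f) = placeSubst (ρ := Option ρ) v f := by
  rw [lastIncl, placeSubst, placeSubst, substAlgHom_apply, substAlgHom_apply, substAlgHom_apply,
    subst_comp_subst_apply (hasSubst_of_constantCoeff_zero fun _ => constantCoeff_X _)
      (hasSubst_of_constantCoeff_zero fun _ => constantCoeff_X _)]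
  refine congrArg (fun a => subst a f) (funext fun i => ?_)
  rw [subst_X (hasSubst_of_constantCoeff_zero fun _ => constantCoeff_X _)]
  rfl

end Fermat.Agent.RT.Lift
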