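import Fermat.Agent.RT.Lift.Levels
import Fermat.Agent.RT.Lift.Levels.LastSeries
import Mathlib.RingTheory.MvPowerSeries.Rename

/-!
# Recognition and the point of the last flip

At the top of the last flip a prime of full dimension over the relations of the places, the signs
of their traces and `w` vanishes at the marked point; and there is a point special at every place
with `w = 0` at which the flip can start.
-/

set_option autoImplicit false
set_option linter.style.haveILetI false
set_option linter.unusedSectionVars false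
set_option linter.overlappingInstances false

noncomputable section

namespace Fermat.Agent.RT.Lift

open IsLocalRing MvPowerSeries Fermat.Agent.RT.Germ

section Omit

variable {O : Type} [CommRing O] {V : Type} {κ : V → Type} {ρ : Type}

variable (κ ρ) in
/-- The coordinates at the top other than `w`. -/
def omitW : LCoord κ (Option ρ) ↪ LCoord κ (Option (Option ρ)) :=
  ⟨Sum.map id (Option.map some), Function.injective_id.sumMap
    (Option.map_injective (Option.some_injective ρ))⟩

theorem omitW_inl (i : Σ v, κ v) : omitW κ ρ (Sum.inl i) = Sum.inl i := rfl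

/-- A series differs from the one without `w` by a multiple of `w`. -/
theorem sub_rename_killCompl_mem [Finite V] [∀ v, Finite (κ v)] [Finite ρ]
    (f : MvPowerSeries (LCoord κ (Option (Option ρ))) O) :
    f - rename (omitW κ ρ) (killCompl (omitW κ ρ) f) ∈
      Ideal.span {(X (Sum.inr (some none)) : MvPowerSeries (LCoord κ (Option (Option ρ))) O)} := by
  refine Ideal.mem_span_singleton.2 (X_dvd_iff.2 fun m hm => ?_)
  obtain ⟨x, rfl⟩ : m ∈ Set.range (Finsupp.embDomain (omitW κ ρ)) := by
    rw [Finsupp.mem_range_embDomain_iff]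
    intro i hi
    rcases i with i | (_ | (_ | j))
    · exact ⟨Sum.inl i, rfl⟩
    · exact ⟨Sum.inr none, rfl⟩
    · exact absurd hm (Finsupp.mem_support_iff.1 hi)
    · exact ⟨Sum.inr (some j), rfl⟩
  rw [map_sub, coeff_embDomain_rename, coeff_killCompl, sub_self]

theorem rename_omitW_placeHom [Finite V] [∀ v, Finite (κ v)] [Finite ρ] (v : V)
    (g : MvPolynomial (κ v) O) :
    rename (omitW κ ρ) (placeHom (ρ := Option ρ) v g) = placeHom v g := by
  rw [← AlgHom.comp_apply]
  refine DFunLike.congr_fun (MvPolynomial.algHom_ext fun i => ?_) g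
  rw [AlgHom.comp_apply, placeHom_X, placeHom_X, rename_X, omitW_inl]

theorem rename_omitW_placeSubst [Finite V] [∀ v, Finite (κ v)] [Finite ρ] (v : V)
    (f : MvPowerSeries (κ v) O) :
    rename (omitW κ ρ) (placeSubst (ρ := Option ρ) v f) = placeSubst v f := by
  rw [rename_eq_subst, placeSubst, placeSubst, substAlgHom_apply, substAlgHom_apply,
    subst_comp_subst_apply (hasSubst_of_constantCoeff_zero fun _ => constantCoeff_X _)
      (HasSubst.X_comp _)]
  refine congrArg (fun a => subst a f) (funext fun i => ?_)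
  rw [subst_X (HasSubst.X_comp _)]
  rfl

end Omit

variable {K : Type*} [NontriviallyNormedField K] [IsUltrametricDist K] [CompleteSpace K]
  {O : Type} [CommRing O] [IsDomain O] [IsDiscreteValuationRing O]
  [IsAdicComplete (maximalIdeal O) O] [Finite (ResidueField O)] {φ : O →+* ball1 K}
  {V : Type} [Finite V] {κ : V → Type} [∀ v, Finite (κ v)] {ρ : Type} [Finite ρ]

/-- **Recognition at the top of the last flip.** -/
theorem le_ker_of_last [IsAlgClosed K] (hφinj : Function.Injective φ)
    (hφ : ∀ a ∈ maximalIdeal O, ‖(φ a : K)‖ < 1) (D : ∀ v, PlaceData φ (κ v))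
    {𝔮 : Ideal (MvPowerSeries (LCoord κ (Option (Option ρ))) O)} [𝔮.IsPrime]
    (hdim : ringKrullDim (MvPowerSeries ((Σ v, Fin (D v).ur.dim) ⊕ Option ρ) O) ≤
      ringKrullDim (MvPowerSeries (LCoord κ (Option (Option ρ))) O ⧸ 𝔮))
    (hrel : placesRel (Option (Option ρ)) D ⊆ 𝔮) (hy : ∀ v, placeSubst v (D v).y ∈ 𝔮)
    (hw : X (Sum.inr (some none)) ∈ 𝔮)
    (ψ : MvPowerSeries (LCoord κ (Option (Option ρ))) O →+* O) (hC : ∀ a, ψ (C a) = a)
    (hψ : ∀ v, ∀ g ∈ (D v).st.rels, ψ (placeHom v g) = 0)
    (hψw : ψ (X (Sum.inr (some none))) = 0) : 𝔮 ≤ RingHom.ker ψ := by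
  classical
  have := Fintype.ofFinite V
  let ι : MvPowerSeries (LCoord κ (Option ρ)) O →+* MvPowerSeries (LCoord κ (Option (Option ρ))) O :=
    (rename (omitW κ ρ)).toRingHom
  have hspan : ∀ f : MvPowerSeries (LCoord κ (Option (Option ρ))) O,
      f - ι (killCompl (omitW κ ρ) f) ∈ 𝔮 := fun f =>
    (Ideal.span_le.2 (Set.singleton_subset_iff.2 hw)) (sub_rename_killCompl_mem f)
  have hsurj : Function.Surjective (Ideal.quotientMap 𝔮 ι (le_refl (𝔮.comap ι))) := fun z => by
    obtain ⟨f, rfl⟩ := Ideal.Quotient.mk_surjective z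
    refine ⟨Ideal.Quotient.mk _ (killCompl (omitW κ ρ) f), ?_⟩
    rw [Ideal.quotientMap_mk, eq_comm, Ideal.Quotient.mk_eq_mk_iff_sub_mem]
    exact hspan f
  have hrels : placesRel (Option ρ) D ⊆ 𝔮.comap ι := by
    rintro f hf
    obtain ⟨v, g, hg, rfl⟩ := Set.mem_iUnion.1 hf
    show rename (omitW κ ρ) _ ∈ 𝔮
    rw [rename_omitW_placeSubst]
    exact hrel (Set.mem_iUnion.2 ⟨v, g, hg, rfl⟩)
  let CD := placesChainData (ρ := Option ρ) D hφinj hφ
    (S := MvPowerSeries (LCoord κ (Option ρ)) O ⧸ 𝔮.comap ι)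
    (hdim.trans (ringKrullDim_le_of_surjective _ hsurj))
  have hP : RingHom.ker (ψ.comp ι) ∈ compPoints (Option ρ) D Finset.univ :=
    ker_comp_mem_compPoints hφ hφinj D Finset.univ _ (fun a => by
      show ψ (rename (omitW κ ρ) (C a)) = a
      rw [rename_C, hC]) fun v g hg => by
      rw [compAt, if_pos (Finset.mem_univ v)] at hg
      show ψ (rename (omitW κ ρ) _) = 0
      rw [rename_omitW_placeHom]
      exact hψ v g hg
  have hle := CD.recognition Finset.univ (𝔮.comap ι) (Ideal.IsPrime.comap _) rfl hrels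
    (fun v hv => absurd (Finset.mem_univ v) hv) (fun v _ => by
      show rename (omitW κ ρ) (placeSubst v (D v).y) ∈ 𝔮
      rw [rename_omitW_placeSubst]
      exact hy v) _ hP
  intro f hf
  have hg : killCompl (omitW κ ρ) f ∈ 𝔮.comap ι := by
    have := 𝔮.sub_mem hf (hspan f)
    rwa [sub_sub_cancel] at this
  obtain ⟨a, ha⟩ := Ideal.mem_span_singleton.1 (sub_rename_killCompl_mem f)
  have h0 : ψ (ι (killCompl (omitW κ ρ) f)) = 0 := hle hg
  rw [RingHom.mem_ker, ← sub_add_cancel f (ι (killCompl (omitW κ ρ) f)), map_add, h0, add_zero]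
  show ψ (f - rename (omitW κ ρ) _) = 0
  rw [ha, map_mul, hψw, zero_mul]

section Point

variable {p : ℕ} [Fact p.Prime] [CharZero O] {W : WeierstrassCurve ℤ} {M k : ℕ}
  {κ₀ : Places W p M → Type} [∀ v, Finite (κ₀ v)]

/-- **The point at which the last flip starts.** -/
theorem exists_last_point (hφinj : Function.Injective φ) (D : ∀ v, PlaceData φ (κ₀ v)) {ε : O}
    (hε : ε * ε = 1) :
    ∃ P ∈ compPoints (Option (Fin k)) D Finset.univ,
      lastW (κ := κ₀) (k := k) ∈ P ∧ lastW' p ε ∉ P ∧
        ∀ v, ∃ a ∈ placeSubst (ρ := Option (Fin k)) v '' (D v).nSet,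
          placeSubst v (D v).y' * a ∉ P := by
  classical
  choose p₁ hp₁ hst hy1 using fun w => (D w).exists_special
  let x : LCoord κ₀ (Option (Fin k)) → ball1 K := Sum.elim (fun wi => p₁ wi.1 wi.2) fun _ => 0
  have hx : ∀ i, ‖(x i : K)‖ < 1 := by
    rintro (⟨w, i⟩ | r)
    · exact hp₁ w i
    · simp [x]
  have hw : ev φ x hx (lastW (O := O) (κ := κ₀) (k := k)) = 0 := ev_X φ x hx (Sum.inr none)
  refine ⟨_, ⟨x, hx, fun w g hg => ?_, rfl⟩, hw, fun h => ?_, fun v => ?_⟩
  · rw [compAt, if_pos (Finset.mem_univ w)] at hg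
    exact hst w g hg
  · rw [RingHom.mem_ker] at h
    set g := ev φ x hx
    have hCg : ∀ a, g (C a) = φ a := ev_C φ x hx
    have hroot : g (lastRoot ε) = φ ε := by rw [lastRoot, map_add, hw, add_zero, hCg]
    have he : φ ε * φ ε = 1 := by rw [← map_mul, hε, map_one]
    have hinv : g (lastRootInv ε) = φ ε := by
      have h1 : g (lastRoot ε) * g (lastRootInv ε) = 1 := by
        rw [← map_mul, lastRootInv, Ring.mul_inverse_cancel _ (isUnit_lastRoot hε), map_one]
      rw [hroot] at h1
      calc g (lastRootInv ε) = φ ε * φ ε * g (lastRootInv ε) := by rw [he, one_mul]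
        _ = φ ε := by rw [mul_assoc, h1, mul_one]
    have hval : φ ((1 - (p : O)) * (2 * ((p : O) + 1) * ε)) = 0 := by
      rw [lastW', lastT, map_mul, map_sub, map_one, map_mul, map_mul, map_natCast, map_add, map_add,
        map_mul, map_natCast, map_mul, hroot, hinv, hCg, map_natCast] at h
      simp only [map_mul, map_sub, map_add, map_one, map_natCast, map_ofNat]
      rw [← h]
      push_cast
      linear_combination (2 * (p : ball1 K) + 2) * (p : ball1 K) * φ ε * he
    have h2 : (1 - (p : O)) * (2 * ((p : O) + 1) * ε) = 0 := hφinj (hval.trans (map_zero φ).symm)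
    refine mul_ne_zero ?_ (mul_ne_zero (mul_ne_zero two_ne_zero ?_) ?_) h2
    · rw [sub_ne_zero]
      exact_mod_cast (Fact.out : p.Prime).one_lt.ne
    · exact_mod_cast Nat.succ_ne_zero p
    · rintro rfl
      simp at hε
  · obtain ⟨a, ha, hne⟩ := hy1 v
    refine ⟨placeSubst v a, ⟨a, ha, rfl⟩, ?_⟩
    rw [RingHom.mem_ker, ← map_mul, ev_placeSubst]
    exact fun h => hne ((ev_congr φ rfl _ (hp₁ v) _).symm.trans h)

end Point

end Fermat.Agent.RT.Lift
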