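import Fermat.Agent.RT.Lift.Levels.Compat
import Fermat.Agent.RT.Lift.Levels.Modules
import Fermat.Agent.RT.Assembly.Normal
import Fermat.Agent.RT.Assembly.Local
import Fermat.Agent.RT.Assembly.Models
import Fermat.Agent.RT.Glue.Bridge
import Fermat.Agent.RT.Glue.Flat
import Fermat.Agent.RT.InertiaTW.Main

/-!
# The normalised matrices of one level and their local properties
-/

set_option autoImplicit false
set_option linter.style.haveILetI false
set_option linter.unusedSectionVars false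

noncomputable section

namespace Fermat.Agent.RT.Lift

open IsLocalRing Module Polynomial
open Fermat.Agent.Deform
open Fermat.Agent.RT.Glue (KBar Point Glued sA diaA)

local notation "Q̄" => AlgebraicClosure ℚ

variable {O : Type} [CommRing O] [IsDomain O] [IsDiscreteValuationRing O]
  [IsAdicComplete (maximalIdeal O) O] [Finite (ResidueField O)] [CharZero O]
  {p : ℕ} [Fact p.Prime]
  {L : ℕ} [NeZero L] {Δ : Type} [CommGroup Δ] [Finite Δ] {ψ : (ZMod L)ˣ →* Δ} {S : Finset ℕ}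
  {abar : ℕ → ResidueField O}

/-- The glued representation of a level in normalised coordinates. -/
structure LevelRep (p : ℕ) [Fact p.Prime] (W : Rigid O) (ρbar : ResidualGaloisRep (ResidueField O))
    (H : HeckeModule L ψ S abar) [IsLocalRing H.algebra] [IsLocalHom (algebraMap O H.algebra)]
    (hS : ∀ q : ℕ, q.Prime → q ∣ L → q ∈ S) : Type 1 where
  pt : ∀ θ : H.algebra →ₐ[O] KBar O, Point (p := p) H hS θ.toRingHom
  G : Glued (fun M _ => Assembly.model M p) pt
  ru : Gal →* M2 H.algebra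
  cont : IsCont ru
  isResAlg : IsResAlg O H.algebra
  lifts : Lifts W isResAlg ru
  normal : IsNormal W ru
  equiv : G.rep.IsEquiv (toRep ru cont)
  residual : G.rep.residual.IsEquiv
    (ρbar.baseChangeAlong (ResidueField.map (algebraMap O H.algebra)))

variable {W : Rigid O} {ρbar : ResidualGaloisRep (ResidueField O)}
  {H : HeckeModule L ψ S abar} [IsLocalRing H.algebra] [IsLocalHom (algebraMap O H.algebra)]
  {hS : ∀ q : ℕ, q.Prime → q ∣ L → q ∈ S}

section Exists

variable {bb : Basis (Fin 2) (ResidueField O) ρbar.V}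

/-- **The normalised matrices of a level exist.** -/
theorem exists_levelRep (hp : (p : O) ∈ maximalIdeal O) (hΔ : IsPGroup p Δ) (hp2 : p ≠ 2)
    (hpS : p ∈ S) (habs : ρbar.IsAbsolutelyIrreducible) (hbar : Glue.HasCharpolys S abar ρbar)
    (hW : W.rb = matRes ρbar bb) : Nonempty (LevelRep p W ρbar H hS) := by
  have := Glue.isAdicComplete_algebra H
  obtain ⟨pt, G, hG, -⟩ :=
    Glue.exists_rep hp hΔ hp2 hpS hS habs hbar (fun M _ => Assembly.model M p) (H := H)
  have hA : IsResAlg O H.algebra := ⟨inferInstance, Glue.residue_algebraMap_surjective H hp hΔ⟩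
  obtain ⟨ru, hc, hl, hn, he, -⟩ := Assembly.exists_normal_matrices hW hA G.rep hG
  exact ⟨⟨pt, G, ru, hc, hA, hl, hn, he, hG⟩⟩

end Exists

variable (R : LevelRep p W ρbar H hS)

theorem LevelRep.exists_conj :
    ∃ P : (M2 H.algebra)ˣ, ∀ σ, R.ru σ = (P : M2 H.algebra) * R.G.R σ * ↑P⁻¹ := by
  obtain ⟨P, ⟨u, rfl⟩, hP⟩ := exists_conj_of_isEquiv (r := R.G.R) (hr := R.G.cont) R.equiv
  exact ⟨u, fun σ => by rw [hP σ, mul_assoc, Units.mul_inv, mul_one]⟩

theorem LevelRep.trace_eq (σ : Gal) : (R.ru σ).trace = (R.G.R σ).trace := by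
  obtain ⟨P, hP⟩ := R.exists_conj
  rw [hP, Matrix.trace_mul_comm, ← mul_assoc, Units.inv_mul, one_mul]

theorem LevelRep.det_eq (σ : Gal) : (R.ru σ).det = (R.G.R σ).det := by
  obtain ⟨P, hP⟩ := R.exists_conj
  rw [hP, Matrix.det_mul, Matrix.det_mul, mul_right_comm, ← Matrix.det_mul, Units.mul_inv,
    Matrix.det_one, one_mul]

theorem LevelRep.detIsCyclotomic (hp : (p : O) ∈ maximalIdeal O) (hΔ : IsPGroup p Δ) :
    (toRep R.ru R.cont).DetIsCyclotomic p :=
  Assembly.detIsCyclotomic_of_isEquiv R.equiv (R.G.detIsCyclotomic hp hΔ)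

/-- An element acting trivially at a point is trivial modulo the point. -/
theorem LevelRep.map_eq_one {θ : H.algebra →ₐ[O] KBar O} {σ : Gal}
    (h : (R.pt θ).rep (fun M _ => Assembly.model M p) σ = 1) : (R.ru σ).map θ = 1 := by
  obtain ⟨P, hP⟩ := R.exists_conj
  have h1 : (θ : H.algebra →+* KBar O).mapMatrix (R.G.R σ) = 1 := (R.G.map_eq_one θ σ).2 h
  show (θ : H.algebra →+* KBar O).mapMatrix (R.ru σ) = 1
  rw [hP, map_mul, map_mul, h1, mul_one, ← map_mul, Units.mul_inv, map_one]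

/-- An element acting trivially at every point acts trivially. -/
theorem LevelRep.eq_one {σ : Gal}
    (h : ∀ θ, (R.pt θ).rep (fun M _ => Assembly.model M p) σ = 1) : R.ru σ = 1 := by
  refine Matrix.ext fun i j => sub_eq_zero.1 (Glue.eq_zero_of_forall_point fun θ => ?_)
  have h1 := congrFun (congrFun (R.map_eq_one (h θ)) i) j
  rw [Matrix.map_apply] at h1
  rw [map_sub, h1, Matrix.one_apply, Matrix.one_apply, apply_ite θ, map_one, map_zero, sub_self]

/-- The trace of a Frobenius element outside `S`. -/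
theorem LevelRep.trace_frobenius (hpS : p ∈ S) {ℓ : ℕ} (hℓ : ℓ.Prime) (hℓS : ℓ ∉ S)
    {A : ValuationSubring Q̄} (hA : A.LiesOverPrime ℓ) {s : Gal} (hs : A.IsFrobeniusAt s ℓ) :
    (R.ru s).trace = sA H hS hℓ hℓS := by
  refine sub_eq_zero.1 (Glue.eq_zero_of_forall_point fun θ => ?_)
  rw [map_sub, R.trace_eq, R.G.trace_eq, sub_eq_zero]
  have h := (R.pt θ).trace_frobenius_pow (fun M _ => Assembly.model M p) hpS hℓ hℓS hA hs 1
  rw [pow_one] at h
  exact h

/-- Inertia at `v ≠ p` is trivial when no point has `v` in its level. -/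
theorem LevelRep.inertia_eq_one {v : ℕ} (hv : v.Prime) (hvp : v ≠ p)
    (hM : ∀ θ, ¬ v ∣ (R.pt θ).M) {A : ValuationSubring Q̄} (hA : A.LiesOverPrime v) {σ : Gal}
    (hσ : σ ∈ A.inertiaSubgroupIn ℚ) : R.ru σ = 1 := by
  refine R.eq_one fun θ => (R.pt θ).rep_eq_one
    ((Assembly.model (R.pt θ).M p).gal_unramified v hv ?_ A hA σ hσ)
  intro h
  rcases hv.dvd_mul.1 h with h | h
  · exact hM θ h
  · exact hvp ((Nat.prime_dvd_prime_iff_eq hv Fact.out).1 h)

/-- Inertia at a prime not dividing the level is trivial. -/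
theorem LevelRep.inertia_eq_one_of_not_dvd {v : ℕ} (hv : v.Prime) (hvp : v ≠ p) (hvL : ¬ v ∣ L)
    {A : ValuationSubring Q̄} (hA : A.LiesOverPrime v) {σ : Gal}
    (hσ : σ ∈ A.inertiaSubgroupIn ℚ) : R.ru σ = 1 :=
  R.inertia_eq_one hv hvp (fun θ h => hvL (hv.dvd_of_dvd_pow (h.trans (R.pt θ).dvd))) hA hσ

section Special

variable {v : ℕ} (hv : v.Prime) (hvL : v ∣ L) (hvp : v ≠ p)
  (hψ : ∀ u : (ZMod L)ˣ, ((u : ZMod L).cast : ZMod (L / v)) = 1 → ψ u = 1)

include hv hvL hψ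

theorem LevelRep.sq_not_dvd (θ : H.algebra →ₐ[O] KBar O) : ¬ v ^ 2 ∣ (R.pt θ).M :=
  (R.pt θ).sq_not_dvd hv hvL fun u hu => by rw [hψ u hu, map_one, map_one]

include hvp

/-- Inertia is unipotent at a prime where the character is trivial. -/
theorem LevelRep.unipotent {A : ValuationSubring Q̄} (hA : A.LiesOverPrime v) {σ : Gal}
    (hσ : σ ∈ A.inertiaSubgroupIn ℚ) : (R.ru σ).trace = 2 ∧ (R.ru σ).det = 1 := by
  have h : ∀ θ, ((R.pt θ).rep (fun M _ => Assembly.model M p) σ).trace = 2 ∧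
      ((R.pt θ).rep (fun M _ => Assembly.model M p) σ).det = 1 := fun θ =>
    (R.pt θ).unipotent _ hv hvp (fun hd => (Assembly.localModelInput (R.pt θ).M p v hv hvp hd
      (R.sq_not_dvd hv hvL hψ θ)).1) hA hσ
  refine ⟨sub_eq_zero.1 (Glue.eq_zero_of_forall_point fun θ => ?_),
    sub_eq_zero.1 (Glue.eq_zero_of_forall_point fun θ => ?_)⟩
  · rw [map_sub, R.trace_eq, R.G.trace_eq, (h θ).1, map_ofNat, sub_self]
  · rw [map_sub, R.det_eq, R.G.det_eq, (h θ).2, map_one, sub_self]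

theorem LevelRep.trace_sq_point (θ : H.algebra →ₐ[O] KBar O) (hvM : v ∣ (R.pt θ).M)
    {A : ValuationSubring Q̄} (hA : A.LiesOverPrime v) {φ : Gal} (hφ : A.IsFrobeniusAt φ v) :
    θ ((R.ru φ).trace ^ 2 - ((v : H.algebra) + 1) ^ 2) = 0 := by
  rw [map_sub, map_pow, map_pow, map_add, map_natCast, map_one, R.trace_eq, R.G.trace_eq,
    (R.pt θ).trace_sq_frobenius _ hv hvp hvM (Assembly.localModelInput (R.pt θ).M p v hv hvp hvM
      (R.sq_not_dvd hv hvL hψ θ)).2 hA hφ, sub_self]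

/-- `trace ^ 2 - (v + 1) ^ 2` of a Frobenius element kills the monodromy. -/
theorem LevelRep.special_mul {A : ValuationSubring Q̄} (hA : A.LiesOverPrime v) {σ : Gal}
    (hσ : σ ∈ A.inertiaSubgroupIn ℚ) {φ : Gal} (hφ : A.IsFrobeniusAt φ v) (i j : Fin 2) :
    ((R.ru φ).trace ^ 2 - ((v : H.algebra) + 1) ^ 2) * (R.ru σ - 1) i j = 0 := by
  refine Glue.eq_zero_of_forall_point fun θ => ?_
  rw [map_mul]
  by_cases hvM : v ∣ (R.pt θ).M
  · rw [R.trace_sq_point hv hvL hvp hψ θ hvM hA hφ, zero_mul]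
  · have hne : ¬ v ∣ (R.pt θ).M * p := fun h => (hv.dvd_mul.1 h).elim hvM fun h' =>
      hvp ((Nat.prime_dvd_prime_iff_eq hv Fact.out).1 h')
    have h1 := congrFun (congrFun (R.map_eq_one ((R.pt θ).rep_eq_one
      ((Assembly.model (R.pt θ).M p).gal_unramified v hv hne A hA σ hσ))) i) j
    rw [Matrix.map_apply] at h1
    have h2 : θ ((R.ru σ - 1) i j) = 0 := by
      rw [Matrix.sub_apply, map_sub, Matrix.one_apply, apply_ite θ, map_one, map_zero]
      exact sub_eq_zero.2 (h1.trans Matrix.one_apply)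
    rw [h2, mul_zero]

/-- If the element `trace ^ 2 - (v + 1) ^ 2` is a unit, no point has `v` in its level. -/
theorem LevelRep.not_dvd_of_isUnit {A : ValuationSubring Q̄} (hA : A.LiesOverPrime v) {φ : Gal}
    (hφ : A.IsFrobeniusAt φ v) (hu : IsUnit ((R.ru φ).trace ^ 2 - ((v : H.algebra) + 1) ^ 2))
    (θ : H.algebra →ₐ[O] KBar O) : ¬ v ∣ (R.pt θ).M := fun hvM =>
  (hu.map θ).ne_zero (R.trace_sq_point hv hvL hvp hψ θ hvM hA hφ)

end Special

/-- Flatness at `p` not dividing the level. -/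
theorem LevelRep.isFlatAt (hp : (p : O) ∈ maximalIdeal O) (hΔ : IsPGroup p Δ) (hpL : ¬ p ∣ L) :
    (toRep R.ru R.cont).IsFlatAt p := by
  exact Assembly.isFlatAt_of_isEquiv R.equiv (R.G.isFlatAt hp hΔ fun M _ N hM =>
    Assembly.nonempty_galOrder_model M p N fun h =>
      hpL ((Fact.out : p.Prime).dvd_of_dvd_pow (h.trans hM)))

/-- The trace of inertia at a prime of twisted level. -/
theorem LevelRep.trace_twisted (hp : (p : O) ∈ maximalIdeal O) (hΔ : IsPGroup p Δ) (hp2 : p ≠ 2)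
    (hpS : p ∈ S) (hL : Squarefree L) {v : ℕ} [Fact v.Prime] (hvL : v ∣ L) (hvp : v ≠ p)
    (hbarv : ∀ A : ValuationSubring Q̄, A.LiesOverPrime v → ∀ σ ∈ A.inertiaSubgroupIn ℚ,
      LinearMap.trace (ResidueField O) ρbar.V (ρbar.ρ σ) = 2)
    {A : ValuationSubring Q̄} (hA : A.LiesOverPrime v) {σ : Gal}
    (hσ : σ ∈ A.inertiaSubgroupIn ℚ) {a : ℕ} (ha : ∀ μ : Q̄, μ ^ v = 1 → σ μ = μ ^ a)
    (u : (ZMod L)ˣ) (hu : ((u : ZMod L).cast : ZMod (L / v)) = 1)
    (hua : ((u : ZMod L).cast : ZMod v) = a) :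
    (R.ru σ).trace = diaA H (ψ u ^ halfInvExp Δ) + diaA H (ψ u ^ halfInvExp Δ)⁻¹ := by
  have hv : v.Prime := Fact.out
  have hTW : Glue.TwistedInertia (fun M _ => Assembly.model M p) R.pt v :=
    R.G.twistedInertia hp hΔ hp2 hpS hL hvL hvp (fun R' M _ _ g => InertiaTW.traceInertia p v R' M g)
      (@Assembly.congruenceProperty _ p
        ⟨by rw [← mul_pow, Nat.mul_div_cancel' hvL]; exact pow_ne_zero 2 (NeZero.ne L)⟩ _)
      (fun M _ _ h1 h2 => (Assembly.localModelInput M p v hv hvp h1 h2).1)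
      R.residual hbarv
  refine sub_eq_zero.1 (Glue.eq_zero_of_forall_point fun θ => ?_)
  rw [map_sub, R.trace_eq, R.G.trace_eq, hTW A hA σ hσ a ha u hu hua θ, map_add, sub_self]

end Fermat.Agent.RT.Lift
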