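import Fermat.Agent.RT.Lift.Germ.Line
import Fermat.Agent.RT.Lift.Germ.Scalar
import Fermat.Agent.RT.Lift.Germ.Trace
import Fermat.Agent.RT.Assembly.Tangent
import Fermat.Agent.RT.Assembly.Entries
import Fermat.Agent.RT.Assembly.Matrices

/-!
# The values of the coordinates of a place

For a pair of matrices `S, P` over a coefficient algebra with `P S = S ^ v P`, `det P = v` and `S`
unipotent, residually trivial: values of the coordinates of a line place or of a scalar place
which kill its relations, with the facts needed at the levels and for the tangent bound.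
-/

set_option autoImplicit false

noncomputable section

namespace Fermat.Agent.RT.Lift

open IsLocalRing MvPowerSeries Matrix Fermat.Agent.Deform Fermat.Agent.CFT.Tangent
  Fermat.Agent.RT.Germ

section Matrices

variable {A : Type} [CommRing A]

/-- The ideal of the entries of `S - 1`. -/
def monoSpan (S : M2 A) : Ideal A :=
  Ideal.span (Set.range fun ij : Fin 2 × Fin 2 => (S - 1) ij.1 ij.2)

theorem mem_monoSpan (S : M2 A) (i j : Fin 2) : (S - 1) i j ∈ monoSpan S :=
  Ideal.subset_span ⟨(i, j), rfl⟩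

theorem trace_sub_one {S : M2 A} (hStr : S.trace = 2) : (S - 1).trace = 0 := by
  rw [Matrix.trace_sub, hStr, Matrix.trace_one, Fintype.card_fin]
  norm_num

theorem sub_one_mul_self {S : M2 A} (hdet : S.det = 1) (htr : S.trace = 2) :
    (S - 1) * (S - 1) = 0 := by
  have h := Assembly.quadratic_of_det_one htr hdet
  rw [two_smul] at h
  rw [← h, sub_mul, mul_sub, one_mul, mul_one]
  abel

theorem unipotent_pow {S : M2 A} (hN : (S - 1) * (S - 1) = 0) (m : ℕ) :
    S ^ m = 1 + m • (S - 1) := by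
  induction m with
  | zero => simp
  | succ m ih =>
    rw [pow_succ, ih, succ_nsmul]
    nth_rewrite 2 [show S = 1 + (S - 1) by abel]
    rw [add_mul, one_mul, nsmul_eq_mul, mul_assoc, mul_add, mul_one, hN, add_zero]
    abel

theorem sub_one_conj {S P : M2 A} {v : ℕ} (hN : (S - 1) * (S - 1) = 0)
    (hconj : P * S = S ^ v * P) : P * (S - 1) = (v : A) • ((S - 1) * P) := by
  rw [mul_sub, mul_one, hconj, unipotent_pow hN, add_mul, one_mul, add_sub_cancel_left,
    smul_mul_assoc, Nat.cast_smul_eq_nsmul]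

theorem entry_mul_mem {I : Ideal A} {Y : M2 A} (hY : ∀ k l, Y k l ∈ I) (X Z : M2 A) (i j : Fin 2) :
    (X * Y * Z) i j ∈ I := by
  simp only [Matrix.mul_apply, Fin.sum_univ_two]
  exact I.add_mem (I.mul_mem_right _ (I.add_mem (I.mul_mem_left _ (hY _ _)) (I.mul_mem_left _ (hY _ _))))
    (I.mul_mem_right _ (I.add_mem (I.mul_mem_left _ (hY _ _)) (I.mul_mem_left _ (hY _ _))))

/-- The monodromy in another basis. -/
theorem exists_frame {S P G D : M2 A} {v : ℕ} (hdet : S.det = 1) (htr : S.trace = 2)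
    (hconj : P * S = S ^ v * P) (hG : IsUnit G.det) (hD : P * G = G * D) :
    ∃ N : M2 A, N 1 1 = -N 0 0 ∧ N * N = 0 ∧ D * N = (v : A) • (N * D) ∧
      (∀ i j, N i j ∈ monoSpan S) ∧
      ∀ I : Ideal A, (∀ i j, N i j ∈ I) → ∀ i j, (S - 1) i j ∈ I := by
  have hN := sub_one_mul_self hdet htr
  have h1 : G * G⁻¹ = 1 := Matrix.mul_nonsing_inv G hG
  have h2 : G⁻¹ * G = 1 := Matrix.nonsing_inv_mul G hG
  have hD' : D = G⁻¹ * P * G := by rw [mul_assoc, hD, ← mul_assoc, h2, one_mul]
  refine ⟨G⁻¹ * (S - 1) * G, ?_, ?_, ?_, fun i j => entry_mul_mem (mem_monoSpan S) _ _ i j,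
    fun I hI i j => ?_⟩
  · have h : (G⁻¹ * (S - 1) * G).trace = 0 := by
      rw [Matrix.trace_mul_comm, ← mul_assoc, h1, one_mul, trace_sub_one htr]
    rw [Matrix.trace_fin_two] at h
    exact eq_neg_of_add_eq_zero_right h
  · calc G⁻¹ * (S - 1) * G * (G⁻¹ * (S - 1) * G)
        = G⁻¹ * ((S - 1) * (G * G⁻¹) * (S - 1)) * G := by simp only [mul_assoc]
      _ = 0 := by rw [h1, mul_one, hN, mul_zero, zero_mul]
  · calc D * (G⁻¹ * (S - 1) * G) = G⁻¹ * (P * (G * G⁻¹) * (S - 1)) * G := by
          rw [hD']; simp only [mul_assoc]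
      _ = (v : A) • (G⁻¹ * ((S - 1) * (G * G⁻¹) * P) * G) := by
          rw [h1, mul_one, mul_one, sub_one_conj hN hconj, mul_smul_comm, smul_mul_assoc]
      _ = (v : A) • (G⁻¹ * (S - 1) * G * D) := by
          rw [hD']; simp only [mul_assoc]
  · have e : S - 1 = G * (G⁻¹ * (S - 1) * G) * G⁻¹ := by
      rw [← mul_assoc, ← mul_assoc, h1, one_mul, mul_assoc, h1, mul_one]
    rw [e]
    exact entry_mul_mem hI _ _ i j

/-- A cyclic basis. -/
theorem exists_companion [IsLocalRing A] {P : M2 A}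
    (hns : IsUnit (P 1 0) ∨ IsUnit (P 0 1) ∨ IsUnit (P 1 1 - P 0 0)) :
    ∃ G : M2 A, IsUnit G.det ∧ P * G = G * !![0, -P.det; 1, P.trace] := by
  let G : A → A → M2 A := fun u w =>
    !![u, P 0 0 * u + P 0 1 * w; w, P 1 0 * u + P 1 1 * w]
  have hG : ∀ u w, P * G u w = G u w * !![0, -P.det; 1, P.trace] := fun u w => by
    ext i j
    fin_cases i <;> fin_cases j <;>
      simp [G, Matrix.mul_apply, Fin.sum_univ_two, Matrix.det_fin_two, Matrix.trace_fin_two] <;>
      ring
  have hdet : ∀ u w, (G u w).det =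
      u * (P 1 0 * u + P 1 1 * w) - (P 0 0 * u + P 0 1 * w) * w := fun u w => by
    simp [G, Matrix.det_fin_two]
  by_cases h10 : IsUnit (P 1 0)
  · exact ⟨G 1 0, by rw [hdet]; simpa using h10, hG 1 0⟩
  by_cases h01 : IsUnit (P 0 1)
  · exact ⟨G 0 1, by rw [hdet]; simpa using h01, hG 0 1⟩
  have hd := (hns.resolve_left h10).resolve_left h01
  refine ⟨G 1 1, ?_, hG 1 1⟩
  rw [hdet, show (1 : A) * (P 1 0 * 1 + P 1 1 * 1) - (P 0 0 * 1 + P 0 1 * 1) * 1 =
    (P 1 1 - P 0 0) + (P 1 0 - P 0 1) by ring]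
  by_contra hu
  have hm := (maximalIdeal A).sub_mem ((IsLocalRing.mem_maximalIdeal _).mpr hu)
    ((maximalIdeal A).sub_mem ((IsLocalRing.mem_maximalIdeal _).mpr h10)
      ((IsLocalRing.mem_maximalIdeal _).mpr h01))
  rw [add_sub_cancel_right] at hm
  exact (IsLocalRing.mem_maximalIdeal _).mp hm hd

end Matrices

section Residue

variable {O : Type} [CommRing O] [IsLocalRing O] {A : Type} [CommRing A] [IsLocalRing A]
  [Algebra O A]

theorem isUnit_of_augment_ne_zero (h : IsResAlg O A) {a : A} (ha : augment h a ≠ 0) : IsUnit a := by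
  by_contra hu
  exact ha ((augment_eq_zero_iff h a).mpr hu)

theorem tangentDer_eq_zero_of_mem_span (h : IsResAlg O A) (δ : tangentDer h) {C : Type}
    {c : C → A} (hc : ∀ i, c i ∈ maximalIdeal A) (hδ : ∀ i, δ.1 (c i) = 0) {a : A}
    (ha : a ∈ Ideal.span (Set.range c)) : δ.1 a = 0 := by
  refine (Submodule.span_induction (p := fun a _ => δ.1 a = 0 ∧ augment h a = 0) ?_ ?_ ?_ ?_ ha).1
  · rintro _ ⟨i, rfl⟩
    exact ⟨hδ i, (augment_eq_zero_iff h _).mpr (hc i)⟩
  · exact ⟨tangentDer_zero h δ, map_zero _⟩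
  · exact fun x y _ _ hx hy => ⟨by rw [δ.2.1, hx.1, hy.1, add_zero], by
      rw [map_add, hx.2, hy.2, add_zero]⟩
  · exact fun r x _ hx => ⟨by
      rw [smul_eq_mul, δ.2.2.1, hx.1, hx.2, mul_zero, zero_mul, add_zero],
      by rw [smul_eq_mul, map_mul, hx.2, mul_zero]⟩

theorem tangentDer_one_entry (h : IsResAlg O A) (δ : tangentDer h) (i j : Fin 2) :
    δ.1 ((1 : M2 A) i j) = 0 := by
  rw [Matrix.one_apply]
  split_ifs
  exacts [tangentDer_one h δ, tangentDer_zero h δ]

/-- A derivation killing the coordinates kills the entries of the monodromy. -/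
theorem tangentDer_inertia_eq_zero (h : IsResAlg O A) (δ : tangentDer h) {C : Type} {c : C → A}
    (hc : ∀ i, c i ∈ maximalIdeal A) (hδ : ∀ i, δ.1 (c i) = 0) {S : M2 A}
    (hS : ∀ i j, (S - 1) i j ∈ Ideal.span (Set.range c)) (i j : Fin 2) : δ.1 (S i j) = 0 := by
  have e : S i j = (S - 1) i j + (1 : M2 A) i j := by simp
  rw [e, δ.2.1, tangentDer_eq_zero_of_mem_span h δ hc hδ (hS i j), tangentDer_one_entry, add_zero]

theorem sub_one_mem_maximalIdeal (h : IsResAlg O A) {S : M2 A}
    (hS : ∀ i j, augment h (S i j) = if i = j then 1 else 0) :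
    monoSpan S ≤ maximalIdeal A := by
  rw [monoSpan, Ideal.span_le]
  rintro _ ⟨⟨i, j⟩, rfl⟩
  show (S - 1) i j ∈ (maximalIdeal A : Set A)
  rw [SetLike.mem_coe, ← augment_eq_zero_iff h, Matrix.sub_apply, map_sub, hS, Matrix.one_apply]
  split_ifs <;> simp

end Residue

section Values

variable {K : Type*} [NontriviallyNormedField K] [IsUltrametricDist K] [CompleteSpace K]
  {O : Type} [CommRing O] [IsLocalRing O] {φ : O →+* ball1 K}
  {A : Type} [CommRing A] [IsLocalRing A] [Algebra O A] {κ : Type} [Finite κ]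

/-- Values of the coordinates of a place coming from a monodromy `S` and a Frobenius `P`: every
evaluation at them kills the relations and gives the trace of `P`; derivations killing them kill
`S` and the trace of `P`. -/
structure PlaceValues (h : IsResAlg O A) (D : PlaceData φ κ) (ε : O) (v : ℕ) (S P : M2 A)
    (c : κ → A) : Prop where
  mem : ∀ i, c i ∈ maximalIdeal A
  rel : ∀ f : MvPowerSeries κ O →ₐ[O] A, (∀ i, f (X i) = c i) → ∀ g ∈ D.rel, f g = 0
  trace : ∀ f : MvPowerSeries κ O →ₐ[O] A, (∀ i, f (X i) = c i) → f D.T = P.trace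
  const : ∀ f : MvPowerSeries κ O →ₐ[O] A, (∀ i, f (X i) = c i) → f D.c = (v : A) + 1
  special : ∀ f : MvPowerSeries κ O →ₐ[O] A, (∀ i, f (X i) = c i) →
    f D.y = P.trace - algebraMap O A (ε * ((v : O) + 1))
  nSet : ∀ f : MvPowerSeries κ O →ₐ[O] A, (∀ i, f (X i) = c i) →
    ∀ a ∈ D.nSet, f a ∈ monoSpan S
  kill_inertia : ∀ δ : tangentDer h, (∀ i, δ.1 (c i) = 0) → ∀ i j, δ.1 (S i j) = 0
  kill_trace : ∀ δ : tangentDer h, (∀ i, δ.1 (c i) = 0) → δ.1 P.trace = 0

namespace PlaceValues

variable {h : IsResAlg O A} {D : PlaceData φ κ} {ε : O} {v : ℕ} {S P : M2 A} {c : κ → A}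

theorem y_mul_nSet (H : PlaceValues h D ε v S P c) {f : MvPowerSeries κ O →ₐ[O] A}
    (hf : ∀ i, f (X i) = c i) {B : Type*} [Ring B] (g : A →+* B)
    (hyN : ∀ i j, g ((P.trace ^ 2 - ((v : A) + 1) ^ 2) * (S - 1) i j) = 0) {a : MvPowerSeries κ O}
    (ha : a ∈ D.nSet) : g (f (D.y * (D.y' * a))) = 0 := by
  rw [← mul_assoc, D.y_mul, map_mul, map_sub, map_pow, map_pow, H.trace f hf, H.const f hf]
  refine Submodule.span_induction (p := fun a _ => g ((P.trace ^ 2 - ((v : A) + 1) ^ 2) * a) = 0)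
    ?_ ?_ ?_ ?_ (H.nSet f hf a ha)
  · rintro _ ⟨⟨i, j⟩, rfl⟩
    exact hyN i j
  · rw [mul_zero, map_zero]
  · intro x y _ _ hx hy
    rw [mul_add, map_add, hx, hy, add_zero]
  · intro r x _ hx
    rw [smul_eq_mul, mul_left_comm, map_mul, hx, mul_zero]

theorem nSet_eq_zero (H : PlaceValues h D ε v S P c) {f : MvPowerSeries κ O →ₐ[O] A}
    (hf : ∀ i, f (X i) = c i) {B : Type*} [Ring B] (g : A →+* B)
    (hN : ∀ i j, g ((S - 1) i j) = 0) {a : MvPowerSeries κ O} (ha : a ∈ D.nSet) :
    g (f a) = 0 := by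
  refine Submodule.span_induction (p := fun a _ => g a = 0)
    ?_ (map_zero g) ?_ ?_ (H.nSet f hf a ha)
  · rintro _ ⟨⟨i, j⟩, rfl⟩
    exact hN i j
  · intro x y _ _ hx hy
    rw [map_add, hx, hy, add_zero]
  · intro r x _ hx
    rw [smul_eq_mul, map_mul, hx, mul_zero]

/-- A point at which the trace is `ε (v + 1)` satisfies the relations of the special component. -/
theorem st_rels [IsDomain O] (H : PlaceValues h D ε v S P c) {f : MvPowerSeries κ O →ₐ[O] A}
    (hf : ∀ i, f (X i) = c i) (ψ : A →ₐ[O] O) (hψ : ψ P.trace = ε * ((v : O) + 1))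
    {g : MvPolynomial κ O} (hg : g ∈ D.st.rels) : ψ (f (g : MvPowerSeries κ O)) = 0 := by
  let z := ψ.comp f
  have hP : (RingHom.ker z).IsPrime := RingHom.ker_isPrime _
  exact RingHom.mem_ker.mp <| D.st_rels _ hP
    (fun a ha hmem => ha (by
      rw [RingHom.mem_ker, show (C a : MvPowerSeries κ O) = algebraMap O _ a from rfl,
        AlgHom.commutes] at hmem
      exact hmem))
    (fun r hr => by rw [SetLike.mem_coe, RingHom.mem_ker, AlgHom.comp_apply, H.rel f hf r hr, map_zero])
    (by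
      rw [RingHom.mem_ker, AlgHom.comp_apply, H.special f hf, map_sub, hψ, AlgHom.commutes,
        Algebra.algebraMap_self, RingHom.id_apply, sub_self]) g hg

end PlaceValues

end Values

section Line

variable {O : Type} [CommRing O] [IsDomain O] [IsDiscreteValuationRing O]
  [IsAdicComplete (maximalIdeal O) O] {A : Type} [CommRing A] [IsLocalRing A] [Algebra O A]
  [Module.Finite O A] {v : ℕ} {S P : M2 A} {ε : O}

omit [IsAdicComplete (maximalIdeal O) O] [Module.Finite O A] in
theorem isUnit_of_nonscalar (h : IsResAlg O A)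
    (hns : ∀ c : ResidueField O, P.map (augment h) ≠ c • 1) :
    IsUnit (P 1 0) ∨ IsUnit (P 0 1) ∨ IsUnit (P 1 1 - P 0 0) := by
  by_contra hc
  simp only [not_or] at hc
  have h0 : ∀ {a : A}, ¬ IsUnit a → augment h a = 0 := fun ha =>
    (augment_eq_zero_iff h _).mpr ha
  refine hns (augment h (P 0 0)) (Matrix.ext fun i j => ?_)
  have hd := h0 hc.2.2
  rw [map_sub, sub_eq_zero] at hd
  fin_cases i <;> fin_cases j <;> simp [h0 hc.1, h0 hc.2.1, hd]

/-- The monodromy in an eigenbasis of Frobenius, `v` not one modulo the maximal ideal. -/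
theorem line_of_ne_one (h : IsResAlg O A) (hv : IsUnit (v : O)) (h2 : IsUnit (2 : O))
    (hε : ε ^ 2 = 1) (hv1 : residue O (v : O) ≠ 1) (hdet : S.det = 1) (htr : S.trace = 2)
    (hconj : P * S = S ^ v * P) (hdetP : P.det = v)
    (hns : ∀ c : ResidueField O, P.map (augment h) ≠ c • 1)
    (hx : augment h P.trace = residue O (ε * ((v : O) + 1))) :
    ∃ b e : A, b ∈ monoSpan S ∧ e ∈ monoSpan S ∧
      (P.trace - algebraMap O A (ε * ((v : O) + 1))) * b = 0 ∧
      (P.trace - algebraMap O A (ε * ((v : O) + 1)) +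
        algebraMap O A (2 * ε * ((v : O) + 1))) * e = 0 ∧
      b * e = 0 ∧ ∀ i j, (S - 1) i j ∈ Ideal.span {b, e} := by
  have := h.isLocalHom
  have := IsNoetherianRing.of_finite O A
  have : IsAdicComplete (maximalIdeal A) A := isAdicComplete_of_module_finite (𝒪 := O)
  have hH : HenselianRing A (maximalIdeal A) := IsAdicComplete.henselianRing A _
  set T := P.trace
  set E := algebraMap O A ε
  have hE : E * E = 1 := by rw [← map_mul, ← sq, hε, map_one]
  have hres : ∀ o : O, augment h (algebraMap O A o) = residue O o := fun o =>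
    (AlgHom.commutes _ o).trans rfl
  set e₀ := residue O ε
  set u₀ := residue O (v : O)
  have he₀ : e₀ * e₀ = 1 := by rw [← map_mul, ← sq, hε, map_one]
  have he₀' : e₀ ≠ 0 := left_ne_zero_of_mul_eq_one he₀
  have h20 : (2 : ResidueField O) ≠ 0 := by
    rw [← map_ofNat (residue O) 2]; exact (h2.map _).ne_zero
  have hu₀ : augment h (v : A) = u₀ := by rw [← map_natCast (algebraMap O A), hres]
  rw [map_mul, map_add, map_one] at hx
  have hroot0 : E * E - T * E + (v : A) ∈ maximalIdeal A := by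
    rw [← augment_eq_zero_iff h, map_add, map_sub, map_mul, map_mul, hx, hu₀, hres]
    linear_combination -u₀ * he₀
  obtain ⟨β, hroot, hβ⟩ := hH.is_henselian
    (Polynomial.X ^ 2 - Polynomial.C T * Polynomial.X + Polynomial.C (v : A))
    (by monicity!) E (by simpa [sq] using hroot0) (by
      have hd : IsUnit (2 * E - T) := isUnit_of_augment_ne_zero h (by
        rw [map_sub, map_mul, map_ofNat, hres, hx,
          show 2 * e₀ - e₀ * (u₀ + 1) = e₀ * (1 - u₀) by ring]
        exact mul_ne_zero he₀' (sub_ne_zero.mpr (Ne.symm hv1)))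
      have := hd.map (Ideal.Quotient.mk (maximalIdeal A))
      simpa [map_ofNat, one_add_one_eq_two] using this)
  simp only [Polynomial.IsRoot.def, Polynomial.eval_add, Polynomial.eval_sub, Polynomial.eval_mul,
    Polynomial.eval_pow, Polynomial.eval_X, Polynomial.eval_C] at hroot
  have hβ₀ : augment h β = e₀ := by
    have := (augment_eq_zero_iff h _).mpr hβ
    rwa [map_sub, hres, sub_eq_zero] at this
  set α := T - β with hαdef
  have hαβ : α * β = v := by rw [hαdef]; linear_combination -hroot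
  obtain ⟨G₀, hG₀, hP₀⟩ := exists_companion (isUnit_of_nonscalar h hns)
  rw [hdetP] at hP₀
  let Q : M2 A := !![-β, -α; 1, 1]
  have hQ : !![0, -(v : A); 1, T] * Q = Q * !![α, 0; 0, β] := by
    ext i j
    fin_cases i <;> fin_cases j <;> simp [Q, Matrix.mul_apply, Fin.sum_univ_two] <;>
      first
      | (rw [hαdef]; ring1)
      | linear_combination -hroot
      | linear_combination hroot
  have hQdet : IsUnit Q.det := isUnit_of_augment_ne_zero h (by
    rw [Matrix.det_fin_two]
    simp only [Q, Matrix.of_apply, Matrix.cons_val', Matrix.cons_val_zero, Matrix.cons_val_one,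
      mul_one, hαdef, map_sub, map_neg, hx, hβ₀]
    rw [show -e₀ - (-(e₀ * (u₀ + 1) - e₀)) = e₀ * (u₀ - 1) by ring]
    exact mul_ne_zero he₀' (sub_ne_zero.mpr hv1))
  obtain ⟨N, hN11, hNN, hDN, hmem, hspan⟩ := exists_frame (G := G₀ * Q) (D := !![α, 0; 0, β])
    hdet htr hconj (by rw [Matrix.det_mul]; exact hG₀.mul hQdet)
    (by rw [← Matrix.mul_assoc, hP₀, Matrix.mul_assoc, hQ, Matrix.mul_assoc])
  have e00 := congrFun (congrFun hDN 0) 0
  have e01 := congrFun (congrFun hDN 0) 1
  have e10 := congrFun (congrFun hDN 1) 0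
  have n00 := congrFun (congrFun hNN 0) 0
  simp [Matrix.mul_apply, Fin.sum_univ_two] at e00 e01 e10 n00
  have hva : IsUnit ((v : A)) := by rw [← map_natCast (algebraMap O A)]; exact hv.map _
  have hβu : IsUnit β := isUnit_of_augment_ne_zero h (by rw [hβ₀]; exact he₀')
  have hαu : IsUnit α := by rw [← hαβ] at hva; exact isUnit_of_mul_isUnit_left hva
  have h1v : IsUnit (1 - (v : A)) := isUnit_of_augment_ne_zero h (by
    rw [map_sub, map_one, hu₀]; exact sub_ne_zero.mpr (Ne.symm hv1))
  have hβm : IsUnit (β - E * v) := isUnit_of_augment_ne_zero h (by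
    rw [map_sub, map_mul, hres, hu₀, hβ₀, show e₀ - e₀ * u₀ = e₀ * (1 - u₀) by ring]
    exact mul_ne_zero he₀' (sub_ne_zero.mpr (Ne.symm hv1)))
  have hβp : IsUnit (β + E) := isUnit_of_augment_ne_zero h (by
    rw [map_add, hres, hβ₀, ← two_mul]; exact mul_ne_zero h20 he₀')
  have ha0 : N 0 0 = 0 := (hαu.mul h1v).mul_right_eq_zero.mp (by linear_combination e00)
  have hb : (β - E) * N 0 1 = 0 := (hva.mul hβp).mul_right_eq_zero.mp (by
    linear_combination -β * e01 + N 0 1 * hαβ - (v : A) * N 0 1 * hE)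
  have he : (β + E * v) * N 1 0 = 0 := hβm.mul_right_eq_zero.mp (by
    linear_combination β * e10 + (v : A) * N 1 0 * hαβ - (v : A) ^ 2 * N 1 0 * hE)
  refine ⟨N 0 1, N 1 0, hmem _ _, hmem _ _, hβu.mul_right_eq_zero.mp ?_,
    hβu.mul_right_eq_zero.mp ?_, ?_, hspan _ fun i j => ?_⟩
  · simp only [map_mul, map_add, map_one, map_natCast]
    linear_combination (β - E * v) * hb + N 0 1 * hαβ - (v : A) * N 0 1 * hE
      + β * N 0 1 * (rfl : α = α)
  · simp only [map_mul, map_add, map_one, map_natCast, map_ofNat]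
    linear_combination (β + E) * he + N 1 0 * hαβ - (v : A) * N 1 0 * hE
  · linear_combination n00 - N 0 0 * ha0
  · fin_cases i <;> fin_cases j
    · simp [ha0]
    · exact Ideal.subset_span (by simp)
    · exact Ideal.subset_span (by simp)
    · simp [hN11, ha0]

omit [IsAdicComplete (maximalIdeal O) O] [Module.Finite O A] in
/-- The monodromy in a triangular basis, `v` one modulo the maximal ideal. -/
theorem line_of_eq_one [Module.IsTorsionFree O A] (h : IsResAlg O A) (hv : IsUnit (v : O))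
    (h2 : IsUnit (2 : O)) (hvne : (v : O) ≠ 1)
    (hε : ε ^ 2 = 1) (hv1 : residue O (v : O) = 1) (hdet : S.det = 1) (htr : S.trace = 2)
    (hconj : P * S = S ^ v * P) (hdetP : P.det = v)
    (hns : ∀ c : ResidueField O, P.map (augment h) ≠ c • 1)
    (hx : augment h P.trace = residue O (ε * ((v : O) + 1))) :
    ∃ b : A, b ∈ monoSpan S ∧ (P.trace - algebraMap O A (ε * ((v : O) + 1))) * b = 0 ∧
      ∀ i j, (S - 1) i j ∈ Ideal.span {b} := by
  set T := P.trace
  set E := algebraMap O A ε
  have hE : E * E = 1 := by rw [← map_mul, ← sq, hε, map_one]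
  have hres : ∀ o : O, augment h (algebraMap O A o) = residue O o := fun o =>
    (AlgHom.commutes _ o).trans rfl
  set e₀ := residue O ε
  have he₀ : e₀ * e₀ = 1 := by rw [← map_mul, ← sq, hε, map_one]
  have he₀' : e₀ ≠ 0 := left_ne_zero_of_mul_eq_one he₀
  have h20 : (2 : ResidueField O) ≠ 0 := by
    rw [← map_ofNat (residue O) 2]; exact (h2.map _).ne_zero
  have hu₀ : augment h (v : A) = 1 := by rw [← map_natCast (algebraMap O A), hres, hv1]
  rw [map_mul, map_add, map_one, hv1] at hx
  set x := T - algebraMap O A (ε * ((v : O) + 1)) with hxdef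
  have hx' : x = T - E * ((v : A) + 1) := by simp [hxdef, E]
  obtain ⟨G₀, hG₀, hP₀⟩ := exists_companion (isUnit_of_nonscalar h hns)
  rw [hdetP] at hP₀
  let Q : M2 A := !![-(E + x), 1; 1, 0]
  have hQ : !![0, -(v : A); 1, T] * Q = Q * !![E * v, 1; E * v * x, E + x] := by
    ext i j
    fin_cases i <;> fin_cases j <;> simp [Q, hx', Matrix.mul_apply, Fin.sum_univ_two] <;>
      first | ring1 | linear_combination (v : A) * hE
  have hQdet : IsUnit Q.det := by simp [Q, Matrix.det_fin_two]
  obtain ⟨N, hN11, hNN, hDN, hmem, hspan⟩ := exists_frame (G := G₀ * Q)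
    (D := !![E * v, 1; E * v * x, E + x]) hdet htr hconj
    (by rw [Matrix.det_mul]; exact hG₀.mul hQdet)
    (by rw [← Matrix.mul_assoc, hP₀, Matrix.mul_assoc, hQ, Matrix.mul_assoc])
  have e00 := congrFun (congrFun hDN 0) 0
  have e01 := congrFun (congrFun hDN 0) 1
  have e11 := congrFun (congrFun hDN 1) 1
  simp [Matrix.mul_apply, Fin.sum_univ_two, hN11] at e00 e01 e11
  have hva : IsUnit ((v : A)) := by rw [← map_natCast (algebraMap O A)]; exact hv.map _
  have h1v : IsUnit (1 + (v : A)) := isUnit_of_augment_ne_zero h (by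
    rw [map_add, map_one, hu₀, one_add_one_eq_two]; exact h20)
  have hyu : IsUnit (2 * E * (1 + (v : A)) + x) := isUnit_of_augment_ne_zero h (by
    rw [hx', map_add, map_mul, map_mul, map_ofNat, map_sub, map_mul, map_add, map_add, map_one, hres,
      hu₀, hx, show 2 * e₀ * (1 + 1) + (e₀ * (1 + 1) - e₀ * (1 + 1)) = 2 * 2 * e₀ by ring]
    exact mul_ne_zero (mul_ne_zero h20 h20) he₀')
  have ha : (1 + (v : A)) * N 0 0 = -((v : A) * x * N 0 1) := by linear_combination -e01
  have hz : ((v : O) - 1) • (x * N 0 1) = 0 := by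
    rw [Algebra.smul_def, map_sub, map_natCast, map_one]
    refine (hva.mul hyu).mul_right_eq_zero.mp ?_
    linear_combination (-(1 + (v : A))) * e11 + (-(v : A) * (1 + (v : A))) * e00 +
      (1 - (v : A)) * (E * (v : A) * (v : A) - E - x) * ha
  have hxb : x * N 0 1 = 0 :=
    (smul_eq_zero.mp hz).resolve_left (sub_ne_zero.mpr hvne)
  have ha0 : N 0 0 = 0 := h1v.mul_right_eq_zero.mp (by linear_combination ha - (v : A) * hxb)
  have he0 : N 1 0 = 0 := by
    linear_combination e00 + E * (v : A) * (v : A) * hxb + ((v : A) * (E * v) - E * v) * ha0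
  refine ⟨N 0 1, hmem _ _, hxb, hspan _ fun i j => ?_⟩
  fin_cases i <;> fin_cases j
  · simp [ha0]
  · exact Ideal.subset_span rfl
  · simp [he0]
  · simp [hN11, ha0]

/-- **The coordinates at a line place.** -/
theorem exists_line_coords [Module.IsTorsionFree O A] (h : IsResAlg O A) (hv : IsUnit (v : O))
    (h2 : IsUnit (2 : O)) (hvne : (v : O) ≠ 1) (hε : ε ^ 2 = 1) (hdet : S.det = 1)
    (htr : S.trace = 2) (hS : ∀ i j, augment h (S i j) = if i = j then 1 else 0)
    (hconj : P * S = S ^ v * P) (hdetP : P.det = v)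
    (hns : ∀ c : ResidueField O, P.map (augment h) ≠ c • 1)
    (hx : augment h P.trace = residue O (ε * ((v : O) + 1))) :
    ∃ c : Fin 4 → A, (∀ i, c i ∈ maximalIdeal A) ∧
      c 0 = P.trace - algebraMap O A (ε * ((v : O) + 1)) ∧ c 1 = 0 ∧ c 0 * c 2 = 0 ∧
      (c 0 + algebraMap O A (2 * ε * ((v : O) + 1))) * c 3 = 0 ∧ c 2 * c 3 = 0 ∧
      (∀ i, i ≠ 0 → c i ∈ monoSpan S) ∧
      ∀ i j, (S - 1) i j ∈ Ideal.span {c 1, c 2, c 3} := by
  have hm := sub_one_mem_maximalIdeal h hS
  have hx0 : P.trace - algebraMap O A (ε * ((v : O) + 1)) ∈ maximalIdeal A := by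
    rw [← augment_eq_zero_iff h, map_sub, hx, AlgHom.commutes]
    exact sub_self _
  obtain ⟨b, e, hb, he, h1, h2', h3, h4⟩ : ∃ b e : A, b ∈ monoSpan S ∧ e ∈ monoSpan S ∧
      (P.trace - algebraMap O A (ε * ((v : O) + 1))) * b = 0 ∧
      (P.trace - algebraMap O A (ε * ((v : O) + 1)) +
        algebraMap O A (2 * ε * ((v : O) + 1))) * e = 0 ∧
      b * e = 0 ∧ ∀ i j, (S - 1) i j ∈ Ideal.span {b, e} := by
    by_cases hv1 : residue O (v : O) = 1
    · obtain ⟨b, hb, h1, h4⟩ := line_of_eq_one h hv h2 hvne hε hv1 hdet htr hconj hdetP hns hx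
      exact ⟨b, 0, hb, zero_mem _, h1, mul_zero _, mul_zero _, fun i j =>
        Ideal.span_mono (by simp) (h4 i j)⟩
    · exact line_of_ne_one h hv h2 hε hv1 hdet htr hconj hdetP hns hx
  refine ⟨![P.trace - algebraMap O A (ε * ((v : O) + 1)), 0, b, e], ?_, rfl, rfl, h1, h2', h3, ?_,
    fun i j => Ideal.span_mono (by simp) (h4 i j)⟩
  · intro i
    fin_cases i
    exacts [hx0, zero_mem _, hm hb, hm he]
  · intro i hi
    fin_cases i
    exacts [absurd rfl hi, zero_mem _, hb, he]

variable {K : Type*} [NontriviallyNormedField K] [IsUltrametricDist K] [CompleteSpace K]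
  {φ : O →+* ball1 K}

/-- **The values at a line place.** -/
theorem exists_line_values [Module.IsTorsionFree O A] (h : IsResAlg O A) (hv : IsUnit (v : O))
    (hφinj : Function.Injective φ) (hφ : ∀ c ∈ maximalIdeal O, ‖(φ c : K)‖ < 1)
    (h2 : IsUnit (2 : O)) (hvne : (v : O) ≠ 1) (hq : (v : O) + 1 ≠ 0) (hε : ε ^ 2 = 1)
    (hdet : S.det = 1) (htr : S.trace = 2)
    (hS : ∀ i j, augment h (S i j) = if i = j then 1 else 0)
    (hconj : P * S = S ^ v * P) (hdetP : P.det = v)
    (hns : ∀ c : ResidueField O, P.map (augment h) ≠ c • 1)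
    (hx : augment h P.trace = residue O (ε * ((v : O) + 1))) :
    ∃ c : Fin 4 → A, c 0 = P.trace - algebraMap O A (ε * ((v : O) + 1)) ∧
      PlaceValues h (linePlace hφinj hφ h2.ne_zero hq hε) ε v S P c := by
  obtain ⟨c, hm, h0, h1, h02, h03, h23, hN, hspan⟩ :=
    exists_line_coords h hv h2 hvne hε hdet htr hS hconj hdetP hns hx
  have hC : ∀ (f : MvPowerSeries (Fin 4) O →ₐ[O] A) (o : O), f (C o) = algebraMap O A o :=
    fun f o => AlgHom.commutes f o
  refine ⟨c, h0, ⟨hm, fun f hf g hg => ?_, fun f hf => ?_, fun f hf => ?_, fun f hf => ?_,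
    fun f hf a ha => ?_, fun δ hδ => ?_, fun δ hδ => ?_⟩⟩
  · rcases hg with rfl | rfl | rfl | rfl
    · rw [hf, h1]
    · rw [map_mul, hf, hf, h02]
    · rw [map_mul, map_add, hf, hf, hC, h03]
    · rw [map_mul, hf, hf, h23]
  · show f (X 0 + C (ε * ((v : O) + 1))) = _
    rw [map_add, hf, hC, h0, sub_add_cancel]
  · show f (C ((v : O) + 1)) = _
    rw [hC, map_add, map_one, map_natCast]
  · show f (X 0) = _
    rw [hf, h0]
  · rcases ha with rfl | rfl | rfl <;> rw [hf] <;> exact hN _ (by decide)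
  · refine tangentDer_inertia_eq_zero h δ hm hδ fun i j => Ideal.span_mono ?_ (hspan i j)
    simp [Set.insert_subset_iff]
  · have e : P.trace = c 0 + algebraMap O A (ε * ((v : O) + 1)) := by rw [h0, sub_add_cancel]
    rw [e, δ.2.1, hδ, δ.2.2.2, add_zero]

end Line

section ScalarValues

variable {O : Type} [CommRing O] [IsLocalRing O] {A : Type} [CommRing A] [IsLocalRing A]
  [Algebra O A] {v : ℕ} {S P : M2 A} {ε : O}
  {K : Type*} [NontriviallyNormedField K] [IsUltrametricDist K] [CompleteSpace K]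
  [IsAlgClosed K] {φ : O →+* ball1 K}

omit [IsLocalRing O] in
theorem coe_scalarSq (q : O) : (scalarSq q : MvPowerSeries (Fin 2 × Fin 3) O) =
    4 * (C q + X (1, 0) ^ 2 + X (1, 1) * X (1, 2)) := by
  rw [scalarSq, MvPolynomial.coe_mul, show ((4 : MvPolynomial (Fin 2 × Fin 3) O) :
    MvPowerSeries (Fin 2 × Fin 3) O) = 4 from
      map_ofNat MvPolynomial.coeToMvPowerSeries.ringHom 4]
  simp only [MvPolynomial.coe_add, MvPolynomial.coe_mul, MvPolynomial.coe_pow,
    MvPolynomial.coe_C, MvPolynomial.coe_X]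

/-- The coordinates at a scalar place: the entries of `S - 1` and the traceless part of `P`. -/
def scalarCoords (half : A) (S P : M2 A) : Fin 2 × Fin 3 → A := fun x =>
  ![![(S - 1) 0 0, (S - 1) 0 1, (S - 1) 1 0], Assembly.tlCoord half P] x.1 x.2

/-- **The values at a scalar place.** -/
theorem scalar_values (h : IsResAlg O A) (hdet : S.det = 1) (htr : S.trace = 2)
    (hS : ∀ i j, augment h (S i j) = if i = j then 1 else 0)
    (hP : ∀ i j, augment h (P i j) = if i = j then residue O ε else 0)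
    (hconj : P * S = S ^ v * P) (hdetP : P.det = v) {half : A} (hhalf : 2 * half = 1)
    (hφinj : Function.Injective φ) (hφ : ∀ c ∈ maximalIdeal O, ‖(φ c : K)‖ < 1)
    (h2 : IsUnit (2 : O)) (hqm : (v : O) - 1 ∈ maximalIdeal O) (hq1 : (v : O) ≠ 1)
    (hq1' : (v : O) + 1 ≠ 0) (hε : ε ^ 2 = 1) {hm hh : O} (hhm : 2 * hm = ε * ((v : O) + 1))
    (hhh : 2 * hh = ε * ((v : O) - 1)) (T : MvPowerSeries (Fin 2 × Fin 3) O)
    (hT : T ^ 2 = (scalarSq (v : O) : MvPowerSeries _ O))
    (hT0 : IsUnit (constantCoeff T + ε * ((v : O) + 1))) :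
    PlaceValues h (scalarPlace hφinj hφ h2 hqm hq1 hq1' hε hhm hhh T hT hT0) ε v S P
        (scalarCoords half S P) ∧
      ∀ δ : tangentDer h, (∀ i, δ.1 (scalarCoords half S P i) = 0) → ∀ i j, δ.1 (P i j) = 0 := by
  set e₀ := residue O ε with he₀def
  have he₀ : e₀ * e₀ = 1 := by rw [← map_mul, ← sq, hε, map_one]
  have he₀' : e₀ ≠ 0 := left_ne_zero_of_mul_eq_one he₀
  have h20 : (2 : ResidueField O) ≠ 0 := by
    rw [← map_ofNat (residue O) 2]; exact (h2.map _).ne_zero
  have hm' : ∀ i, scalarCoords half S P i ∈ maximalIdeal A := by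
    rintro ⟨i, j⟩
    fin_cases i
    · have hmem : ∀ k l, (S - 1) k l ∈ maximalIdeal A := fun k l =>
        sub_one_mem_maximalIdeal h hS (mem_monoSpan S k l)
      fin_cases j
      exacts [hmem 0 0, hmem 0 1, hmem 1 0]
    · rw [← augment_eq_zero_iff h]
      fin_cases j <;> simp [scalarCoords, Assembly.tlCoord, hP, map_mul, map_sub]
  have h11 : (S - 1) 1 1 = -(S - 1) 0 0 := by
    have := trace_sub_one htr
    rw [Matrix.trace_fin_two] at this
    exact eq_neg_of_add_eq_zero_right this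
  have hN := sub_one_mul_self hdet htr
  have hk := sub_one_conj hN hconj
  have hC : ∀ (f : MvPowerSeries (Fin 2 × Fin 3) O →ₐ[O] A) (o : O), f (C o) = algebraMap O A o :=
    fun f o => AlgHom.commutes f o
  have hfT : ∀ f : MvPowerSeries (Fin 2 × Fin 3) O →ₐ[O] A,
      (∀ i, f (X i) = scalarCoords half S P i) → f T = P.trace := by
    intro f hf
    have hsq : (f T) ^ 2 = P.trace ^ 2 := by
      have hs := congrArg f hT
      rw [map_pow] at hs
      rw [hs, coe_scalarSq]
      simp only [map_mul, map_add, map_pow, hf, map_ofNat, hC]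
      simp only [map_natCast]
      have hsq' := Assembly.tlCoord_sq (X := P) hhalf
      show 4 * ((v : A) + Assembly.tlCoord half P 0 ^ 2 +
        Assembly.tlCoord half P 1 * Assembly.tlCoord half P 2) = _
      linear_combination hsq' - 4 * hdetP
    have ht0 : residue O (constantCoeff T) = e₀ + e₀ := by
      have h0 := congrArg (fun g => residue O (constantCoeff g)) hT
      simp only [coe_scalarSq, map_mul, map_add, map_pow, constantCoeff_C, constantCoeff_X,
        map_zero, map_ofNat] at h0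
      have hv0 : residue O (v : O) = 1 := by
        have := (residue_eq_zero_iff _).mpr hqm
        rwa [map_sub, map_one, sub_eq_zero] at this
      have hu : residue O (constantCoeff T) + (e₀ + e₀) ≠ 0 := by
        have := (hT0.map (residue O)).ne_zero
        rw [map_add, map_mul, map_add, map_one, hv0] at this
        intro h'
        exact this (by rw [← he₀def]; linear_combination h')
      refine sub_eq_zero.mp ((mul_eq_zero.mp (show (_ - (e₀ + e₀)) * _ = 0 from ?_)).resolve_right hu)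
      rw [hv0] at h0
      linear_combination h0 - 4 * he₀
    have hfT0 : augment h (f T) = e₀ + e₀ := by
      have hmem : f (T - C (constantCoeff T)) ∈ maximalIdeal A := by
        have := Ideal.mem_map_of_mem (f : MvPowerSeries (Fin 2 × Fin 3) O →+* A)
          (Patching.sub_C_mem_span_range_X T)
        rw [Ideal.map_span] at this
        refine Ideal.span_le.mpr ?_ this
        rintro _ ⟨_, ⟨i, rfl⟩, rfl⟩
        show f (X i) ∈ _
        rw [hf i]
        exact hm' i
      rw [← augment_eq_zero_iff h, map_sub, hC, map_sub, AlgHom.commutes, sub_eq_zero] at hmem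
      rw [hmem]
      exact ht0
    have hu : IsUnit (f T + P.trace) := isUnit_of_augment_ne_zero h (by
      rw [map_add, hfT0, Matrix.trace_fin_two, map_add, hP, hP]
      simp only [if_true]
      rw [show e₀ + e₀ + (e₀ + e₀) = 2 * 2 * e₀ by ring]
      exact mul_ne_zero (mul_ne_zero h20 h20) he₀')
    exact sub_eq_zero.mp (hu.mul_right_eq_zero.mp (by linear_combination hsq))
  refine ⟨⟨hm', fun f hf g hg => ?_, hfT, fun f _ => ?_, fun f hf => ?_, fun f hf a ha => ?_,
    fun δ hδ => ?_, fun δ hδ => ?_⟩, fun δ hδ => ?_⟩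
  · rcases hg with rfl | ⟨⟨i, j⟩, rfl⟩
    · have n00 := congrFun (congrFun hN 0) 0
      simp only [map_add, map_mul, map_pow, hf, scalarCoords]
      simp [Matrix.mul_apply, Fin.sum_univ_two] at n00 ⊢
      linear_combination n00
    · obtain ⟨c00, c01, c10, c11⟩ := map_scalarComm (f : MvPowerSeries (Fin 2 × Fin 3) O →+* A)
        (q := (v : O)) (T := T)
      have k00 := congrFun (congrFun hk 0) 0
      have k01 := congrFun (congrFun hk 0) 1
      have k10 := congrFun (congrFun hk 1) 0
      have k11 := congrFun (congrFun hk 1) 1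
      simp only [RingHom.coe_coe, hf, hfT f hf, scalarCoords, map_natCast] at c00 c01 c10 c11
      simp only [Assembly.tlCoord, Matrix.cons_val_zero, Matrix.cons_val_one, Matrix.cons_val]
        at c00 c01 c10 c11
      simp only [Matrix.mul_apply, Matrix.smul_apply, Fin.sum_univ_two, smul_eq_mul, h11,
        Matrix.trace_fin_two] at k00 k01 k10 k11 c00 c01 c10 c11
      fin_cases i <;> fin_cases j
      · show f (scalarComm (v : O) T 0 0) = 0
        rw [c00]
        linear_combination (2 : A) * k00 + (1 - (v : A)) * (P 0 0 - P 1 1) * (S - 1) 0 0 * hhalf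
      · show f (scalarComm (v : O) T 0 1) = 0
        rw [c01]
        linear_combination (2 : A) * k01 + (1 + (v : A)) * (P 0 0 - P 1 1) * (S - 1) 0 1 * hhalf
      · show f (scalarComm (v : O) T 1 0) = 0
        rw [c10]
        linear_combination (2 : A) * k10 + -((1 + (v : A)) * (P 0 0 - P 1 1) * (S - 1) 1 0) * hhalf
      · show f (scalarComm (v : O) T 1 1) = 0
        rw [c11]
        linear_combination (2 : A) * k11 + (1 - (v : A)) * (P 0 0 - P 1 1) * (S - 1) 0 0 * hhalf
  · show f (C ((v : O) + 1)) = _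
    rw [hC, map_add, map_one, map_natCast]
  · show f (T - C (ε * ((v : O) + 1))) = _
    rw [map_sub, hfT f hf, hC]
  · obtain ⟨j, rfl⟩ := ha
    rw [hf]
    fin_cases j
    exacts [mem_monoSpan S 0 0, mem_monoSpan S 0 1, mem_monoSpan S 1 0]
  · refine tangentDer_inertia_eq_zero h δ hm' hδ fun i j => ?_
    have hc : ∀ k, scalarCoords half S P (0, k) ∈ Ideal.span (Set.range (scalarCoords half S P)) :=
      fun k => Ideal.subset_span ⟨_, rfl⟩
    fin_cases i <;> fin_cases j
    · exact hc 0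
    · exact hc 1
    · exact hc 2
    · rw [show (⟨1, _⟩ : Fin 2) = 1 from rfl, h11]
      exact neg_mem (hc 0)
  all_goals
    have hnat : δ.1 (v : A) = 0 := by rw [← map_natCast (algebraMap O A)]; exact δ.2.2.2 _
    have hz := Assembly.eq_zero_of_tlCoord (h := h) h20 hhalf δ he₀' hP (fun k => hδ (1, k))
      (by rw [hdetP]; exact hnat)
  · rw [Matrix.trace_fin_two, δ.2.1, hz, hz, add_zero]
  · exact hz

end ScalarValues

end Fermat.Agent.RT.Lift
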