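import Fermat.Agent.RT.Lift.Levels.Setting
import Fermat.Agent.RT.Lift.Levels.PlaceCoords
import Fermat.Agent.RT.Lift.Levels.CurveLocal
import Fermat.Agent.Mazur.Eisenstein.Tame

/-!
# The places of the patching argument

At a prime `v` of the conductor level where the residual representation is unramified: a tame
generator, a Frobenius element, the coordinates of the place, and their values at every lift with
unipotent inertia.
-/

set_option autoImplicit false
set_option linter.style.haveILetI false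

noncomputable section

namespace Fermat.Agent.RT.Lift

open IsLocalRing Module MvPowerSeries WeierstrassCurve Matrix
open Fermat.Agent.Deform Fermat.Agent.CFT.Tangent Fermat.Agent.Arith Fermat.Agent.RT.Germ

local notation "Q̄" => AlgebraicClosure ℚ

/-- At `v ≠ p` there is an inertia element moving a `p`-th root of `v`. -/
theorem exists_kummer {p v : ℕ} (hp : p.Prime) [hv : Fact v.Prime] (hvp : v ≠ p) :
    ∃ σ ∈ (padicPlace v).inertiaSubgroupIn ℚ, ∃ π : QBar, π ≠ 0 ∧ (∃ m : ℤ,
      Mazur.Eisenstein.ordAt (padicPlace v) v π = m / p) ∧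
      EC.Reduction.res (padicPlace v) (σ π / π) ≠ 1 ∧
      EC.Reduction.res (padicPlace v) (σ π / π) ^ p = 1 := by
  have hA : (padicPlace v).LiesOverPrime v := CFT.Local.padicPlace_liesOverPrime v
  obtain ⟨π, hπ⟩ := IsAlgClosed.exists_pow_nat_eq (v : QBar) hp.pos
  obtain ⟨σ, hσ, hne⟩ := Mazur.Eisenstein.exists_inertia_ne hA hv.out hp hπ
  have hπ0 : π ≠ 0 := fun h => by
    rw [h, zero_pow hp.ne_zero] at hπ
    exact hv.out.ne_zero (by exact_mod_cast hπ.symm)
  have hmem := (EC.Rep.apply_div_self_mem hσ hπ0).1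
  have hζ : (σ π / π) ^ p = 1 := by
    rw [div_pow, ← map_pow, hπ, map_natCast, div_self (by exact_mod_cast hv.out.ne_zero)]
  refine ⟨σ, hσ, π, hπ0, ⟨1, ?_⟩, fun h1 => hne ?_, by
    rw [← EC.Reduction.res_pow hmem, hζ, EC.Reduction.res_one]⟩
  · have h := Mazur.Eisenstein.ordAt_pow hA hv.out hπ0 p
    rw [hπ, Mazur.Eisenstein.ordAt_prime hA hv.out] at h
    have hp0 : (p : ℚ) ≠ 0 := Nat.cast_ne_zero.2 hp.ne_zero
    rw [Int.cast_one, eq_div_iff hp0]
    linear_combination -h
  · have he : σ π / π = 1 := root_congr hA hv.out (m := p) hζ (one_pow p)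
      (fun h => hvp ((Nat.prime_dvd_prime_iff_eq hv.out hp).1 h))
      ((EC.Reduction.res_eq_zero_iff (sub_mem hmem (padicPlace v).one_mem)).1 (by
        rw [EC.Reduction.res_sub hmem (padicPlace v).one_mem, h1, EC.Reduction.res_one, sub_self]))
    exact (div_eq_one_iff_eq hπ0).1 he

section Lift

variable {O : Type} [CommRing O] [IsLocalRing O] {A : Type} [CommRing A] [IsLocalRing A]
  [Algebra O A] {Wr : Rigid O} {h : IsResAlg O A} {r : Gal →* M2 A}

theorem augment_self (x : O) (h : IsResAlg O O) : augment h x = residue O x :=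
  AlgHom.commutes (augment h) x

theorem augment_trace (hl : Lifts Wr h r) (σ : Gal) : augment h (r σ).trace = (Wr.rb σ).trace := by
  rw [Matrix.trace_fin_two, Matrix.trace_fin_two, map_add, hl, hl]

theorem augment_det (hl : Lifts Wr h r) (σ : Gal) : augment h (r σ).det = (Wr.rb σ).det := by
  simp only [Matrix.det_fin_two, map_sub, map_mul, hl σ 0 0, hl σ 1 1, hl σ 0 1, hl σ 1 0]

theorem det_eq_natCast_of_cyclotomic [IsAdicComplete (maximalIdeal A) A] {p : ℕ} [Fact p.Prime]
    (hc : IsCont r) (hdet : (toRep r hc).DetIsCyclotomic p) {σ : Gal} {a : ℕ}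
    (ha : ∀ (n : ℕ) (μ : Q̄), μ ^ p ^ n = 1 → σ μ = μ ^ a) : (r σ).det = (a : A) := by
  rw [← Assembly.det_eq_natCast hdet ha]
  exact (LinearMap.det_toLin' (r σ)).symm

end Lift

variable {O : Type} [CommRing O] [IsDomain O] [IsDiscreteValuationRing O]
  [IsAdicComplete (maximalIdeal O) O]
  {K : Type*} [NontriviallyNormedField K] [IsUltrametricDist K] [CompleteSpace K]
  {p : ℕ} [Fact p.Prime]

/-- A place with its coordinates, for the rigid residual matrices `Wr` and the marked lift `rW`. -/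
structure PlaceSetup (φ : O →+* ball1 K) (Wr : Rigid O) (rW : Gal →* M2 O) (p : ℕ) [Fact p.Prime]
    (v : ℕ) [Fact v.Prime] where
  σ : Gal
  F : Gal
  mem : σ ∈ (padicPlace v).inertiaSubgroupIn ℚ
  frob : (padicPlace v).IsFrobeniusAt F v
  kummer : ∃ π : QBar, π ≠ 0 ∧ (∃ m : ℤ, Mazur.Eisenstein.ordAt (padicPlace v) v π = m / p) ∧
    EC.Reduction.res (padicPlace v) (σ π / π) ≠ 1 ∧
    EC.Reduction.res (padicPlace v) (σ π / π) ^ p = 1
  inert : ∀ g ∈ (padicPlace v).inertiaSubgroupIn ℚ, Wr.rb g = 1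
  ε : O
  trace_marked : (rW F).trace = ε * ((v : O) + 1)
  κ : Type
  [finite : Finite κ]
  D : PlaceData φ κ
  dim_scalar : (∃ e : ResidueField O, Wr.rb F = e • 1) → D.ur.dim = 3
  dim_line : (¬ ∃ e : ResidueField O, Wr.rb F = e • 1) → D.ur.dim = 1
  values : ∀ {A : Type} [CommRing A] [IsLocalRing A] [Algebra O A] [Module.Finite O A]
    [Module.IsTorsionFree O A] (h : IsResAlg O A) (r : Gal →* M2 A) (_ : Lifts Wr h r)
    (hc : IsCont r) (_ : (toRep r hc).DetIsCyclotomic p) (_ : (r σ).trace = 2),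
      ∃ c : κ → A, PlaceValues h D ε v (r σ) (r F) c ∧
        ((∃ e : ResidueField O, Wr.rb F = e • 1) →
          ∀ δ : tangentDer h, (∀ i, δ.1 (c i) = 0) → ∀ i j, δ.1 (r F i j) = 0)

attribute [instance] PlaceSetup.finite

section Exists

variable [CharZero O] [IsAlgClosed K] {φ : O →+* ball1 K} {Wr : Rigid O}

omit [CharZero O] in
/-- The hypotheses on a lift give those of the value theorems. -/
theorem lift_local {A : Type} [CommRing A] [IsLocalRing A] [Algebra O A] [Module.Finite O A]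
    {h : IsResAlg O A} {r : Gal →* M2 A} (hl : Lifts Wr h r) (hc : IsCont r)
    (hdet : (toRep r hc).DetIsCyclotomic p) (hpO : (p : O) ∈ maximalIdeal O) {v : ℕ}
    [hv : Fact v.Prime] (hvp : v ≠ p)
    (hinert : ∀ g ∈ (padicPlace v).inertiaSubgroupIn ℚ, Wr.rb g = 1) {σ F : Gal}
    (hσ : σ ∈ (padicPlace v).inertiaSubgroupIn ℚ) (hF : (padicPlace v).IsFrobeniusAt F v) :
    (r σ).det = 1 ∧ (r F).det = v ∧ r F * r σ = r σ ^ v * r F ∧
      ∀ i j, augment h (r σ i j) = if i = j then 1 else 0 := by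
  have hp : p.Prime := Fact.out
  have hP : (padicPlace v).LiesOverPrime v := CFT.Local.padicPlace_liesOverPrime v
  have := h.isLocalHom
  have := IsNoetherianRing.of_finite O A
  have : IsAdicComplete (maximalIdeal A) A := isAdicComplete_of_module_finite (𝒪 := O)
  have hndvd : ∀ n : ℕ, ¬ v ∣ p ^ n := fun n hd =>
    hvp ((Nat.prime_dvd_prime_iff_eq hv.out hp).1 (hv.out.dvd_of_dvd_pow hd))
  have hone : ∀ g ∈ (padicPlace v).inertiaSubgroupIn ℚ, ∀ i j,
      augment h (r g i j) = if i = j then 1 else 0 := fun g hg i j => by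
    rw [hl, hinert g hg, Matrix.one_apply]
  refine ⟨?_, det_eq_natCast_of_cyclotomic hc hdet fun n μ hμ =>
      GaloisReps.frobenius_apply_root hP hv.out hF hμ (hndvd n), ?_, hone σ hσ⟩
  · rw [det_eq_natCast_of_cyclotomic hc hdet (a := 1) fun n μ hμ => by
      rw [pow_one]; exact Arith.inertia_root hP hv.out hσ hμ (hndvd n), Nat.cast_one]
  · refine conj_eq_pow_of_residual_pow hp ?_ hc hP hv.out hvp (fun g hg => ?_) hσ hF
    · rw [← map_natCast (algebraMap O A)]
      exact map_nonunit (algebraMap O A) _ hpO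
    · have e : (r g).map (residue A) = 1 := by
        ext i j
        rw [Matrix.map_apply, Matrix.one_apply]
        have h0 : r g i j - (1 : M2 A) i j ∈ maximalIdeal A := by
          rw [← augment_eq_zero_iff h, map_sub, hone g hg, Matrix.one_apply]
          split_ifs <;> simp
        rw [← residue_eq_zero_iff, map_sub, sub_eq_zero] at h0
        rw [h0, Matrix.one_apply]
        split_ifs <;> simp
      rw [← RingHom.mapMatrix_apply, map_pow, RingHom.mapMatrix_apply, e, one_pow]

/-- **The data at a place.** -/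
theorem exists_placeSetup (hp2 : p ≠ 2) (hpO : (p : O) ∈ maximalIdeal O)
    (hφinj : Function.Injective φ) (hφ : ∀ c ∈ maximalIdeal O, ‖(φ c : K)‖ < 1)
    {rW : Gal →* M2 O} (hlW : Lifts Wr (isResAlg_self O) rW) {v : ℕ} [hv : Fact v.Prime]
    (hvp : v ≠ p) (hinert : ∀ g ∈ (padicPlace v).inertiaSubgroupIn ℚ, Wr.rb g = 1)
    (htrW : ∀ F : Gal, (padicPlace v).IsFrobeniusAt F v →
      (rW F).det = v ∧ ∃ ε : O, (ε = 1 ∨ ε = -1) ∧ (rW F).trace = ε * ((v : O) + 1)) :
    Nonempty (PlaceSetup φ Wr rW p v) := by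
  classical
  have hp : p.Prime := Fact.out
  have hP : (padicPlace v).LiesOverPrime v := CFT.Local.padicPlace_liesOverPrime v
  obtain ⟨σ, hσ, hkum⟩ := exists_kummer hp hvp
  obtain ⟨F, hF⟩ := exists_isFrobeniusAt hP hv.out
  obtain ⟨hdW, ε, hε1, htW⟩ := htrW F hF
  have hε : ε ^ 2 = 1 := by rcases hε1 with rfl | rfl <;> ring
  have hunit : ∀ {a : ℕ}, a.Prime → a ≠ p → IsUnit (a : O) := fun {a} ha hap => by
    by_contra hu
    obtain ⟨x, y, hxy⟩ : IsCoprime (a : ℤ) (p : ℤ) := ((Nat.coprime_primes ha hp).2 hap).isCoprime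
    refine (maximalIdeal O).ne_top_iff_one.1 (maximalIdeal.isMaximal O).ne_top ?_
    have e := congrArg (Int.cast : ℤ → O) hxy
    push_cast at e
    rw [← e]
    exact add_mem (Ideal.mul_mem_left _ _ ((IsLocalRing.mem_maximalIdeal _).2 hu))
      (Ideal.mul_mem_left _ _ hpO)
  have h2 : IsUnit (2 : O) := hunit Nat.prime_two hp2.symm
  have hvu : IsUnit (v : O) := hunit hv.out hvp
  have hvne : (v : O) ≠ 1 := Nat.cast_ne_one.2 hv.out.ne_one
  have hq : (v : O) + 1 ≠ 0 := by exact_mod_cast (Nat.succ_ne_zero v)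
  have htr0 : (Wr.rb F).trace = residue O (ε * ((v : O) + 1)) := by
    rw [← augment_trace hlW F, htW, augment_self]
  have hdet0 : (Wr.rb F).det = residue O (v : O) := by
    rw [← augment_det hlW F, hdW, augment_self]
  by_cases hs : ∃ e : ResidueField O, Wr.rb F = e • 1
  · obtain ⟨e, he⟩ := hs
    have h20 : (2 : ResidueField O) ≠ 0 := by
      rw [← map_ofNat (residue O) 2]; exact (h2.map _).ne_zero
    have he₀ : residue O ε * residue O ε = 1 := by rw [← map_mul, ← sq, hε, map_one]
    rw [he, Matrix.det_fin_two, map_natCast] at hdet0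
    rw [he, Matrix.trace_fin_two, map_mul, map_add, map_one, map_natCast] at htr0
    simp at hdet0 htr0
    have hu1 : (v : ResidueField O) = 1 := by
      have h0 : ((v : ResidueField O) - 1) * ((v : ResidueField O) - 1) = 0 := by
        linear_combination -(e + e + residue O ε * ((v : ResidueField O) + 1)) * htr0 + 4 * hdet0
          - ((v : ResidueField O) + 1) ^ 2 * he₀
      exact sub_eq_zero.1 (mul_self_eq_zero.1 h0)
    have hee : e = residue O ε :=
      mul_left_cancel₀ h20 (by linear_combination htr0 + residue O ε * hu1)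
    have hqm : (v : O) - 1 ∈ maximalIdeal O := by
      rw [← residue_eq_zero_iff, map_sub, map_one, map_natCast, hu1, sub_self]
    obtain ⟨T, hT, hT0⟩ := exists_scalar_trace h2 hqm hε
    obtain ⟨half, hhalf⟩ := h2.exists_right_inv
    have hhm : 2 * (half * (ε * ((v : O) + 1))) = ε * ((v : O) + 1) := by
      rw [← mul_assoc, hhalf, one_mul]
    have hhh : 2 * (half * (ε * ((v : O) - 1))) = ε * ((v : O) - 1) := by
      rw [← mul_assoc, hhalf, one_mul]
    refine ⟨{
      σ := σ, F := F, mem := hσ, frob := hF, kummer := hkum, inert := hinert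
      ε := ε, trace_marked := htW, κ := Fin 2 × Fin 3
      D := scalarPlace hφinj hφ h2 hqm hvne hq hε hhm hhh T hT hT0
      dim_scalar := fun _ => rfl
      dim_line := fun hns => absurd ⟨e, he⟩ hns
      values := fun {A} _ _ _ _ _ h r hl hc hdet htr => ?_ }⟩
    obtain ⟨hdS, hdP, hconj, hS⟩ := lift_local hl hc hdet hpO hvp hinert hσ hF
    have hhalfA : 2 * algebraMap O A half = 1 := by
      rw [← map_ofNat (algebraMap O A) 2, ← map_mul, hhalf, map_one]
    obtain ⟨h1, h2'⟩ := scalar_values h hdS htr hS (fun i j => by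
      rw [hl, he, hee, Matrix.smul_apply, Matrix.one_apply]; split_ifs <;> simp)
      hconj hdP hhalfA hφinj hφ h2 hqm hvne hq hε hhm hhh T hT hT0
    exact ⟨_, h1, fun _ => h2'⟩
  · refine ⟨{
      σ := σ, F := F, mem := hσ, frob := hF, kummer := hkum, inert := hinert
      ε := ε, trace_marked := htW, κ := Fin 4
      D := linePlace hφinj hφ h2.ne_zero hq hε
      dim_scalar := fun h => absurd h hs
      dim_line := fun _ => rfl
      values := fun {A} _ _ _ _ _ h r hl hc hdet htr => ?_ }⟩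
    obtain ⟨hdS, hdP, hconj, hS⟩ := lift_local hl hc hdet hpO hvp hinert hσ hF
    obtain ⟨c, -, h1⟩ := exists_line_values h hvu hφinj hφ h2 hvne hq hε hdS htr hS hconj hdP
      (fun a ha => hs ⟨a, by
        rw [← ha]
        ext i j
        rw [Matrix.map_apply, hl]⟩)
      (by rw [augment_trace hl, htr0])
    exact ⟨c, h1, fun hh => absurd hh hs⟩

end Exists

/-- The data at the places of a setting. -/
theorem RaiseSetting.exists_placeSetup [CharZero O] [IsAlgClosed K] {φ : O →+* ball1 K}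
    {W : WeierstrassCurve ℤ} {M R : ℕ} (X : RaiseSetting O p W M R) (hΔ : W.Δ ≠ 0) (hp2 : p ≠ 2)
    (hpO : (p : O) ∈ maximalIdeal O) (hφinj : Function.Injective φ)
    (hφ : ∀ c ∈ maximalIdeal O, ‖(φ c : K)‖ < 1) {rW : Gal →* M2 O} {hc : IsCont rW}
    (hlW : Lifts X.rigid (isResAlg_self O) rW) (hW : IsCurvePoint W p rW hc) {v : ℕ}
    [Fact v.Prime] (hv : v ∈ raisePlaces W p M) :
    Nonempty (PlaceSetup φ X.rigid rW p v) := by
  obtain ⟨hv1, hvp, hvM⟩ := Finset.mem_filter.1 hv
  have hP : (padicPlace v).LiesOverPrime v := CFT.Local.padicPlace_liesOverPrime v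
  refine Fermat.Agent.RT.Lift.exists_placeSetup hp2 hpO hφinj hφ hlW hvp (fun g hg => ?_) fun F hF =>
    ⟨hW.frobenius_det v Fact.out hvp _ hP F hF, hW.frobenius_bad v Fact.out hvp
      ((W.prime_dvd_conductorLevel_iff hΔ Fact.out).1 (Nat.dvd_of_mem_primeFactors hv1)) _ hP F hF⟩
  rw [X.rigid_rb]
  show LinearMap.toMatrixAlgEquiv X.bb (X.ρbar.ρ g) = 1
  rw [(X.unramified v Fact.out hvp hvM) _ hP g hg, map_one]

end Fermat.Agent.RT.Lift
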