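import Fermat.Agent.RT.Lift.Inputs
import Fermat.Agent.RT.Lift.Levels.CurvePoint
import Fermat.Agent.RT.Glue.Approx
import Fermat.Agent.RT.GammaH.Weight
import Fermat.Agent.CFT.TWPrimes.Residual

/-!
# The residual setting of the raising statement

The facts about the residual representation of `W`, the congruent level `M` and the auxiliary
factor `R` from which the levels of the patching argument are built.
-/

set_option autoImplicit false

noncomputable section

open IsLocalRing Module WeierstrassCurve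
open Fermat.Agent.Deform (Gal Rigid Lifts IsNormal IsCont M2 matRes)

namespace Fermat.Agent.RT.Lift

local notation "Q̄" => AlgebraicClosure ℚ

/-- The places of the patching argument: the primes of the conductor level other than `p` which do
not divide `M`. -/
def raisePlaces (W : WeierstrassCurve ℤ) (p M : ℕ) : Finset ℕ :=
  W.conductorLevel.primeFactors.filter fun v => v ≠ p ∧ ¬ v ∣ M

/-- The primes avoided by the operators: `p` and those of the conductor level and of `R`. -/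
def badSet (W : WeierstrassCurve ℤ) (p R : ℕ) : Finset ℕ :=
  insert p (W.conductorLevel * R).primeFactors

/-- The residual system of `W`. -/
def curveAbar {k : Type} [Ring k] (W : WeierstrassCurve ℤ) (ℓ : ℕ) : k :=
  ((W.apOfModel ℓ : ℤ) : k)

/-- The residual data of the raising statement. -/
structure RaiseSetting (O : Type) [CommRing O] [IsDomain O] [IsDiscreteValuationRing O] (p : ℕ)
    [Fact p.Prime]
    (W : WeierstrassCurve ℤ) (M R : ℕ) : Type 1 where
  ρbar : ResidualGaloisRep (ResidueField O)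
  bb : Basis (Fin 2) (ResidueField O) ρbar.V
  rigid : Rigid O
  rigid_rb : rigid.rb = matRes ρbar bb
  abs : ρbar.IsAbsolutelyIrreducible
  det_cyclotomic : ∀ (σ : Gal) (m : ℕ), (∀ μ : Q̄, μ ^ p = 1 → σ μ = μ ^ m) →
    LinearMap.det (ρbar.ρ σ) = (m : ResidueField O)
  split : ∀ g, ∃ α β : ResidueField O,
    (matRes ρbar bb g).trace = α + β ∧ (matRes ρbar bb g).det = α * β
  twHyp : CFT.TWPrimes.TWHyp (matRes ρbar bb)
  charpolys : Glue.HasCharpolys (badSet W p R) (curveAbar W) ρbar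
  eis : ∀ S : Finset ℕ, ∃ ℓ : ℕ, ℓ.Prime ∧ ℓ ∉ S ∧
    (curveAbar W ℓ : ResidueField O) ≠ 1 + (ℓ : ResidueField O)
  inertia_trace : ∀ q : ℕ, q.Prime → q ≠ p → ∀ A : ValuationSubring Q̄, A.LiesOverPrime q →
    ∀ σ ∈ A.inertiaSubgroupIn ℚ, LinearMap.trace (ResidueField O) ρbar.V (ρbar.ρ σ) = 2
  unramified : ∀ q : ℕ, q.Prime → q ≠ p → ¬ q ∣ M → ρbar.IsUnramifiedAt q
  ramified : ∀ q : ℕ, q.Prime → q ≠ p → q ∣ M → ∀ A : ValuationSubring Q̄, A.LiesOverPrime q →
    ∃ σ ∈ A.inertiaSubgroupIn ℚ, ρbar.ρ σ ≠ 1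
  special : ∀ (S : Finset ℕ) (N : ℕ) [NeZero N] (g : CuspForm (CongruenceSubgroup.Gamma0 N) 2),
    g.IsNewform → IsCongruentForm S (curveAbar W : ℕ → ResidueField O) g →
    ∀ q : ℕ, q.Prime → q ≠ p → q ∣ N → ¬ q ^ 2 ∣ N →
      ∀ A : ValuationSubring Q̄, A.LiesOverPrime q → ∀ φ : Gal, A.IsFrobeniusAt φ q →
        LinearMap.trace (ResidueField O) ρbar.V (ρbar.ρ φ) ^ 2 = ((q : ResidueField O) + 1) ^ 2
  level_dvd : M ∣ W.conductorLevel
  level_congruent : IsCongruentLevel (badSet W p R) (curveAbar W : ℕ → ResidueField O) M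
  minimal_p : p ∣ M → ∀ S : Finset ℕ,
    ¬ IsCongruentLevel S (curveAbar W : ℕ → ResidueField O) (W.conductorLevel / p)
  squarefree : Squarefree (W.conductorLevel * R)
  aux : ∀ q : ℕ, q.Prime → q ∣ R → q ≠ p ∧ ∀ A : ValuationSubring Q̄, A.LiesOverPrime q →
    ∀ φ : Gal, A.IsFrobeniusAt φ q →
      LinearMap.trace (ResidueField O) ρbar.V (ρbar.ρ φ) ^ 2 ≠ ((q : ResidueField O) + 1) ^ 2
  weights : ∀ L : ℕ, L ≠ 0 → R ∣ L → GammaH.HasSTWeights O L
  curve : ∃ (ru : Gal →* M2 O) (hc : IsCont ru),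
    Lifts rigid (isResAlg_self O) ru ∧ IsNormal rigid ru ∧ IsCurvePoint W p ru hc

end Fermat.Agent.RT.Lift
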